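import Fermat.Agent.LT.Ray
import Mathlib.NumberTheory.NumberField.InfinitePlace.TotallyRealComplex
import Mathlib.NumberTheory.NumberField.Norm
import Mathlib.RingTheory.Ideal.Norm.AbsNorm
import Mathlib.LinearAlgebra.FreeModule.IdealQuotient
import Mathlib.GroupTheory.Perm.Cycle.Type

/-!
# The norm residue is a ray character

`K` a totally complex number field, `ℓ` a prime.  The function `v ↦ f (N v mod ℓ)` on the places
not above `ℓ` is a ray character (with conductor a power of `ℓ`).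
-/

set_option autoImplicit false

namespace Fermat.Agent.Cor.Recip

open IsDedekindDomain NumberField WithZero
open Fermat.Agent.CFT.SUnits Fermat.Agent.CFT.Global Fermat.Agent.LT

/-! ### Norms are positive -/

section NormPos

variable {K : Type*} [Field K] [NumberField K] [IsTotallyComplex K]

/-- in a totally complex field norms of nonzero elements are positive -/
theorem norm_pos_of_isTotallyComplex {x : K} (hx : x ≠ 0) : 0 < Algebra.norm ℚ x := by
  classical
  have h1 : ((Algebra.norm ℚ x : ℚ) : ℂ) = ∏ φ : K →+* ℂ, φ x := by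
    have h := Algebra.norm_eq_prod_embeddings ℚ ℂ x
    rw [eq_ratCast] at h
    rw [h]
    exact (Fintype.prod_equiv (RingHom.equivRatAlgHom K ℂ) (fun φ => φ x) (fun φ => φ x)
      fun φ => by simp [RingHom.equivRatAlgHom_apply]).symm
  rw [← Finset.prod_fiberwise Finset.univ (fun φ => InfinitePlace.mk φ) (fun φ => φ x)] at h1
  have h2 (w : InfinitePlace K) :
      ∏ φ with InfinitePlace.mk φ = w, φ x = ((Complex.normSq (w.embedding x) : ℝ) : ℂ) := by
    have h3 : (Finset.univ.filter fun φ : K →+* ℂ => InfinitePlace.mk φ = w) =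
        {w.embedding, ComplexEmbedding.conjugate w.embedding} := by
      ext φ
      rw [Finset.mem_filter, Finset.mem_insert, Finset.mem_singleton]
      constructor
      · rintro ⟨-, h⟩
        have h4 : InfinitePlace.mk w.embedding = InfinitePlace.mk φ := by
          rw [h, InfinitePlace.mk_embedding]
        rcases InfinitePlace.mk_eq_iff.mp h4 with h5 | h5
        · exact Or.inl h5.symm
        · exact Or.inr h5.symm
      · rintro (h | h)
        · exact ⟨Finset.mem_univ _, by rw [h, InfinitePlace.mk_embedding]⟩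
        · exact ⟨Finset.mem_univ _, by
            rw [h, InfinitePlace.mk_conjugate_eq, InfinitePlace.mk_embedding]⟩
    have h6 : w.embedding ≠ ComplexEmbedding.conjugate w.embedding := by
      intro h
      exact IsTotallyComplex.complexEmbedding_not_isReal w.embedding
        (ComplexEmbedding.isReal_iff.mpr h.symm)
    rw [h3, Finset.prod_pair h6, ComplexEmbedding.conjugate_coe_eq, Complex.mul_conj]
  simp only [h2] at h1
  have h7 : ((Algebra.norm ℚ x : ℚ) : ℝ) =
      ∏ w : InfinitePlace K, Complex.normSq (w.embedding x) := by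
    have : (((Algebra.norm ℚ x : ℚ) : ℝ) : ℂ) =
        ((∏ w : InfinitePlace K, Complex.normSq (w.embedding x) : ℝ) : ℂ) := by
      rw [Complex.ofReal_prod]
      simpa using h1
    exact_mod_cast this
  have h8 : (0 : ℝ) < ((Algebra.norm ℚ x : ℚ) : ℝ) := by
    rw [h7]
    exact Finset.prod_pos fun w _ => Complex.normSq_pos.mpr ((map_ne_zero _).mpr hx)
  exact_mod_cast h8

theorem absNorm_span_eq_norm {r : 𝓞 K} (hr : r ≠ 0) :
    ((Ideal.absNorm (Ideal.span {r}) : ℕ) : ℤ) = Algebra.norm ℤ r := by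
  have h1 : (0 : ℚ) < ((Algebra.norm ℤ r : ℤ) : ℚ) := by
    rw [Algebra.coe_norm_int]
    exact norm_pos_of_isTotallyComplex (by exact_mod_cast hr)
  have h2 : 0 < Algebra.norm ℤ r := by exact_mod_cast h1
  rw [Ideal.absNorm_span_singleton, Int.natAbs_of_nonneg h2.le]

end NormPos

/-! ### Norms modulo `ℓ` -/

section NormMod

variable {K : Type*} [Field K] [NumberField K]

theorem norm_intCast_add (ℓ : ℕ) (s t : 𝓞 K) :
    ((Algebra.norm ℤ (s + (ℓ : 𝓞 K) * t) : ℤ) : ZMod ℓ) = ((Algebra.norm ℤ s : ℤ) : ZMod ℓ) := by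
  classical
  let b := Module.Free.chooseBasis ℤ (𝓞 K)
  rw [Algebra.norm_eq_matrix_det b, Algebra.norm_eq_matrix_det b]
  have h1 (M : Matrix (Module.Free.ChooseBasisIndex ℤ (𝓞 K))
      (Module.Free.ChooseBasisIndex ℤ (𝓞 K)) ℤ) :
      ((M.det : ℤ) : ZMod ℓ) = ((Int.castRingHom (ZMod ℓ)).mapMatrix M).det :=
    RingHom.map_det (Int.castRingHom (ZMod ℓ)) M
  rw [h1, h1]
  congr 1
  have h2 : (ℓ : 𝓞 K) * t = (ℓ : ℤ) • t := by simp
  have h3 (N : Matrix (Module.Free.ChooseBasisIndex ℤ (𝓞 K))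
      (Module.Free.ChooseBasisIndex ℤ (𝓞 K)) ℤ) :
      (Int.castRingHom (ZMod ℓ)).mapMatrix ((ℓ : ℤ) • N) = 0 := by
    ext i j
    rw [RingHom.mapMatrix_apply, Matrix.map_apply, Matrix.smul_apply, smul_eq_mul, map_mul]
    simp
  rw [map_add, map_add, h2, map_smul, h3, add_zero]

theorem norm_natCast_int (m : ℕ) :
    Algebra.norm ℤ ((m : ℕ) : 𝓞 K) = (m : ℤ) ^ Module.finrank ℤ (𝓞 K) := by
  rw [Algebra.norm_natCast]

end NormMod

/-! ### The value of the norm residue on an integer prime to `ℓ` -/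

section Value

variable {K : Type*} [Field K] [NumberField K] {A : Type*} [AddCommGroup A]

/-- the absolute norm of a principal ideal through the valuations -/
theorem absNorm_span_eq_prod (x : Kˣ) {r : 𝓞 K} (hx : (x : K) = r)
    (T : Finset (HeightOneSpectrum (𝓞 K))) (hT : ∀ v ∉ T, ord v x = 0) :
    Ideal.absNorm (Ideal.span {r}) = ∏ v ∈ T, Ideal.absNorm v.asIdeal ^ (ord v x).toNat := by
  classical
  have hr : r ≠ 0 := by
    rintro rfl
    exact x.ne_zero (by rw [hx]; rfl)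
  have hI : Ideal.span {r} ≠ 0 := by
    rwa [Ne, Ideal.zero_eq_bot, Ideal.span_singleton_eq_bot]
  have h1 (v : HeightOneSpectrum (𝓞 K)) :
      ord v x = ((Associates.mk v.asIdeal).count (Associates.mk (Ideal.span {r})).factors : ℤ) := by
    rw [ord_eq_count, hx]
    have : FractionalIdeal.spanSingleton (nonZeroDivisors (𝓞 K)) ((r : 𝓞 K) : K) =
        ((Ideal.span {r} : Ideal (𝓞 K)) : FractionalIdeal (nonZeroDivisors (𝓞 K)) K) := by
      rw [FractionalIdeal.coeIdeal_span_singleton]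
    rw [this, FractionalIdeal.count_coe K v hI]
  have h2 := Ideal.finprod_heightOneSpectrum_factorization hI
  rw [finprod_eq_prod_of_mulSupport_subset (s := T)] at h2
  · nth_rw 1 [← h2]
    rw [map_prod]
    refine Finset.prod_congr rfl fun v _ => ?_
    rw [HeightOneSpectrum.maxPowDividing, map_pow, h1 v, Int.toNat_natCast]
  · intro v hv
    by_contra hvT
    apply hv
    have h3 := hT v hvT
    rw [h1 v] at h3
    change v.maxPowDividing (Ideal.span {r}) = 1
    rw [HeightOneSpectrum.maxPowDividing]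
    have h4 : (Associates.mk v.asIdeal).count (Associates.mk (Ideal.span {r})).factors = 0 := by
      exact_mod_cast h3
    rw [h4, pow_zero]

theorem isUnit_absNorm {ℓ : ℕ} [Fact ℓ.Prime] {v : HeightOneSpectrum (𝓞 K)}
    (hv : (ℓ : 𝓞 K) ∉ v.asIdeal) : IsUnit (Ideal.absNorm v.asIdeal : ZMod ℓ) := by
  rw [isUnit_iff_ne_zero, Ne, ZMod.natCast_eq_zero_iff]
  intro h
  apply hv
  have : Finite (𝓞 K ⧸ v.asIdeal) := Ideal.finiteQuotientOfFreeOfNeBot v.asIdeal v.ne_bot
  have h1 : ℓ ∣ Nat.card (𝓞 K ⧸ v.asIdeal) := by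
    rwa [Ideal.absNorm_apply] at h
  obtain ⟨a, ha⟩ := exists_prime_addOrderOf_dvd_card' ℓ h1
  have h2 : (ℓ : 𝓞 K ⧸ v.asIdeal) * a = 0 := by
    rw [← nsmul_eq_mul, ← ha, addOrderOf_nsmul_eq_zero]
  have h3 : a ≠ 0 := by
    rintro rfl
    rw [addOrderOf_zero] at ha
    exact (Fact.out : ℓ.Prime).one_lt.ne ha
  have : v.asIdeal.IsPrime := v.isPrime
  have h4 := (mul_eq_zero.mp h2).resolve_right h3
  rw [← map_natCast (Ideal.Quotient.mk v.asIdeal), Ideal.Quotient.eq_zero_iff_mem] at h4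
  exact h4

open Classical in
/-- the norm of a place modulo `ℓ` as a unit, `1` above `ℓ` -/
noncomputable def nres (ℓ : ℕ) (v : HeightOneSpectrum (𝓞 K)) : (ZMod ℓ)ˣ :=
  if h : IsUnit (Ideal.absNorm v.asIdeal : ZMod ℓ) then h.unit else 1

theorem nres_coe {ℓ : ℕ} [Fact ℓ.Prime] {v : HeightOneSpectrum (𝓞 K)}
    (hv : (ℓ : 𝓞 K) ∉ v.asIdeal) : (nres ℓ v : ZMod ℓ) = Ideal.absNorm v.asIdeal := by
  rw [nres, dif_pos (isUnit_absNorm hv), IsUnit.unit_spec]

/-- the value of the norm residue function on an integer prime to `ℓ` -/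
theorem rayVal_nres {ℓ : ℕ} [Fact ℓ.Prime] (f : (ZMod ℓ)ˣ →* Multiplicative A)
    {S : Finset (HeightOneSpectrum (𝓞 K))}
    (hS : ∀ v : HeightOneSpectrum (𝓞 K), v ∈ S ↔ (ℓ : 𝓞 K) ∈ v.asIdeal)
    (x : Kˣ) {r : 𝓞 K} (hx : (x : K) = r) (hxS : ∀ v ∈ S, ord v x = 0) {u : (ZMod ℓ)ˣ}
    (hu : (u : ZMod ℓ) = (Ideal.absNorm (Ideal.span {r}) : ZMod ℓ)) :
    rayVal S (fun v => (f (nres ℓ v)).toAdd) x = f u := by
  classical
  apply Multiplicative.toAdd.injective
  rw [toAdd_rayVal, Finsupp.sum]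
  have h0 (v : HeightOneSpectrum (𝓞 K)) : 0 ≤ ord v x := by
    refine (ord_nonneg_iff K v x).mpr ?_
    rw [hx]
    exact HeightOneSpectrum.valuation_le_one v r
  have h1 : u = ∏ v ∈ (div (R := 𝓞 K) x).support, nres ℓ v ^ (ord v x).toNat := by
    apply Units.ext
    rw [hu, Units.coe_prod, absNorm_span_eq_prod x hx (div (R := 𝓞 K) x).support, Nat.cast_prod]
    · refine Finset.prod_congr rfl fun v hv => ?_
      have hvS : v ∉ S := fun h => (Finsupp.mem_support_iff.mp hv) (hxS v h)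
      rw [Units.val_pow_eq_pow_val, nres_coe (fun h => hvS ((hS v).mpr h)), Nat.cast_pow]
    · intro v hv
      simpa using hv
  rw [h1, map_prod, toAdd_prod]
  refine Finset.sum_congr rfl fun v hv => ?_
  have hvS : v ∉ S := fun h => (Finsupp.mem_support_iff.mp hv) (hxS v h)
  rw [if_neg hvS, map_pow, toAdd_pow, div_apply]
  nth_rw 1 [← Int.toNat_of_nonneg (h0 v)]
  rw [natCast_zsmul]

end Value

/-! ### The theorem -/

/-- **the norm residue is a ray character** -/
theorem exists_isRay_norm {ℓ : ℕ} [Fact ℓ.Prime] {K : Type} [Field K] [NumberField K]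
    [IsTotallyComplex K] {A : Type*} [AddCommGroup A] (f : (ZMod ℓ)ˣ →* Multiplicative A)
    (S : Finset (HeightOneSpectrum (𝓞 K)))
    (hS : ∀ v : HeightOneSpectrum (𝓞 K), (ℓ : 𝓞 K) ∈ v.asIdeal → v ∈ S)
    (η : HeightOneSpectrum (𝓞 K) → A)
    (hη : ∀ v ∉ S, ∀ u : (ZMod ℓ)ˣ, (u : ZMod ℓ) = (Ideal.absNorm v.asIdeal : ZMod ℓ) →
      η v = (f u).toAdd) :
    ∃ n : ℕ, LT.IsRay S n η := by
  classical
  have hℓ0 : ℓ ≠ 0 := (Fact.out : ℓ.Prime).ne_zero
  let L : Kˣ := Units.mk0 (ℓ : K) (by exact_mod_cast hℓ0)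
  have hL : (L : K) = ((ℓ : 𝓞 K) : K) := by simp [L]
  let S' := S.filter fun v => (ℓ : 𝓞 K) ∈ v.asIdeal
  have hS' (v : HeightOneSpectrum (𝓞 K)) : v ∈ S' ↔ (ℓ : 𝓞 K) ∈ v.asIdeal := by
    rw [Finset.mem_filter]
    exact ⟨fun h => h.2, fun h => ⟨hS v h, h⟩⟩
  have hLout {v : HeightOneSpectrum (𝓞 K)} (hv : v ∉ S') : v.valuation K (L : K) = 1 := by
    rw [hL, HeightOneSpectrum.valuation_of_algebraMap]
    exact (HeightOneSpectrum.intValuation_eq_one_iff (v := v)).mpr fun h => hv ((hS' v).mpr h)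
  let n : ℕ := ∑ v ∈ S', (ord v L).toNat
  have hn : ∀ v ∈ S', (exp (-((n : ℤ) + 1)) : ℤᵐ⁰) ≤ v.valuation K (L : K) := by
    intro v hv
    rw [valuation_eq_exp_neg_ord, exp_le_exp]
    have h1 : (ord v L).toNat ≤ n := Finset.single_le_sum (f := fun v => (ord v L).toNat)
      (fun _ _ => Nat.zero_le _) hv
    have h2 := Int.self_le_toNat (ord v L)
    omega
  refine ⟨n, ?_⟩
  have key : IsRay S' n (fun v => (f (nres ℓ v)).toAdd) := by
    intro x hx
    -- a multiple
    obtain ⟨⟨r₀, s₀⟩, hrs⟩ := IsLocalization.surj (nonZeroDivisors (𝓞 K)) (x : K)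
    have hs₀ : (s₀ : 𝓞 K) ≠ 0 := nonZeroDivisors.coe_ne_zero s₀
    have hm0 : Ideal.absNorm (Ideal.span {(s₀ : 𝓞 K)}) ≠ 0 := by
      rw [Ne, Ideal.absNorm_eq_zero_iff, Ideal.span_singleton_eq_bot]
      exact hs₀
    obtain ⟨s₁, hs₁⟩ := Ideal.mem_span_singleton'.mp
      (Ideal.absNorm_mem (Ideal.span {(s₀ : 𝓞 K)}))
    obtain ⟨k, m, hm, hkm⟩ := Nat.exists_eq_pow_mul_and_not_dvd hm0 ℓ
      (Fact.out : ℓ.Prime).ne_one
    have hm1 : m ≠ 0 := by
      rintro rfl
      exact hm (dvd_zero _)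
    let M : Kˣ := Units.mk0 (m : K) (by exact_mod_cast hm1)
    have hM : (M : K) = ((m : 𝓞 K) : K) := by simp [M]
    have hMle (v : HeightOneSpectrum (𝓞 K)) : v.valuation K (M : K) ≤ 1 := by
      rw [hM]
      exact HeightOneSpectrum.valuation_le_one v _
    have hMS : ∀ v ∈ S', ord v M = 0 := by
      intro v hv
      rw [ord_eq_zero_iff, hM, HeightOneSpectrum.valuation_of_algebraMap]
      refine (HeightOneSpectrum.intValuation_eq_one_iff (v := v)).mpr fun h => ?_
      have hcop : IsCoprime ((ℓ : ℕ) : 𝓞 K) ((m : ℕ) : 𝓞 K) := by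
        have := Nat.isCoprime_iff_coprime.mpr
          ((Nat.Prime.coprime_iff_not_dvd (Fact.out : ℓ.Prime)).mpr hm)
        simpa using this.map (Int.castRingHom (𝓞 K))
      obtain ⟨a, b, hab⟩ := hcop
      apply v.isPrime.ne_top
      rw [Ideal.eq_top_iff_one, ← hab]
      exact v.asIdeal.add_mem (v.asIdeal.mul_mem_left _ ((hS' v).mp hv))
        (v.asIdeal.mul_mem_left _ h)
    have hxS : ∀ v ∈ S', ord v x = 0 := fun v hv => ord_eq_zero_of_mem_cong (hx v hv)
    have hxM : (x : K) * (M : K) * (L : K) ^ k = ((r₀ * s₁ : 𝓞 K) : K) := by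
      have h1 : ((Ideal.absNorm (Ideal.span {(s₀ : 𝓞 K)}) : ℕ) : K) = (L : K) ^ k * (M : K) := by
        rw [hkm]
        simp [L, M]
      have h2 : ((Ideal.absNorm (Ideal.span {(s₀ : 𝓞 K)}) : ℕ) : K) =
          (s₁ : K) * ((s₀ : 𝓞 K) : K) := by
        have := congrArg (algebraMap (𝓞 K) K) hs₁
        rw [map_mul, map_natCast] at this
        exact this.symm
      have h3 : (x : K) * ((s₀ : 𝓞 K) : K) = (r₀ : K) := hrs
      have h4 : ((r₀ * s₁ : 𝓞 K) : K) = (r₀ : K) * (s₁ : K) := map_mul (algebraMap (𝓞 K) K) _ _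
      rw [mul_assoc, mul_comm (M : K), ← h1, h2, h4, ← h3]
      ring
    -- integrality
    have hy (v : HeightOneSpectrum (𝓞 K)) : v.valuation K ((x : K) * M) ≤ 1 := by
      by_cases hv : v ∈ S'
      · rw [map_mul, (ord_eq_zero_iff K v x).mp (hxS v hv), one_mul]
        exact hMle v
      · have h1 : v.valuation K ((x : K) * M) = v.valuation K ((x : K) * (M : K) * (L : K) ^ k) := by
          rw [map_mul _ (_ * _) _, map_pow, hLout hv, one_pow, mul_one]
        rw [h1, hxM]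
        exact HeightOneSpectrum.valuation_le_one v _
    obtain ⟨r, hr⟩ := HeightOneSpectrum.mem_integers_of_valuation_le_one K _ hy
    have hz (v : HeightOneSpectrum (𝓞 K)) :
        v.valuation K (((x : K) * M - M) / L) ≤ 1 := by
      by_cases hv : v ∈ S'
      · have h1 : ((x : K) * M - M) / L = ((x : K) - 1) * M / L := by ring
        have h2 : v.valuation K (L : K) ≠ 0 := by simp
        rw [h1, map_div₀, div_le_one₀ (zero_lt_iff.mpr h2), map_mul]
        exact (mul_le_of_le_one_right' (hMle v)).trans ((hx v hv).trans (hn v hv))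
      · rw [map_div₀, hLout hv, _root_.div_one]
        exact (Valuation.map_sub _ _ _).trans (max_le (hy v) (hMle v))
    obtain ⟨t, ht⟩ := HeightOneSpectrum.mem_integers_of_valuation_le_one K _ hz
    have hrt : r = (m : 𝓞 K) + (ℓ : 𝓞 K) * t := by
      apply IsFractionRing.injective (𝓞 K) K
      rw [hr, map_add, map_mul, ht, map_natCast, map_natCast]
      have h1 : (L : K) = (ℓ : K) := rfl
      have h2 : (M : K) = (m : K) := rfl
      have h3 : (ℓ : K) ≠ 0 := by exact_mod_cast hℓ0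
      rw [h1, h2]
      field_simp
      ring
    have hr0 : r ≠ 0 := by
      rintro rfl
      rw [map_zero] at hr
      exact (mul_ne_zero x.ne_zero M.ne_zero) hr.symm
    have hmO : (m : 𝓞 K) ≠ 0 := by exact_mod_cast hm1
    have hnorm : (Ideal.absNorm (Ideal.span {r}) : ZMod ℓ) =
        (Ideal.absNorm (Ideal.span {(m : 𝓞 K)}) : ZMod ℓ) := by
      have h1 : ((Ideal.absNorm (Ideal.span {r}) : ℕ) : ZMod ℓ) =
          ((Algebra.norm ℤ r : ℤ) : ZMod ℓ) := by
        rw [← absNorm_span_eq_norm hr0, Int.cast_natCast]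
      have h2 : ((Ideal.absNorm (Ideal.span {(m : 𝓞 K)}) : ℕ) : ZMod ℓ) =
          ((Algebra.norm ℤ (m : 𝓞 K) : ℤ) : ZMod ℓ) := by
        rw [← absNorm_span_eq_norm hmO, Int.cast_natCast]
      rw [h1, h2, hrt, norm_intCast_add]
    have hunit : IsUnit (Ideal.absNorm (Ideal.span {(m : 𝓞 K)}) : ZMod ℓ) := by
      have h2 : ((Ideal.absNorm (Ideal.span {(m : 𝓞 K)}) : ℕ) : ZMod ℓ) =
          ((Algebra.norm ℤ (m : 𝓞 K) : ℤ) : ZMod ℓ) := by
        rw [← absNorm_span_eq_norm hmO, Int.cast_natCast]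
      rw [h2, norm_natCast_int, Int.cast_pow, Int.cast_natCast]
      refine IsUnit.pow _ ?_
      rwa [isUnit_iff_ne_zero, Ne, ZMod.natCast_eq_zero_iff]
    have e1 := rayVal_nres f hS' (x * M) (r := r) (by rw [Units.val_mul]; exact hr.symm)
      (fun v hv => by rw [ord_mul, hxS v hv, hMS v hv, add_zero]) (u := hunit.unit)
      (by rw [IsUnit.unit_spec, hnorm])
    have e2 := rayVal_nres f hS' M (r := (m : 𝓞 K)) hM hMS (u := hunit.unit)
      (by rw [IsUnit.unit_spec])
    rw [map_mul, e2] at e1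
    exact mul_eq_right.mp e1
  refine (key.mono_set (Finset.filter_subset _ _)).congr fun v hv => ?_
  exact (hη v hv _ (nres_coe fun h => hv (hS v h))).symm

end Fermat.Agent.Cor.Recip
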