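import Fermat.Agent.Corollaries.Recip.Ind
import Fermat.Agent.LT.Quad.Exist

/-!
# The normalisation of the local symbols

`K` is a totally complex number field containing `ζ_p`, `LS` a system of local symbols and `c` the
constants of the product formula `∑ c_v (a, x)_v = 0`. At `v ∤ p` and for a unit `a` at `v`,
`c_v (a, x)_v = k_v · ord_v x · ind_v a` with a constant `k_v ≠ 0` (`exists_const`).

`const_of_isRay`: if `v ↦ ind_v a` is a ray character then `k_v` is the same for all `v` with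
`ind_v a ≠ 0`.
-/

set_option autoImplicit false

namespace Fermat.Agent.Cor.Recip

open Fermat.Agent.CFT.Global hiding Inputs p_dvd_index exists_notMem_locPow exists_place powE
  mem_powE index_powE index_zpowers_sup_powE second hasse_norm FirstInequality exists_eq_nsmul_add
  exists_ne_symVec exists_functional_aux exists_inj forall_ne_zero exists_functional
open Fermat.Agent.CFT.Global2 Fermat.Agent.LT
open Fermat.Agent.CFT.SUnits (ord ord_one ord_mul ord_pow ord_div ord_inv ord_eq_zero_iff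
  valuation_eq_exp_neg_ord)
open NumberField IsDedekindDomain WithZero

section Const

variable {p : ℕ} [hp : Fact p.Prime] {K : Type} [Field K] [NumberField K] {ζ : 𝓞 K}

lemma unt_mul {a b : 𝓞 K} (ha : a ≠ 0) (hb : b ≠ 0) :
    (unt (mul_ne_zero ha hb) : Kˣ) = unt ha * unt hb := by
  ext
  rw [Units.val_mul, unt_val, unt_val, unt_val, map_mul]

lemma unt_pow {a : 𝓞 K} (ha : a ≠ 0) (n : ℕ) : (unt (pow_ne_zero n ha) : Kˣ) = unt ha ^ n := by
  ext
  rw [Units.val_pow_eq_pow_val, unt_val, unt_val, map_pow]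

omit [NumberField K] in
lemma ne_zero_of_notMem {v : HeightOneSpectrum (𝓞 K)} {a : 𝓞 K} (ha : a ∉ v.asIdeal) : a ≠ 0 := by
  rintro rfl
  exact ha (zero_mem _)

/-- A `v`-integer is a local `p`-th power iff its index vanishes. -/
lemma mem_locPow_iff_ind (hζ : IsPrimitiveRoot ζ p) {v : HeightOneSpectrum (𝓞 K)}
    (hv : (p : 𝓞 K) ∉ v.asIdeal) {a : 𝓞 K} (ha0 : a ≠ 0) (ha : a ∉ v.asIdeal) :
    unt ha0 ∈ locPow p v ↔ ind p ζ v a = 0 := by
  rw [ind_eq_zero_iff hζ hv ha, mem_locPow_iff_residue v hp.out hv (unt_val ha0) ha]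

/-- `(a, x)_v = k_v · ord_v x · ind_v a`. -/
theorem exists_const (hζ : IsPrimitiveRoot ζ p) (LS : LocalSymbols p K)
    {v : HeightOneSpectrum (𝓞 K)} (hv : (p : 𝓞 K) ∉ v.asIdeal) :
    ∃ k : ZMod p, k ≠ 0 ∧ ∀ (a : 𝓞 K) (ha0 : a ≠ 0), a ∉ v.asIdeal → ∀ x : Kˣ,
      (LS.sym v (unt ha0) x).toAdd = k * ord v x * ind p ζ v a := by
  obtain ⟨g, hgv, hg⟩ := exists_ind_eq_one hζ hv
  have hg0 := ne_zero_of_notMem hgv
  obtain ⟨ϖ, hϖ⟩ := exists_ord_eq (K := K) v 1
  refine ⟨(LS.sym v (unt hg0) ϖ).toAdd, ?_, ?_⟩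
  · intro h
    have h1 : LS.sym v (unt hg0) ϖ = 1 := toAdd_eq_zero.1 h
    rw [sym_eq_one_iff v LS hv (ord_unt_eq_zero hg0 hgv) hϖ, mem_locPow_iff_ind hζ hv hg0 hgv,
      hg] at h1
    exact one_ne_zero h1
  · intro a ha0 hav x
    set m : ℕ := (ind p ζ v a).val with hm
    have hgm : g ^ m ∉ v.asIdeal := fun h => hgv (v.isPrime.mem_of_pow_mem _ h)
    -- an inverse of `g ^ m` modulo `v`
    obtain ⟨h, hh⟩ : ∃ h : 𝓞 K, h * g ^ m - 1 ∈ v.asIdeal := by
      have hmax := v.isMaximal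
      let _ := Ideal.Quotient.field v.asIdeal
      obtain ⟨h, hh⟩ := Ideal.Quotient.mk_surjective (I := v.asIdeal)
        (Ideal.Quotient.mk v.asIdeal (g ^ m))⁻¹
      refine ⟨h, ?_⟩
      rw [← Ideal.Quotient.eq, map_mul, map_one, hh, inv_mul_cancel₀]
      exact fun h0 => hgm (Ideal.Quotient.eq_zero_iff_mem.1 h0)
    have hone : (1 : 𝓞 K) ∉ v.asIdeal := fun h => v.isPrime.ne_top ((Ideal.eq_top_iff_one _).2 h)
    have hhgm : h * g ^ m ∉ v.asIdeal := by
      intro h1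
      apply hone
      have h2 := v.asIdeal.sub_mem h1 hh
      rwa [sub_sub_cancel] at h2
    have hhv : h ∉ v.asIdeal := fun h1 => hhgm (Ideal.mul_mem_right _ _ h1)
    have hh0 := ne_zero_of_notMem hhv
    have hgm0 := ne_zero_of_notMem hgm
    have hind1 : ind p ζ v (1 : 𝓞 K) = 0 := by
      rw [ind_eq_zero_iff hζ hv hone]
      exact ⟨1, by rw [one_pow, sub_self]; exact zero_mem _⟩
    have hi1 : ind p ζ v (h * g ^ m) = 0 := by rw [ind_congr hζ hv hhgm hh, hind1]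
    have hi2 : ind p ζ v (g ^ m) = ind p ζ v a := by
      rw [ind_pow hζ hv hgv, hg, mul_one, hm, ZMod.natCast_val, ZMod.cast_id', id_eq]
    have hi3 : ind p ζ v (h * a) = 0 := by
      rw [ind_mul hζ hv hhv hav, ← hi2, ← ind_mul hζ hv hhv hgm, hi1]
    have hha : h * a ∉ v.asIdeal := fun h1 => (v.isPrime.mem_or_mem h1).elim hhv hav
    have hs1 : LS.sym v (unt (mul_ne_zero hh0 hgm0)) x = 1 :=
      LS.sym_eq_one_of_left ((mem_locPow_iff_ind hζ hv _ hhgm).2 hi1)
    have hs2 : LS.sym v (unt (mul_ne_zero hh0 ha0)) x = 1 :=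
      LS.sym_eq_one_of_left ((mem_locPow_iff_ind hζ hv _ hha).2 hi3)
    rw [unt_mul hh0 hgm0, map_mul, MonoidHom.mul_apply] at hs1
    rw [unt_mul hh0 ha0, map_mul, MonoidHom.mul_apply] at hs2
    have hs3 : LS.sym v (unt ha0) x = LS.sym v (unt hgm0) x := by
      rw [← hs1] at hs2
      exact mul_left_cancel hs2
    have hs4 : LS.sym v (unt hgm0) x = LS.sym v (unt hg0) x ^ m := by
      rw [show (unt hgm0 : Kˣ) = unt hg0 ^ m from unt_pow hg0 m, map_pow, MonoidHom.pow_apply]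
    have hs5 : LS.sym v (unt hg0) x = LS.sym v (unt hg0) ϖ ^ (ord v x) := by
      rw [← map_zpow]
      apply sym_eq_of_ord_eq v LS hv (ord_unt_eq_zero hg0 hgv)
      rw [ord_zpow, hϖ, mul_one]
    rw [hs3, hs4, hs5, toAdd_pow, toAdd_zpow, nsmul_eq_mul, zsmul_eq_mul, hm, ZMod.natCast_val,
      ZMod.cast_id', id_eq]
    ring

/-- The normalised constants: `c_v (a, x)_v = k_v · ord_v x · ind_v a` for all `v ∤ p`. -/
theorem exists_consts (hζ : IsPrimitiveRoot ζ p) (LS : LocalSymbols p K)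
    {c : HeightOneSpectrum (𝓞 K) → ZMod p} (hc : ∀ v, c v ≠ 0) :
    ∃ k : HeightOneSpectrum (𝓞 K) → ZMod p, (∀ v, (p : 𝓞 K) ∉ v.asIdeal → k v ≠ 0) ∧
      ∀ v, (p : 𝓞 K) ∉ v.asIdeal → ∀ (a : 𝓞 K) (ha0 : a ≠ 0), a ∉ v.asIdeal → ∀ x : Kˣ,
        c v * (LS.sym v (unt ha0) x).toAdd = k v * ord v x * ind p ζ v a := by
  have h : ∀ v : HeightOneSpectrum (𝓞 K), ∃ k : ZMod p, (p : 𝓞 K) ∉ v.asIdeal → k ≠ 0 ∧
      ∀ (a : 𝓞 K) (ha0 : a ≠ 0), a ∉ v.asIdeal → ∀ x : Kˣ,
        c v * (LS.sym v (unt ha0) x).toAdd = k * ord v x * ind p ζ v a := by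
    intro v
    by_cases hv : (p : 𝓞 K) ∈ v.asIdeal
    · exact ⟨0, fun h => absurd hv h⟩
    · obtain ⟨k, hk, hk'⟩ := exists_const hζ LS hv
      refine ⟨c v * k, fun _ => ⟨mul_ne_zero (hc v) hk, fun a ha0 ha x => ?_⟩⟩
      rw [hk' a ha0 ha x]
      ring
  choose k hk using h
  exact ⟨k, fun v hv => (hk v hv).1, fun v hv => (hk v hv).2⟩

/-- The product formula over a finite set of places. -/
lemma sum_eq_zero_of_prod {LS : LocalSymbols p K} {c : HeightOneSpectrum (𝓞 K) → ZMod p}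
    (hprod : ∀ a x : Kˣ, (symVec LS hp.out.ne_zero a x).sum (fun v n => c v * n) = 0)
    (x y : Kˣ) (U : Finset (HeightOneSpectrum (𝓞 K))) (hU : ∀ v, v ∉ U → LS.sym v x y = 1) :
    ∑ v ∈ U, c v * (LS.sym v x y).toAdd = 0 := by
  have h3 := hprod x y
  rw [Finsupp.sum_of_support_subset (s := U) _ (by
    intro v hv
    by_contra h
    rw [Finsupp.mem_support_iff, symVec_apply, hU v h] at hv
    exact hv rfl) _ (fun v _ => mul_zero _)] at h3
  exact h3

/-- `v ↦ k_v ind_v a` is a ray character. -/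
theorem exists_isRay_theta [IsTotallyComplex K] (LS : LocalSymbols p K)
    {c : HeightOneSpectrum (𝓞 K) → ZMod p}
    (hprod : ∀ a x : Kˣ, (symVec LS hp.out.ne_zero a x).sum (fun v n => c v * n) = 0)
    {k : HeightOneSpectrum (𝓞 K) → ZMod p}
    (hk : ∀ v, (p : 𝓞 K) ∉ v.asIdeal → ∀ (a : 𝓞 K) (ha0 : a ≠ 0), a ∉ v.asIdeal → ∀ x : Kˣ,
        c v * (LS.sym v (unt ha0) x).toAdd = k v * ord v x * ind p ζ v a)
    {S : Finset (HeightOneSpectrum (𝓞 K))} (hS : AboveP p S) {a : 𝓞 K} (ha0 : a ≠ 0)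
    (haS : ∀ v, v ∉ S → a ∉ v.asIdeal) :
    ∃ n, IsRay S n (fun v => k v * ind p ζ v a) := by
  classical
  choose n hn using fun v : HeightOneSpectrum (𝓞 K) => exists_cong_le_locPow p hp.out.ne_zero v
  refine ⟨S.sup n, fun x hx => ?_⟩
  have hxS : ∀ v ∈ S, x ∈ locPow p v := fun v hv =>
    hn v ((Fermat.Agent.CFT.Global.cong_anti v (Finset.le_sup hv)) (hx v hv))
  apply toAdd_eq_zero.mp
  -- a finite set containing all relevant places
  obtain ⟨T, hST, -, -, hT⟩ := exists_good (K := K) p hp.out.ne_zero S {x}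
  have hxT := hT x (by simp)
  have h1 := toAdd_rayVal_eq_sum S T (fun v => k v * ind p ζ v a) x (fun v hv _ => by
    rw [mem_E.mp hxT v hv, zero_smul])
  have h2 := sum_eq_zero_of_prod hprod (unt ha0) x T (fun v hv => by
    have hvS : v ∉ S := fun h => hv (hST h)
    exact LS.unit_mem v (fun h => hvS (hS v h)) _ _ (ord_unt_eq_zero ha0 (haS v hvS))
      (mem_E.mp hxT v hv))
  refine h1.trans ((Finset.sum_congr rfl fun v hv => ?_).trans h2)
  split_ifs with hvS
  · rw [LS.sym_eq_one_of_right (hxS v hvS), toAdd_one, mul_zero]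
  · rw [hk v (fun h => hvS (hS v h)) a ha0 (haS v hvS) x, zsmul_eq_mul]
    ring

/-- **The constants agree** at all places where the index of `a` does not vanish, if
`v ↦ ind_v a` is a ray character. -/
theorem const_of_isRay [IsTotallyComplex K] (hζ : IsPrimitiveRoot ζ p) (LS : LocalSymbols p K)
    {c : HeightOneSpectrum (𝓞 K) → ZMod p} (hc : ∀ v, c v ≠ 0)
    (hprod : ∀ a x : Kˣ, (symVec LS hp.out.ne_zero a x).sum (fun v n => c v * n) = 0)
    {k : HeightOneSpectrum (𝓞 K) → ZMod p}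
    (hk : ∀ v, (p : 𝓞 K) ∉ v.asIdeal → ∀ (a : 𝓞 K) (ha0 : a ≠ 0), a ∉ v.asIdeal → ∀ x : Kˣ,
        c v * (LS.sym v (unt ha0) x).toAdd = k v * ord v x * ind p ζ v a)
    {S : Finset (HeightOneSpectrum (𝓞 K))} (hS : AboveP p S) {a : 𝓞 K} (ha0 : a ≠ 0)
    (haS : ∀ v, v ∉ S → a ∉ v.asIdeal) {n : ℕ}
    (hη : IsRay S n (fun v => ind p ζ v a)) :
    ∃ κ : ZMod p, ∀ v, v ∉ S → ind p ζ v a ≠ 0 → k v = κ := by
  classical
  have hζ' : IsPrimitiveRoot (algebraMap (𝓞 K) K ζ) p :=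
    hζ.map_of_injective RingOfIntegers.coe_injective
  obtain ⟨m, hθ⟩ := exists_isRay_theta LS hprod hk hS ha0 haS
  obtain ⟨T, hST, hTp, hcl, hinj⟩ := exists_inj (inputs (p := p)) hζ' S
  have hηT : IsRay T n (fun v => ind p ζ v a) := hη.mono_set hST
  obtain ⟨b, hb, hkey⟩ := Quad.exists_unit hζ' LS c hc (sum_eq_zero_of_prod hprod) hTp hinj
    (rayVal T (fun v => ind p ζ v a)) (fun x hx => rayVal_of_mem_E T _ hx)
    (fun x hx => Quad.rayVal_eq_one_of_locPow hηT hx)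
  -- the symbols of `b` outside `T`
  have hbT : ∀ v, v ∉ T → ∃ x : Kˣ, ord v x = 1 ∧
      c v * (LS.sym v b x).toAdd = -ind p ζ v a := by
    intro v hv
    obtain ⟨x, hx⟩ := hcl (Finsupp.single v 1)
    have hxv : ord v x = 1 := by rw [hx v hv, Finsupp.single_eq_same]
    refine ⟨x, hxv, ?_⟩
    have h1 := hkey x
    have h2 : (rayVal T (fun v => ind p ζ v a) x).toAdd = ind p ζ v a := by
      rw [toAdd_rayVal_of_single T _ hv, hxv, one_smul]
      intro w hw hwv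
      rw [hx w hw, Finsupp.single_eq_of_ne hwv]
    have h3 : ∑ w ∈ insert v T, c w * (LS.sym w b x).toAdd = 0 := by
      apply sum_eq_zero_of_prod hprod
      intro w hw
      rw [Finset.mem_insert, not_or] at hw
      have hxw : ord w x = 0 := by rw [hx w hw.2, Finsupp.single_eq_of_ne hw.1]
      exact LS.unit_mem w (fun h => hw.2 (hTp w h)) b x (mem_E.mp hb w hw.2) hxw
    rw [Finset.sum_insert hv, ← h1, h2] at h3
    exact eq_neg_of_add_eq_zero_left h3
  have haE : (unt ha0 : Kˣ) ∈ E T := by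
    rw [mem_E]
    exact fun v hv => ord_unt_eq_zero ha0 (haS v fun h => hv (hST h))
  -- the case of a `p`-th power
  by_cases hna : ∀ y : Kˣ, y ^ p ≠ unt ha0
  swap
  · push Not at hna
    obtain ⟨y, hy⟩ := hna
    refine ⟨0, fun v hv h => absurd ?_ h⟩
    rw [← mem_locPow_iff_ind hζ (fun h => hv (hS v h)) ha0 (haS v hv), ← hy]
    exact pow_mem_locPow p v y
  by_cases hxa : ∀ (j : ℕ) (y : Kˣ), b ≠ unt ha0 ^ j * y ^ p
  · exfalso
    obtain ⟨v, hv, hav, hbv⟩ := exists_place (inputs (p := p)) hζ' hTp haE hna hb hxa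
    have hvp : (p : 𝓞 K) ∉ v.asIdeal := fun h => hv (hTp v h)
    have hvS : v ∉ S := fun h => hv (hST h)
    rw [mem_locPow_iff_ind hζ hvp ha0 (haS v hvS)] at hav
    obtain ⟨x, hx, hx'⟩ := hbT v hv
    rw [hav, neg_zero] at hx'
    apply hbv
    rw [Quad.mem_locPow_iff_sym LS hvp (mem_E.mp hb v hv) hx]
    exact toAdd_eq_zero.1 ((mul_eq_zero.1 hx').resolve_left (hc v))
  push Not at hxa
  obtain ⟨j, y, hby⟩ := hxa
  -- the relation outside `T`
  have hrel : ∀ v, v ∉ T → ((j : ZMod p) * k v + 1) * ind p ζ v a = 0 := by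
    intro v hv
    have hvp : (p : 𝓞 K) ∉ v.asIdeal := fun h => hv (hTp v h)
    have hvS : v ∉ S := fun h => hv (hST h)
    obtain ⟨x, hx, hx'⟩ := hbT v hv
    have h1 : (LS.sym v b x).toAdd = j * (LS.sym v (unt ha0) x).toAdd := by
      rw [hby, map_mul, MonoidHom.mul_apply, map_pow, MonoidHom.pow_apply,
        LS.sym_eq_one_of_left (pow_mem_locPow p v y), mul_one, toAdd_pow, nsmul_eq_mul]
    have h2 := hk v hvp a ha0 (haS v hvS) x
    rw [hx, Int.cast_one, mul_one] at h2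
    rw [h1] at hx'
    linear_combination hx' - (j : ZMod p) * h2
  by_cases hj : (j : ZMod p) = 0
  · refine ⟨0, fun v hv h => absurd ?_ h⟩
    refine Quad.eq_zero_of_large hη (T := T) (fun w hw => ?_) v hv
    have h1 := hrel w hw
    rwa [hj, zero_mul, zero_add, one_mul] at h1
  · refine ⟨-(j : ZMod p)⁻¹, fun v hv h => ?_⟩
    have hray : IsRay S (max n m) (fun v => k v * ind p ζ v a + (j : ZMod p)⁻¹ * ind p ζ v a) := by
      refine (hθ.mono (le_max_right n m)).add ?_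
      exact (hη.mono (le_max_left n m)).comp (AddMonoidHom.mulLeft (j : ZMod p)⁻¹)
    have h0 := Quad.eq_zero_of_large hray (T := T) (fun w hw => by
      have h1 := hrel w hw
      have h2 : k w * ind p ζ w a + (j : ZMod p)⁻¹ * ind p ζ w a =
          (j : ZMod p)⁻¹ * (((j : ZMod p) * k w + 1) * ind p ζ w a) := by
        field_simp
      rw [h2, h1, mul_zero]) v hv
    rw [← add_mul] at h0
    exact eq_neg_of_add_eq_zero_left ((mul_eq_zero.1 h0).resolve_right h)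

end Const

end Fermat.Agent.Cor.Recip
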