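import Fermat.Agent.CFT.Global2.ProductFormula

/-!
# Local facts for the `p`-th power reciprocity law

`K` is a number field containing a primitive `p`-th root of unity `ζ`, `v` a finite place of `K`
and `LS : LocalSymbols p K`.

* `isNormFrom_pow_sub`: `s ^ p - a t ^ p` is a norm from `K(a^{1/p})`; `sym_one_sub`: the
  Steinberg relation `(a, b)_v = 1` if `a + b = 1`;
* `mem_locPow_of_near`: Hensel's lemma for `p`-th powers;
* `sym_eq_one_of_mul`: `(1 - x, 1 - y)_v = 1` if `1 - xy` is a `p`-th power in `K_v`;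
* `sym_eq_one_of_primary`: at `v ∣ p`, `(a, b)_v = 1` if `b` is a unit and `a` is a unit congruent
  to a `p`-th power modulo `p(1 - ζ)`;
* `mem_locPow_iff_residue`, `sym_eq_one_iff`: the tame case.
-/

set_option autoImplicit false

namespace Fermat.Agent.Cor.Recip

open Fermat.Agent.CFT.Global Fermat.Agent.CFT.Global2
open Fermat.Agent.CFT.SUnits (ord ord_one ord_mul ord_pow ord_div ord_inv ord_eq_zero_iff
  valuation_eq_exp_neg_ord)
open NumberField IsDedekindDomain WithZero Polynomial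

/-! ### Norms -/

section Norm

variable {K : Type*} [Field K]

/-- `N(s - a^{1/p}) = s ^ p - a`. -/
theorem norm_sub_root {p : ℕ} (hp : p ≠ 0) (a s : K) :
    Algebra.norm K (algebraMap K (AdjoinRoot (X ^ p - C a : K[X])) s -
      AdjoinRoot.root (X ^ p - C a : K[X])) = s ^ p - a := by
  have hmon := monic_X_pow_sub_C a hp
  have h1 : (Algebra.leftMulMatrix (AdjoinRoot.powerBasis' hmon).basis
      (AdjoinRoot.root (X ^ p - C a : K[X]))).charpoly = X ^ p - C a := by
    have h2 := charpoly_leftMulMatrix (AdjoinRoot.powerBasis' hmon)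
    rw [AdjoinRoot.powerBasis'_gen] at h2
    rw [h2, AdjoinRoot.minpoly_root hmon.ne_zero, hmon.leadingCoeff, inv_one, C_1, mul_one]
  rw [Algebra.norm_eq_matrix_det (AdjoinRoot.powerBasis' hmon).basis, map_sub, AlgHom.commutes]
  have h3 := Matrix.eval_charpoly (Algebra.leftMulMatrix (AdjoinRoot.powerBasis' hmon).basis
      (AdjoinRoot.root (X ^ p - C a : K[X]))) s
  rw [h1] at h3
  simp only [eval_sub, eval_pow, eval_X, eval_C] at h3
  rw [h3]
  rfl

theorem isNormFrom_pow_sub {K : Type*} [Field K] {p : ℕ} (hp : p ≠ 0) {a x : Kˣ} {s t : K}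
    (h : (x : K) = s ^ p - a * t ^ p) : IsNormFrom p a x := by
  have hmon := monic_X_pow_sub_C (a : K) hp
  have hfr : Module.finrank K (AdjoinRoot (X ^ p - C (a : K) : K[X])) = p := by
    rw [(AdjoinRoot.powerBasis' hmon).finrank, AdjoinRoot.powerBasis'_dim, natDegree_X_pow_sub_C]
  by_cases ht : t = 0
  · refine ⟨algebraMap K _ s, ?_⟩
    rw [Algebra.norm_algebraMap, hfr, h, ht, zero_pow hp, mul_zero, sub_zero]
  · refine ⟨algebraMap K _ t * (algebraMap K _ (s / t) - AdjoinRoot.root _), ?_⟩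
    rw [map_mul, Algebra.norm_algebraMap, hfr, norm_sub_root hp, h, div_pow, mul_sub,
      mul_div_cancel₀ _ (pow_ne_zero p ht)]
    ring

end Norm

/-! ### The Steinberg relation -/

section Steinberg

universe u

variable {K : Type u} [Field K] [NumberField K] {p : ℕ} (LS : LocalSymbols p K)
  (v : HeightOneSpectrum (𝓞 K))

theorem sym_one_sub (hp : p ≠ 0) {a b : Kˣ} (h : (a : K) + b = 1) : LS.sym v a b = 1 :=
  LS.norm_mem v a b (isNormFrom_pow_sub hp (s := 1) (t := 1) (by
    rw [one_pow, mul_one]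
    linear_combination h))

theorem sym_neg (hp : p ≠ 0) (a : Kˣ) : LS.sym v a (-a) = 1 :=
  LS.norm_mem v a (-a) (isNormFrom_pow_sub hp (s := 0) (t := 1) (by
    rw [Units.val_neg, zero_pow hp, one_pow]
    ring))

/-- `(1 - x, 1 - y)_v = 1` if `1 - xy` is a `p`-th power in `K_v`. -/
theorem sym_eq_one_of_mul (hp : p ≠ 0) {x y : K} {A B C : Kˣ} (hA : (A : K) = 1 - x)
    (hB : (B : K) = 1 - y) (hC : (C : K) = 1 - x * y) (hCl : C ∈ locPow p v) :
    LS.sym v A B = 1 := by
  by_cases hx : x = 0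
  · have h1 : A = 1 := by
      ext
      rw [hA, hx, sub_zero, Units.val_one]
    rw [h1, map_one, MonoidHom.one_apply]
  · have hAX : LS.sym v A (Units.mk0 x hx) = 1 := by
      apply sym_one_sub LS v hp
      rw [hA, Units.val_mk0]
      ring
    have h1 : LS.sym v (A / C) (Units.mk0 x hx * B / C) = 1 := by
      apply sym_one_sub LS v hp
      have h2 : (C : K) ≠ 0 := C.ne_zero
      rw [Units.val_div_eq_div_val, Units.val_div_eq_div_val, Units.val_mul, Units.val_mk0,
        ← add_div, div_eq_one_iff_eq h2, hA, hB, hC]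
      ring
    have hC1 : ∀ z, LS.sym v C z = 1 := fun z => LS.sym_eq_one_of_left hCl
    have hC2 : ∀ z, LS.sym v z C = 1 := fun z => LS.sym_eq_one_of_right hCl
    rw [map_div (LS.sym v (A / C)), hC2, div_one, map_div (LS.sym v), MonoidHom.div_apply, hC1,
      div_one, map_mul, hAX, one_mul] at h1
    exact h1

end Steinberg

/-! ### Hensel's lemma -/

section Hensel

/-- The binomial theorem for a prime exponent. -/
theorem exists_one_add_pow {R : Type*} [CommRing R] {p : ℕ} (hp : p.Prime) (u : R) :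
    ∃ r : R, (1 + u) ^ p = 1 + p * u + p * u ^ 2 * r + u ^ p := by
  obtain ⟨q, rfl⟩ : ∃ q, p = q + 2 := ⟨p - 2, by have := hp.two_le; omega⟩
  have hd : ∀ m ∈ Finset.range q, ((q + 2 : ℕ) : R) * u ^ 2 ∣
      u ^ (m + 1 + 1) * 1 ^ (q + 2 - (m + 1 + 1)) * ((q + 2).choose (m + 1 + 1) : R) := by
    intro m hm
    have h1 : q + 2 ∣ (q + 2).choose (m + 1 + 1) :=
      hp.dvd_choose_self (by omega) (by have := Finset.mem_range.1 hm; omega)
    obtain ⟨c, hc⟩ := h1
    refine ⟨u ^ m * c, ?_⟩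
    rw [hc, one_pow]
    push_cast
    ring
  obtain ⟨r, hr⟩ := Finset.dvd_sum hd
  refine ⟨r, ?_⟩
  rw [add_comm 1 u, add_pow, Finset.sum_range_succ, Finset.sum_range_succ', Finset.sum_range_succ',
    hr]
  simp only [zero_add, pow_one, pow_zero, one_pow, mul_one, Nat.choose_self, Nat.cast_one,
    Nat.choose_zero_right, Nat.choose_one_right]
  push_cast
  ring

lemma eq_one_of_pow_eq_one {n : ℕ} (hn : n ≠ 0) {x : ℤᵐ⁰} (h : x ^ n = 1) : x = 1 :=
  le_antisymm ((pow_le_one_iff hn).1 h.le) ((one_le_pow_iff hn).1 h.ge)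

variable {K : Type*} [Field K] [NumberField K] (v : HeightOneSpectrum (𝓞 K))

lemma valuation_natCast_le_one (n : ℕ) : v.valuation K (n : K) ≤ 1 := by
  have h := v.valuation_le_one (K := K) (n : 𝓞 K)
  push_cast at h
  exact h

lemma val_lt_one_iff (x : 𝓞 K) :
    v.valuation K (algebraMap (𝓞 K) K x) < 1 ↔ x ∈ v.asIdeal := v.valuation_lt_one_iff_mem x

lemma le_exp_neg_one_of_lt_one {x : K} (h : v.valuation K x < 1) :
    v.valuation K x ≤ exp (-1 : ℤ) := by
  by_cases hx : x = 0
  · rw [hx, map_zero]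
    exact zero_le
  · have h1 := valuation_eq_exp_neg_ord (K := K) v (Units.mk0 x hx)
    rw [Units.val_mk0] at h1
    rw [h1, ← exp_zero, exp_lt_exp] at h
    rw [h1, exp_le_exp]
    omega

/-- The `p`-th power of `1 + u`, `v u ≤ 1`. -/
lemma exists_one_add_pow_val {p : ℕ} (hp : p.Prime) {u : K} (hu : v.valuation K u ≤ 1) :
    ∃ r : K, v.valuation K r ≤ 1 ∧ (1 + u) ^ p = 1 + p * u + p * u ^ 2 * r + u ^ p := by
  obtain ⟨r, hr⟩ := exists_one_add_pow hp (⟨u, hu⟩ : (v.valuation K).integer)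
  refine ⟨r, r.2, ?_⟩
  have h := congrArg (fun z : (v.valuation K).integer => (z : K)) hr
  push_cast at h
  exact h

/-- **Hensel's lemma for `p`-th powers.** -/
theorem mem_locPow_of_near {p : ℕ} (hp : p.Prime) {δ : K} (hδ0 : δ ≠ 0)
    (hδ1 : v.valuation K δ ≤ 1) (hδ : v.valuation K (δ ^ p) ≤ v.valuation K (p * δ)) {x : Kˣ}
    (hx : v.valuation K ((x : K) - 1) < v.valuation K (p * δ)) : x ∈ locPow p v := by
  have hp0 : (p : K) ≠ 0 := by exact_mod_cast hp.ne_zero
  have hpδ0 : (p : K) * δ ≠ 0 := mul_ne_zero hp0 hδ0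
  have hvpδ : v.valuation K (p * δ) ≠ 0 := (Valuation.ne_zero_iff _).2 hpδ0
  have hvpδ1 : v.valuation K (p * δ) ≤ 1 := by
    rw [map_mul]
    exact mul_le_one' (valuation_natCast_le_one v p) hδ1
  have key : ∀ k : ℕ, ∃ y : Kˣ, v.valuation K ((x / y ^ p : Kˣ) - 1 : K) ≤
      v.valuation K (p * δ) * exp (-((k : ℤ) + 1)) := by
    intro k
    induction k with
    | zero =>
      refine ⟨1, ?_⟩
      have h1 : v.valuation K (((x : K) - 1) / (p * δ)) < 1 := by
        rw [map_div₀, div_lt_one₀ (zero_lt_iff.2 hvpδ)]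
        exact hx
      have h2 := le_exp_neg_one_of_lt_one v h1
      rw [map_div₀, div_le_iff₀ (zero_lt_iff.2 hvpδ), mul_comm] at h2
      simpa using h2
    | succ k ih =>
      obtain ⟨y, hy⟩ := ih
      set x' : Kˣ := x / y ^ p with hx'
      set m : K := ((x' : K) - 1) / (p * δ) with hm
      have hm1 : v.valuation K m ≤ exp (-((k : ℤ) + 1)) := by
        rw [hm, map_div₀, div_le_iff₀ (zero_lt_iff.2 hvpδ), mul_comm]
        exact hy
      have hm2 : v.valuation K m ≤ exp (-1 : ℤ) := hm1.trans (exp_le_exp.2 (by omega))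
      have hm3 : v.valuation K m ≤ 1 := hm2.trans (by rw [← exp_zero, exp_le_exp]; omega)
      have hx1 : (x' : K) = 1 + p * δ * m := by
        rw [hm, mul_div_cancel₀ _ hpδ0]
        ring
      have hδm : v.valuation K (δ * m) < 1 := by
        rw [map_mul]
        refine (mul_le_mul' hδ1 hm2).trans_lt ?_
        rw [one_mul, ← exp_zero, exp_lt_exp]
        omega
      obtain ⟨r, hr1, hr⟩ := exists_one_add_pow_val v hp hδm.le
      have hz1 : v.valuation K (1 + δ * m) = 1 := Valuation.map_one_add_of_lt _ hδm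
      have hz0 : 1 + δ * m ≠ 0 := by
        intro h
        rw [h, map_zero] at hz1
        exact zero_ne_one hz1
      refine ⟨y * Units.mk0 _ hz0, ?_⟩
      have e : ((x / (y * Units.mk0 _ hz0) ^ p : Kˣ) : K) - 1 =
          (-(p * δ * (δ * (m * m) * r)) + -(δ ^ p * m ^ p)) / (1 + δ * m) ^ p := by
        have h1 : ((x / (y * Units.mk0 _ hz0) ^ p : Kˣ) : K) = x' / (1 + δ * m) ^ p := by
          rw [hx', mul_pow, ← div_div, Units.val_div_eq_div_val, Units.val_pow_eq_pow_val,
            Units.val_mk0]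
        rw [h1, eq_div_iff (pow_ne_zero p hz0), sub_mul, div_mul_cancel₀ _ (pow_ne_zero p hz0),
          one_mul, hr, hx1, mul_pow δ m p]
        ring
      rw [e, map_div₀, map_pow, hz1, one_pow, div_one]
      have hmm : v.valuation K m * v.valuation K m ≤ exp (-(((k + 1 : ℕ) : ℤ) + 1)) := by
        refine (mul_le_mul' hm1 hm2).trans ?_
        rw [← exp_add, exp_le_exp]
        push_cast
        omega
      refine (Valuation.map_add _ _ _).trans (max_le ?_ ?_)
      · rw [Valuation.map_neg, map_mul _ (p * δ : K)]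
        refine mul_le_mul' le_rfl ?_
        rw [map_mul, map_mul, map_mul]
        refine (mul_le_mul' (mul_le_mul' hδ1 hmm) hr1).trans ?_
        rw [one_mul, mul_one]
      · rw [Valuation.map_neg, map_mul]
        refine mul_le_mul' hδ ?_
        rw [map_pow]
        refine le_trans ?_ hmm
        rw [← pow_two]
        exact pow_le_pow_right_of_le_one' hm3 hp.two_le
  rw [mem_locPow]
  intro n
  obtain ⟨y, hy⟩ := key n
  refine ⟨y, hy.trans ?_⟩
  exact (mul_le_mul' hvpδ1 le_rfl).trans (by rw [one_mul])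

end Hensel

/-! ### The places above `p` -/

section AtP

universe u

variable {K : Type u} [Field K] [NumberField K] {p : ℕ} (v : HeightOneSpectrum (𝓞 K))

omit [NumberField K] in
lemma one_sub_zeta_ne_zero (hp : p.Prime) {ζ : K} (hζ : IsPrimitiveRoot ζ p) : 1 - ζ ≠ 0 :=
  sub_ne_zero.2 (hζ.ne_one hp.one_lt).symm

lemma valuation_zeta_le_one (hp : p.Prime) {ζ : K} (hζ : IsPrimitiveRoot ζ p) :
    v.valuation K ζ ≤ 1 := by
  have h1 : v.valuation K ζ ^ p = 1 := by rw [← map_pow, hζ.pow_eq_one, map_one]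
  exact (pow_le_one_iff hp.ne_zero).1 h1.le

lemma valuation_one_sub_zeta_le_one (hp : p.Prime) {ζ : K} (hζ : IsPrimitiveRoot ζ p) :
    v.valuation K (1 - ζ) ≤ 1 :=
  (Valuation.map_sub _ _ _).trans (max_le (by rw [map_one]) (valuation_zeta_le_one v hp hζ))

/-- `(1 - ζ) ^ p` is divisible by `p (1 - ζ)`. -/
lemma valuation_one_sub_zeta_pow (hp : p.Prime) {ζ : K} (hζ : IsPrimitiveRoot ζ p) :
    v.valuation K ((1 - ζ) ^ p) ≤ v.valuation K (p * (1 - ζ)) := by
  have h1 := valuation_one_sub_zeta_le_one v hp hζ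
  obtain ⟨r, hr1, hr⟩ := exists_one_add_pow_val v hp (u := -(1 - ζ)) (by rwa [Valuation.map_neg])
  have h2 : (1 + -(1 - ζ)) ^ p = 1 := by
    rw [← hζ.pow_eq_one]
    congr 1
    ring
  have h3 : (-(1 - ζ)) ^ p = p * (1 - ζ) * (1 - (1 - ζ) * r) := by
    rw [h2] at hr
    linear_combination -hr
  have h4 : v.valuation K ((1 - ζ) ^ p) = v.valuation K ((-(1 - ζ)) ^ p) := by
    rw [map_pow, map_pow, Valuation.map_neg]
  rw [h4, h3, map_mul]
  refine (mul_le_mul' le_rfl ?_).trans (by rw [mul_one])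
  refine (Valuation.map_sub _ _ _).trans (max_le (by rw [map_one]) ?_)
  rw [map_mul]
  exact mul_le_one' h1 hr1

/-- Units congruent to `1` modulo `p (1 - ζ) 𝔪_v` are `p`-th powers in `K_v`. -/
theorem mem_locPow_of_lt (hp : p.Prime) {ζ : K} (hζ : IsPrimitiveRoot ζ p) {x : Kˣ}
    (hx : v.valuation K ((x : K) - 1) < v.valuation K (p * (1 - ζ))) : x ∈ locPow p v :=
  mem_locPow_of_near v hp (one_sub_zeta_ne_zero hp hζ) (valuation_one_sub_zeta_le_one v hp hζ)
    (valuation_one_sub_zeta_pow v hp hζ) hx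

variable {v} in
lemma valuation_p_lt_one (hv : (p : 𝓞 K) ∈ v.asIdeal) : v.valuation K (p : K) < 1 := by
  have h := (v.valuation_lt_one_iff_mem (K := K) (p : 𝓞 K)).2 hv
  push_cast at h
  exact h

/-- Every `v`-unit is congruent to a `p`-th power modulo `v ∣ p`. -/
theorem exists_pow_near (hp : p.Prime) (hv : (p : 𝓞 K) ∈ v.asIdeal) {b : K}
    (hb : v.valuation K b = 1) : ∃ c : K, v.valuation K c = 1 ∧ v.valuation K (b - c ^ p) < 1 := by
  obtain ⟨b', hb'⟩ := v.exists_valuation_sub_lt_of_integer hb.le 1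
  rw [Units.val_one] at hb'
  have := v.isMaximal
  let _ := Ideal.Quotient.field v.asIdeal
  have : Finite (𝓞 K ⧸ v.asIdeal) := Ring.HasFiniteQuotients.finiteQuotient v.ne_bot
  have hchar : CharP (𝓞 K ⧸ v.asIdeal) p := by
    rw [CharP.charP_iff_prime_eq_zero hp, ← map_natCast (Ideal.Quotient.mk v.asIdeal)]
    exact Ideal.Quotient.eq_zero_iff_mem.2 hv
  have hfact := Fact.mk hp
  have hsurj : Function.Surjective (frobenius (𝓞 K ⧸ v.asIdeal) p) :=
    Finite.surjective_of_injective (frobenius_inj (𝓞 K ⧸ v.asIdeal) p)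
  obtain ⟨c', hc'⟩ := hsurj (Ideal.Quotient.mk v.asIdeal b')
  obtain ⟨c, rfl⟩ := Ideal.Quotient.mk_surjective c'
  rw [frobenius_def, ← map_pow, Ideal.Quotient.eq] at hc'
  have h1 : v.valuation K (((c ^ p - b' : 𝓞 K) : K)) < 1 :=
    (v.valuation_lt_one_iff_mem (K := K) _).2 hc'
  have h2 : v.valuation K (b - (c : K) ^ p) < 1 := by
    have e : b - (c : K) ^ p = -(((c ^ p - b' : 𝓞 K) : K)) + -((b' : K) - b) := by
      push_cast
      ring
    rw [e]
    refine (Valuation.map_add _ _ _).trans_lt (max_lt ?_ ?_)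
    · rwa [Valuation.map_neg]
    · rwa [Valuation.map_neg]
  refine ⟨c, ?_, h2⟩
  have h3 : v.valuation K ((c : K) ^ p) = 1 := by
    have e : (c : K) ^ p = b - (b - (c : K) ^ p) := by ring
    rw [e, Valuation.map_sub_eq_of_lt_left _ (by rwa [hb]), hb]
  rw [map_pow] at h3
  exact eq_one_of_pow_eq_one hp.ne_zero h3

variable (LS : LocalSymbols p K)

/-- The symbol is trivial on pairs of units which are close to `p`-th powers. -/
theorem sym_eq_one_of_near (hp : p.Prime) {ζ : K} (hζ : IsPrimitiveRoot ζ p) {a b : Kˣ} {c d : K}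
    (hc : v.valuation K c = 1) (hd : v.valuation K d = 1)
    (h : v.valuation K (a - c ^ p) * v.valuation K (b - d ^ p) < v.valuation K (p * (1 - ζ))) :
    LS.sym v a b = 1 := by
  have hc0 : c ≠ 0 := (Valuation.ne_zero_iff _).1 (by rw [hc]; exact one_ne_zero)
  have hd0 : d ≠ 0 := (Valuation.ne_zero_iff _).1 (by rw [hd]; exact one_ne_zero)
  have hp1 : (1 - ζ : K) ≠ 0 := one_sub_zeta_ne_zero hp hζ
  set A : Kˣ := a / Units.mk0 c hc0 ^ p with hA
  set B : Kˣ := b / Units.mk0 d hd0 ^ p with hB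
  have hAB : LS.sym v a b = LS.sym v A B := by
    have h1 : LS.sym v (Units.mk0 c hc0 ^ p) = 1 := by
      ext x
      exact congrArg _ (LS.sym_eq_one_of_left (pow_mem_locPow p v (Units.mk0 c hc0)))
    have h2 : LS.sym v a (Units.mk0 d hd0 ^ p) = 1 :=
      LS.sym_eq_one_of_right (pow_mem_locPow p v (Units.mk0 d hd0))
    rw [hA, hB, _root_.map_div (LS.sym v), h1, div_one, _root_.map_div, h2, div_one]
  set x : K := 1 - A with hx
  set y : K := 1 - B with hy
  have hAx : (A : K) = 1 - x := by rw [hx]; ring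
  have hBy : (B : K) = 1 - y := by rw [hy]; ring
  have hvx : v.valuation K x = v.valuation K (a - c ^ p) := by
    have e : x = -((a : K) - c ^ p) / c ^ p := by
      rw [hx, hA, Units.val_div_eq_div_val, Units.val_pow_eq_pow_val, Units.val_mk0]
      field_simp
      ring
    rw [e, map_div₀, map_pow, hc, one_pow, div_one, Valuation.map_neg]
  have hvy : v.valuation K y = v.valuation K (b - d ^ p) := by
    have e : y = -((b : K) - d ^ p) / d ^ p := by
      rw [hy, hB, Units.val_div_eq_div_val, Units.val_pow_eq_pow_val, Units.val_mk0]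
      field_simp
      ring
    rw [e, map_div₀, map_pow, hd, one_pow, div_one, Valuation.map_neg]
  have hxy : v.valuation K (x * y) < v.valuation K (p * (1 - ζ)) := by
    rw [map_mul, hvx, hvy]
    exact h
  have hle : v.valuation K (p * (1 - ζ)) ≤ 1 := by
    rw [map_mul]
    exact mul_le_one' (valuation_natCast_le_one v p) (valuation_one_sub_zeta_le_one v hp hζ)
  have h1 : v.valuation K (1 - x * y) = 1 := Valuation.map_one_sub_of_lt _ (hxy.trans_le hle)
  have h0 : 1 - x * y ≠ 0 := (Valuation.ne_zero_iff _).1 (by rw [h1]; exact one_ne_zero)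
  rw [hAB]
  refine sym_eq_one_of_mul LS v hp.ne_zero hAx hBy (C := Units.mk0 _ h0) (Units.val_mk0 h0)
    (mem_locPow_of_lt v hp hζ ?_)
  rw [Units.val_mk0, show 1 - x * y - 1 = -(x * y) by ring, Valuation.map_neg]
  exact hxy

/-- At `v ∣ p`: the symbol of a unit and a unit which is a `p`-th power modulo `p (1 - ζ)` is
trivial. -/
theorem sym_eq_one_of_primary (hp : p.Prime) (hv : (p : 𝓞 K) ∈ v.asIdeal) {ζ : K}
    (hζ : IsPrimitiveRoot ζ p) {a b : Kˣ} {c : K} (ha : ord v a = 0) (hb : ord v b = 0)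
    (hac : v.valuation K (a - c ^ p) ≤ v.valuation K (p * (1 - ζ))) : LS.sym v a b = 1 := by
  have ha1 := (ord_eq_zero_iff (K := K) v a).1 ha
  have hb1 := (ord_eq_zero_iff (K := K) v b).1 hb
  obtain ⟨d, hd1, hd⟩ := exists_pow_near v hp hv hb1
  have hlt : v.valuation K (p * (1 - ζ)) < 1 := by
    rw [map_mul]
    exact mul_lt_one_of_lt_of_le (valuation_p_lt_one hv) (valuation_one_sub_zeta_le_one v hp hζ)
  have hc1 : v.valuation K c = 1 := by
    have h3 : v.valuation K (c ^ p) = 1 := by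
      have e : c ^ p = a - (a - c ^ p) := by ring
      rw [e, Valuation.map_sub_eq_of_lt_left _ (by rw [ha1]; exact hac.trans_lt hlt), ha1]
    rw [map_pow] at h3
    exact eq_one_of_pow_eq_one hp.ne_zero h3
  refine sym_eq_one_of_near v LS hp hζ hc1 hd1 ?_
  have hne : 0 < v.valuation K (p * (1 - ζ)) := zero_lt_iff.2 ((Valuation.ne_zero_iff _).2
    (mul_ne_zero (by exact_mod_cast hp.ne_zero) (one_sub_zeta_ne_zero hp hζ)))
  calc v.valuation K (a - c ^ p) * v.valuation K (b - d ^ p)
      ≤ v.valuation K (p * (1 - ζ)) * v.valuation K (b - d ^ p) := mul_le_mul' hac le_rfl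
    _ < v.valuation K (p * (1 - ζ)) * 1 := by
        exact mul_lt_mul_of_pos_left hd hne
    _ = v.valuation K (p * (1 - ζ)) := mul_one _

end AtP

/-! ### The tame places -/

section Tame

universe u

variable {K : Type u} [Field K] [NumberField K] {p : ℕ} (v : HeightOneSpectrum (𝓞 K))

variable {v} in
lemma valuation_p_eq_one (hv : (p : 𝓞 K) ∉ v.asIdeal) : v.valuation K (p : K) = 1 := by
  have h := (v.valuation_eq_one_iff_notMem (K := K) (r := (p : 𝓞 K))).2 hv
  push_cast at h
  exact h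

/-- At `v ∤ p`, units congruent to `1` modulo `v` are `p`-th powers in `K_v`. -/
theorem mem_locPow_of_lt_one (hp : p.Prime) (hv : (p : 𝓞 K) ∉ v.asIdeal) {x : Kˣ}
    (hx : v.valuation K ((x : K) - 1) < 1) : x ∈ locPow p v := by
  have h1 := valuation_p_eq_one hv
  refine mem_locPow_of_near v hp (δ := 1) one_ne_zero (by rw [map_one]) ?_ ?_
  · rw [one_pow, mul_one, h1, map_one]
  · rw [mul_one, h1]
    exact hx

/-- At `v ∤ p`, a unit `a` is a `p`-th power in `K_v` iff it is a `p`-th power modulo `v`. -/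
theorem mem_locPow_iff_residue (hp : p.Prime) (hv : (p : 𝓞 K) ∉ v.asIdeal) {a : 𝓞 K} {u : Kˣ}
    (hu : (u : K) = algebraMap (𝓞 K) K a) (ha : a ∉ v.asIdeal) :
    u ∈ locPow p v ↔ ∃ y : 𝓞 K, y ^ p - a ∈ v.asIdeal := by
  have hu1 : v.valuation K (u : K) = 1 := by
    rw [hu]
    exact (v.valuation_eq_one_iff_notMem (K := K)).2 ha
  constructor
  · intro h
    obtain ⟨y, hy⟩ := mem_locPow.1 h 0
    have hy1 : v.valuation K ((u : K) / (y : K) ^ p - 1) < 1 := by
      refine lt_of_le_of_lt ?_ (show exp (-((0 : ℕ) + 1 : ℤ)) < (1 : ℤᵐ⁰) by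
        rw [← exp_zero, exp_lt_exp]; simp)
      simpa using hy
    have hy2 : v.valuation K ((y : K) ^ p) = 1 := by
      have h2 : v.valuation K ((u : K) / (y : K) ^ p) = 1 := by
        have e : (u : K) / (y : K) ^ p = 1 + ((u : K) / (y : K) ^ p - 1) := by ring
        rw [e, Valuation.map_one_add_of_lt _ hy1]
      rw [map_div₀, hu1, one_div, inv_eq_one] at h2
      exact h2
    have hy3 : v.valuation K (y : K) = 1 := by
      rw [map_pow] at hy2
      exact eq_one_of_pow_eq_one hp.ne_zero hy2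
    obtain ⟨z, hz⟩ := v.exists_valuation_sub_lt_of_integer hy3.le 1
    rw [Units.val_one] at hz
    refine ⟨z, ?_⟩
    rw [← val_lt_one_iff v]
    have hz1 : v.valuation K (algebraMap (𝓞 K) K z ^ p - (y : K) ^ p) < 1 := by
      obtain ⟨w, hw⟩ := sub_dvd_pow_sub_pow (⟨algebraMap (𝓞 K) K z, v.valuation_le_one z⟩ :
        (v.valuation K).integer) ⟨(y : K), hy3.le⟩ p
      have h2 := congrArg (fun t : (v.valuation K).integer => (t : K)) hw
      push_cast at h2
      rw [h2, map_mul]
      exact mul_lt_one_of_lt_of_le hz w.2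
    have e : algebraMap (𝓞 K) K (z ^ p - a) = (algebraMap (𝓞 K) K z ^ p - (y : K) ^ p) +
        -(((u : K) / (y : K) ^ p - 1) * (y : K) ^ p) := by
      have hy0 : (y : K) ≠ 0 := y.ne_zero
      rw [map_sub, map_pow, ← hu]
      field_simp
      ring
    rw [e]
    refine (Valuation.map_add _ _ _).trans_lt (max_lt hz1 ?_)
    rw [Valuation.map_neg, map_mul, hy2, mul_one]
    exact hy1
  · rintro ⟨y, hy⟩
    set Y : K := algebraMap (𝓞 K) K y with hY
    have hya : v.valuation K (Y ^ p - u) < 1 := by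
      have h := (val_lt_one_iff v (y ^ p - a)).2 hy
      rwa [map_sub, map_pow, ← hu] at h
    have hy2 : v.valuation K (Y ^ p) = 1 := by
      have e : Y ^ p = u + (Y ^ p - u) := by ring
      rw [e, Valuation.map_add_eq_of_lt_left _ (by rw [hu1]; exact hya), hu1]
    have hy0 : Y ≠ 0 := by
      intro h
      rw [h, zero_pow hp.ne_zero, map_zero] at hy2
      exact zero_ne_one hy2
    have h1 : u = Units.mk0 Y hy0 ^ p * (u / Units.mk0 Y hy0 ^ p) := by
      rw [mul_div_cancel]
    rw [h1]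
    refine Subgroup.mul_mem _ (pow_mem_locPow p v _) (mem_locPow_of_lt_one v hp hv ?_)
    have e : ((u / Units.mk0 Y hy0 ^ p : Kˣ) : K) - 1 =
        -(Y ^ p - u) / Y ^ p := by
      rw [Units.val_div_eq_div_val, Units.val_pow_eq_pow_val, Units.val_mk0]
      field_simp
      ring
    rw [e, map_div₀, Valuation.map_neg, hy2, div_one]
    exact hya

variable (LS : LocalSymbols p K)

/-- At `v ∤ p` and for a `v`-unit `a`, the symbol `(a, x)_v` only depends on `ord_v x`. -/
theorem sym_eq_of_ord_eq (hv : (p : 𝓞 K) ∉ v.asIdeal) {a x y : Kˣ} (ha : ord v a = 0)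
    (h : ord v x = ord v y) : LS.sym v a x = LS.sym v a y := by
  have h1 : LS.sym v a (x / y) = 1 := LS.unit_mem v hv a (x / y) ha (by rw [ord_div, h, sub_self])
  rw [_root_.map_div, div_eq_one] at h1
  exact h1

/-- At `v ∤ p`, for a unit `a` and a uniformizer `x`: `(a, x)_v = 1` iff `a` is a `p`-th power in
`K_v`. -/
theorem sym_eq_one_iff (hv : (p : 𝓞 K) ∉ v.asIdeal) {a x : Kˣ} (ha : ord v a = 0)
    (hx : ord v x = 1) : LS.sym v a x = 1 ↔ a ∈ locPow p v := by
  constructor
  · intro h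
    rw [LS.mem_locPow_iff]
    intro y
    have h1 : LS.sym v a y = LS.sym v a (x ^ (ord v y)) := by
      apply sym_eq_of_ord_eq v LS hv ha
      have h2 : ord v (x ^ (ord v y)) = ord v y * ord v x := by
        obtain ⟨n, hn | hn⟩ := Int.eq_nat_or_neg (ord v y)
        · rw [hn, zpow_natCast, ord_pow]
        · rw [hn, zpow_neg, zpow_natCast, ord_inv, ord_pow]
          ring
      rw [h2, hx, mul_one]
    rw [h1, map_zpow, h, one_zpow]
  · exact fun h => LS.sym_eq_one_of_left h

end Tame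

end Fermat.Agent.Cor.Recip
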