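import Fermat.Agent.Corollaries.Recip.Const
import Mathlib.NumberTheory.Padics.PadicVal.Basic
import Mathlib.NumberTheory.NumberField.Cyclotomic.Basic

/-!
# Auxiliary primes

`exists_aux_prime`: for an odd prime `p` and primes `q₁`, `q₂` there are arbitrarily large primes
`ℓ ≡ 1 mod p` such that neither `q₁` nor `q₂` is a `p`-th power modulo `ℓ`.
-/

set_option autoImplicit false

namespace Fermat.Agent.Cor.Recip

open Fermat.Agent.CFT.Global hiding Inputs p_dvd_index exists_notMem_locPow exists_place powE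
  mem_powE index_powE index_zpowers_sup_powE second hasse_norm FirstInequality exists_eq_nsmul_add
  exists_ne_symVec exists_functional_aux exists_inj forall_ne_zero exists_functional
open Fermat.Agent.CFT.Global2 Fermat.Agent.LT
open Fermat.Agent.CFT.SUnits (ord ord_one ord_mul ord_pow ord_div ord_inv ord_eq_zero_iff
  valuation_eq_exp_neg_ord)
open NumberField IsDedekindDomain WithZero

/-- A rational prime is not a `p`-th power in a number field of degree prime to `p`. -/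
theorem pow_ne_prime {p : ℕ} {K : Type*} [Field K] [NumberField K]
    (hK : ¬ p ∣ Module.finrank ℚ K) {q : ℕ} (hq : q.Prime) (x : K) : x ^ p ≠ (q : K) := by
  intro h
  have : Fact q.Prime := ⟨hq⟩
  have h1 := congrArg (Algebra.norm ℚ) h
  rw [map_pow, show (q : K) = algebraMap ℚ K (q : ℚ) by simp, Algebra.norm_algebraMap] at h1
  have h2 := congrArg (padicValRat q) h1
  rw [padicValRat.pow, padicValRat.pow, padicValRat.self hq.one_lt, mul_one] at h2
  apply hK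
  rw [← Int.natCast_dvd_natCast, ← h2]
  exact dvd_mul_right _ _

/-- In a field with `ℓ` elements, `p ∤ ℓ - 1`, everything is a `p`-th power. -/
lemma exists_pow_eq_of_not_dvd {p ℓ : ℕ} (hp : p.Prime) [Fact ℓ.Prime] (h : ¬ p ∣ ℓ - 1)
    (a : ZMod ℓ) : ∃ x : ZMod ℓ, x ^ p = a := by
  by_cases ha : a = 0
  · exact ⟨0, by rw [ha, zero_pow hp.ne_zero]⟩
  have hc : (Nat.card (ZMod ℓ)ˣ).Coprime p := by
    rw [Nat.card_units, Nat.card_zmod]
    exact ((Nat.Prime.coprime_iff_not_dvd hp).2 h).symm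
  obtain ⟨u, hu⟩ := (powCoprime hc).surjective (Units.mk0 a ha)
  refine ⟨u, ?_⟩
  have h1 := congrArg Units.val hu
  simpa using h1

/-- **Auxiliary primes.** -/
theorem exists_aux_prime {p : ℕ} [hp : Fact p.Prime] (hp2 : p ≠ 2) {q₁ q₂ : ℕ} (h₁ : q₁.Prime)
    (h₂ : q₂.Prime) (B : ℕ) :
    ∃ ℓ : ℕ, ℓ.Prime ∧ B < ℓ ∧ p ∣ ℓ - 1 ∧ (∀ x : ZMod ℓ, x ^ p ≠ q₁) ∧
      ∀ x : ZMod ℓ, x ^ p ≠ q₂ := by
  classical
  have : NeZero p := ⟨hp.out.ne_zero⟩
  let K := CyclotomicField p ℚ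
  have : IsCyclotomicExtension {p} ℚ K := CyclotomicField.isCyclotomicExtension p ℚ
  have hζ : IsPrimitiveRoot (IsCyclotomicExtension.zeta p ℚ K) p :=
    IsCyclotomicExtension.zeta_spec p ℚ K
  have : IsTotallyComplex K := isTotallyComplex_of_odd hp.out hp2 hζ
  have hdeg : Module.finrank ℚ K = p - 1 := by
    rw [IsCyclotomicExtension.finrank (n := p) K
      (Polynomial.cyclotomic.irreducible_rat hp.out.pos), Nat.totient_prime hp.out]
  have hndvd : ¬ p ∣ Module.finrank ℚ K := by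
    rw [hdeg]
    have h2 := hp.out.two_le
    exact fun h => absurd (Nat.le_of_dvd (by omega) h) (by omega)
  -- the finite set of excluded places
  set N : ℕ := p * (B.factorial * (q₁ * q₂)) with hN
  have hN0 : N ≠ 0 := mul_ne_zero hp.out.ne_zero
    (mul_ne_zero (Nat.factorial_ne_zero B) (mul_ne_zero h₁.ne_zero h₂.ne_zero))
  have hfin : {v : HeightOneSpectrum (𝓞 K) | v.asIdeal ∣ Ideal.span {(N : 𝓞 K)}}.Finite :=
    Ideal.finite_factors (by
      rw [Ne, Ideal.zero_eq_bot, Ideal.span_singleton_eq_bot]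
      exact_mod_cast hN0)
  set S : Finset (HeightOneSpectrum (𝓞 K)) := hfin.toFinset with hSdef
  have hS : ∀ v, v ∈ S ↔ (N : 𝓞 K) ∈ v.asIdeal := by
    intro v
    rw [hSdef, Set.Finite.mem_toFinset, Set.mem_ofPred_eq, Ideal.dvd_span_singleton]
  have hSmem : ∀ v ∉ S, ∀ m : ℕ, m ∣ N → (m : 𝓞 K) ∉ v.asIdeal := by
    rintro v hv m ⟨k, hk⟩ hm
    apply hv
    rw [hS, hk, Nat.cast_mul]
    exact Ideal.mul_mem_right _ _ hm
  have hSp : AboveP p S := by
    intro v hv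
    by_contra h
    exact hSmem v h p ⟨_, hN⟩ hv
  have hq₁N : q₁ ∣ N := ⟨p * (B.factorial * q₂), by rw [hN]; ring⟩
  have hq₂N : q₂ ∣ N := ⟨p * (B.factorial * q₁), by rw [hN]; ring⟩
  have hq₁0 : (q₁ : 𝓞 K) ≠ 0 := by exact_mod_cast h₁.ne_zero
  have hq₂0 : (q₂ : 𝓞 K) ≠ 0 := by exact_mod_cast h₂.ne_zero
  set u₁ : Kˣ := unt hq₁0 with hu₁
  set u₂ : Kˣ := unt hq₂0 with hu₂
  have hE₁ : u₁ ∈ E S := by
    rw [mem_E]
    exact fun v hv => ord_unt_eq_zero hq₁0 (hSmem v hv q₁ hq₁N)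
  have hE₂ : u₂ ∈ E S := by
    rw [mem_E]
    exact fun v hv => ord_unt_eq_zero hq₂0 (hSmem v hv q₂ hq₂N)
  have hna₁ : ∀ b : Kˣ, b ^ p ≠ u₁ := by
    intro b hb
    refine pow_ne_prime hndvd h₁ (b : K) ?_
    have h := congrArg Units.val hb
    rw [Units.val_pow_eq_pow_val, hu₁, unt_val] at h
    simpa using h
  have hna₂ : ∀ b : Kˣ, b ^ p ≠ u₂ := by
    intro b hb
    refine pow_ne_prime hndvd h₂ (b : K) ?_
    have h := congrArg Units.val hb
    rw [Units.val_pow_eq_pow_val, hu₂, unt_val] at h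
    simpa using h
  -- a place at which neither is a local `p`-th power
  obtain ⟨v, hvS, hv₁, hv₂⟩ : ∃ v ∉ S, u₁ ∉ locPow p v ∧ u₂ ∉ locPow p v := by
    by_cases hrel : ∃ (k : ℕ) (b : Kˣ), u₂ = u₁ ^ k * b ^ p
    · obtain ⟨k, b, hkb⟩ := hrel
      obtain ⟨v, hv, hv'⟩ := exists_notMem_locPow (inputs (p := p)) hζ S hna₂
      refine ⟨v, hv, fun h => hv' ?_, hv'⟩
      rw [hkb]
      exact mul_mem (pow_mem h k) (pow_mem_locPow p v b)
    · push Not at hrel
      -- `a = u₂ u₁ ^ (p - 1)`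
      have ha : u₂ * u₁ ^ (p - 1) ∈ E S := mul_mem hE₂ (pow_mem hE₁ _)
      have hpm : p - 1 + 1 = p := Nat.sub_add_cancel hp.out.one_le
      have hna : ∀ b : Kˣ, b ^ p ≠ u₂ * u₁ ^ (p - 1) := by
        intro b hb
        apply hrel 1 (b * u₁⁻¹)
        have h1 : u₂ * u₁ ^ (p - 1) * u₁ = b ^ p * u₁ := by rw [hb]
        rw [mul_assoc, ← pow_succ, hpm] at h1
        rw [mul_pow, inv_pow, pow_one, ← mul_assoc, mul_comm u₁, ← h1, mul_assoc,
          mul_inv_cancel, mul_one]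
      have hxa : ∀ (k : ℕ) (b : Kˣ), u₁ ≠ (u₂ * u₁ ^ (p - 1)) ^ k * b ^ p := by
        intro k b hb
        by_cases hk : p ∣ k
        · obtain ⟨m, rfl⟩ := hk
          apply hna₁ ((u₂ * u₁ ^ (p - 1)) ^ m * b)
          rw [mul_pow, ← pow_mul, mul_comm m p, ← hb]
        · obtain ⟨j, hj⟩ : ∃ j : ℕ, ∃ i : ℕ, k * j = 1 + p * i := by
            have h1 : Nat.Coprime k p := ((Nat.Prime.coprime_iff_not_dvd hp.out).2 hk).symm
            obtain ⟨j, hj⟩ := Nat.exists_mul_mod_eq_one_of_coprime h1 hp.out.one_lt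
            refine ⟨j, k * j / p, ?_⟩
            rw [← hj.2]
            exact (Nat.mod_add_div _ _).symm
          obtain ⟨i, hi⟩ := hj
          -- `u₁ ^ j = (u₂ u₁ ^ (p - 1)) ^ (k j) b ^ (p j)`
          have h1 : u₁ ^ j = (u₂ * u₁ ^ (p - 1)) ^ (1 + p * i) * (b ^ j) ^ p := by
            conv_lhs => rw [hb]
            rw [mul_pow, ← pow_mul, hi, ← pow_mul, ← pow_mul, mul_comm p j]
          have h2 : u₂ = u₁ ^ (j + 1) *
              (((u₂ * u₁ ^ (p - 1)) ^ i * b ^ j * u₁)⁻¹) ^ p := by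
            have e1 : u₁ ^ p = u₁ ^ (p - 1) * u₁ := by rw [← pow_succ, hpm]
            rw [pow_succ, h1, pow_add, pow_one, inv_pow, eq_mul_inv_iff_mul_eq, mul_pow _ u₁,
              mul_pow _ (b ^ j), e1, ← pow_mul _ i p, mul_comm i p]
            simp only [mul_comm, mul_left_comm, mul_assoc]
          exact hrel _ _ h2
      obtain ⟨v, hv, hv1, hv2⟩ := exists_place (inputs (p := p)) hζ hSp ha hna hE₁ hxa
      refine ⟨v, hv, hv2, fun h => hv2 ?_⟩
      have h1 : u₁ ^ (p - 1) ∈ locPow p v := by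
        have h2 := mul_mem (inv_mem h) hv1
        rwa [inv_mul_cancel_left] at h2
      have h3 : u₁ = u₁ ^ p * (u₁ ^ (p - 1))⁻¹ := by
        rw [eq_mul_inv_iff_mul_eq, ← pow_succ', hpm]
      rw [h3]
      exact mul_mem (pow_mem_locPow p v u₁) (inv_mem h1)
  -- the prime below `v`
  obtain ⟨ℓ, hℓ, hℓv⟩ : ∃ ℓ : ℕ, ℓ.Prime ∧ (ℓ : 𝓞 K) ∈ v.asIdeal := by
    have h1 : (Ideal.absNorm v.asIdeal : 𝓞 K) ∈ v.asIdeal := Ideal.absNorm_mem v.asIdeal
    have hn1 : Ideal.absNorm v.asIdeal ≠ 1 := by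
      rw [Ne, Ideal.absNorm_eq_one_iff]
      exact v.isPrime.ne_top
    have hn0 : Ideal.absNorm v.asIdeal ≠ 0 := by
      rw [Ne, Ideal.absNorm_eq_zero_iff]
      exact v.ne_bot
    have h2 : ∀ m : ℕ, m ≠ 0 → (m : 𝓞 K) ∈ v.asIdeal → ∃ ℓ : ℕ, ℓ.Prime ∧ (ℓ : 𝓞 K) ∈ v.asIdeal := by
      intro m
      induction m using Nat.recOnMul with
      | zero => exact fun h => absurd rfl h
      | one =>
        intro _ h
        rw [Nat.cast_one] at h
        exact absurd ((Ideal.eq_top_iff_one _).2 h) v.isPrime.ne_top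
      | prime q hq => exact fun _ h => ⟨q, hq, h⟩
      | mul a b iha ihb =>
        intro hm h
        rw [Nat.cast_mul] at h
        rcases v.isPrime.mem_or_mem h with h | h
        · exact iha (left_ne_zero_of_mul hm) h
        · exact ihb (right_ne_zero_of_mul hm) h
    exact h2 _ hn0 h1
  have : Fact ℓ.Prime := ⟨hℓ⟩
  have hvp : (p : 𝓞 K) ∉ v.asIdeal := fun h => hvS (hSp v h)
  have key : ∀ (q : ℕ) (h0 : (q : 𝓞 K) ≠ 0), (q : 𝓞 K) ∉ v.asIdeal → unt h0 ∉ locPow p v →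
      ∀ x : ZMod ℓ, x ^ p ≠ q := by
    intro q h0 hqv hq x hx
    apply hq
    rw [mem_locPow_iff_residue v hp.out hvp (unt_val h0) hqv]
    obtain ⟨X, rfl⟩ := ZMod.intCast_surjective x
    refine ⟨(X : 𝓞 K), ?_⟩
    have h1 : (ℓ : ℤ) ∣ X ^ p - q := by
      rw [← ZMod.intCast_zmod_eq_zero_iff_dvd]
      push_cast
      rw [hx, sub_self]
    obtain ⟨y, hy⟩ := h1
    have h2 : (X : 𝓞 K) ^ p - (q : 𝓞 K) = (ℓ : 𝓞 K) * (y : 𝓞 K) := by exact_mod_cast hy
    rw [h2]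
    exact Ideal.mul_mem_right _ _ hℓv
  have k₁ := key q₁ hq₁0 (hSmem v hvS q₁ hq₁N) hv₁
  have k₂ := key q₂ hq₂0 (hSmem v hvS q₂ hq₂N) hv₂
  refine ⟨ℓ, hℓ, ?_, ?_, k₁, k₂⟩
  · by_contra hB
    push Not at hB
    refine hSmem v hvS ℓ ?_ hℓv
    exact (Nat.dvd_factorial hℓ.pos hB).trans ⟨p * (q₁ * q₂), by rw [hN]; ring⟩
  · by_contra h
    obtain ⟨x, hx⟩ := exists_pow_eq_of_not_dvd hp.out h (q₁ : ZMod ℓ)
    exact k₁ x hx

end Fermat.Agent.Cor.Recip
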