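import Fermat.Agent.Corollaries.Recip.Main
import Fermat.Agent.Corollaries.HM.Main

/-!
# Hecke's quadratic reciprocity law in totally complex number fields

For a finite place `v` of the number field `K`, `a ∈ 𝓞 K` and an ideal `I` of `𝓞 K`:

* `leg a v`: the quadratic residue symbol `(a / v)`, equal to `0` if `a ∈ v`, to `1` if `a` is a
  non-zero square modulo `v`, to `-1` otherwise;
* `jac a I = ∏ᶠ v, (a / v) ^ expo v I`: the Jacobi symbol `(a / I)`;
* `hilb v a b`: the Hilbert symbol, equal to `1` if `a x ^ 2 + b y ^ 2 = z ^ 2` has a non-trivial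
  solution in `K_v` and to `-1` otherwise.

`hecke`: if `K` is totally complex and `a, b ∈ 𝓞 K` are odd and coprime then
`(a / b) (b / a) = ∏_{v ∣ 2} (a, b)_v`; `hecke_primary`: `(a / b) = (b / a)` if moreover `a` is
congruent to a square modulo `4`.
-/

set_option autoImplicit false

namespace Fermat.Agent.Cor.Recip

open Fermat.Agent.CFT.Global Fermat.Agent.CFT.Global2
open Fermat.Agent.CFT.SUnits (ord ord_one ord_mul ord_pow ord_div ord_inv ord_eq_zero_iff
  valuation_eq_exp_neg_ord)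
open NumberField IsDedekindDomain WithZero UniqueFactorizationMonoid

section Def

variable {K : Type} [Field K] [NumberField K]

open Classical in
/-- The quadratic residue symbol `(a / v)`. -/
noncomputable def leg (a : 𝓞 K) (v : HeightOneSpectrum (𝓞 K)) : ℤ :=
  if a ∈ v.asIdeal then 0 else if ∃ x : 𝓞 K, x ^ 2 - a ∈ v.asIdeal then 1 else -1

open Classical in
/-- The exponent of `v` in the factorization of `I`. -/
noncomputable def expo (v : HeightOneSpectrum (𝓞 K)) (I : Ideal (𝓞 K)) : ℕ :=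
  (normalizedFactors I).count v.asIdeal

/-- The Jacobi symbol `(a / I)`. -/
noncomputable def jac (a : 𝓞 K) (I : Ideal (𝓞 K)) : ℤ :=
  ∏ᶠ v : HeightOneSpectrum (𝓞 K), leg a v ^ expo v I

open Classical in
/-- The odd part of the Jacobi symbol: only the places `v ∤ 2` are taken into account. -/
noncomputable def jacOdd (a : 𝓞 K) (I : Ideal (𝓞 K)) : ℤ :=
  ∏ᶠ v : HeightOneSpectrum (𝓞 K), if (2 : 𝓞 K) ∈ v.asIdeal then 1 else leg a v ^ expo v I

open Classical in
/-- The Hilbert symbol `(a, b)_v`. -/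
noncomputable def hilb (v : HeightOneSpectrum (𝓞 K)) (a b : K) : ℤ :=
  if HM.IsSplitAt v a b then 1 else -1

end Def

section Leg

variable {K : Type} [Field K] [NumberField K]

/-- The residue symbol is the quadratic character of the residue field. -/
theorem exists_leg_eq (v : HeightOneSpectrum (𝓞 K)) : ∃ (F : Type) (_ : Field F) (_ : Fintype F)
    (_ : DecidableEq F) (f : 𝓞 K →+* F), Function.Surjective f ∧ RingHom.ker f = v.asIdeal ∧
      ∀ a : 𝓞 K, leg a v = quadraticChar F (f a) := by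
  classical
  have hmax := v.isMaximal
  let _ := Ideal.Quotient.field v.asIdeal
  have hfin : Finite (𝓞 K ⧸ v.asIdeal) := Ring.HasFiniteQuotients.finiteQuotient v.ne_bot
  let _ : Fintype (𝓞 K ⧸ v.asIdeal) := Fintype.ofFinite _
  refine ⟨𝓞 K ⧸ v.asIdeal, inferInstance, inferInstance, inferInstance,
    Ideal.Quotient.mk v.asIdeal, Ideal.Quotient.mk_surjective, Ideal.mk_ker, fun a => ?_⟩
  rw [quadraticChar_apply, quadraticCharFun, leg]
  have h1 : Ideal.Quotient.mk v.asIdeal a = 0 ↔ a ∈ v.asIdeal := Ideal.Quotient.eq_zero_iff_mem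
  have h2 : IsSquare (Ideal.Quotient.mk v.asIdeal a) ↔ ∃ x : 𝓞 K, x ^ 2 - a ∈ v.asIdeal := by
    constructor
    · rintro ⟨y, hy⟩
      obtain ⟨x, rfl⟩ := Ideal.Quotient.mk_surjective y
      refine ⟨x, ?_⟩
      rw [← Ideal.Quotient.eq, map_pow, sq]
      exact hy.symm
    · rintro ⟨x, hx⟩
      refine ⟨Ideal.Quotient.mk v.asIdeal x, ?_⟩
      rw [← Ideal.Quotient.eq, map_pow, sq] at hx
      exact hx.symm
  by_cases ha : a ∈ v.asIdeal
  · rw [if_pos ha, if_pos (h1.2 ha)]
  · rw [if_neg ha, if_neg (fun h => ha (h1.1 h))]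
    by_cases hs : ∃ x : 𝓞 K, x ^ 2 - a ∈ v.asIdeal
    · rw [if_pos hs, if_pos (h2.2 hs)]
    · rw [if_neg hs, if_neg (fun h => hs (h2.1 h))]

/-- The residue symbol is multiplicative. -/
theorem leg_mul (a b : 𝓞 K) (v : HeightOneSpectrum (𝓞 K)) :
    leg (a * b) v = leg a v * leg b v := by
  obtain ⟨F, _, _, _, f, -, -, hf⟩ := exists_leg_eq v
  rw [hf, hf, hf, map_mul, map_mul]

/-- The residue symbol `(a / v)` only depends on `a` modulo `v`. -/
theorem leg_congr {a b : 𝓞 K} {v : HeightOneSpectrum (𝓞 K)} (h : a - b ∈ v.asIdeal) :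
    leg a v = leg b v := by
  obtain ⟨F, _, _, _, f, -, hk, hf⟩ := exists_leg_eq v
  rw [← hk, RingHom.sub_mem_ker_iff] at h
  rw [hf, hf, h]

end Leg

section Expo

variable {K : Type} [Field K] [NumberField K]

lemma expo_span {v : HeightOneSpectrum (𝓞 K)} {b : 𝓞 K} (hb : b ≠ 0) :
    (expo v (Ideal.span {b}) : ℤ) = ord v (unt hb) := by
  classical
  have h1 := valuation_eq_exp_neg_ord (K := K) v (unt hb)
  have hs : Ideal.span {b} ≠ 0 := by
    rwa [Ne, Ideal.zero_eq_bot, Ideal.span_singleton_eq_bot]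
  rw [unt_val, v.valuation_of_algebraMap, v.intValuation_if_neg hb,
    Ideal.count_associates_factors_eq hs v.isPrime v.ne_bot, exp_inj] at h1
  rw [expo]
  convert (neg_inj.1 h1) using 1

lemma expo_span_eq_zero {v : HeightOneSpectrum (𝓞 K)} {b : 𝓞 K} (hb : b ≠ 0)
    (hv : b ∉ v.asIdeal) : expo v (Ideal.span {b}) = 0 := by
  have h := expo_span (v := v) hb
  rw [ord_unt_eq_zero hb hv] at h
  exact_mod_cast h

lemma finite_expo_ne_zero (I : Ideal (𝓞 K)) :
    {v : HeightOneSpectrum (𝓞 K) | expo v I ≠ 0}.Finite := by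
  classical
  have h1 : ((normalizedFactors I).toFinset : Set (Ideal (𝓞 K))).Finite := Finset.finite_toSet _
  refine Set.Finite.of_finite_image (f := fun v : HeightOneSpectrum (𝓞 K) => v.asIdeal)
    (h1.subset ?_) (fun a _ b _ h => HeightOneSpectrum.ext h)
  rintro _ ⟨v, hv, rfl⟩
  rw [Finset.mem_coe, Multiset.mem_toFinset]
  exact Multiset.count_ne_zero.1 hv

lemma expo_mul {v : HeightOneSpectrum (𝓞 K)} {I J : Ideal (𝓞 K)} (hI : I ≠ ⊥) (hJ : J ≠ ⊥) :
    expo v (I * J) = expo v I + expo v J := by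
  classical
  rw [expo, expo, expo, normalizedFactors_mul hI hJ, Multiset.count_add]

lemma expo_top (v : HeightOneSpectrum (𝓞 K)) : expo v ⊤ = 0 := by
  classical
  rw [expo, ← Ideal.one_eq_top, normalizedFactors_one, Multiset.count_zero]

lemma finite_mulSupport_jac (a : 𝓞 K) (I : Ideal (𝓞 K)) :
    (Function.mulSupport fun v : HeightOneSpectrum (𝓞 K) => leg a v ^ expo v I).Finite := by
  refine (finite_expo_ne_zero I).subset fun v hv h => hv ?_
  change leg a v ^ expo v I = 1
  rw [h, pow_zero]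

lemma jac_top (a : 𝓞 K) : jac a ⊤ = 1 := by
  simp only [jac, expo_top, pow_zero, finprod_one]

/-- The Jacobi symbol is multiplicative in the lower argument. -/
theorem jac_mul (a : 𝓞 K) {I J : Ideal (𝓞 K)} (hI : I ≠ ⊥) (hJ : J ≠ ⊥) :
    jac a (I * J) = jac a I * jac a J := by
  rw [jac, jac, jac, ← finprod_mul_distrib (finite_mulSupport_jac a I) (finite_mulSupport_jac a J)]
  refine finprod_congr fun v => ?_
  rw [expo_mul hI hJ, pow_add]

/-- The Jacobi symbol is multiplicative in the upper argument. -/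
theorem jac_mul_left (a b : 𝓞 K) (I : Ideal (𝓞 K)) : jac (a * b) I = jac a I * jac b I := by
  rw [jac, jac, jac, ← finprod_mul_distrib (finite_mulSupport_jac a I) (finite_mulSupport_jac b I)]
  exact finprod_congr fun v => by rw [leg_mul, mul_pow]

/-- The Jacobi symbol at a prime ideal is the residue symbol. -/
theorem jac_asIdeal (a : 𝓞 K) (v : HeightOneSpectrum (𝓞 K)) : jac a v.asIdeal = leg a v := by
  classical
  have hirr : Irreducible v.asIdeal := (Ideal.prime_of_isPrime v.ne_bot v.isPrime).irreducible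
  have h1 : ∀ w : HeightOneSpectrum (𝓞 K), expo w v.asIdeal = if w = v then 1 else 0 := by
    intro w
    rw [expo, normalizedFactors_irreducible hirr, normalize_eq, Multiset.count_singleton]
    congr 1
    exact propext ⟨fun h => HeightOneSpectrum.ext h, fun h => congrArg _ h⟩
  rw [jac, finprod_eq_single _ v]
  · rw [h1, if_pos rfl, pow_one]
  · intro w hw
    rw [h1, if_neg hw, pow_zero]

end Expo

section Sign

/-- The isomorphism of `ℤ/2` with `{1, -1}`. -/
def sg : Multiplicative (ZMod 2) →* ℤ where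
  toFun x := if x = 1 then 1 else -1
  map_one' := rfl
  map_mul' := by decide

lemma sg_apply (x : Multiplicative (ZMod 2)) : sg x = if x = 1 then 1 else -1 := rfl

lemma sg_inv (x : Multiplicative (ZMod 2)) : sg x⁻¹ = sg x := by
  rw [sg_apply, sg_apply]
  congr 1
  exact propext inv_eq_one

end Sign

section Local

variable {K : Type} [Field K] [NumberField K] (LS : LocalSymbols 2 K)
  (v : HeightOneSpectrum (𝓞 K))

lemma hilb_eq_sg (a b : Kˣ) : hilb v (a : K) (b : K) = sg (LS.sym v a b) := by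
  classical
  rw [hilb, sg_apply]
  congr 1
  exact propext (HM.sym_eq_one_iff LS v a b).symm

lemma sg_sym_comm (a b : Kˣ) : sg (LS.sym v a b) = sg (LS.sym v b a) := by
  have h := LS.skew v a b
  rw [← eq_inv_iff_mul_eq_one] at h
  rw [h, sg_inv]

/-- The tame formula. -/
lemma sg_sym_eq_leg {v : HeightOneSpectrum (𝓞 K)} (hv : (2 : 𝓞 K) ∉ v.asIdeal) {a b : 𝓞 K}
    (ha : a ≠ 0) (hb : b ≠ 0) (hav : a ∉ v.asIdeal) :
    sg (LS.sym v (unt ha) (unt hb)) = leg a v ^ expo v (Ideal.span {b}) := by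
  classical
  have hv' : ((2 : ℕ) : 𝓞 K) ∉ v.asIdeal := by exact_mod_cast hv
  obtain ⟨ϖ, hϖ⟩ := exists_ord_eq (K := K) v 1
  have h1 : LS.sym v (unt ha) (unt hb) =
      LS.sym v (unt ha) ϖ ^ expo v (Ideal.span {b}) := by
    rw [← map_pow]
    apply sym_eq_of_ord_eq v LS hv' (ord_unt_eq_zero ha hav)
    rw [ord_pow, hϖ, mul_one, expo_span hb]
  have h2 : sg (LS.sym v (unt ha) ϖ) = leg a v := by
    rw [sg_apply, leg, if_neg hav]
    congr 1
    rw [sym_eq_one_iff v LS hv' (ord_unt_eq_zero ha hav) hϖ,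
      mem_locPow_iff_residue v Nat.prime_two hv' (unt_val ha) hav]
  rw [h1, map_pow, h2]

/-- The Hilbert symbol at an odd place. -/
lemma hilb_odd [IsTotallyComplex K] {v : HeightOneSpectrum (𝓞 K)} (hv : (2 : 𝓞 K) ∉ v.asIdeal)
    {a b : 𝓞 K} (ha : a ≠ 0) (hb : b ≠ 0) (hab : IsCoprime a b) :
    hilb v (unt ha : Kˣ) (unt hb : Kˣ) =
      leg a v ^ expo v (Ideal.span {b}) * leg b v ^ expo v (Ideal.span {a}) := by
  obtain ⟨LS, -⟩ := exists_productFormula_two K
  rw [hilb_eq_sg LS]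
  by_cases hav : a ∈ v.asIdeal
  · have hbv : b ∉ v.asIdeal := by
      intro hbv
      obtain ⟨s, t, hst⟩ := hab
      apply v.isPrime.ne_top
      rw [Ideal.eq_top_iff_one, ← hst]
      exact Ideal.add_mem _ (Ideal.mul_mem_left _ _ hav) (Ideal.mul_mem_left _ _ hbv)
    rw [expo_span_eq_zero hb hbv, pow_zero, one_mul, sg_sym_comm, sg_sym_eq_leg LS hv hb ha hbv]
  · rw [expo_span_eq_zero ha hav, pow_zero, mul_one, sg_sym_eq_leg LS hv ha hb hav]

lemma hilb_sq (a b : K) : hilb v a b * hilb v a b = 1 := by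
  classical
  rw [hilb]
  split_ifs <;> norm_num

lemma hilb_eq_one_or (a b : K) : hilb v a b = 1 ∨ hilb v a b = -1 := by
  classical
  rw [hilb]
  split_ifs
  · exact Or.inl rfl
  · exact Or.inr rfl

end Local

section Global

variable {K : Type} [Field K] [NumberField K] [IsTotallyComplex K]

lemma finite_mulSupport_hilb (a b : Kˣ) :
    (Function.mulSupport fun v : HeightOneSpectrum (𝓞 K) => hilb v (a : K) (b : K)).Finite := by
  classical
  refine (HM.hilbert_reciprocity a.ne_zero b.ne_zero).1.subset fun v hv h => hv ?_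
  change hilb v (a : K) (b : K) = 1
  rw [hilb, if_pos h]

/-- **The product formula** `∏_v (a, b)_v = 1`. -/
theorem finprod_hilb (a b : Kˣ) :
    ∏ᶠ v : HeightOneSpectrum (𝓞 K), hilb v (a : K) (b : K) = 1 := by
  classical
  obtain ⟨LS, hLS⟩ := exists_productFormula_two K
  have h1 : ∏ᶠ v : HeightOneSpectrum (𝓞 K), hilb v (a : K) (b : K) =
      ∏ v ∈ (symVec LS two_ne_zero a b).support, sg (LS.sym v a b) := by
    rw [finprod_congr fun v => hilb_eq_sg LS v a b]
    refine finprod_eq_prod_of_mulSupport_subset _ fun v hv => ?_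
    rw [Finset.mem_coe, Finsupp.mem_support_iff, symVec_apply]
    intro h
    apply hv
    have h2 : LS.sym v a b = 1 := toAdd_eq_zero.1 h
    change sg (LS.sym v a b) = 1
    rw [h2, map_one]
  have h2 : ∏ v ∈ (symVec LS two_ne_zero a b).support, LS.sym v a b = 1 := by
    have h3 := hLS a b
    rw [Finsupp.sum] at h3
    rw [← toAdd_eq_zero, toAdd_prod]
    exact h3
  rw [h1, ← map_prod, h2, map_one]

/-- **The quadratic reciprocity law of Hecke, with its supplements**: `K` a totally complex number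
field, `a, b ∈ 𝓞 K` non-zero and coprime; `jacOdd` only sees the places `v ∤ 2`. -/
theorem hecke_general {a b : 𝓞 K} (ha : a ≠ 0) (hb : b ≠ 0) (hab : IsCoprime a b) :
    jacOdd a (Ideal.span {b}) * jacOdd b (Ideal.span {a}) =
      ∏ᶠ (v : HeightOneSpectrum (𝓞 K)) (_ : (2 : 𝓞 K) ∈ v.asIdeal), hilb v (a : K) (b : K) := by
  classical
  have hfa : ((unt ha : Kˣ) : K) = (a : K) := rfl
  have hfb : ((unt hb : Kˣ) : K) = (b : K) := rfl
  have hsup := finite_mulSupport_hilb (unt ha : Kˣ) (unt hb : Kˣ)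
  have h1 := finprod_hilb (unt ha : Kˣ) (unt hb : Kˣ)
  rw [hfa, hfb] at h1
  rw [hfa, hfb] at hsup
  have hsubJ : ∀ (c : 𝓞 K) (I : Ideal (𝓞 K)), (Function.mulSupport
      fun v : HeightOneSpectrum (𝓞 K) => if (2 : 𝓞 K) ∈ v.asIdeal then (1 : ℤ)
        else leg c v ^ expo v I).Finite := by
    intro c I
    refine (finite_mulSupport_jac c I).subset fun v hv h => hv ?_
    change (if (2 : 𝓞 K) ∈ v.asIdeal then (1 : ℤ) else leg c v ^ expo v I) = 1
    split_ifs
    · rfl
    · exact h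
  have h2 : jacOdd a (Ideal.span {b}) * jacOdd b (Ideal.span {a}) =
      ∏ᶠ v : HeightOneSpectrum (𝓞 K), if (2 : 𝓞 K) ∈ v.asIdeal then (1 : ℤ)
        else hilb v (a : K) (b : K) := by
    rw [jacOdd, jacOdd, ← finprod_mul_distrib (hsubJ _ _) (hsubJ _ _)]
    refine finprod_congr fun v => ?_
    split_ifs with hv
    · rw [one_mul]
    · exact (hilb_odd hv ha hb hab).symm
  have h3 : (∏ᶠ (v : HeightOneSpectrum (𝓞 K)) (_ : (2 : 𝓞 K) ∈ v.asIdeal),
      hilb v (a : K) (b : K)) = ∏ᶠ v : HeightOneSpectrum (𝓞 K),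
      if (2 : 𝓞 K) ∈ v.asIdeal then hilb v (a : K) (b : K) else 1 := by
    exact finprod_congr fun v => finprod_eq_if
  have hfin : ∀ (P : HeightOneSpectrum (𝓞 K) → Prop), (Function.mulSupport
      fun v : HeightOneSpectrum (𝓞 K) => if P v then hilb v (a : K) (b : K) else 1).Finite := by
    intro P
    refine hsup.subset fun v hv h => hv ?_
    change (if P v then hilb v (a : K) (b : K) else 1) = 1
    split_ifs
    · exact h
    · rfl
  have hfin' : (Function.mulSupport fun v : HeightOneSpectrum (𝓞 K) =>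
      if (2 : 𝓞 K) ∈ v.asIdeal then (1 : ℤ) else hilb v (a : K) (b : K)).Finite := by
    refine hsup.subset fun v hv h => hv ?_
    change (if (2 : 𝓞 K) ∈ v.asIdeal then (1 : ℤ) else hilb v (a : K) (b : K)) = 1
    split_ifs
    · rfl
    · exact h
  have h4 : (∏ᶠ v : HeightOneSpectrum (𝓞 K),
      if (2 : 𝓞 K) ∈ v.asIdeal then (1 : ℤ) else hilb v (a : K) (b : K)) *
      (∏ᶠ v : HeightOneSpectrum (𝓞 K),
        if (2 : 𝓞 K) ∈ v.asIdeal then hilb v (a : K) (b : K) else 1) = 1 := by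
    refine (finprod_mul_distrib hfin' (hfin _)).symm.trans ((finprod_congr fun v => ?_).trans h1)
    split_ifs
    · rw [one_mul]
    · rw [mul_one]
  rw [h2, h3]
  exact Int.eq_of_mul_eq_one h4

omit [NumberField K] [IsTotallyComplex K] in
lemma notMem_of_isCoprime_two {a : 𝓞 K} (ha2 : IsCoprime a 2) {v : HeightOneSpectrum (𝓞 K)}
    (hv : (2 : 𝓞 K) ∈ v.asIdeal) : a ∉ v.asIdeal := by
  intro hav
  obtain ⟨s, t, hst⟩ := ha2
  apply v.isPrime.ne_top
  rw [Ideal.eq_top_iff_one, ← hst]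
  exact Ideal.add_mem _ (Ideal.mul_mem_left _ _ hav) (Ideal.mul_mem_left _ _ hv)

omit [IsTotallyComplex K] in
lemma jacOdd_eq_jac (a : 𝓞 K) {b : 𝓞 K} (hb : b ≠ 0) (hb2 : IsCoprime b 2) :
    jacOdd a (Ideal.span {b}) = jac a (Ideal.span {b}) := by
  classical
  rw [jacOdd, jac]
  refine finprod_congr fun v => ?_
  split_ifs with hv
  · rw [expo_span_eq_zero hb (notMem_of_isCoprime_two hb2 hv), pow_zero]
  · rfl

/-- **Hecke's quadratic reciprocity law**: `K` a totally complex number field, `a, b ∈ 𝓞 K` odd,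
non-zero and coprime: `(a / b) (b / a) = ∏_{v ∣ 2} (a, b)_v`. -/
theorem hecke {a b : 𝓞 K} (ha : a ≠ 0) (hb : b ≠ 0) (hab : IsCoprime a b)
    (ha2 : IsCoprime a 2) (hb2 : IsCoprime b 2) :
    jac a (Ideal.span {b}) * jac b (Ideal.span {a}) =
      ∏ᶠ (v : HeightOneSpectrum (𝓞 K)) (_ : (2 : 𝓞 K) ∈ v.asIdeal), hilb v (a : K) (b : K) := by
  rw [← hecke_general ha hb hab, jacOdd_eq_jac a hb hb2, jacOdd_eq_jac b ha ha2]

/-- The first supplement: the symbol of a unit. -/
theorem hecke_unit (u : (𝓞 K)ˣ) {b : 𝓞 K} (hb : b ≠ 0) (hb2 : IsCoprime b 2) :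
    jac (u : 𝓞 K) (Ideal.span {b}) =
      ∏ᶠ (v : HeightOneSpectrum (𝓞 K)) (_ : (2 : 𝓞 K) ∈ v.asIdeal),
        hilb v ((u : 𝓞 K) : K) (b : K) := by
  have hu2 : IsCoprime (u : 𝓞 K) 2 := ⟨(u⁻¹ : (𝓞 K)ˣ), 0, by simp⟩
  have hub : IsCoprime (u : 𝓞 K) b := ⟨(u⁻¹ : (𝓞 K)ˣ), 0, by simp⟩
  rw [← hecke u.ne_zero hb hub hu2 hb2, Ideal.span_singleton_eq_top.2 u.isUnit, jac_top, mul_one]

/-- The second supplement: the symbol of an element dividing a power of `2`. -/
theorem hecke_two {a b : 𝓞 K} {n : ℕ} (ha2 : a ∣ 2 ^ n) (hb : b ≠ 0) (hb2 : IsCoprime b 2) :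
    jac a (Ideal.span {b}) =
      ∏ᶠ (v : HeightOneSpectrum (𝓞 K)) (_ : (2 : 𝓞 K) ∈ v.asIdeal), hilb v (a : K) (b : K) := by
  classical
  have ha : a ≠ 0 := by
    rintro rfl
    rw [zero_dvd_iff] at ha2
    exact pow_ne_zero n two_ne_zero ha2
  have hab : IsCoprime a b := (IsCoprime.of_isCoprime_of_dvd_right hb2.pow_right ha2).symm
  have h1 : jacOdd b (Ideal.span {a}) = 1 := by
    refine finprod_eq_one_of_forall_eq_one fun v => ?_
    split_ifs with hv
    · rfl
    · rw [expo_span_eq_zero ha, pow_zero]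
      intro hav
      apply hv
      obtain ⟨c, hc⟩ := ha2
      exact v.isPrime.mem_of_pow_mem n (hc ▸ Ideal.mul_mem_right _ _ hav)
  rw [← hecke_general ha hb hab, h1, mul_one, jacOdd_eq_jac a hb hb2]

/-- **The quadratic reciprocity law for primary elements**: `K` a totally complex number field,
`a, b ∈ 𝓞 K` odd, non-zero and coprime, `a` congruent to a square modulo `4`:
`(a / b) = (b / a)`. -/
theorem hecke_primary {a b : 𝓞 K} (ha : a ≠ 0) (hb : b ≠ 0) (hab : IsCoprime a b)
    (ha2 : IsCoprime a 2) (hb2 : IsCoprime b 2) (hprim : ∃ c : 𝓞 K, 4 ∣ a - c ^ 2) :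
    jac a (Ideal.span {b}) = jac b (Ideal.span {a}) := by
  classical
  have h1 := hecke ha hb hab ha2 hb2
  have h2 : (∏ᶠ (v : HeightOneSpectrum (𝓞 K)) (_ : (2 : 𝓞 K) ∈ v.asIdeal),
      hilb v (a : K) (b : K)) = 1 := by
    refine finprod_eq_one_of_forall_eq_one fun v => ?_
    rw [finprod_eq_if]
    split_ifs with hv
    · obtain ⟨LS, -⟩ := exists_productFormula_two K
      have h3 : hilb v (a : K) (b : K) = sg (LS.sym v (unt ha) (unt hb)) :=
        hilb_eq_sg LS v (unt ha) (unt hb)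
      rw [h3]
      obtain ⟨c, w, hw⟩ := hprim
      have hζ : IsPrimitiveRoot (-1 : K) 2 := IsPrimitiveRoot.neg_one 0 (by norm_num)
      rw [sym_eq_one_of_primary v LS Nat.prime_two (by exact_mod_cast hv) hζ
        (c := algebraMap (𝓞 K) K c) (ord_unt_eq_zero ha (notMem_of_isCoprime_two ha2 hv))
        (ord_unt_eq_zero hb (notMem_of_isCoprime_two hb2 hv)) ?_, map_one]
      have e : ((unt ha : Kˣ) : K) - algebraMap (𝓞 K) K c ^ 2 =
          (((2 : ℕ) : K) * (1 - -1)) * algebraMap (𝓞 K) K w := by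
        have h4 := congrArg (algebraMap (𝓞 K) K) hw
        simp only [map_sub, map_mul, map_pow, map_ofNat] at h4
        rw [unt_val, h4]
        norm_num
      rw [e, map_mul]
      exact mul_le_of_le_one_right' (v.valuation_le_one w)
    · rfl
  rw [h2] at h1
  exact Int.eq_of_mul_eq_one h1

end Global

end Fermat.Agent.Cor.Recip
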