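import Fermat.Agent.Corollaries.Recip.Ind
import Fermat.Agent.Corollaries.Recip.Hecke

/-!
# The `p`-th power residue symbol

`K` is a number field, `ζ ∈ 𝓞 K` a primitive `p`-th root of unity, `p` a prime.

* `resAt p ζ a v = (a / v)`: `0` if `a ∈ v`, and the `p`-th root of unity congruent to
  `a ^ ((N v - 1) / p)` modulo `v` otherwise (`resAt_spec`, `resAt_pow`, `resAt_eq`);
* `resSym p ζ a I = (a / I) = ∏ (a / v) ^ v(I)`; it is multiplicative in both arguments and only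
  depends on `a` modulo `I`;
* `resSym_zeta`: `(ζ / I) = ζ ^ ((N I - 1) / p)` for `I` prime to `p`.
-/

set_option autoImplicit false
set_option linter.unusedSectionVars false

namespace Fermat.Agent.Cor.Recip

open Fermat.Agent.CFT.Global Fermat.Agent.CFT.Global2
open Fermat.Agent.CFT.SUnits (ord ord_one ord_mul ord_pow ord_div ord_inv ord_eq_zero_iff
  valuation_eq_exp_neg_ord)
open NumberField IsDedekindDomain WithZero UniqueFactorizationMonoid

section Def

variable {K : Type} [Field K] [NumberField K]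

open Classical in
/-- The `p`-th power residue symbol `(a / v)`. -/
noncomputable def resAt (p : ℕ) (ζ a : 𝓞 K) (v : HeightOneSpectrum (𝓞 K)) : 𝓞 K :=
  if a ∈ v.asIdeal then 0 else ζ ^ (ind p ζ v a).val

/-- The `p`-th power residue symbol `(a / I)`. -/
noncomputable def resSym (p : ℕ) (ζ a : 𝓞 K) (I : Ideal (𝓞 K)) : 𝓞 K :=
  ∏ᶠ v : HeightOneSpectrum (𝓞 K), resAt p ζ a v ^ expo v I

end Def

section Basic

variable {p : ℕ} [hp : Fact p.Prime] {K : Type} [Field K] [NumberField K] {ζ : 𝓞 K}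
  {v : HeightOneSpectrum (𝓞 K)}

omit hp in
lemma resAt_of_mem {a : 𝓞 K} (ha : a ∈ v.asIdeal) : resAt p ζ a v = 0 := by
  rw [resAt, if_pos ha]

omit hp in
lemma resAt_of_notMem {a : 𝓞 K} (ha : a ∉ v.asIdeal) :
    resAt p ζ a v = ζ ^ (ind p ζ v a).val := by
  rw [resAt, if_neg ha]

lemma two_le_absNorm (v : HeightOneSpectrum (𝓞 K)) : 2 ≤ Ideal.absNorm v.asIdeal := by
  have h0 : Ideal.absNorm v.asIdeal ≠ 0 := by
    rw [Ne, Ideal.absNorm_eq_zero_iff]
    exact v.ne_bot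
  have h1 : Ideal.absNorm v.asIdeal ≠ 1 := by
    rw [Ne, Ideal.absNorm_eq_one_iff]
    exact v.isPrime.ne_top
  omega

/-- **Euler's criterion**: `a ^ ((N v - 1) / p) ≡ (a / v) mod v`. -/
theorem resAt_spec (hζ : IsPrimitiveRoot ζ p) (hv : (p : 𝓞 K) ∉ v.asIdeal) (a : 𝓞 K) :
    a ^ ((Ideal.absNorm v.asIdeal - 1) / p) - resAt p ζ a v ∈ v.asIdeal := by
  by_cases ha : a ∈ v.asIdeal
  · rw [resAt_of_mem ha, sub_zero]
    have h1 := dvd_absNorm_sub_one hζ hv
    have h2 := two_le_absNorm v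
    refine Ideal.pow_mem_of_mem _ ha _ (Nat.div_pos (Nat.le_of_dvd (by omega) h1) hp.out.pos)
  · rw [resAt_of_notMem ha]
    exact ind_spec hζ hv ha

omit hp in
/-- `(a / v)` is a `p`-th root of unity. -/
theorem resAt_pow (hζ : IsPrimitiveRoot ζ p) {a : 𝓞 K} (ha : a ∉ v.asIdeal) :
    resAt p ζ a v ^ p = 1 := by
  rw [resAt_of_notMem ha, ← pow_mul, mul_comm, pow_mul, hζ.pow_eq_one, one_pow]

/-- The symbol is characterised by Euler's criterion. -/
theorem resAt_eq (hζ : IsPrimitiveRoot ζ p) (hv : (p : 𝓞 K) ∉ v.asIdeal) {a z : 𝓞 K}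
    (ha : a ∉ v.asIdeal) (hz : z ^ p = 1)
    (h : a ^ ((Ideal.absNorm v.asIdeal - 1) / p) - z ∈ v.asIdeal) : resAt p ζ a v = z := by
  obtain ⟨i, -, hi⟩ := hζ.eq_pow_of_pow_eq_one hz
  rw [resAt_of_notMem ha, ind_eq hζ hv ha (m := (i : ZMod p)) (by rwa [pow_val_natCast hζ, hi]),
    pow_val_natCast hζ, hi]

/-- The symbol `(a / v)` is multiplicative. -/
theorem resAt_mul (hζ : IsPrimitiveRoot ζ p) (hv : (p : 𝓞 K) ∉ v.asIdeal) (a b : 𝓞 K) :
    resAt p ζ (a * b) v = resAt p ζ a v * resAt p ζ b v := by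
  by_cases ha : a ∈ v.asIdeal
  · rw [resAt_of_mem ha, resAt_of_mem (Ideal.mul_mem_right _ _ ha), zero_mul]
  by_cases hb : b ∈ v.asIdeal
  · rw [resAt_of_mem hb, resAt_of_mem (Ideal.mul_mem_left _ _ hb), mul_zero]
  have hab : a * b ∉ v.asIdeal := fun h => (v.isPrime.mem_or_mem h).elim ha hb
  rw [resAt_of_notMem ha, resAt_of_notMem hb, resAt_of_notMem hab, ind_mul hζ hv ha hb,
    pow_val_add hζ]

/-- The symbol `(a / v)` only depends on `a` modulo `v`. -/
theorem resAt_congr (hζ : IsPrimitiveRoot ζ p) (hv : (p : 𝓞 K) ∉ v.asIdeal) {a b : 𝓞 K}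
    (h : a - b ∈ v.asIdeal) : resAt p ζ a v = resAt p ζ b v := by
  by_cases ha : a ∈ v.asIdeal
  · have hb : b ∈ v.asIdeal := by
      have h1 := v.asIdeal.sub_mem ha h
      rwa [sub_sub_cancel] at h1
    rw [resAt_of_mem ha, resAt_of_mem hb]
  · have hb : b ∉ v.asIdeal := fun hb => ha (by
      have h2 := v.asIdeal.add_mem h hb
      rwa [sub_add_cancel] at h2)
    rw [resAt_of_notMem ha, resAt_of_notMem hb, ind_congr hζ hv ha h]

omit [NumberField K] in
lemma pow_val_eq_one_iff (hζ : IsPrimitiveRoot ζ p) (m : ZMod p) :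
    ζ ^ m.val = 1 ↔ m = 0 := by
  constructor
  · intro h
    rw [← ZMod.val_eq_zero]
    exact Nat.eq_zero_of_dvd_of_lt (hζ.dvd_of_pow_eq_one _ h) (ZMod.val_lt m)
  · rintro rfl
    rw [ZMod.val_zero, pow_zero]

/-- `(a / v) = 1` iff `a` is a non-zero `p`-th power modulo `v`. -/
theorem resAt_eq_one_iff (hζ : IsPrimitiveRoot ζ p) (hv : (p : 𝓞 K) ∉ v.asIdeal) {a : 𝓞 K}
    (ha : a ∉ v.asIdeal) : resAt p ζ a v = 1 ↔ ∃ x : 𝓞 K, x ^ p - a ∈ v.asIdeal := by
  rw [resAt_of_notMem ha, pow_val_eq_one_iff hζ, ind_eq_zero_iff hζ hv ha]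

lemma finite_mulSupport_resSym (a : 𝓞 K) (I : Ideal (𝓞 K)) :
    (Function.mulSupport fun v : HeightOneSpectrum (𝓞 K) =>
      resAt p ζ a v ^ expo v I).Finite := by
  refine (finite_expo_ne_zero I).subset fun v hv h => hv ?_
  change resAt p ζ a v ^ expo v I = 1
  rw [h, pow_zero]

lemma resSym_top (a : 𝓞 K) : resSym p ζ a ⊤ = 1 := by
  simp only [resSym, expo_top, pow_zero, finprod_one]

/-- The symbol `(a / I)` is multiplicative in `I`. -/
theorem resSym_mul (a : 𝓞 K) {I J : Ideal (𝓞 K)} (hI : I ≠ ⊥) (hJ : J ≠ ⊥) :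
    resSym p ζ a (I * J) = resSym p ζ a I * resSym p ζ a J := by
  rw [resSym, resSym, resSym, ← finprod_mul_distrib (finite_mulSupport_resSym a I)
    (finite_mulSupport_resSym a J)]
  refine finprod_congr fun v => ?_
  rw [expo_mul hI hJ, pow_add]

/-- The symbol `(a / v)` for a prime ideal `v`. -/
theorem resSym_asIdeal (a : 𝓞 K) (v : HeightOneSpectrum (𝓞 K)) :
    resSym p ζ a v.asIdeal = resAt p ζ a v := by
  classical
  have hirr : Irreducible v.asIdeal := (Ideal.prime_of_isPrime v.ne_bot v.isPrime).irreducible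
  have h1 : ∀ w : HeightOneSpectrum (𝓞 K), expo w v.asIdeal = if w = v then 1 else 0 := by
    intro w
    rw [expo, normalizedFactors_irreducible hirr, normalize_eq, Multiset.count_singleton]
    congr 1
    exact propext ⟨fun h => HeightOneSpectrum.ext h, fun h => congrArg _ h⟩
  rw [resSym, finprod_eq_single _ v]
  · rw [h1, if_pos rfl, pow_one]
  · intro w hw
    rw [h1, if_neg hw, pow_zero]

lemma expo_eq_zero_iff {I : Ideal (𝓞 K)} (hI : I ≠ ⊥) {v : HeightOneSpectrum (𝓞 K)} :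
    expo v I = 0 ↔ ¬ I ≤ v.asIdeal := by
  classical
  have hirr : Irreducible v.asIdeal := (Ideal.prime_of_isPrime v.ne_bot v.isPrime).irreducible
  rw [expo, Multiset.count_eq_zero, not_iff_not, ← Ideal.dvd_iff_le]
  constructor
  · exact fun h => dvd_of_mem_normalizedFactors h
  · intro h
    obtain ⟨q, hq, hq'⟩ := exists_mem_normalizedFactors_of_dvd (by rwa [Ne, Ideal.zero_eq_bot])
      hirr h
    rwa [associated_iff_eq.1 hq']

/-- The places dividing `I` do not divide `p`, if `I` is prime to `p`. -/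
lemma notMem_of_expo_ne_zero {I : Ideal (𝓞 K)} (hI : I ≠ ⊥) {x : 𝓞 K}
    (hIp : I ⊔ Ideal.span {x} = ⊤) {v : HeightOneSpectrum (𝓞 K)} (hv : expo v I ≠ 0) :
    x ∉ v.asIdeal := by
  intro h
  have h1 : I ≤ v.asIdeal := by
    by_contra hle
    exact hv ((expo_eq_zero_iff hI).2 hle)
  apply v.isPrime.ne_top
  rw [eq_top_iff, ← hIp]
  exact sup_le h1 ((Ideal.span_singleton_le_iff_mem _).2 h)

/-- The symbol `(a / I)` is multiplicative in `a`. -/
theorem resSym_mul_left (hζ : IsPrimitiveRoot ζ p) (a b : 𝓞 K) {I : Ideal (𝓞 K)} (hI : I ≠ ⊥)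
    (hIp : I ⊔ Ideal.span {(p : 𝓞 K)} = ⊤) :
    resSym p ζ (a * b) I = resSym p ζ a I * resSym p ζ b I := by
  rw [resSym, resSym, resSym, ← finprod_mul_distrib (finite_mulSupport_resSym a I)
    (finite_mulSupport_resSym b I)]
  refine finprod_congr fun v => ?_
  by_cases hv : expo v I = 0
  · rw [hv, pow_zero, pow_zero, pow_zero, one_mul]
  · rw [resAt_mul hζ (notMem_of_expo_ne_zero hI hIp hv), mul_pow]

/-- The symbol `(a / I)` only depends on `a` modulo `I`. -/
theorem resSym_congr (hζ : IsPrimitiveRoot ζ p) {a b : 𝓞 K} {I : Ideal (𝓞 K)} (hI : I ≠ ⊥)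
    (hIp : I ⊔ Ideal.span {(p : 𝓞 K)} = ⊤) (h : a - b ∈ I) :
    resSym p ζ a I = resSym p ζ b I := by
  refine finprod_congr fun v => ?_
  by_cases hv : expo v I = 0
  · rw [hv, pow_zero, pow_zero]
  · have h1 : I ≤ v.asIdeal := by
      by_contra hle
      exact hv ((expo_eq_zero_iff hI).2 hle)
    rw [resAt_congr hζ (notMem_of_expo_ne_zero hI hIp hv) (h1 h)]

/-- The homomorphism `m ↦ ζ ^ m`. -/
noncomputable def zhom (hζ : IsPrimitiveRoot ζ p) : Multiplicative (ZMod p) →* 𝓞 K where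
  toFun m := ζ ^ (m.toAdd).val
  map_one' := by rw [toAdd_one, ZMod.val_zero, pow_zero]
  map_mul' m n := by rw [toAdd_mul, pow_val_add hζ]

lemma zhom_ofAdd (hζ : IsPrimitiveRoot ζ p) (m : ZMod p) :
    zhom hζ (Multiplicative.ofAdd m) = ζ ^ m.val := rfl

/-- The symbol as a power of `ζ`. -/
theorem resSym_eq_zhom (hζ : IsPrimitiveRoot ζ p) {a : 𝓞 K} {I : Ideal (𝓞 K)}
    (ha : ∀ v : HeightOneSpectrum (𝓞 K), expo v I ≠ 0 → a ∉ v.asIdeal)
    (U : Finset (HeightOneSpectrum (𝓞 K))) (hU : ∀ v, expo v I ≠ 0 → v ∈ U) :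
    resSym p ζ a I =
      zhom hζ (Multiplicative.ofAdd (∑ v ∈ U, (expo v I : ZMod p) * ind p ζ v a)) := by
  rw [ofAdd_sum, map_prod, resSym, finprod_eq_prod_of_mulSupport_subset (s := U)]
  · refine Finset.prod_congr rfl fun v _ => ?_
    by_cases hv : expo v I = 0
    · rw [hv, pow_zero, Nat.cast_zero, zero_mul, ofAdd_zero, map_one]
    · rw [resAt_of_notMem (ha v hv), ← zhom_ofAdd hζ, ← map_pow, ← ofAdd_nsmul, nsmul_eq_mul]
  · intro v hv
    apply hU
    intro h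
    apply hv
    change resAt p ζ a v ^ expo v I = 1
    rw [h, pow_zero]

lemma zeta_notMem (hζ : IsPrimitiveRoot ζ p) (v : HeightOneSpectrum (𝓞 K)) : ζ ∉ v.asIdeal :=
  fun h => v.isPrime.ne_top (Ideal.eq_top_of_isUnit_mem _ h (hζ.isUnit hp.out.ne_zero))

lemma ind_zeta (hζ : IsPrimitiveRoot ζ p) (hv : (p : 𝓞 K) ∉ v.asIdeal) :
    ind p ζ v ζ = (((Ideal.absNorm v.asIdeal - 1) / p : ℕ) : ZMod p) := by
  apply ind_eq hζ hv (zeta_notMem hζ v)
  rw [pow_val_natCast hζ, sub_self]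
  exact zero_mem _

/-- The exponents of an ideal recover its norm. -/
lemma absNorm_eq_finprod {I : Ideal (𝓞 K)} (hI : I ≠ ⊥) :
    Ideal.absNorm I = ∏ᶠ v : HeightOneSpectrum (𝓞 K), Ideal.absNorm v.asIdeal ^ expo v I := by
  classical
  have hfin := finite_expo_ne_zero I
  have h1 := Ideal.finprod_heightOneSpectrum_factorization hI
  have h2 : ∀ v : HeightOneSpectrum (𝓞 K), v.maxPowDividing I = v.asIdeal ^ expo v I := by
    intro v
    rw [HeightOneSpectrum.maxPowDividing]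
    congr 1
    exact Ideal.count_associates_factors_eq (by rwa [Ne, Ideal.zero_eq_bot]) v.isPrime v.ne_bot
  conv_lhs => rw [← h1]
  rw [finprod_congr h2]
  have hs : (Function.mulSupport fun v : HeightOneSpectrum (𝓞 K) => v.asIdeal ^ expo v I) ⊆
      (hfin.toFinset : Set (HeightOneSpectrum (𝓞 K))) := by
    intro v hv
    rw [Set.Finite.coe_toFinset]
    intro h
    apply hv
    change v.asIdeal ^ expo v I = 1
    rw [h, pow_zero]
  have hs' : (Function.mulSupport fun v : HeightOneSpectrum (𝓞 K) =>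
      Ideal.absNorm v.asIdeal ^ expo v I) ⊆ (hfin.toFinset : Set (HeightOneSpectrum (𝓞 K))) := by
    intro v hv
    rw [Set.Finite.coe_toFinset]
    intro h
    apply hv
    change Ideal.absNorm v.asIdeal ^ expo v I = 1
    rw [h, pow_zero]
  rw [finprod_eq_prod_of_mulSupport_subset _ hs, finprod_eq_prod_of_mulSupport_subset _ hs',
    map_prod]
  exact Finset.prod_congr rfl fun v _ => map_pow _ _ _

/-- If `N v = 1 + p x_v` then `∏ N v ^ (e v) ≡ 1 + p ∑ e_v x_v mod p ^ 2`. -/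
lemma prod_one_add {ι : Type*} (U : Finset ι) (e x : ι → ℕ) :
    ∃ t : ℕ, ∏ v ∈ U, (1 + p * x v) ^ e v = 1 + p * (∑ v ∈ U, e v * x v) + p ^ 2 * t := by
  classical
  have h1 : ∀ (n y : ℕ), ∃ t : ℕ, (1 + p * y) ^ n = 1 + p * (n * y) + p ^ 2 * t := by
    intro n y
    induction n with
    | zero => exact ⟨0, by ring⟩
    | succ n ih =>
      obtain ⟨t, ht⟩ := ih
      refine ⟨t + (n * y) * y + t * (p * y), ?_⟩
      rw [pow_succ, ht]
      ring
  induction U using Finset.induction_on with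
  | empty => exact ⟨0, by simp⟩
  | insert v U hv ih =>
    obtain ⟨t, ht⟩ := ih
    obtain ⟨s, hs⟩ := h1 (e v) (x v)
    rw [Finset.prod_insert hv, Finset.sum_insert hv, ht, hs]
    exact ⟨t + s + (e v * x v) * (∑ w ∈ U, e w * x w) + p * (e v * x v) * t +
      p * s * (∑ w ∈ U, e w * x w) + p ^ 2 * s * t, by ring⟩

/-- **The first supplement**: `(ζ / I) = ζ ^ ((N I - 1) / p)` for `I` prime to `p`. -/
theorem resSym_zeta (hζ : IsPrimitiveRoot ζ p) {I : Ideal (𝓞 K)} (hI : I ≠ ⊥)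
    (hIp : I ⊔ Ideal.span {(p : 𝓞 K)} = ⊤) :
    p ∣ Ideal.absNorm I - 1 ∧ resSym p ζ ζ I = ζ ^ ((Ideal.absNorm I - 1) / p) := by
  classical
  set U := (finite_expo_ne_zero I).toFinset with hU
  have hUmem : ∀ v, expo v I ≠ 0 → v ∈ U := fun v hv => by
    rw [hU, Set.Finite.mem_toFinset]
    exact hv
  have hUmem' : ∀ v ∈ U, expo v I ≠ 0 := fun v hv => by
    rwa [hU, Set.Finite.mem_toFinset] at hv
  have hN : Ideal.absNorm I =
      ∏ v ∈ U, (1 + p * ((Ideal.absNorm v.asIdeal - 1) / p)) ^ expo v I := by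
    rw [absNorm_eq_finprod hI, finprod_eq_prod_of_mulSupport_subset (s := U)]
    · refine Finset.prod_congr rfl fun v hv => ?_
      have h1 := dvd_absNorm_sub_one hζ (notMem_of_expo_ne_zero hI hIp (hUmem' v hv))
      have h2 := two_le_absNorm v
      rw [Nat.mul_div_cancel' h1]
      congr 1
      omega
    · intro v hv
      apply hUmem
      intro h
      apply hv
      change Ideal.absNorm v.asIdeal ^ expo v I = 1
      rw [h, pow_zero]
  obtain ⟨t, ht⟩ := prod_one_add (p := p) U (fun v => expo v I)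
    (fun v => (Ideal.absNorm v.asIdeal - 1) / p)
  rw [ht] at hN
  have hN1 : Ideal.absNorm I - 1 =
      p * ((∑ v ∈ U, expo v I * ((Ideal.absNorm v.asIdeal - 1) / p)) + p * t) := by
    rw [hN, Nat.add_assoc, Nat.add_sub_cancel_left]
    ring
  refine ⟨⟨_, hN1⟩, ?_⟩
  rw [hN1, Nat.mul_div_cancel_left _ hp.out.pos, resSym_eq_zhom hζ (fun v _ => zeta_notMem hζ v) U
    hUmem, zhom_ofAdd, pow_add, pow_mul, hζ.pow_eq_one, one_pow, mul_one]
  have hsum : (∑ v ∈ U, (expo v I : ZMod p) * ind p ζ v ζ) =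
      ((∑ v ∈ U, expo v I * ((Ideal.absNorm v.asIdeal - 1) / p) : ℕ) : ZMod p) := by
    rw [Nat.cast_sum]
    refine Finset.sum_congr rfl fun v hv => ?_
    rw [ind_zeta hζ (notMem_of_expo_ne_zero hI hIp (hUmem' v hv)), Nat.cast_mul]
  rw [hsum, pow_val_natCast hζ]

end Basic

end Fermat.Agent.Cor.Recip
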