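import Fermat.Agent.Corollaries.Recip.Kappa
import Fermat.Agent.Corollaries.Recip.Symbol
import Fermat.Agent.LT.DegOneRay
import Fermat.Agent.LT.NormPull

/-!
# Comparison of the constants of `K` and of an extension

`K` is a totally complex number field containing `ζ_p`, `k_v` are the constants of `exists_consts`.

* `proportional`: a ray character which vanishes at all `v` with `ind_v a = 0` is proportional to
  `v ↦ k_v ind_v a`;
* `ind_map`: `ind_w a = f(w / v) ind_v a` for a place `w` of an extension above `v`;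
* `isRay_of_order`: if `ind_w b` is the logarithm of `N w mod ℓ` then `w ↦ ind_w b` is a ray
  character;
* `const_eq_of_tower`: with the extension `T / K` and `b ∈ 𝓞_T` of `exists_tower` every `k_v` is equal
  to some `k_{v'}` with `N v'` a prime number.
-/

set_option autoImplicit false
set_option linter.unusedSectionVars false

namespace Fermat.Agent.Cor.Recip

open Fermat.Agent.CFT.Global hiding Inputs p_dvd_index exists_notMem_locPow exists_place powE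
  mem_powE index_powE index_zpowers_sup_powE second hasse_norm FirstInequality exists_eq_nsmul_add
  exists_ne_symVec exists_functional_aux exists_inj forall_ne_zero exists_functional
open Fermat.Agent.CFT.Global2 Fermat.Agent.LT
open Fermat.Agent.CFT.SUnits (ord ord_one ord_mul ord_pow ord_div ord_inv ord_eq_zero_iff
  valuation_eq_exp_neg_ord)
open Fermat.Agent.LT.NV (fdeg pull)
open NumberField IsDedekindDomain WithZero

section Propor

variable {p : ℕ} [hp : Fact p.Prime] {K : Type} [Field K] [NumberField K] {ζ : 𝓞 K}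

/-- **A ray character with values `0` where `a` is a `p`-th power is a Kummer character.** -/
theorem proportional [IsTotallyComplex K] (hζ : IsPrimitiveRoot ζ p) (LS : LocalSymbols p K)
    {c : HeightOneSpectrum (𝓞 K) → ZMod p} (hc : ∀ v, c v ≠ 0)
    (hprod : ∀ a x : Kˣ, (symVec LS hp.out.ne_zero a x).sum (fun v n => c v * n) = 0)
    {k : HeightOneSpectrum (𝓞 K) → ZMod p}
    (hk : ∀ v, (p : 𝓞 K) ∉ v.asIdeal → ∀ (a : 𝓞 K) (ha0 : a ≠ 0), a ∉ v.asIdeal → ∀ x : Kˣ,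
        c v * (LS.sym v (unt ha0) x).toAdd = k v * ord v x * ind p ζ v a)
    {S : Finset (HeightOneSpectrum (𝓞 K))} (hS : AboveP p S) {a : 𝓞 K} (ha0 : a ≠ 0)
    (haS : ∀ v, v ∉ S → a ∉ v.asIdeal) {n : ℕ} {ρ : HeightOneSpectrum (𝓞 K) → ZMod p}
    (hρ : IsRay S n ρ) (hρ0 : ∀ v, v ∉ S → ind p ζ v a = 0 → ρ v = 0) :
    ∃ t : ZMod p, ∀ v, v ∉ S → ρ v = t * (k v * ind p ζ v a) := by
  classical
  have hζ' : IsPrimitiveRoot (algebraMap (𝓞 K) K ζ) p :=
    hζ.map_of_injective RingOfIntegers.coe_injective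
  obtain ⟨m, hθ⟩ := exists_isRay_theta LS hprod hk hS ha0 haS
  obtain ⟨T, hST, hTp, hcl, hinj⟩ := exists_inj (inputs (p := p)) hζ' S
  have hρT : IsRay T n ρ := hρ.mono_set hST
  obtain ⟨b, hb, hkey⟩ := Quad.exists_unit hζ' LS c hc (sum_eq_zero_of_prod hprod) hTp hinj
    (rayVal T ρ) (fun x hx => rayVal_of_mem_E T _ hx)
    (fun x hx => Quad.rayVal_eq_one_of_locPow hρT hx)
  have hbT : ∀ v, v ∉ T → ∃ x : Kˣ, ord v x = 1 ∧
      c v * (LS.sym v b x).toAdd = -ρ v := by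
    intro v hv
    obtain ⟨x, hx⟩ := hcl (Finsupp.single v 1)
    have hxv : ord v x = 1 := by rw [hx v hv, Finsupp.single_eq_same]
    refine ⟨x, hxv, ?_⟩
    have h1 := hkey x
    have h2 : (rayVal T ρ x).toAdd = ρ v := by
      rw [toAdd_rayVal_of_single T _ hv, hxv, one_smul]
      intro w hw hwv
      rw [hx w hw, Finsupp.single_eq_of_ne hwv]
    have h3 : ∑ w ∈ insert v T, c w * (LS.sym w b x).toAdd = 0 := by
      apply sum_eq_zero_of_prod hprod
      intro w hw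
      rw [Finset.mem_insert, not_or] at hw
      have hxw : ord w x = 0 := by rw [hx w hw.2, Finsupp.single_eq_of_ne hw.1]
      exact LS.unit_mem w (fun h => hw.2 (hTp w h)) b x (mem_E.mp hb w hw.2) hxw
    rw [Finset.sum_insert hv, ← h1, h2] at h3
    exact eq_neg_of_add_eq_zero_left h3
  have haE : (unt ha0 : Kˣ) ∈ E T := by
    rw [mem_E]
    exact fun v hv => ord_unt_eq_zero ha0 (haS v fun h => hv (hST h))
  by_cases hna : ∀ y : Kˣ, y ^ p ≠ unt ha0
  swap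
  · push Not at hna
    obtain ⟨y, hy⟩ := hna
    refine ⟨0, fun v hv => ?_⟩
    rw [zero_mul]
    apply hρ0 v hv
    rw [← mem_locPow_iff_ind hζ (fun h => hv (hS v h)) ha0 (haS v hv), ← hy]
    exact pow_mem_locPow p v y
  by_cases hxa : ∀ (j : ℕ) (y : Kˣ), b ≠ unt ha0 ^ j * y ^ p
  · exfalso
    obtain ⟨v, hv, hav, hbv⟩ := exists_place (inputs (p := p)) hζ' hTp haE hna hb hxa
    have hvp : (p : 𝓞 K) ∉ v.asIdeal := fun h => hv (hTp v h)
    have hvS : v ∉ S := fun h => hv (hST h)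
    rw [mem_locPow_iff_ind hζ hvp ha0 (haS v hvS)] at hav
    obtain ⟨x, hx, hx'⟩ := hbT v hv
    rw [hρ0 v hvS hav, neg_zero] at hx'
    apply hbv
    rw [Quad.mem_locPow_iff_sym LS hvp (mem_E.mp hb v hv) hx]
    exact toAdd_eq_zero.1 ((mul_eq_zero.1 hx').resolve_left (hc v))
  push Not at hxa
  obtain ⟨j, y, hby⟩ := hxa
  have hrel : ∀ v, v ∉ T → ρ v + (j : ZMod p) * (k v * ind p ζ v a) = 0 := by
    intro v hv
    have hvp : (p : 𝓞 K) ∉ v.asIdeal := fun h => hv (hTp v h)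
    have hvS : v ∉ S := fun h => hv (hST h)
    obtain ⟨x, hx, hx'⟩ := hbT v hv
    have h1 : (LS.sym v b x).toAdd = j * (LS.sym v (unt ha0) x).toAdd := by
      rw [hby, map_mul, MonoidHom.mul_apply, map_pow, MonoidHom.pow_apply,
        LS.sym_eq_one_of_left (pow_mem_locPow p v y), mul_one, toAdd_pow, nsmul_eq_mul]
    have h2 := hk v hvp a ha0 (haS v hvS) x
    rw [hx, Int.cast_one, mul_one] at h2
    rw [h1] at hx'
    linear_combination hx' - (j : ZMod p) * h2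
  refine ⟨-(j : ZMod p), fun v hv => ?_⟩
  have hray : IsRay S (max n m) (fun v => ρ v + (j : ZMod p) * (k v * ind p ζ v a)) := by
    refine (hρ.mono (le_max_left n m)).add ?_
    exact (hθ.mono (le_max_right n m)).comp (AddMonoidHom.mulLeft (j : ZMod p))
  have h0 := Quad.eq_zero_of_large hray (T := T) hrel v hv
  linear_combination h0

/-- The geometric sum. -/
lemma exists_geom {N : ℕ} (hN : p ∣ N - 1) (hN0 : 0 < N) (f : ℕ) :
    ∃ s : ℕ, N ^ f - 1 = (N - 1) * s ∧ (s : ZMod p) = f := by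
  refine ⟨∑ i ∈ Finset.range f, N ^ i, ?_, ?_⟩
  · exact (Nat.mul_comm _ _).trans (by
      have h := Nat.geomSum_eq (m := N) (n := f)
      by_cases h2 : 2 ≤ N
      · rw [h h2, Nat.div_mul_cancel]
        exact Nat.sub_one_dvd_pow_sub_one N f
      · have h1 : N = 1 := by omega
        rw [h1, one_pow]; simp) |>.symm
  · have h1 : (N : ZMod p) = 1 := by
      have h2 : ((N - 1 : ℕ) : ZMod p) = 0 := (ZMod.natCast_eq_zero_iff _ _).2 hN
      rw [Nat.cast_sub hN0, Nat.cast_one, sub_eq_zero] at h2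
      exact h2
    push_cast
    rw [h1]
    simp

end Propor

section Ext

variable {p : ℕ} [hp : Fact p.Prime] {K : Type} [Field K] [NumberField K] {ζ : 𝓞 K}
  {T : Type} [Field T] [NumberField T] [Algebra K T]

lemma absNorm_eq_fdeg (w : HeightOneSpectrum (𝓞 T)) :
    Ideal.absNorm w.asIdeal = Ideal.absNorm (w.under (𝓞 K)).asIdeal ^ fdeg K w := by
  rw [fdeg]
  exact Ideal.absNorm_eq_pow_inertiaDeg'_of_liesOver w.asIdeal (w.under (𝓞 K)).asIdeal
    (w.under (𝓞 K)).isPrime (w.under (𝓞 K)).ne_bot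

lemma map_mem_iff (w : HeightOneSpectrum (𝓞 T)) (x : 𝓞 K) :
    algebraMap (𝓞 K) (𝓞 T) x ∈ w.asIdeal ↔ x ∈ (w.under (𝓞 K)).asIdeal := Iff.rfl

/-- `ind_w a = f(w / v) ind_v a`. -/
theorem ind_map (hζ : IsPrimitiveRoot ζ p) {w : HeightOneSpectrum (𝓞 T)}
    (hw : (p : 𝓞 T) ∉ w.asIdeal) {a : 𝓞 K} (ha : a ∉ (w.under (𝓞 K)).asIdeal) :
    ind p (algebraMap (𝓞 K) (𝓞 T) ζ) w (algebraMap (𝓞 K) (𝓞 T) a) =
      fdeg K w * ind p ζ (w.under (𝓞 K)) a := by
  have hinj : Function.Injective (algebraMap (𝓞 K) (𝓞 T)) := FaithfulSMul.algebraMap_injective _ _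
  have hζT : IsPrimitiveRoot (algebraMap (𝓞 K) (𝓞 T) ζ) p := hζ.map_of_injective hinj
  set v := w.under (𝓞 K) with hv
  have hvp : (p : 𝓞 K) ∉ v.asIdeal := by
    intro h
    apply hw
    have h1 := (map_mem_iff w (p : 𝓞 K)).2 h
    rwa [map_natCast] at h1
  have haw : algebraMap (𝓞 K) (𝓞 T) a ∉ w.asIdeal := fun h => ha ((map_mem_iff w a).1 h)
  have hN0 : 0 < Ideal.absNorm v.asIdeal := by
    rw [Nat.pos_iff_ne_zero, Ne, Ideal.absNorm_eq_zero_iff]
    exact v.ne_bot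
  obtain ⟨s, hs, hs'⟩ := exists_geom (dvd_absNorm_sub_one hζ hvp) hN0 (fdeg K w)
  obtain ⟨e, he⟩ := dvd_absNorm_sub_one hζ hvp
  apply ind_eq hζT hw haw
  have h1 : (Ideal.absNorm w.asIdeal - 1) / p = e * s := by
    rw [absNorm_eq_fdeg (K := K) w, ← hv, hs, he, mul_assoc, Nat.mul_div_cancel_left _ hp.out.pos]
  have h2 := ind_spec hζ hvp ha
  rw [he, Nat.mul_div_cancel_left e hp.out.pos] at h2
  have h3 : a ^ (e * s) - (ζ ^ (ind p ζ v a).val) ^ s ∈ v.asIdeal := by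
    rw [pow_mul]
    exact Ideal.mem_of_dvd _ (sub_dvd_pow_sub_pow _ _ s) h2
  have h4 : (ζ ^ (ind p ζ v a).val) ^ s = ζ ^ ((fdeg K w : ZMod p) * ind p ζ v a).val := by
    have h5 : ((fdeg K w : ZMod p) * ind p ζ v a) =
        (((ind p ζ v a).val * s : ℕ) : ZMod p) := by
      rw [Nat.cast_mul, hs', ZMod.natCast_val, ZMod.cast_id', id_eq, mul_comm]
    rw [h5, pow_val_natCast hζ, pow_mul]
  rw [h4] at h3
  have h5 := (map_mem_iff w _).2 h3
  rw [map_sub, map_pow, map_pow] at h5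
  rw [h1]
  exact h5

end Ext

section Ray

variable {p : ℕ} [hp : Fact p.Prime] {K : Type} [Field K] [NumberField K]
  {ℓ : ℕ} [Fact ℓ.Prime]

/-- If `η v` is the logarithm of `N v mod ℓ` to a base of order `p` then `η` is a ray character. -/
theorem isRay_of_order [IsTotallyComplex K] {c : (ZMod ℓ)ˣ} (hc : orderOf c = p)
    (S : Finset (HeightOneSpectrum (𝓞 K)))
    (hS : ∀ v : HeightOneSpectrum (𝓞 K), (ℓ : 𝓞 K) ∈ v.asIdeal → v ∈ S)
    (η : HeightOneSpectrum (𝓞 K) → ZMod p)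
    (hη : ∀ v ∉ S, ((c ^ (η v).val : (ZMod ℓ)ˣ) : ZMod ℓ) =
      (Ideal.absNorm v.asIdeal : ZMod ℓ)) : ∃ n : ℕ, IsRay S n η := by
  classical
  -- the homomorphism `j ↦ c ^ j`
  have hcp : c ^ p = 1 := by rw [← hc, pow_orderOf_eq_one]
  let g : ZMod p →+ Additive (ZMod ℓ)ˣ :=
    { toFun := fun j => Additive.ofMul (c ^ j.val)
      map_zero' := by rw [ZMod.val_zero, pow_zero, ofMul_one]
      map_add' := fun i j => by
        rw [← ofMul_mul, ← pow_add, ZMod.val_add]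
        congr 1
        conv_rhs => rw [← Nat.mod_add_div (i.val + j.val) p, pow_add, pow_mul, hcp, one_pow,
          mul_one] }
  have hg : ∀ j : ZMod p, g j = 0 → j = 0 := by
    intro j hj
    have h1 : c ^ j.val = 1 := ofMul_eq_zero.1 hj
    have h2 := orderOf_dvd_of_pow_eq_one h1
    rw [hc] at h2
    have h3 := Nat.eq_zero_of_dvd_of_lt h2 (ZMod.val_lt j)
    rwa [ZMod.val_eq_zero] at h3
  obtain ⟨n, hn⟩ := exists_isRay_norm (A := Additive (ZMod ℓ)ˣ)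
    { toFun := fun u => Multiplicative.ofAdd (Additive.ofMul u)
      map_one' := rfl
      map_mul' := fun _ _ => rfl } S hS (fun v => g (η v)) (by
    intro v hv u hu
    have h1 : u = c ^ (η v).val := by
      ext
      rw [hu, hη v hv]
    change Additive.ofMul (c ^ (η v).val) = Additive.ofMul u
    rw [h1])
  refine ⟨n, fun x hx => ?_⟩
  apply toAdd_eq_zero.mp
  apply hg
  rw [← rayVal_comp]
  exact toAdd_eq_zero.mpr (hn x hx)

end Ray

section Main

variable {p : ℕ} [hp : Fact p.Prime] {K : Type} [Field K] [NumberField K] {ζ : 𝓞 K}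

/-- The finite set of places containing a given non-zero element. -/
lemma exists_finset_mem {F : Type} [Field F] [NumberField F] {x : 𝓞 F} (hx : x ≠ 0) :
    ∃ S : Finset (HeightOneSpectrum (𝓞 F)), ∀ v, v ∈ S ↔ x ∈ v.asIdeal := by
  have hfin : {v : HeightOneSpectrum (𝓞 F) | v.asIdeal ∣ Ideal.span {x}}.Finite :=
    Ideal.finite_factors (by rwa [Ne, Ideal.zero_eq_bot, Ideal.span_singleton_eq_bot])
  refine ⟨hfin.toFinset, fun v => ?_⟩
  rw [Set.Finite.mem_toFinset, Set.mem_ofPred_eq, Ideal.dvd_span_singleton]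

/-- Two distinct places: an element which is not a `p`-th power at either of them. -/
lemma exists_ind_ne_zero (hζ : IsPrimitiveRoot ζ p) {v w : HeightOneSpectrum (𝓞 K)}
    (hvw : v ≠ w) (hv : (p : 𝓞 K) ∉ v.asIdeal) (hw : (p : 𝓞 K) ∉ w.asIdeal) :
    ∃ a : 𝓞 K, a ∉ v.asIdeal ∧ a ∉ w.asIdeal ∧ ind p ζ v a ≠ 0 ∧ ind p ζ w a ≠ 0 := by
  obtain ⟨g₁, hg₁, hi₁⟩ := exists_ind_eq_one hζ hv
  obtain ⟨g₂, hg₂, hi₂⟩ := exists_ind_eq_one hζ hw
  have hcop : IsCoprime v.asIdeal w.asIdeal := by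
    rw [Ideal.isCoprime_iff_sup_eq]
    exact v.isMaximal.coprime_of_ne w.isMaximal fun h => hvw (HeightOneSpectrum.ext h)
  obtain ⟨s, hs, t, ht, hst⟩ := Ideal.isCoprime_iff_exists.1 hcop
  have h1 : g₁ * t + g₂ * s - g₁ ∈ v.asIdeal := by
    have e : g₁ * t + g₂ * s - g₁ = (g₂ - g₁) * s := by linear_combination (-g₁) * (1 - hst) - g₁
    rw [e]
    exact Ideal.mul_mem_left _ _ hs
  have h2 : g₁ * t + g₂ * s - g₂ ∈ w.asIdeal := by
    have e : g₁ * t + g₂ * s - g₂ = (g₁ - g₂) * t := by linear_combination (-g₂) * (1 - hst) - g₂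
    rw [e]
    exact Ideal.mul_mem_left _ _ ht
  have h3 : g₁ * t + g₂ * s ∉ v.asIdeal := by
    intro h
    apply hg₁
    have h4 := v.asIdeal.sub_mem h h1
    rwa [sub_sub_cancel] at h4
  have h4 : g₁ * t + g₂ * s ∉ w.asIdeal := by
    intro h
    apply hg₂
    have h4 := w.asIdeal.sub_mem h h2
    rwa [sub_sub_cancel] at h4
  refine ⟨_, h3, h4, ?_, ?_⟩
  · rw [ind_congr hζ hv h3 h1, hi₁]
    exact one_ne_zero
  · rw [ind_congr hζ hw h4 h2, hi₂]
    exact one_ne_zero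

/-- **Every constant is a constant at a place of prime norm.** -/
theorem const_eq_of_tower [IsTotallyComplex K] (hζ : IsPrimitiveRoot ζ p) (LS : LocalSymbols p K)
    {c : HeightOneSpectrum (𝓞 K) → ZMod p} (hc : ∀ v, c v ≠ 0)
    (hprod : ∀ a x : Kˣ, (symVec LS hp.out.ne_zero a x).sum (fun v n => c v * n) = 0)
    {k : HeightOneSpectrum (𝓞 K) → ZMod p}
    (hk : ∀ v, (p : 𝓞 K) ∉ v.asIdeal → ∀ (a : 𝓞 K) (ha0 : a ≠ 0), a ∉ v.asIdeal → ∀ x : Kˣ,
        c v * (LS.sym v (unt ha0) x).toAdd = k v * ord v x * ind p ζ v a)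
    {v : HeightOneSpectrum (𝓞 K)} (hv : (p : 𝓞 K) ∉ v.asIdeal)
    {ℓ : ℕ} [hℓ : Fact ℓ.Prime] (hvℓ : (ℓ : 𝓞 K) ∉ v.asIdeal) {c₀ : (ZMod ℓ)ˣ}
    (hc₀ : (c₀ : ZMod ℓ) = (Ideal.absNorm v.asIdeal : ZMod ℓ)) (hcp : orderOf c₀ = p)
    (T : Type) [Field T] [NumberField T] [Algebra K T] [IsGalois K T]
    (b : 𝓞 T) (w : HeightOneSpectrum (𝓞 T)) (hwv : w.under (𝓞 K) = v)
    (hNw : Ideal.absNorm w.asIdeal = Ideal.absNorm v.asIdeal) (hbw : b ∉ w.asIdeal)
    (hb : ∀ w' : HeightOneSpectrum (𝓞 T), (p : 𝓞 T) ∉ w'.asIdeal → (ℓ : 𝓞 T) ∉ w'.asIdeal →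
      ∃ j : ZMod p, ((c₀ ^ j.val : (ZMod ℓ)ˣ) : ZMod ℓ) = (Ideal.absNorm w'.asIdeal : ZMod ℓ) ∧
        (b ∉ w'.asIdeal → ind p (algebraMap (𝓞 K) (𝓞 T) ζ) w' b = j)) :
    ∃ v' : HeightOneSpectrum (𝓞 K), (p : 𝓞 K) ∉ v'.asIdeal ∧
      (Ideal.absNorm v'.asIdeal).Prime ∧ k v = k v' := by
  classical
  have hTc : IsTotallyComplex T := isTotallyComplex_of_algebra K T
  set ζT : 𝓞 T := algebraMap (𝓞 K) (𝓞 T) ζ with hζTdef
  have hζT : IsPrimitiveRoot ζT p :=
    hζ.map_of_injective (FaithfulSMul.algebraMap_injective (𝓞 K) (𝓞 T))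
  have hζT' : IsPrimitiveRoot (algebraMap (𝓞 T) T ζT) p :=
    hζT.map_of_injective RingOfIntegers.coe_injective
  obtain ⟨LS', c', hc', hprod'⟩ := exists_productFormula T hζT'
  obtain ⟨k', -, hk'⟩ := exists_consts hζT LS' hc'
  have hb0 : b ≠ 0 := ne_zero_of_notMem hbw
  have hpT : (p : 𝓞 T) ≠ 0 := by exact_mod_cast hp.out.ne_zero
  have hℓT : (ℓ : 𝓞 T) ≠ 0 := by exact_mod_cast hℓ.out.ne_zero
  obtain ⟨S, hS⟩ := exists_finset_mem (mul_ne_zero (mul_ne_zero hpT hℓT) hb0)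
  have hS' : ∀ u, u ∉ S ↔ ((p : 𝓞 T) ∉ u.asIdeal ∧ (ℓ : 𝓞 T) ∉ u.asIdeal) ∧ b ∉ u.asIdeal := by
    intro u
    rw [hS, u.isPrime.mul_mem_iff_mem_or_mem, u.isPrime.mul_mem_iff_mem_or_mem, not_or, not_or]
  have hSp : AboveP p S := by
    intro u hu
    by_contra h
    exact ((hS' u).1 h).1.1 hu
  have hwp : (p : 𝓞 T) ∉ w.asIdeal := by
    intro h
    apply hv
    rw [← hwv, ← map_mem_iff, map_natCast]
    exact h
  have hwℓ : (ℓ : 𝓞 T) ∉ w.asIdeal := by
    intro h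
    apply hvℓ
    rw [← hwv, ← map_mem_iff, map_natCast]
    exact h
  have hwS : w ∉ S := (hS' w).2 ⟨⟨hwp, hwℓ⟩, hbw⟩
  have hη : ∀ u, u ∉ S → ((c₀ ^ (ind p ζT u b).val : (ZMod ℓ)ˣ) : ZMod ℓ) =
      (Ideal.absNorm u.asIdeal : ZMod ℓ) := by
    intro u hu
    obtain ⟨⟨h1, h2⟩, h3⟩ := (hS' u).1 hu
    obtain ⟨j, hj, hj'⟩ := hb u h1 h2
    rw [hj' h3, hj]
  obtain ⟨n, hn⟩ := isRay_of_order hcp S (fun u hu => by
    by_contra h
    exact ((hS' u).1 h).1.2 hu) (fun u => ind p ζT u b) hη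
  -- the index of `b` at `w`
  have hwb : ind p ζT w b ≠ 0 := by
    intro h
    have h1 := hη w hwS
    rw [h, ZMod.val_zero, pow_zero, hNw, ← hc₀] at h1
    have h2 : c₀ = 1 := (Units.ext h1).symm
    rw [h2, orderOf_one] at hcp
    exact hp.out.one_lt.ne hcp
  obtain ⟨κ, hκ⟩ := const_of_isRay hζT LS' hc' hprod' hk' hSp hb0
    (fun u hu => ((hS' u).1 hu).2) hn
  -- a place of prime norm at which the index of `b` does not vanish
  obtain ⟨w₂, hw₂S, hw₂N, hw₂b⟩ : ∃ w₂, w₂ ∉ S ∧ (Ideal.absNorm w₂.asIdeal).Prime ∧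
      ind p ζT w₂ b ≠ 0 := by
    by_contra hcon
    push Not at hcon
    obtain ⟨D, hD0, hD⟩ : ∃ D : ℕ, D ≠ 0 ∧ ∀ u ∈ S, (D : 𝓞 T) ∈ u.asIdeal := by
      refine ⟨∏ u ∈ S, Ideal.absNorm u.asIdeal, Finset.prod_ne_zero_iff.2 fun u _ => ?_,
        fun u hu => ?_⟩
      · rw [Ne, Ideal.absNorm_eq_zero_iff]
        exact u.ne_bot
      · rw [← Finset.mul_prod_erase S _ hu, Nat.cast_mul]
        exact Ideal.mul_mem_right _ _ (Ideal.absNorm_mem u.asIdeal)
    set N : ℕ := 2 * (Module.finrank ℚ T).factorial * D with hN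
    have hN0 : N ≠ 0 := mul_ne_zero (mul_ne_zero two_ne_zero (Nat.factorial_ne_zero _)) hD0
    obtain ⟨S₂, hS₂⟩ := exists_finset_mem (F := T) (x := (N : 𝓞 T)) (by exact_mod_cast hN0)
    have hSS₂ : S ⊆ S₂ := by
      intro u hu
      rw [hS₂, hN, Nat.cast_mul]
      exact Ideal.mul_mem_left _ _ (hD u hu)
    have hn₂ : IsRay S₂ n (fun u => ind p ζT u b) := hn.mono_set hSS₂
    have h0 : ∀ u, u ∉ S₂ → ind p ζT u b = 0 := by
      intro u hu
      refine hn₂.eq_zero_of_degOne hN0 ?_ ?_ hS₂ one_ne_zero (fun v₂ hv₂ hv₂N _ => ?_) hu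
      · exact ⟨(Module.finrank ℚ T).factorial * D, by rw [hN, mul_assoc]⟩
      · intro q hq hle
        exact (Nat.dvd_factorial hq.pos hle).trans ⟨2 * D, by rw [hN]; ring⟩
      · exact hcon v₂ (fun h => hv₂ (hSS₂ h)) hv₂N
    exact hwb (Quad.eq_zero_of_large hn h0 w hwS)
  set v₂ := w₂.under (𝓞 K) with hv₂
  have hv₂p : (p : 𝓞 K) ∉ v₂.asIdeal := by
    intro h
    apply ((hS' w₂).1 hw₂S).1.1
    have h1 := (map_mem_iff w₂ (p : 𝓞 K)).2 h
    rwa [map_natCast] at h1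
  -- the residue degrees are one
  have hf₂ : fdeg K w₂ = 1 ∧ (Ideal.absNorm v₂.asIdeal).Prime := by
    have h1 := absNorm_eq_fdeg (K := K) w₂
    rw [← hv₂] at h1
    have h2 : fdeg K w₂ = 1 := by
      have h3 := hw₂N
      rw [h1] at h3
      exact (Nat.Prime.eq_one_of_pow h3)
    refine ⟨h2, ?_⟩
    rw [h2, pow_one] at h1
    rwa [h1] at hw₂N
  have hf : fdeg K w = 1 := by
    have h1 := absNorm_eq_fdeg (K := K) w
    rw [hwv, hNw] at h1
    have h2 := two_le_absNorm v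
    have h3 : Ideal.absNorm v.asIdeal ^ 1 = Ideal.absNorm v.asIdeal ^ fdeg K w := by
      rw [pow_one]; exact h1
    exact (Nat.pow_right_injective h2 h3).symm
  refine ⟨v₂, hv₂p, hf₂.2, ?_⟩
  by_cases hvv : v = v₂
  · rw [← hvv]
  -- an element which is not a `p`-th power at `v` and `v₂`
  obtain ⟨a, hav, hav₂, hiv, hiv₂⟩ := exists_ind_ne_zero hζ hvv hv hv₂p
  have ha0 : a ≠ 0 := ne_zero_of_notMem hav
  have hpK : (p : 𝓞 K) ≠ 0 := by exact_mod_cast hp.out.ne_zero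
  obtain ⟨R, hR⟩ := exists_finset_mem (mul_ne_zero hpK ha0)
  have hR' : ∀ u, u ∉ R ↔ (p : 𝓞 K) ∉ u.asIdeal ∧ a ∉ u.asIdeal := by
    intro u
    rw [hR, u.isPrime.mul_mem_iff_mem_or_mem, not_or]
  have hRp : AboveP p R := by
    intro u hu
    by_contra h
    exact ((hR' u).1 h).1 hu
  obtain ⟨m, hθ⟩ := exists_isRay_theta LS hprod hk hRp ha0 (fun u hu => ((hR' u).1 hu).2)
  obtain ⟨m', hρ⟩ := hθ.pull (L := T)
  set aT : 𝓞 T := algebraMap (𝓞 K) (𝓞 T) a with haT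
  have hupR : ∀ u : HeightOneSpectrum (𝓞 T), u ∉ above T R → u.under (𝓞 K) ∉ R :=
    fun u hu h => hu ((mem_above T).2 h)
  have haTu : ∀ u, u ∉ above T R → aT ∉ u.asIdeal := fun u hu h =>
    ((hR' _).1 (hupR u hu)).2 ((map_mem_iff u a).1 h)
  have haT0 : aT ≠ 0 := by
    rw [haT, Ne, map_eq_zero_iff _ (FaithfulSMul.algebraMap_injective (𝓞 K) (𝓞 T))]
    exact ha0
  have hRTp : AboveP p (above T R) := by
    intro u hu
    rw [mem_above]
    apply hRp
    rw [← map_mem_iff, map_natCast]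
    exact hu
  have hup : ∀ u, u ∉ above T R → (p : 𝓞 T) ∉ u.asIdeal := fun u hu h => hu (hRTp u h)
  have hind : ∀ u, u ∉ above T R → ind p ζT u aT = fdeg K u * ind p ζ (u.under (𝓞 K)) a :=
    fun u hu => ind_map hζ (hup u hu) ((hR' _).1 (hupR u hu)).2
  obtain ⟨t, ht⟩ := proportional hζT LS' hc' hprod' hk' hRTp haT0 haTu hρ (by
    intro u hu h
    rw [hind u hu] at h
    rw [pull, nsmul_eq_mul, mul_left_comm, h, mul_zero])
  have key : ∀ u : HeightOneSpectrum (𝓞 T), u ∉ S → (p : 𝓞 K) ∉ (u.under (𝓞 K)).asIdeal →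
      a ∉ (u.under (𝓞 K)).asIdeal → fdeg K u = 1 → ind p ζ (u.under (𝓞 K)) a ≠ 0 →
      ind p ζT u b ≠ 0 → k (u.under (𝓞 K)) = t * κ := by
    intro u huS hup ha hfu hia hib
    have huR : u ∉ above T R := by
      rw [mem_above]
      exact (hR' _).2 ⟨hup, ha⟩
    have h1 := ht u huR
    rw [hind u huR, hfu, Nat.cast_one, one_mul, Fermat.Agent.LT.NV.pull_of_fdeg hfu,
      hκ u huS hib, ← mul_assoc] at h1
    exact mul_right_cancel₀ hia h1
  have e₁ := key w hwS (by rwa [hwv]) (by rwa [hwv]) hf (by rwa [hwv]) hwb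
  have e₂ := key w₂ hw₂S hv₂p hav₂ hf₂.1 hiv₂ hw₂b
  rw [hwv] at e₁
  rw [e₁, hv₂, e₂]

end Main

end Fermat.Agent.Cor.Recip
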