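import Fermat.Agent.Corollaries.Recip.Main

/-!
# Cubic reciprocity and Eisenstein's condition

`K` is a number field containing a primitive `p`-th root of unity `ζ`, `λ = 1 - ζ`.

* `residuacity_of_lt`: if `π ≡ c ^ p mod λ ^ i` and `l ≡ d ^ p mod λ ^ j` with `i + j > p` then
  `π` is a `p`-th power modulo `l` iff `l` is a `p`-th power modulo `π`;
* `residuacity_mod_p`: the same if `p` is odd and `π`, `l` are `p`-th powers modulo `p`;
* `cubic_residuacity`: `π, l ≡ ±1 mod 3` in a number field containing a primitive cube root of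
  unity: `π` is a cube modulo `l` iff `l` is a cube modulo `π`;
* `eisenstein_residuacity`: `π` congruent to a rational integer modulo `λ ^ 2`, `q` a rational
  integer which is a prime element of `𝓞 K`.
-/

set_option autoImplicit false

namespace Fermat.Agent.Cor.Recip

open Fermat.Agent.CFT.Global Fermat.Agent.CFT.Global2
open Fermat.Agent.CFT.SUnits (ord)
open NumberField IsDedekindDomain WithZero

section AtP

universe u

variable {K : Type u} [Field K] [NumberField K] {p : ℕ} {v : HeightOneSpectrum (𝓞 K)}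

lemma valuation_p_mul_lt_one (hp : p.Prime) (hv : (p : 𝓞 K) ∈ v.asIdeal) {ζ : K}
    (hζ : IsPrimitiveRoot ζ p) : v.valuation K (p * (1 - ζ)) < 1 := by
  rw [map_mul]
  exact mul_lt_one_of_lt_of_le (valuation_p_lt_one hv) (valuation_one_sub_zeta_le_one v hp hζ)

lemma valuation_p_mul_pos (hp : p.Prime) {ζ : K} (hζ : IsPrimitiveRoot ζ p) :
    0 < v.valuation K (p * (1 - ζ)) :=
  zero_lt_iff.2 ((Valuation.ne_zero_iff _).2
    (mul_ne_zero (by exact_mod_cast hp.ne_zero) (one_sub_zeta_ne_zero hp hζ)))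

lemma valuation_one_sub_zeta_lt_one (hp : p.Prime) (hv : (p : 𝓞 K) ∈ v.asIdeal) {ζ : K}
    (hζ : IsPrimitiveRoot ζ p) : v.valuation K (1 - ζ) < 1 := by
  have h := (valuation_one_sub_zeta_pow v hp hζ).trans_lt (valuation_p_mul_lt_one hp hv hζ)
  rw [map_pow] at h
  exact (pow_lt_one_iff hp.ne_zero).1 h

lemma valuation_one_sub_zeta_pow_lt (hp : p.Prime) (hv : (p : 𝓞 K) ∈ v.asIdeal) {ζ : K}
    (hζ : IsPrimitiveRoot ζ p) {n : ℕ} (hn : p < n) :
    v.valuation K (1 - ζ) ^ n < v.valuation K (p * (1 - ζ)) := by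
  have h1 := valuation_one_sub_zeta_lt_one hp hv hζ
  have h2 := valuation_one_sub_zeta_pow v hp hζ
  rw [map_pow] at h2
  calc v.valuation K (1 - ζ) ^ n ≤ v.valuation K (1 - ζ) ^ (p + 1) :=
        pow_le_pow_right_of_le_one' h1.le hn
    _ = v.valuation K (1 - ζ) ^ p * v.valuation K (1 - ζ) := pow_succ _ _
    _ ≤ v.valuation K (p * (1 - ζ)) * v.valuation K (1 - ζ) := mul_le_mul' h2 le_rfl
    _ < v.valuation K (p * (1 - ζ)) * 1 :=
        mul_lt_mul_of_pos_left h1 (valuation_p_mul_pos hp hζ)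
    _ = v.valuation K (p * (1 - ζ)) := mul_one _

end AtP

section Main

variable {p : ℕ} [hp : Fact p.Prime] {K : Type} [Field K] [NumberField K]

omit hp in
lemma ne_plc_of_mem {v : HeightOneSpectrum (𝓞 K)} (hv : (p : 𝓞 K) ∈ v.asIdeal) {x : 𝓞 K}
    (hx : Prime x) (hxp : ¬ x ∣ (p : 𝓞 K)) : v ≠ plc hx := by
  rintro rfl
  exact hxp ((mem_plc hx _).1 hv)

/-- If `π ≡ c ^ p mod (1 - ζ) ^ i` and `l ≡ d ^ p mod (1 - ζ) ^ j` with `i, j > 0`, `i + j > p`,
then `π` is a `p`-th power modulo `l` iff `l` is a `p`-th power modulo `π`. -/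
theorem residuacity_of_lt [IsTotallyComplex K] {ζ : 𝓞 K} (hζ : IsPrimitiveRoot ζ p) {π l : 𝓞 K}
    (hπ : Prime π) (hl : Prime l) (hne : ¬ Associated π l) (hpπ : ¬ π ∣ (p : 𝓞 K))
    (hpl : ¬ l ∣ (p : 𝓞 K)) {i j : ℕ} (hi : i ≠ 0) (hj : j ≠ 0) (hij : p < i + j) {c d : 𝓞 K}
    (hc : (1 - ζ) ^ i ∣ π - c ^ p) (hd : (1 - ζ) ^ j ∣ l - d ^ p) :
    (∃ x : 𝓞 K, l ∣ x ^ p - π) ↔ ∃ x : 𝓞 K, π ∣ x ^ p - l := by
  have hζ' : IsPrimitiveRoot (algebraMap (𝓞 K) K ζ) p :=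
    hζ.map_of_injective RingOfIntegers.coe_injective
  refine residue_iff_residue hζ' hπ hl hne hpπ hpl fun LS v hv => ?_
  have hlt := valuation_one_sub_zeta_lt_one hp.out hv hζ'
  have key : ∀ {x e : 𝓞 K} {n : ℕ} (hx : Prime x), ¬ x ∣ (p : 𝓞 K) → n ≠ 0 →
      (1 - ζ) ^ n ∣ x - e ^ p →
      v.valuation K (algebraMap (𝓞 K) K x - algebraMap (𝓞 K) K e ^ p) ≤
        v.valuation K (1 - algebraMap (𝓞 K) K ζ) ^ n ∧
      v.valuation K (algebraMap (𝓞 K) K e) = 1 := by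
    rintro x e n hx hxp hn ⟨w, hw⟩
    have h1 : v.valuation K (algebraMap (𝓞 K) K x - algebraMap (𝓞 K) K e ^ p) ≤
        v.valuation K (1 - algebraMap (𝓞 K) K ζ) ^ n := by
      have h2 := congrArg (algebraMap (𝓞 K) K) hw
      simp only [map_sub, map_mul, map_pow, map_one] at h2
      rw [h2, map_mul, map_pow]
      exact mul_le_of_le_one_right' (v.valuation_le_one w)
    refine ⟨h1, ?_⟩
    have hx1 : v.valuation K (algebraMap (𝓞 K) K x) = 1 := by
      refine (v.valuation_eq_one_iff_notMem (K := K)).2 fun h => ?_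
      apply ne_plc_of_mem hv hx hxp
      ext1
      have h3 : (plc hx).asIdeal ≤ v.asIdeal := by
        intro y hy
        obtain ⟨z, rfl⟩ := (mem_plc hx y).1 hy
        exact Ideal.mul_mem_right _ _ h
      exact ((plc hx).isMaximal.eq_of_le v.isPrime.ne_top h3).symm
    have h4 : v.valuation K (algebraMap (𝓞 K) K e ^ p) = 1 := by
      have e1 : algebraMap (𝓞 K) K e ^ p = algebraMap (𝓞 K) K x -
          (algebraMap (𝓞 K) K x - algebraMap (𝓞 K) K e ^ p) := by ring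
      rw [e1, Valuation.map_sub_eq_of_lt_left _ (by
        rw [hx1]; exact h1.trans_lt (pow_lt_one' hlt hn)), hx1]
    rw [map_pow] at h4
    exact eq_one_of_pow_eq_one hp.out.ne_zero h4
  obtain ⟨h1, h1'⟩ := key hπ hpπ hi hc
  obtain ⟨h2, h2'⟩ := key hl hpl hj hd
  refine sym_eq_one_of_near v LS hp.out hζ' h1' h2' ?_
  rw [unt_val, unt_val]
  refine (mul_le_mul' h1 h2).trans_lt ?_
  rw [← pow_add]
  exact valuation_one_sub_zeta_pow_lt hp.out hv hζ' hij

omit [NumberField K] in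
/-- `(1 - ζ) ^ (p - 1)` divides `p`. -/
lemma one_sub_zeta_pow_dvd {ζ : 𝓞 K} (hζ : IsPrimitiveRoot ζ p) :
    (1 - ζ) ^ (p - 1) ∣ (p : 𝓞 K) := by
  have h1 : ∏ k ∈ Finset.range (p - 1), (1 - ζ ^ (k + 1)) = (p : 𝓞 K) := by
    obtain ⟨q, hq⟩ : ∃ q, p = q + 1 := ⟨p - 1, by have := hp.out.pos; omega⟩
    subst hq
    rw [Nat.add_sub_cancel]
    exact_mod_cast hζ.prod_one_sub_pow_eq_order
  rw [← h1, ← Finset.card_range (p - 1), ← Finset.prod_const, Finset.card_range]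
  refine Finset.prod_dvd_prod_of_dvd _ _ fun k _ => ?_
  have h2 := sub_dvd_pow_sub_pow (1 : 𝓞 K) ζ (k + 1)
  rwa [one_pow] at h2

/-- **The `p`-th power reciprocity law, `p` odd, for `π` and `l` congruent to `p`-th powers
modulo `p`.** -/
theorem residuacity_mod_p (hp2 : p ≠ 2) {ζ : 𝓞 K} (hζ : IsPrimitiveRoot ζ p) {π l : 𝓞 K}
    (hπ : Prime π) (hl : Prime l) (hne : ¬ Associated π l) (hpπ : ¬ π ∣ (p : 𝓞 K))
    (hpl : ¬ l ∣ (p : 𝓞 K)) (hc : ∃ c : 𝓞 K, (p : 𝓞 K) ∣ π - c ^ p)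
    (hd : ∃ d : 𝓞 K, (p : 𝓞 K) ∣ l - d ^ p) :
    (∃ x : 𝓞 K, l ∣ x ^ p - π) ↔ ∃ x : 𝓞 K, π ∣ x ^ p - l := by
  have : IsTotallyComplex K := isTotallyComplex_of_odd hp.out hp2
    (hζ.map_of_injective (f := algebraMap (𝓞 K) K) RingOfIntegers.coe_injective)
  obtain ⟨c, hc⟩ := hc
  obtain ⟨d, hd⟩ := hd
  have h2 := hp.out.two_le
  have h3 : 3 ≤ p := by omega
  exact residuacity_of_lt hζ hπ hl hne hpπ hpl (i := p - 1) (j := p - 1) (by omega) (by omega)
    (by omega) ((one_sub_zeta_pow_dvd hζ).trans hc) ((one_sub_zeta_pow_dvd hζ).trans hd)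

omit hp in
/-- **Cubic reciprocity** (residuacity form) in a number field containing a primitive cube root
of unity: if `π`, `l` are non-associated prime elements, both congruent to `1` or `-1` modulo `3`,
then `π` is a cube modulo `l` if and only if `l` is a cube modulo `π`. -/
theorem cubic_residuacity {ω : 𝓞 K} (hω : IsPrimitiveRoot ω 3) {π l : 𝓞 K} (hπ : Prime π)
    (hl : Prime l) (hne : ¬ Associated π l) (hπ3 : 3 ∣ π - 1 ∨ 3 ∣ π + 1)
    (hl3 : 3 ∣ l - 1 ∨ 3 ∣ l + 1) :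
    (∃ x : 𝓞 K, l ∣ x ^ 3 - π) ↔ ∃ x : 𝓞 K, π ∣ x ^ 3 - l := by
  have h3p := Fact.mk Nat.prime_three
  have key : ∀ {x : 𝓞 K}, Prime x → (3 ∣ x - 1 ∨ 3 ∣ x + 1) →
      ¬ x ∣ ((3 : ℕ) : 𝓞 K) ∧ ∃ c : 𝓞 K, ((3 : ℕ) : 𝓞 K) ∣ x - c ^ 3 := by
    intro x hx h
    have e3 : ((3 : ℕ) : 𝓞 K) = 3 := by norm_num
    rw [e3]
    constructor
    · intro hd
      apply hx.not_isUnit
      rcases h with h | h
      · have h1 : x ∣ x - 1 := hd.trans h
        rw [dvd_sub_right (dvd_refl x)] at h1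
        exact isUnit_of_dvd_one h1
      · have h1 : x ∣ x + 1 := hd.trans h
        rw [dvd_add_right (dvd_refl x)] at h1
        exact isUnit_of_dvd_one h1
    · rcases h with h | h
      · exact ⟨1, by rwa [one_pow]⟩
      · refine ⟨-1, ?_⟩
        have e : x - (-1) ^ 3 = x + 1 := by ring
        rwa [e]
  exact residuacity_mod_p (p := 3) (by norm_num) hω hπ hl hne (key hπ hπ3).1 (key hl hl3).1
    (key hπ hπ3).2 (key hl hl3).2

/-- **Eisenstein's reciprocity law** (residuacity form) for a rational integer `q` which is a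
prime element of `𝓞 K`: if `π` is a prime element, prime to `p` and `q`, congruent to a rational
integer modulo `(1 - ζ) ^ 2`, then `π` is a `p`-th power modulo `q` if and only if `q` is a
`p`-th power modulo `π`. -/
theorem eisenstein_residuacity (hp2 : p ≠ 2) {ζ : 𝓞 K} (hζ : IsPrimitiveRoot ζ p) {π : 𝓞 K}
    {q : ℤ} (hπ : Prime π) (hq : Prime (q : 𝓞 K)) (hne : ¬ Associated π (q : 𝓞 K))
    (hpπ : ¬ π ∣ (p : 𝓞 K)) (hpq : ¬ (q : 𝓞 K) ∣ (p : 𝓞 K))
    (hprim : ∃ n : ℤ, (1 - ζ) ^ 2 ∣ π - n) :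
    (∃ x : 𝓞 K, (q : 𝓞 K) ∣ x ^ p - π) ↔ ∃ x : 𝓞 K, π ∣ x ^ p - q := by
  have : IsTotallyComplex K := isTotallyComplex_of_odd hp.out hp2
    (hζ.map_of_injective (f := algebraMap (𝓞 K) K) RingOfIntegers.coe_injective)
  have hfermat : ∀ m : ℤ, (p : 𝓞 K) ∣ (m : 𝓞 K) - (m : 𝓞 K) ^ p := by
    intro m
    have h1 : (p : ℤ) ∣ m - m ^ p := by
      rw [← ZMod.intCast_zmod_eq_zero_iff_dvd]
      push_cast
      rw [ZMod.pow_card, sub_self]
    have h2 := map_dvd (Int.castRingHom (𝓞 K)) h1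
    simpa using h2
  have h2 := hp.out.two_le
  have h3 : 3 ≤ p := by omega
  obtain ⟨n, hn⟩ := hprim
  refine residuacity_of_lt hζ hπ hq hne hpπ hpq (i := 2) (j := p - 1) (by omega) (by omega)
    (by omega) (c := n) (d := q) ?_ ((one_sub_zeta_pow_dvd hζ).trans (hfermat q))
  have e : π - (n : 𝓞 K) ^ p = (π - n) + ((n : 𝓞 K) - (n : 𝓞 K) ^ p) := by ring
  rw [e]
  exact dvd_add hn ((pow_dvd_pow _ (by omega)).trans
    ((one_sub_zeta_pow_dvd hζ).trans (hfermat n)))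

end Main

end Fermat.Agent.Cor.Recip
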