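import Mathlib

/-!
# A prime modulo which `N ≡ 1` mod `p` has order exactly `p`

`N > 1`, `p` an odd prime dividing `N - 1`: the number `1 + N + ... + N^(p-1)` is `≡ p` mod `p²` and
`> p`, so it has a prime divisor `ℓ ≠ p`, and `N` has order `p` modulo `ℓ`.
-/

namespace Fermat.Agent.Cor.Recip

open Finset

/-- For `p` an odd prime dividing `N - 1`, `N > 1`, there is a prime `ℓ ≠ p`, prime to `N`, such
that `N` has order exactly `p` modulo `ℓ`. -/
theorem exists_order_eq {p : ℕ} [hp : Fact p.Prime] (hp2 : p ≠ 2) {N : ℕ} (hN : 1 < N)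
    (h : p ∣ N - 1) : ∃ ℓ : ℕ, ∃ _ : Fact ℓ.Prime, ℓ ≠ p ∧ ¬ ℓ ∣ N ∧
      ∃ c : (ZMod ℓ)ˣ, (c : ZMod ℓ) = (N : ZMod ℓ) ∧ orderOf c = p := by
  have hpp : p.Prime := hp.out
  have hodd : Odd p := hpp.odd_of_ne_two hp2
  set Φ : ℕ := ∑ i ∈ range p, N ^ i with hΦ
  have hΦp : p < Φ := by
    calc p = ∑ i ∈ range p, 1 := by simp
      _ < Φ := by
        refine Finset.sum_lt_sum (fun i _ => Nat.one_le_pow _ _ (by omega)) ⟨1, ?_, ?_⟩
        · exact mem_range.mpr hpp.one_lt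
        · simpa using hN
  have hnsq : ¬ p ^ 2 ∣ Φ := by
    intro h1
    have hZ : ((p : ℤ)) ^ 2 ∣ ∑ i ∈ range p, (N : ℤ) ^ i := by
      have := Int.natCast_dvd_natCast.mpr h1
      rw [hΦ] at this
      push_cast at this
      exact this
    obtain ⟨b, hb⟩ := h
    have h2 := odd_sq_dvd_geom_sum₂_sub (R := ℤ) (a := 1) (b := b) hodd
    have h3 : (1 : ℤ) + (p : ℤ) * b = (N : ℤ) := by
      have h4 : N = 1 + p * b := by omega
      rw [h4]
      push_cast
      ring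
    rw [h3] at h2
    simp only [one_pow, mul_one] at h2
    have h4 : (p : ℤ) ^ 2 ∣ (p : ℤ) := by
      have := dvd_sub hZ h2
      simpa using this
    have h5 : p ^ 2 ∣ p := by exact_mod_cast h4
    have h6 := Nat.le_of_dvd hpp.pos h5
    nlinarith [hpp.two_le]
  obtain ⟨ℓ, hℓ, hℓΦ, hℓp⟩ : ∃ ℓ : ℕ, ℓ.Prime ∧ ℓ ∣ Φ ∧ ℓ ≠ p := by
    by_contra hcon
    push Not at hcon
    have h1 := Nat.eq_prime_pow_of_unique_prime_dvd (n := Φ) (p := p) (by omega)
      (fun {d} hd hdΦ => hcon d hd hdΦ)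
    set m := Φ.primeFactorsList.length
    have h2 : 2 ≤ m := by
      by_contra hm
      have hm' : m ≤ 1 := by omega
      have : p ^ m ≤ p ^ 1 := Nat.pow_le_pow_right hpp.pos hm'
      rw [pow_one] at this
      omega
    exact hnsq (h1 ▸ pow_dvd_pow p h2)
  have hℓf : Fact ℓ.Prime := ⟨hℓ⟩
  have hΦ0 : (∑ i ∈ range p, (N : ZMod ℓ) ^ i) = 0 := by
    have := (ZMod.natCast_eq_zero_iff Φ ℓ).mpr hℓΦ
    rw [hΦ] at this
    push_cast at this
    exact this
  have hxp : (N : ZMod ℓ) ^ p = 1 := by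
    have := geom_sum_mul (N : ZMod ℓ) p
    rw [hΦ0, zero_mul] at this
    exact (sub_eq_zero.mp this.symm)
  have hx1 : (N : ZMod ℓ) ≠ 1 := by
    intro h
    rw [h] at hΦ0
    simp only [one_pow, sum_const, card_range, nsmul_eq_mul, mul_one] at hΦ0
    rw [ZMod.natCast_eq_zero_iff] at hΦ0
    exact hℓp ((Nat.prime_dvd_prime_iff_eq hℓ hpp).mp hΦ0)
  have hN0 : (N : ZMod ℓ) ≠ 0 := by
    intro h0
    rw [h0, zero_pow hpp.ne_zero] at hxp
    exact zero_ne_one hxp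
  refine ⟨ℓ, hℓf, hℓp, fun h => hN0 ((ZMod.natCast_eq_zero_iff _ _).mpr h),
    Units.mk0 _ hN0, rfl, ?_⟩
  apply orderOf_eq_prime
  · apply Units.ext
    rw [Units.val_pow_eq_pow_val, Units.val_mk0, hxp, Units.val_one]
  · intro h
    apply hx1
    have := congrArg Units.val h
    rwa [Units.val_mk0, Units.val_one] at this

end Fermat.Agent.Cor.Recip
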