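import Fermat.Agent.Corollaries.Recip.Supp
import Fermat.Agent.Corollaries.Diary.Cubic

/-!
# Euler's conjectures on cubic residues

Let `p` be a prime number with `4 p = L ^ 2 + 27 M ^ 2`.

* `cube_of_dvd`: every divisor of `L` and every divisor of `M` is a cube modulo `p`;
* `euler_cubic`: for `q = 2, 3, 5, 7`, `q ≠ p`: `q` is a cube modulo `p` if and only if `q ∣ L M`
  (Euler's conjectures, Gauss, Jacobi 1827);
* `three_cube_iff`, `five_cube_iff`, `seven_cube_iff`: the same with binary quadratic forms: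
  `3` is a cube modulo `p ≡ 1 mod 3` if and only if `4 p = x ^ 2 + 243 y ^ 2`, …

Proof: cubic reciprocity in `ℤ[ω]` and its supplements.
-/

set_option autoImplicit false
set_option linter.unusedSectionVars false

namespace Fermat.Agent.Cor.Recip

open NumberField IsDedekindDomain

section Euler

local instance fact_three' : Fact (Nat.Prime 3) := ⟨Nat.prime_three⟩

variable {K : Type} [Field K] [NumberField K] [IsCyclotomicExtension {3} ℚ K] {ω : 𝓞 K}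

omit [IsCyclotomicExtension {3} ℚ K] in
/-- Cubes modulo a prime number `p ≠ 3` and the cubic symbol at a prime element of norm `p`. -/
theorem cube_iff_resSym (hω : IsPrimitiveRoot ω 3) {p : ℕ} (hp : p.Prime) (hp3 : p ≠ 3) {π : 𝓞 K}
    (hN : Ideal.absNorm (Ideal.span {π}) = p) {c : ℤ} (hc : ¬ (p : ℤ) ∣ c) :
    (∃ x : ZMod p, x ^ 3 = c) ↔ resSym 3 ω (c : 𝓞 K) (Ideal.span {π}) = 1 := by
  set I : Ideal (𝓞 K) := Ideal.span {π} with hI
  have hprime : I.IsPrime := by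
    apply Ideal.isPrime_of_irreducible_absNorm
    rw [hN]
    exact hp
  have hbot : I ≠ ⊥ := by
    rintro h
    rw [h, Ideal.absNorm_bot] at hN
    exact hp.ne_zero hN.symm
  have hpI : ((p : ℤ) : 𝓞 K) ∈ I := by
    have h := Ideal.absNorm_mem I
    rw [hN] at h
    simpa using h
  have hcop : ∀ c : ℤ, ¬ (p : ℤ) ∣ c → (c : 𝓞 K) ∉ I := by
    intro c hc h
    have h1 : IsCoprime (p : ℤ) c := (Nat.prime_iff_prime_int.1 hp).coprime_iff_not_dvd.2 hc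
    obtain ⟨s, t, hst⟩ := h1
    apply hprime.ne_top
    rw [Ideal.eq_top_iff_one]
    have h2 : (1 : 𝓞 K) = s * (p : ℤ) + t * c := by
      rw [← Int.cast_mul, ← Int.cast_mul, ← Int.cast_add, hst, Int.cast_one]
    rw [h2]
    exact Ideal.add_mem _ (Ideal.mul_mem_left _ _ hpI) (Ideal.mul_mem_left _ _ h)
  have h3 : ((3 : ℕ) : 𝓞 K) ∉ I := by
    have h := hcop 3 (fun h => hp3 ((Nat.prime_dvd_prime_iff_eq hp Nat.prime_three).1
      (by exact_mod_cast h)))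
    simpa using h
  let v : HeightOneSpectrum (𝓞 K) := ⟨I, hprime, hbot⟩
  have hv : resSym 3 ω (c : 𝓞 K) I = resAt 3 ω (c : 𝓞 K) v := resSym_asIdeal _ v
  rw [hv, resAt_eq_one_iff hω h3 (hcop c hc)]
  constructor
  · rintro ⟨x, hx⟩
    obtain ⟨k, rfl⟩ := ZMod.intCast_surjective x
    refine ⟨k, ?_⟩
    have h1 : ((k ^ 3 - c : ℤ) : ZMod p) = 0 := by
      push_cast
      rw [hx, sub_self]
    rw [ZMod.intCast_zmod_eq_zero_iff_dvd] at h1
    obtain ⟨t, ht⟩ := h1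
    have h2 : (k : 𝓞 K) ^ 3 - c = t * (p : ℤ) := by
      rw [← Int.cast_mul, mul_comm, ← ht]
      push_cast
      ring
    rw [h2]
    exact Ideal.mul_mem_left _ _ hpI
  · rintro ⟨x, hx⟩
    have hcard : Nat.card (𝓞 K ⧸ I) = p := by
      rw [← hN]
      rfl
    have : Finite (𝓞 K ⧸ I) := Nat.finite_of_card_ne_zero (by rw [hcard]; exact hp.ne_zero)
    have := Fintype.ofFinite (𝓞 K ⧸ I)
    let e : ZMod p ≃+* 𝓞 K ⧸ I := ZMod.ringEquivOfPrime _ hp (by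
      rw [← Nat.card_eq_fintype_card]
      exact hcard)
    refine ⟨e.symm (Ideal.Quotient.mk I x), ?_⟩
    have h1 : Ideal.Quotient.mk I x ^ 3 = Ideal.Quotient.mk I (c : 𝓞 K) := by
      rw [← map_pow]
      exact Ideal.Quotient.eq.2 hx
    rw [← map_pow, h1, map_intCast, map_intCast]

omit [IsCyclotomicExtension {3} ℚ K] in
lemma dvd_sub_or_dvd_add {d : ℤ} (hd : ¬ (3 : ℤ) ∣ d) :
    (3 : 𝓞 K) ∣ (d : 𝓞 K) - 1 ∨ (3 : 𝓞 K) ∣ (d : 𝓞 K) + 1 := by
  rcases (by omega : d % 3 = 1 ∨ d % 3 = 2) with h | h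
  · left
    refine ⟨((d / 3 : ℤ) : 𝓞 K), ?_⟩
    have h1 : d - 1 = 3 * (d / 3) := by omega
    have h2 := congrArg (Int.cast : ℤ → 𝓞 K) h1
    push_cast at h2
    exact h2
  · right
    refine ⟨(((d + 1) / 3 : ℤ) : 𝓞 K), ?_⟩
    have h1 : d + 1 = 3 * ((d + 1) / 3) := by omega
    have h2 := congrArg (Int.cast : ℤ → 𝓞 K) h1
    push_cast at h2
    exact h2

lemma add_self_zmod : ∀ j : ZMod 3, j + j = 0 → j = 0 := by decide

lemma resSym_sqrt (hω : IsPrimitiveRoot ω 3) {d : ℤ} (hd0 : d ≠ 0) (hd : IsCoprime d 3) :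
    resSym 3 ω (1 + 2 * ω) (Ideal.span {(d : 𝓞 K)}) = 1 := by
  have : IsGalois ℚ K := IsCyclotomicExtension.isGalois {3} ℚ K
  have hω2 := omega_sq hω
  have hdK : (d : 𝓞 K) ≠ 0 := by exact_mod_cast hd0
  have hcK : IsCoprime (d : 𝓞 K) ((3 : ℕ) : 𝓞 K) := by
    have h := hd.map (Int.castRingHom (𝓞 K))
    simpa using h
  have hI := span_ne_bot hdK
  have hIp := sup_eq_top hcK
  have hcop : IsCoprime (1 + 2 * ω) (d : 𝓞 K) := by
    have h1 : (1 + 2 * ω) ∣ ((3 : ℕ) : 𝓞 K) := ⟨-(1 + 2 * ω), by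
      push_cast
      linear_combination 4 * hω2⟩
    exact hcK.symm.of_isCoprime_of_dvd_left h1
  obtain ⟨j, hj⟩ := exists_resSym_eq hω hdK hcop
  have h1 : resSym 3 ω ((1 + 2 * ω) * (1 + 2 * ω)) (Ideal.span {(d : 𝓞 K)}) = 1 := by
    have e : (1 + 2 * ω) * (1 + 2 * ω) = ((-3 : ℤ) : 𝓞 K) := by
      push_cast
      linear_combination 4 * hω2
    rw [e]
    exact resSym_int (by norm_num) hω hd0 hd.symm.neg_left hd
  rw [resSym_mul_left hω _ _ hI hIp, hj, zhom_mul] at h1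
  have h2 : (1 : 𝓞 K) = zhom hω (Multiplicative.ofAdd (0 : ZMod 3)) := by
    rw [ofAdd_zero, map_one]
  rw [h2] at h1
  have h3 := zhom_inj hω h1
  have h4 : j = 0 := add_self_zmod j h3
  rw [hj, h4, ofAdd_zero, map_one]

/-- If `a + b ω ≡ c t` modulo `d` with `c` prime to `d`, then `((a + b ω) / d)₃ = (t / d)₃`. -/
lemma resSym_of_congr (hω : IsPrimitiveRoot ω 3) {d c : ℤ} (hd0 : d ≠ 0) (hd : IsCoprime d 3)
    (hc : IsCoprime c d) {x t : 𝓞 K} (h : (d : 𝓞 K) ∣ x - c * t) :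
    resSym 3 ω x (Ideal.span {(d : 𝓞 K)}) = resSym 3 ω t (Ideal.span {(d : 𝓞 K)}) := by
  have : IsGalois ℚ K := IsCyclotomicExtension.isGalois {3} ℚ K
  have hdK : (d : 𝓞 K) ≠ 0 := by exact_mod_cast hd0
  have hcK : IsCoprime (d : 𝓞 K) ((3 : ℕ) : 𝓞 K) := by
    have h := hd.map (Int.castRingHom (𝓞 K))
    simpa using h
  have hI := span_ne_bot hdK
  have hIp := sup_eq_top hcK
  rw [resSym_congr hω hI hIp (b := c * t) (Ideal.mem_span_singleton.2 h),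
    resSym_mul_left hω _ _ hI hIp, resSym_int (by norm_num) hω hd0 hc hd, one_mul]

/-- Reciprocity for a rational integer. -/
lemma resSym_rat (hω : IsPrimitiveRoot ω 3) {m n d : ℤ} (hd : IsCoprime d 3)
    (hcop : IsCoprime (d : 𝓞 K) (prim ω m n)) :
    resSym 3 ω (d : 𝓞 K) (Ideal.span {prim ω m n}) =
      resSym 3 ω (prim ω m n) (Ideal.span {(d : 𝓞 K)}) := by
  refine cubic_reciprocity finrank_three hω hcop (dvd_sub_or_dvd_add ?_) (prim_dvd ω m n)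
  rintro ⟨c, rfl⟩
  obtain ⟨s, t, hst⟩ := hd
  have : (3 : ℤ) ∣ 1 := ⟨s * c + t, by rw [← hst]; ring⟩
  omega

/-- A rational integer prime to the norm of `π` is prime to `π`. -/
lemma isCoprime_prim {m n d : ℤ} (hω : IsPrimitiveRoot ω 3)
    (h : IsCoprime d (3 * (3 * m ^ 2 - 2 * m - 3 * m * n + n + 3 * n ^ 2) + 1)) :
    IsCoprime (d : 𝓞 K) (prim ω m n) := by
  obtain ⟨s, t, hst⟩ := h
  have hω2 := omega_sq hω
  refine ⟨s, t * ((3 * m - 1) + 3 * n * ω ^ 2), ?_⟩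
  have h1 := congrArg (Int.cast : ℤ → 𝓞 K) hst
  push_cast at h1
  rw [prim]
  push_cast
  have h3 := hω.pow_eq_one
  linear_combination h1 + (9 * (t : 𝓞 K) * n ^ 2) * h3 + ((t : 𝓞 K) * (3 * m - 1) * (3 * n)) * hω2

/-- Divisors of `n` are cubic residues. -/
theorem resSym_dvd_right (hω : IsPrimitiveRoot ω 3) {m n d : ℤ} (hd0 : d ≠ 0) (hd : IsCoprime d 3)
    (hN : IsCoprime d (3 * (3 * m ^ 2 - 2 * m - 3 * m * n + n + 3 * n ^ 2) + 1)) (hdn : d ∣ n) :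
    resSym 3 ω (d : 𝓞 K) (Ideal.span {prim ω m n}) = 1 := by
  have hcop := isCoprime_prim (K := K) hω hN
  have : IsGalois ℚ K := IsCyclotomicExtension.isGalois {3} ℚ K
  obtain ⟨k, rfl⟩ := hdn
  have hA : IsCoprime (3 * m - 1) d := by
    obtain ⟨s, t, hst⟩ := hN
    exact ⟨t * (3 * m - 1), s + t * k * (3 - 9 * m + 9 * (d * k)), by linear_combination hst⟩
  rw [resSym_rat hω hd hcop, resSym_of_congr hω hd0 hd hA (t := 1) ⟨3 * k * ω, by
    rw [prim]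
    push_cast
    ring⟩]
  have h1 := resSym_int (p := 3) (K := K) (by norm_num) hω hd0 (isCoprime_one_left (x := d)) hd
  simpa using h1

/-- Divisors of `L = 2 (3 m - 1) - 3 n` are cubic residues. -/
theorem resSym_dvd_left (hω : IsPrimitiveRoot ω 3) {m n d : ℤ} (hd0 : d ≠ 0) (hd : IsCoprime d 3)
    (hN : IsCoprime d (3 * (3 * m ^ 2 - 2 * m - 3 * m * n + n + 3 * n ^ 2) + 1))
    (hdL : d ∣ 2 * (3 * m - 1) - 3 * n) :
    resSym 3 ω (d : 𝓞 K) (Ideal.span {prim ω m n}) = 1 := by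
  have hcop := isCoprime_prim (K := K) hω hN
  obtain ⟨k, hk⟩ := hdL
  have hA : IsCoprime (3 * m - 1) d := by
    obtain ⟨s, t, hst⟩ := hN
    have e : 3 * (3 * m ^ 2 - 2 * m - 3 * m * n + n + 3 * n ^ 2) + 1 =
        3 * (3 * m - 1) ^ 2 + d * (d * k ^ 2 - 3 * k * (3 * m - 1)) := by
      have h3 : 3 * n = 2 * (3 * m - 1) - d * k := by linarith
      linear_combination (3 * n + 2 * (3 * m - 1) - d * k - (3 * m - 1)) * h3
    rw [e] at hst
    exact ⟨t * 3 * (3 * m - 1), s + t * (d * k ^ 2 - 3 * k * (3 * m - 1)), by linear_combination hst⟩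
  rw [resSym_rat hω hd hcop, resSym_of_congr hω hd0 hd hA (t := 1 + 2 * ω) ⟨-(k * ω), by
    have h1 := congrArg (Int.cast : ℤ → 𝓞 K) hk
    push_cast at h1
    rw [prim]
    push_cast
    linear_combination (-ω) * h1⟩, resSym_sqrt hω hd0 hd]

lemma cls {q : ℕ} (hq : q = 2 ∨ q = 5 ∨ q = 7) : ∀ a b : ZMod q, a ^ 2 - a * b + b ^ 2 ≠ 0 →
    b = 0 ∨ 2 * a - b = 0 ∨ a = 0 ∨ a - b = 0 ∨ a - 2 * b = 0 ∨ a + b = 0 := by
  rcases hq with rfl | rfl | rfl <;> decide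

/-- `(ω / q)₃ ≠ 1` for `q = 2, 5, 7`. -/
lemma omega_ne_one (hω : IsPrimitiveRoot ω 3) {q : ℕ} (hq : q = 2 ∨ q = 5 ∨ q = 7) :
    ∃ j : ZMod 3, j ≠ 0 ∧
      resSym 3 ω ω (Ideal.span {((q : ℤ) : 𝓞 K)}) = zhom hω (Multiplicative.ofAdd j) := by
  rcases hq with rfl | rfl | rfl
  · refine ⟨1, by decide, ?_⟩
    have h := cubic_omega hω 1 0
    rw [prim_rat, ← zhom_ofAdd hω] at h
    have e : ((3 * 1 - 1 : ℤ) : 𝓞 K) = (((2 : ℕ) : ℤ) : 𝓞 K) := by norm_num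
    rw [e] at h
    rw [h]
    congr 2
  · refine ⟨2, by decide, ?_⟩
    have h := cubic_omega hω 2 0
    rw [prim_rat, ← zhom_ofAdd hω] at h
    have e : ((3 * 2 - 1 : ℤ) : 𝓞 K) = (((5 : ℕ) : ℤ) : 𝓞 K) := by norm_num
    rw [e] at h
    rw [h]
    congr 2
  · refine ⟨1, by decide, ?_⟩
    have h := cubic_omega hω (-2) 0
    rw [prim_rat, ← zhom_ofAdd hω] at h
    have e : ((3 * (-2) - 1 : ℤ) : 𝓞 K) = -(((7 : ℕ) : ℤ) : 𝓞 K) := by norm_num
    rw [e, Ideal.span_singleton_neg] at h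
    rw [h]
    congr 2

/-- For `q = 2, 5, 7`: if `(q / π)₃ = 1`, then `q ∣ n` or `q ∣ L = 2 (3 m - 1) - 3 n`. -/
theorem dvd_of_resSym (hω : IsPrimitiveRoot ω 3) {q : ℕ} (hq : q = 2 ∨ q = 5 ∨ q = 7) {m n : ℤ}
    (hN : IsCoprime (q : ℤ) (3 * (3 * m ^ 2 - 2 * m - 3 * m * n + n + 3 * n ^ 2) + 1))
    (h : resSym 3 ω ((q : ℤ) : 𝓞 K) (Ideal.span {prim ω m n}) = 1) :
    (q : ℤ) ∣ 3 * n ∨ (q : ℤ) ∣ 2 * (3 * m - 1) - 3 * n := by
  have hω2 := omega_sq hω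
  have hqp : q.Prime := by
    rcases hq with rfl | rfl | rfl <;> norm_num
  have hq0 : (q : ℤ) ≠ 0 := by exact_mod_cast hqp.ne_zero
  have hq3 : IsCoprime (q : ℤ) 3 := by
    rcases hq with rfl | rfl | rfl
    · exact ⟨-1, 1, by norm_num⟩
    · exact ⟨-1, 2, by norm_num⟩
    · exact ⟨1, -2, by norm_num⟩
  have hqK : ((q : ℤ) : 𝓞 K) ≠ 0 := by exact_mod_cast hq0
  have hcK : IsCoprime ((q : ℤ) : 𝓞 K) ((3 : ℕ) : 𝓞 K) := by
    have h := hq3.map (Int.castRingHom (𝓞 K))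
    simpa using h
  have hI := span_ne_bot hqK
  have hIp := sup_eq_top hcK
  have hcop := isCoprime_prim (K := K) hω hN
  rw [resSym_rat hω hq3 hcop] at h
  obtain ⟨j, hj0, hj⟩ := omega_ne_one (K := K) hω hq
  have hneg : resSym 3 ω (-1) (Ideal.span {((q : ℤ) : 𝓞 K)}) = 1 :=
    resSym_neg_one (by norm_num) hω hqK hcK
  have hsq := resSym_sqrt (K := K) hω hq0 hq3
  -- the three values
  have t1 : resSym 3 ω (1 + ω) (Ideal.span {((q : ℤ) : 𝓞 K)}) =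
      zhom hω (Multiplicative.ofAdd (j + j)) := by
    have e : 1 + ω = -1 * (ω * ω) := by linear_combination hω2
    rw [e, resSym_mul_left hω _ _ hI hIp, resSym_mul_left hω _ _ hI hIp, hneg, hj, one_mul,
      zhom_mul]
  have t2 : resSym 3 ω (2 + ω) (Ideal.span {((q : ℤ) : 𝓞 K)}) =
      zhom hω (Multiplicative.ofAdd j) := by
    have e : 2 + ω = -1 * (ω * (1 + 2 * ω)) := by linear_combination 2 * hω2
    rw [e, resSym_mul_left hω _ _ hI hIp, resSym_mul_left hω _ _ hI hIp, hneg, hj, hsq, one_mul,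
      mul_one]
  have t3 : resSym 3 ω (1 - ω) (Ideal.span {((q : ℤ) : 𝓞 K)}) =
      zhom hω (Multiplicative.ofAdd (j + j)) := by
    have e : 1 - ω = ω * (ω * (1 + 2 * ω)) := by
      linear_combination (1 - 2 * ω) * hω2
    rw [e, resSym_mul_left hω _ _ hI hIp, resSym_mul_left hω _ _ hI hIp, hj, hsq, mul_one,
      zhom_mul]
  have key : ∀ (c : ℤ) (t : 𝓞 K) (i : ZMod 3), ((c : ℤ) : ZMod q) ≠ 0 →
      ((q : ℤ) : 𝓞 K) ∣ prim ω m n - c * t →
      resSym 3 ω t (Ideal.span {((q : ℤ) : 𝓞 K)}) = zhom hω (Multiplicative.ofAdd i) →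
      i ≠ 0 → False := by
    intro c t i hc hd ht hi
    have hc' : IsCoprime c (q : ℤ) := by
      refine ((Nat.prime_iff_prime_int.1 hqp).coprime_iff_not_dvd.2 fun h1 => hc ?_).symm
      exact (ZMod.intCast_zmod_eq_zero_iff_dvd _ _).2 h1
    rw [resSym_of_congr hω hq0 hq3 hc' hd, ht] at h
    have h2 : (1 : 𝓞 K) = zhom hω (Multiplicative.ofAdd (0 : ZMod 3)) := by
      rw [ofAdd_zero, map_one]
    rw [h2] at h
    exact hi (zhom_inj hω h)
  have hab : ((3 * m - 1 : ℤ) : ZMod q) ^ 2 - ((3 * m - 1 : ℤ) : ZMod q) * ((3 * n : ℤ) : ZMod q) +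
      ((3 * n : ℤ) : ZMod q) ^ 2 ≠ 0 := by
    intro h0
    have h1 : ((3 * (3 * m ^ 2 - 2 * m - 3 * m * n + n + 3 * n ^ 2) + 1 : ℤ) : ZMod q) = 0 := by
      rw [← h0]
      push_cast
      ring
    rw [ZMod.intCast_zmod_eq_zero_iff_dvd] at h1
    exact (Nat.prime_iff_prime_int.1 hqp).not_isUnit (hN.isUnit_of_dvd' dvd_rfl h1)
  have hz : ∀ u : ℤ, (u : ZMod q) = 0 → ((q : ℤ) : 𝓞 K) ∣ (u : 𝓞 K) := by
    intro u hu
    obtain ⟨k, rfl⟩ := (ZMod.intCast_zmod_eq_zero_iff_dvd _ _).1 hu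
    exact ⟨k, by push_cast; ring⟩
  have hjj : j + j ≠ 0 := fun h => hj0 (add_self_zmod j h)
  rcases cls hq _ _ hab with h0 | h0 | h0 | h0 | h0 | h0
  · left
    exact (ZMod.intCast_zmod_eq_zero_iff_dvd _ _).1 h0
  · right
    apply (ZMod.intCast_zmod_eq_zero_iff_dvd _ _).1
    rw [← h0]
    push_cast
    ring
  · exfalso
    refine key (3 * n) ω j (fun h1 => hab ?_) ?_ hj hj0
    · rw [h0, h1]
      ring
    · have h2 := hz _ h0
      have e : prim ω m n - ((3 * n : ℤ) : 𝓞 K) * ω = ((3 * m - 1 : ℤ) : 𝓞 K) := by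
        rw [prim]
        ring
      rwa [e]
  · exfalso
    have h3 : ((3 * m - 1 - 3 * n : ℤ) : ZMod q) = 0 := by
      rw [← h0]
      push_cast
      ring
    refine key (3 * n) (1 + ω) (j + j) (fun h1 => hab ?_) ?_ t1 hjj
    · rw [h1, sub_zero] at h0
      rw [h0, h1]
      ring
    · have h2 := hz _ h3
      have e : prim ω m n - ((3 * n : ℤ) : 𝓞 K) * (1 + ω) = ((3 * m - 1 - 3 * n : ℤ) : 𝓞 K) := by
        rw [prim]
        push_cast
        ring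
      rwa [e]
  · exfalso
    have h3 : ((3 * m - 1 - 2 * (3 * n) : ℤ) : ZMod q) = 0 := by
      rw [← h0]
      push_cast
      ring
    refine key (3 * n) (2 + ω) j (fun h1 => hab ?_) ?_ t2 hj0
    · rw [h1, mul_zero, sub_zero] at h0
      rw [h0, h1]
      ring
    · have h2 := hz _ h3
      have e : prim ω m n - ((3 * n : ℤ) : 𝓞 K) * (2 + ω) =
          ((3 * m - 1 - 2 * (3 * n) : ℤ) : 𝓞 K) := by
        rw [prim]
        push_cast
        ring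
      rwa [e]
  · exfalso
    have h3 : ((3 * m - 1 + 3 * n : ℤ) : ZMod q) = 0 := by
      rw [← h0]
      push_cast
      ring
    refine key (3 * m - 1) (1 - ω) (j + j) (fun h1 => hab ?_) ?_ t3 hjj
    · rw [h1, zero_add] at h0
      rw [h0, h1]
      ring
    · have h2 := hz _ h3
      have e : prim ω m n - ((3 * m - 1 : ℤ) : 𝓞 K) * (1 - ω) =
          ((3 * m - 1 + 3 * n : ℤ) : 𝓞 K) * ω := by
        rw [prim]
        push_cast
        ring
      rw [e]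
      exact Dvd.dvd.mul_right h2 _

/-- `(3 / π)₃ = ω ^ (2 n)` for `π = 3 m - 1 + 3 n ω`. -/
theorem resSym_three (hω : IsPrimitiveRoot ω 3) (m n : ℤ) :
    resSym 3 ω ((3 : ℤ) : 𝓞 K) (Ideal.span {prim ω m n}) =
      zhom hω (Multiplicative.ofAdd ((2 * n : ℤ) : ZMod 3)) := by
  have hω2 := omega_sq hω
  have hπ0 := prim_ne_zero hω m n
  have hπc := prim_coprime ω m n
  have hI := span_ne_bot hπ0
  have hIp := sup_eq_top hπc
  have e : ((3 : ℤ) : 𝓞 K) = -1 * (ω * (ω * ((1 - ω) * (1 - ω)))) := by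
    have h3 := hω.pow_eq_one
    push_cast
    linear_combination (-3 : 𝓞 K) * h3 + ω ^ 2 * hω2
  have oω : resSym 3 ω ω (Ideal.span {prim ω m n}) =
      zhom hω (Multiplicative.ofAdd ((m + n : ℤ) : ZMod 3)) := cubic_omega hω m n
  have ol : resSym 3 ω (1 - ω) (Ideal.span {prim ω m n}) =
      zhom hω (Multiplicative.ofAdd ((2 * m : ℤ) : ZMod 3)) := cubic_lambda hω m n
  rw [e, resSym_mul_left hω _ _ hI hIp, resSym_mul_left hω _ _ hI hIp,
    resSym_mul_left hω _ _ hI hIp, resSym_mul_left hω _ _ hI hIp,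
    resSym_neg_one (by norm_num) hω hπ0 hπc, oω, ol, one_mul, zhom_mul, zhom_mul, zhom_mul]
  congr 2
  have h3 : (3 : ZMod 3) = 0 := by decide
  push_cast
  linear_combination (2 * (m : ZMod 3)) * h3

lemma resSym_three_iff (hω : IsPrimitiveRoot ω 3) (m n : ℤ) :
    resSym 3 ω ((3 : ℤ) : 𝓞 K) (Ideal.span {prim ω m n}) = 1 ↔ 3 ∣ n := by
  rw [resSym_three hω]
  have h2 : (1 : 𝓞 K) = zhom hω (Multiplicative.ofAdd (0 : ZMod 3)) := by
    rw [ofAdd_zero, map_one]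
  rw [h2]
  constructor
  · intro h
    have h1 := zhom_inj hω h
    rw [ZMod.intCast_zmod_eq_zero_iff_dvd] at h1
    omega
  · intro h
    congr 2
    rw [ZMod.intCast_zmod_eq_zero_iff_dvd]
    omega

end Euler

/-! ### The theorems -/

section Main

lemma exists_m {p L M : ℤ} (h : 4 * p = L ^ 2 + 27 * M ^ 2) (hL : L % 3 = 1) :
    ∃ m : ℤ, 2 * (3 * m - 1) = L + 3 * M := by
  rcases Int.even_or_odd' L with ⟨l, hl | hl⟩ <;> rcases Int.even_or_odd' M with ⟨k, hk | hk⟩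
  · exact ⟨(L + 3 * M + 2) / 6, by omega⟩
  · exfalso
    rw [hl, hk] at h
    ring_nf at h
    omega
  · exfalso
    rw [hl, hk] at h
    ring_nf at h
    omega
  · exact ⟨(L + 3 * M + 2) / 6, by omega⟩

lemma mod_three {p : ℕ} (hp : p.Prime) {L M : ℤ} (h : 4 * (p : ℤ) = L ^ 2 + 27 * M ^ 2) :
    L % 3 = 1 ∨ L % 3 = 2 := by
  by_contra hcon
  have h3 : (3 : ℤ) ∣ L := by omega
  obtain ⟨l, rfl⟩ := h3
  have h1 : 4 * (p : ℤ) = 9 * (l ^ 2 + 3 * M ^ 2) := by rw [h]; ring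
  have h2 : 3 ∣ p := by omega
  rw [(Nat.prime_dvd_prime_iff_eq Nat.prime_three hp).1 h2 |>.symm] at h1
  push_cast at h1
  omega

lemma M_ne_zero {p : ℕ} (hp : p.Prime) {L M : ℤ} (h : 4 * (p : ℤ) = L ^ 2 + 27 * M ^ 2) :
    M ≠ 0 := by
  rintro rfl
  have h1 : Even (L ^ 2) := ⟨2 * p, by linarith⟩
  obtain ⟨l, hl⟩ := (Int.even_pow.1 h1).1
  have h2 : (p : ℤ) = l * l := by
    rw [hl] at h
    linarith
  exact (Nat.prime_iff_prime_int.1 hp).irreducible.not_isSquare ⟨l, h2⟩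

lemma not_dvd_LM {p : ℕ} (hp : p.Prime) {L M : ℤ} (h : 4 * (p : ℤ) = L ^ 2 + 27 * M ^ 2) :
    ¬ (p : ℤ) ∣ L ∧ ¬ (p : ℤ) ∣ M := by
  have hM := M_ne_zero hp h
  have hL : L ≠ 0 := by
    rcases mod_three hp h with h1 | h1 <;> rintro rfl <;> norm_num at h1
  have hM1 : 1 ≤ M ^ 2 := by
    have := sq_pos_of_ne_zero hM
    omega
  have hp2 : (2 : ℤ) ≤ p := by exact_mod_cast hp.two_le
  constructor
  · rintro ⟨k, rfl⟩
    have hk : k ≠ 0 := by
      rintro rfl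
      exact hL (mul_zero _)
    have hk1 : 1 ≤ k ^ 2 := by
      have := sq_pos_of_ne_zero hk
      omega
    nlinarith [mul_le_mul_of_nonneg_left hk1 (sq_nonneg (p : ℤ)), sq_nonneg ((p : ℤ) - 2)]
  · rintro ⟨k, rfl⟩
    have hk : k ≠ 0 := by
      rintro rfl
      exact hM (mul_zero _)
    have hk1 : 1 ≤ k ^ 2 := by
      have := sq_pos_of_ne_zero hk
      omega
    nlinarith [mul_le_mul_of_nonneg_left hk1 (sq_nonneg (p : ℤ)), sq_nonneg L]

/-- Everything about the prime element `π` above `p`. -/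
lemma exists_pi {p : ℕ} (hp : p.Prime) {L M : ℤ} (h : 4 * (p : ℤ) = L ^ 2 + 27 * M ^ 2)
    (hL : L % 3 = 1) : ∃ m : ℤ, L = 2 * (3 * m - 1) - 3 * M ∧
      3 * (3 * m ^ 2 - 2 * m - 3 * m * M + M + 3 * M ^ 2) + 1 = (p : ℤ) ∧
      ∀ {K : Type} [Field K] [NumberField K] [IsCyclotomicExtension {3} ℚ K] {ω : 𝓞 K}
        (_ : IsPrimitiveRoot ω 3) {c : ℤ} (_ : ¬ (p : ℤ) ∣ c),
        (∃ x : ZMod p, x ^ 3 = c) ↔
          resSym 3 ω (c : 𝓞 K) (Ideal.span {prim ω m M}) = 1 := by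
  obtain ⟨m, hm⟩ := exists_m h hL
  have hN : 3 * (3 * m ^ 2 - 2 * m - 3 * m * M + M + 3 * M ^ 2) + 1 = (p : ℤ) := by
    have h4 : 4 * (3 * (3 * m ^ 2 - 2 * m - 3 * m * M + M + 3 * M ^ 2) + 1) = 4 * (p : ℤ) := by
      linear_combination (2 * (3 * m - 1) + L - 3 * M) * hm - h
    linarith
  have hp3 : p ≠ 3 := by
    rintro rfl
    push_cast at hN
    omega
  refine ⟨m, by linarith, hN, ?_⟩
  intro K _ _ _ ω hω c hc
  apply cube_iff_resSym hω hp hp3 _ hc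
  have h1 := absNorm_prim hω m M
  rw [hN] at h1
  exact_mod_cast h1

local instance isCyc_three : IsCyclotomicExtension {3} ℚ (CyclotomicField 3 ℚ) :=
  haveI : NeZero ((3 : ℕ) : ℚ) := ⟨by norm_num⟩
  CyclotomicField.isCyclotomicExtension 3 ℚ

/-- The field `ℚ(ω)`. -/
lemma exists_omega : ∃ ω : 𝓞 (CyclotomicField 3 ℚ), IsPrimitiveRoot ω 3 :=
  ⟨_, (IsCyclotomicExtension.zeta_spec 3 ℚ (CyclotomicField 3 ℚ)).toInteger_isPrimitiveRoot⟩

lemma three_iff {p : ℕ} (hp : p.Prime) {L M : ℤ} (h : 4 * (p : ℤ) = L ^ 2 + 27 * M ^ 2)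
    (hL : L % 3 = 1) : (∃ x : ZMod p, x ^ 3 = ((3 : ℤ) : ZMod p)) ↔ 3 ∣ M := by
  obtain ⟨ω, hω⟩ := exists_omega
  obtain ⟨m, -, hN, hc⟩ := exists_pi hp h hL
  rw [hc hω, resSym_three_iff hω]
  intro h3
  have h4 : p ∣ 3 := by exact_mod_cast h3
  have h5 := (Nat.prime_dvd_prime_iff_eq hp Nat.prime_three).1 h4
  rw [h5] at hN
  push_cast at hN
  omega

lemma cube_of_dvd_aux {p : ℕ} (hp : p.Prime) {L M : ℤ} (h : 4 * (p : ℤ) = L ^ 2 + 27 * M ^ 2)
    (hL : L % 3 = 1) {d : ℤ} (hd3 : ¬ (3 : ℤ) ∣ d) (hd : d ∣ L ∨ d ∣ M) :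
    ∃ x : ZMod p, x ^ 3 = (d : ZMod p) := by
  obtain ⟨ω, hω⟩ := exists_omega
  obtain ⟨m, hLm, hN, hc⟩ := exists_pi hp h hL
  obtain ⟨hpL, hpM⟩ := not_dvd_LM hp h
  have hpd : ¬ (p : ℤ) ∣ d := fun hpd => by
    rcases hd with hd | hd
    · exact hpL (hpd.trans hd)
    · exact hpM (hpd.trans hd)
  have hd0 : d ≠ 0 := by
    rintro rfl
    exact hd3 (dvd_zero _)
  have hd3' : IsCoprime d 3 :=
    (Int.prime_three.coprime_iff_not_dvd.2 hd3).symm
  have hcop : IsCoprime d (3 * (3 * m ^ 2 - 2 * m - 3 * m * M + M + 3 * M ^ 2) + 1) := by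
    rw [hN]
    exact ((Nat.prime_iff_prime_int.1 hp).coprime_iff_not_dvd.2 hpd).symm
  rw [hc hω hpd]
  rcases hd with hd | hd
  · rw [hLm] at hd
    exact resSym_dvd_left hω hd0 hd3' hcop hd
  · exact resSym_dvd_right hω hd0 hd3' hcop hd

/-- Let `4 p = L ^ 2 + 27 M ^ 2`, `p` prime. **Every divisor of `L` and every divisor of `M` is a
cube modulo `p`.** -/
theorem cube_of_dvd {p : ℕ} (hp : p.Prime) {L M : ℤ} (h : 4 * (p : ℤ) = L ^ 2 + 27 * M ^ 2)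
    {d : ℤ} (hd : d ∣ L ∨ d ∣ M) : ∃ x : ZMod p, x ^ 3 = (d : ZMod p) := by
  -- we may assume `L ≡ 1 mod 3`
  wlog hL : L % 3 = 1 generalizing L with H
  · have h1 := mod_three hp h
    exact H (L := -L) (by rw [neg_sq]; exact h) (by rwa [dvd_neg]) (by omega)
  have hL0 : L ≠ 0 := by
    rintro rfl
    norm_num at hL
  have hM0 := M_ne_zero hp h
  have hd0 : d ≠ 0 := by
    rintro rfl
    rcases hd with hd | hd
    · exact hL0 (zero_dvd_iff.1 hd)
    · exact hM0 (zero_dvd_iff.1 hd)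
  obtain ⟨e, d', hd', hde⟩ := Nat.exists_eq_pow_mul_and_not_dvd (Int.natAbs_ne_zero.2 hd0) 3
    (by norm_num)
  obtain ⟨u, hu⟩ : ∃ u : ℤ, d = 3 ^ e * u ∧ ¬ (3 : ℤ) ∣ u := by
    rcases Int.natAbs_eq d with h1 | h1
    · refine ⟨d', ?_, by omega⟩
      rw [h1, hde]
      push_cast
      ring
    · refine ⟨-d', ?_, by omega⟩
      rw [h1, hde]
      push_cast
      ring
  obtain ⟨rfl, hu3⟩ := hu
  obtain ⟨y, hy⟩ := cube_of_dvd_aux hp h hL hu3
    (hd.imp (fun h => (dvd_mul_left _ _).trans h) fun h => (dvd_mul_left _ _).trans h)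
  rcases Nat.eq_zero_or_pos e with rfl | he
  · exact ⟨y, by rw [hy, pow_zero, one_mul]⟩
  have h3M : (3 : ℤ) ∣ M := by
    have h3 : (3 : ℤ) ∣ 3 ^ e * u := (dvd_pow_self _ he.ne').mul_right _
    rcases hd with hd | hd
    · have := h3.trans hd
      omega
    · exact h3.trans hd
  obtain ⟨x, hx⟩ := (three_iff hp h hL).2 h3M
  refine ⟨x ^ e * y, ?_⟩
  rw [mul_pow, hy, ← pow_mul, mul_comm e 3, pow_mul, hx]
  push_cast
  ring

/-- **Euler's conjectures** (Gauss, Jacobi 1827): let `p` be a prime number with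
`4 p = L ^ 2 + 27 M ^ 2` and `q = 2, 3, 5, 7` different from `p`. Then `q` is a cube modulo `p` if
and only if `q` divides `L M`. -/
theorem euler_cubic {p : ℕ} (hp : p.Prime) {L M : ℤ} (h : 4 * (p : ℤ) = L ^ 2 + 27 * M ^ 2)
    {q : ℕ} (hq : q = 2 ∨ q = 3 ∨ q = 5 ∨ q = 7) (hqp : q ≠ p) :
    (∃ x : ZMod p, x ^ 3 = (q : ZMod p)) ↔ (q : ℤ) ∣ L * M := by
  have hqq : q.Prime := by
    rcases hq with rfl | rfl | rfl | rfl <;> norm_num
  constructor
  · intro hx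
    wlog hL : L % 3 = 1 generalizing L with H
    · have h1 := mod_three hp h
      have h2 := H (L := -L) (by rw [neg_sq]; exact h) (by omega)
      rwa [neg_mul, dvd_neg] at h2
    by_cases hq3 : q = 3
    · subst hq3
      have h1 := (three_iff hp h hL).1 (by simpa using hx)
      exact_mod_cast h1.mul_left L
    · have hq' : q = 2 ∨ q = 5 ∨ q = 7 := by tauto
      obtain ⟨ω, hω⟩ := exists_omega
      obtain ⟨m, hLm, hN, hc⟩ := exists_pi hp h hL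
      have hpq : ¬ (p : ℤ) ∣ (q : ℤ) := by
        intro h1
        have h2 : p ∣ q := by exact_mod_cast h1
        exact hqp ((Nat.prime_dvd_prime_iff_eq hp hqq).1 h2).symm
      have hcop : IsCoprime (q : ℤ)
          (3 * (3 * m ^ 2 - 2 * m - 3 * m * M + M + 3 * M ^ 2) + 1) := by
        rw [hN]
        exact ((Nat.prime_iff_prime_int.1 hp).coprime_iff_not_dvd.2 hpq).symm
      have h1 := (hc hω hpq).1 (by simpa using hx)
      rcases dvd_of_resSym hω hq' hcop h1 with h2 | h2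
      · have h3 : (q : ℤ) ∣ M := by
          have h4 : ¬ (q : ℤ) ∣ 3 := by
            intro h4
            have h5 : q ∣ 3 := by exact_mod_cast h4
            exact hq3 ((Nat.prime_dvd_prime_iff_eq hqq Nat.prime_three).1 h5)
          exact ((Nat.prime_iff_prime_int.1 hqq).dvd_or_dvd h2).resolve_left h4
        exact h3.mul_left L
      · rw [← hLm] at h2
        exact h2.mul_right M
  · intro h1
    obtain ⟨x, hx⟩ := cube_of_dvd hp h ((Nat.prime_iff_prime_int.1 hqq).dvd_or_dvd h1)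
    exact ⟨x, by rw [hx, Int.cast_natCast]⟩

/-- For `p ≡ 1 mod 3`: `4 p = L ^ 2 + 27 M ^ 2`. -/
lemma exists_LM {p : ℕ} (hp : p.Prime) (h3 : p % 3 = 1) :
    ∃ L M : ℤ, L % 3 = 1 ∧ 4 * (p : ℤ) = L ^ 2 + 27 * M ^ 2 := by
  have : Fact p.Prime := ⟨hp⟩
  obtain ⟨L, ⟨hL, M, h⟩, -⟩ := Diary.existsUnique_four_mul h3
  exact ⟨L, M, hL, h⟩

/-- **Jacobi 1827**: for a prime `p ≡ 1 mod 3`, `3` is a cube modulo `p` if and only if
`4 p = x ^ 2 + 243 y ^ 2`. -/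
theorem three_cube_iff {p : ℕ} (hp : p.Prime) (h3 : p % 3 = 1) :
    (∃ x : ZMod p, x ^ 3 = 3) ↔ ∃ x y : ℤ, 4 * (p : ℤ) = x ^ 2 + 243 * y ^ 2 := by
  have hp3 : 3 ≠ p := by
    rintro rfl
    norm_num at h3
  constructor
  · intro hx
    obtain ⟨L, M, hL, h⟩ := exists_LM hp h3
    obtain ⟨k, rfl⟩ := (three_iff hp h hL).1 (by simpa using hx)
    exact ⟨L, k, by rw [h]; ring⟩
  · rintro ⟨x, y, h⟩
    have h1 := (euler_cubic hp (L := x) (M := 3 * y) (by rw [h]; ring) (q := 3) (by norm_num)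
      hp3).2 ⟨x * y, by push_cast; ring⟩
    simpa using h1

/-- For a prime `p ≡ 1 mod 3`, `5` is a cube modulo `p` if and only if
`4 p = x ^ 2 + 675 y ^ 2` or `4 p = 25 x ^ 2 + 27 y ^ 2`. -/
theorem five_cube_iff {p : ℕ} (hp : p.Prime) (h3 : p % 3 = 1) :
    (∃ x : ZMod p, x ^ 3 = 5) ↔ ∃ x y : ℤ, 4 * (p : ℤ) = x ^ 2 + 675 * y ^ 2 ∨
      4 * (p : ℤ) = 25 * x ^ 2 + 27 * y ^ 2 := by
  have hp5 : 5 ≠ p := by
    rintro rfl
    norm_num at h3
  have h5 : Prime (5 : ℤ) := by norm_num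
  constructor
  · intro hx
    obtain ⟨L, M, -, h⟩ := exists_LM hp h3
    have h1 := (euler_cubic hp h (q := 5) (by norm_num) hp5).1 (by simpa using hx)
    rcases h5.dvd_or_dvd (by exact_mod_cast h1) with ⟨k, rfl⟩ | ⟨k, rfl⟩
    · exact ⟨k, M, Or.inr (by rw [h]; ring)⟩
    · exact ⟨L, k, Or.inl (by rw [h]; ring)⟩
  · rintro ⟨x, y, h | h⟩
    · have h1 := (euler_cubic hp (L := x) (M := 5 * y) (by rw [h]; ring) (q := 5) (by norm_num)
        hp5).2 ⟨x * y, by push_cast; ring⟩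
      simpa using h1
    · have h1 := (euler_cubic hp (L := 5 * x) (M := y) (by rw [h]; ring) (q := 5) (by norm_num)
        hp5).2 ⟨x * y, by push_cast; ring⟩
      simpa using h1

/-- For a prime `p ≡ 1 mod 3`, `p ≠ 7`, `7` is a cube modulo `p` if and only if
`4 p = x ^ 2 + 1323 y ^ 2` or `4 p = 49 x ^ 2 + 27 y ^ 2`. -/
theorem seven_cube_iff {p : ℕ} (hp : p.Prime) (h3 : p % 3 = 1) (hp7 : p ≠ 7) :
    (∃ x : ZMod p, x ^ 3 = 7) ↔ ∃ x y : ℤ, 4 * (p : ℤ) = x ^ 2 + 1323 * y ^ 2 ∨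
      4 * (p : ℤ) = 49 * x ^ 2 + 27 * y ^ 2 := by
  have h7 : Prime (7 : ℤ) := by norm_num
  constructor
  · intro hx
    obtain ⟨L, M, -, h⟩ := exists_LM hp h3
    have h1 := (euler_cubic hp h (q := 7) (by norm_num) hp7.symm).1 (by simpa using hx)
    rcases h7.dvd_or_dvd (by exact_mod_cast h1) with ⟨k, rfl⟩ | ⟨k, rfl⟩
    · exact ⟨k, M, Or.inr (by rw [h]; ring)⟩
    · exact ⟨L, k, Or.inl (by rw [h]; ring)⟩
  · rintro ⟨x, y, h | h⟩
    · have h1 := (euler_cubic hp (L := x) (M := 7 * y) (by rw [h]; ring) (q := 7) (by norm_num)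
        hp7.symm).2 ⟨x * y, by push_cast; ring⟩
      simpa using h1
    · have h1 := (euler_cubic hp (L := 7 * x) (M := y) (by rw [h]; ring) (q := 7) (by norm_num)
        hp7.symm).2 ⟨x * y, by push_cast; ring⟩
      simpa using h1

end Main

end Fermat.Agent.Cor.Recip
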