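import Fermat.Agent.Corollaries.Recip.Ind
import Mathlib.RingTheory.Frobenius
import Mathlib.NumberTheory.Cyclotomic.Gal
import Mathlib.NumberTheory.NumberField.Cyclotomic.Basic
import Mathlib.FieldTheory.Galois.IsGaloisGroup
import Mathlib.RingTheory.Ideal.Norm.AbsNorm

/-!
# The decomposition field in `K(ζ_ℓ)`

`K` is a number field, `ζ ∈ 𝓞 K` a primitive `p`-th root of unity, `v` a place of `K` and `ℓ` a prime,
`v ∤ ℓ`, such that `c = N v mod ℓ` has order `p`. Let `L = K(ζ_ℓ)`, `κ : Gal(L/K) → (ℤ/ℓ)ˣ` and `T`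
the fixed field of `H = {s | κ(s) ∈ ⟨c⟩}`. For `s ∈ H` let `κ(s) = c ^ λ(s)`. The Gauss period sums
`θ_j = Σ_{s ∈ H} ζ^(-λ(s)) s(ζ_ℓ)^j` satisfy `s θ_j = ζ^λ(s) θ_j` (`smul_theta`) and
`Σ_j ζ_ℓ^(-j) θ_j = ℓ` (`sum_theta`), so some `θ_j` is prime to a given place above `v`, and
`b = θ_j ^ p ∈ 𝓞 T`.

* `exists_tower`: `T` has a place `w` above `v` of degree one over `v`, and for every place `w'` of
  `T` prime to `p ℓ` the index of `b` at `w'` is the number `j` with `N w' ≡ c ^ j mod ℓ`.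
-/

set_option autoImplicit false
set_option linter.unusedSectionVars false

namespace Fermat.Agent.Cor.Recip

namespace Tower

open NumberField IsDedekindDomain

section Galois

variable {F L : Type} [Field F] [NumberField F] [Field L] [NumberField L] [Algebra F L]

/-- A Frobenius element of `L / F` at a prime `P` of `L`. -/
theorem exists_frob [IsGalois F L] (P : Ideal (𝓞 L)) [P.IsPrime] (hP : P ≠ ⊥) :
    ∃ s : L ≃ₐ[F] L, ∀ x : 𝓞 L, s • x - x ^ Nat.card (𝓞 F ⧸ P.under (𝓞 F)) ∈ P := by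
  have hfin : Finite (𝓞 L ⧸ P) := P.finiteQuotientOfFreeOfNeBot hP
  obtain ⟨s, hs⟩ := IsArithFrobAt.exists_of_isInvariant (𝓞 F) (L ≃ₐ[F] L) P
  exact ⟨s, fun x => hs x⟩

/-- Its action on roots of unity. -/
theorem frob_root [IsGalois F L] (P : Ideal (𝓞 L)) [P.IsPrime] {s : L ≃ₐ[F] L}
    (hs : ∀ x : 𝓞 L, s • x - x ^ Nat.card (𝓞 F ⧸ P.under (𝓞 F)) ∈ P) {ω : 𝓞 L} {m : ℕ}
    (hω : ω ^ m = 1) (hm : (m : 𝓞 L) ∉ P) : s • ω = ω ^ Nat.card (𝓞 F ⧸ P.under (𝓞 F)) := by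
  have hG : IsGaloisGroup (L ≃ₐ[F] L) (𝓞 F) (𝓞 L) := inferInstance
  have hc := hG.commutes
  have h : IsArithFrobAt (𝓞 F) s P := fun x => hs x
  exact AlgHom.IsArithFrobAt.apply_of_pow_eq_one h hω hm

theorem coe_smul (s : L ≃ₐ[F] L) (x : 𝓞 L) : ((s • x : 𝓞 L) : L) = s (x : L) := rfl

end Galois

section Setting

variable {p ℓ : ℕ} [hp : Fact p.Prime] [hℓ : Fact ℓ.Prime] {K L : Type} [Field K] [NumberField K]
  [Field L] [NumberField L] [Algebra K L] [IsGalois K L] {ζ : 𝓞 K} {ω : 𝓞 L}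
  {κ : (L ≃ₐ[K] L) →* (ZMod ℓ)ˣ} {c : (ZMod ℓ)ˣ}

omit hp in
theorem pow_congr (hζ : IsPrimitiveRoot ζ p) {a b : ℕ} (h : a ≡ b [MOD p]) : ζ ^ a = ζ ^ b := by
  have h1 : a % p = b % p := h
  have h2 := pow_mod_orderOf ζ a
  have h3 := pow_mod_orderOf ζ b
  rw [← hζ.eq_orderOf] at h2 h3
  rw [← h2, ← h3, h1]

open Classical in
/-- the exponent -/
noncomputable def lam (κ : (L ≃ₐ[K] L) →* (ZMod ℓ)ˣ) (c : (ZMod ℓ)ˣ) (s : L ≃ₐ[K] L) : ℕ :=
  if h : ∃ n : ℕ, κ s = c ^ n then h.choose else 0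

omit hp in
theorem lam_spec {s : L ≃ₐ[K] L} (hs : s ∈ (Subgroup.zpowers c).comap κ) :
    κ s = c ^ lam κ c s := by
  obtain ⟨n, hn⟩ := mem_powers_iff_mem_zpowers.2 (Subgroup.mem_comap.1 hs)
  have h : ∃ n : ℕ, κ s = c ^ n := ⟨n, hn.symm⟩
  rw [lam, dif_pos h]
  exact h.choose_spec

/-- the factor `ζ ^ λ(s)` -/
noncomputable def Z (κ : (L ≃ₐ[K] L) →* (ZMod ℓ)ˣ) (c : (ZMod ℓ)ˣ) (ζ : 𝓞 K) (s : L ≃ₐ[K] L) :
    𝓞 K := ζ ^ lam κ c s

theorem Z_mul (hζ : IsPrimitiveRoot ζ p) (hcp : orderOf c = p) {s t : L ≃ₐ[K] L}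
    (hs : s ∈ (Subgroup.zpowers c).comap κ) (ht : t ∈ (Subgroup.zpowers c).comap κ) :
    Z κ c ζ (s * t) = Z κ c ζ s * Z κ c ζ t := by
  have h1 := lam_spec hs
  have h2 := lam_spec ht
  have h3 := lam_spec (mul_mem hs ht)
  rw [map_mul, h1, h2, ← pow_add, pow_eq_pow_iff_modEq, hcp] at h3
  rw [Z, Z, Z, ← pow_add]
  exact pow_congr hζ h3.symm

theorem Z_one (hζ : IsPrimitiveRoot ζ p) (hcp : orderOf c = p) :
    Z κ c ζ (1 : L ≃ₐ[K] L) = 1 := by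
  have h1 := lam_spec (one_mem ((Subgroup.zpowers c).comap κ))
  rw [map_one, eq_comm, ← orderOf_dvd_iff_pow_eq_one, hcp] at h1
  rw [Z, hζ.pow_eq_one_iff_dvd]
  exact h1

open Classical in
/-- The Gauss period sum `θ_j = Σ_{s ∈ H} ζ^(-λ(s)) s(ω)^j`. -/
noncomputable def theta (κ : (L ≃ₐ[K] L) →* (ZMod ℓ)ˣ) (c : (ZMod ℓ)ˣ) (ζ : 𝓞 K) (ω : 𝓞 L)
    (j : ℕ) : 𝓞 L :=
  ∑ s : (Subgroup.zpowers c).comap κ, algebraMap (𝓞 K) (𝓞 L) (Z κ c ζ (s.1⁻¹)) * (s.1 • ω) ^ j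

theorem smul_algebraMap' (s : L ≃ₐ[K] L) (x : 𝓞 K) :
    s • algebraMap (𝓞 K) (𝓞 L) x = algebraMap (𝓞 K) (𝓞 L) x := by
  apply RingOfIntegers.ext
  rw [coe_smul]
  exact s.commutes (x : K)

theorem smul_theta (hζ : IsPrimitiveRoot ζ p) (hcp : orderOf c = p) (j : ℕ) {s : L ≃ₐ[K] L}
    (hs : s ∈ (Subgroup.zpowers c).comap κ) :
    s • theta κ c ζ ω j = algebraMap (𝓞 K) (𝓞 L) (Z κ c ζ s) * theta κ c ζ ω j := by
  classical
  rw [theta, Finset.smul_sum, Finset.mul_sum]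
  refine Fintype.sum_equiv (Equiv.mulLeft (⟨s, hs⟩ : (Subgroup.zpowers c).comap κ)) _ _
    fun t => ?_
  rw [smul_mul', smul_algebraMap', smul_pow', smul_smul, Equiv.coe_mulLeft, ← mul_assoc, ← map_mul]
  congr 2
  have h1 : t.1⁻¹ = (s * t.1)⁻¹ * s := by group
  rw [h1, Z_mul hζ hcp (inv_mem (mul_mem hs t.2)) hs, mul_comm]
  rfl

theorem sum_theta (hζ : IsPrimitiveRoot ζ p) (hcp : orderOf c = p) (hω : IsPrimitiveRoot ω ℓ)
    (hκ : ∀ s : L ≃ₐ[K] L, s • ω = ω → s = 1) :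
    ∑ j ∈ Finset.range ℓ, (ω ^ (ℓ - 1)) ^ j * theta κ c ζ ω j = ℓ := by
  classical
  have hℓ1 : 1 ≤ ℓ := hℓ.out.one_le
  have h1 : ∑ j ∈ Finset.range ℓ, (ω ^ (ℓ - 1)) ^ j * theta κ c ζ ω j =
      ∑ s : (Subgroup.zpowers c).comap κ, algebraMap (𝓞 K) (𝓞 L) (Z κ c ζ (s.1⁻¹)) *
        ∑ j ∈ Finset.range ℓ, (ω ^ (ℓ - 1) * (s.1 • ω)) ^ j := by
    simp only [theta, Finset.mul_sum]
    rw [Finset.sum_comm]
    refine Finset.sum_congr rfl fun s _ => Finset.sum_congr rfl fun j _ => ?_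
    ring
  rw [h1, Finset.sum_eq_single 1]
  · rw [OneMemClass.coe_one, inv_one, Z_one hζ hcp, map_one, one_mul, one_smul, ← pow_succ,
      Nat.sub_add_cancel hℓ1, hω.pow_eq_one]
    simp
  · intro s _ hs
    have h2 : ω ^ (ℓ - 1) * (s.1 • ω) ≠ 1 := by
      intro h
      apply hs
      apply Subtype.ext
      apply hκ
      have h3 : ω * (ω ^ (ℓ - 1) * (s.1 • ω)) = s.1 • ω := by
        rw [← mul_assoc, ← pow_succ', Nat.sub_add_cancel hℓ1, hω.pow_eq_one, one_mul]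
      rw [h, mul_one] at h3
      exact h3.symm
    have h4 : (ω ^ (ℓ - 1) * (s.1 • ω)) ^ ℓ = 1 := by
      rw [mul_pow, ← pow_mul, mul_comm (ℓ - 1) ℓ, pow_mul, hω.pow_eq_one, one_pow, one_mul,
        ← smul_pow', hω.pow_eq_one, smul_one]
    have h5 := geom_sum_mul (ω ^ (ℓ - 1) * (s.1 • ω)) ℓ
    rw [h4, sub_self, mul_eq_zero] at h5
    rw [h5.resolve_right (sub_ne_zero.2 h2), mul_zero]
  · intro h
    exact absurd (Finset.mem_univ _) h

end Setting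

/-! ### Residue fields -/

theorem card_le {T : Type} [Field T] [NumberField T] (w : HeightOneSpectrum (𝓞 T)) {N : ℕ}
    (hN : 2 ≤ N) (h : ∀ x : 𝓞 T, x ^ N - x ∈ w.asIdeal) : Ideal.absNorm w.asIdeal ≤ N := by
  have hmax := w.isMaximal
  let _ := Ideal.Quotient.field w.asIdeal
  have hfin : Finite (𝓞 T ⧸ w.asIdeal) := w.asIdeal.finiteQuotientOfFreeOfNeBot w.ne_bot
  have hx : ∀ x : 𝓞 T ⧸ w.asIdeal, x ^ N = x := by
    intro x
    obtain ⟨x, rfl⟩ := Ideal.Quotient.mk_surjective x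
    rw [← map_pow, Ideal.Quotient.eq]
    exact h x
  obtain ⟨u, hu⟩ := IsCyclic.exists_ofOrder_eq_natCard (α := (𝓞 T ⧸ w.asIdeal)ˣ)
  have h1 : orderOf u = Ideal.absNorm w.asIdeal - 1 := by
    rw [hu, Nat.card_units]
    rfl
  have h2 : u ^ (N - 1) = 1 := by
    have h3 : u ^ N = u := Units.ext (by rw [Units.val_pow_eq_pow_val]; exact hx u)
    have h4 : u ^ (N - 1) * u = u := by
      rw [← pow_succ, Nat.sub_add_cancel (by omega), h3]
    exact mul_eq_right.mp h4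
  have h3 := Nat.le_of_dvd (by omega) (orderOf_dvd_of_pow_eq_one h2)
  omega

theorem exists_above {F L : Type} [Field F] [NumberField F] [Field L] [NumberField L]
    [Algebra F L] (v : HeightOneSpectrum (𝓞 F)) :
    ∃ P : HeightOneSpectrum (𝓞 L), P.asIdeal.under (𝓞 F) = v.asIdeal := by
  obtain ⟨P, hP, hPv⟩ := Ideal.exists_maximal_ideal_liesOver_of_isIntegral (S := 𝓞 L) v.asIdeal
  refine ⟨⟨P, hP.isPrime, ?_⟩, hPv.over.symm⟩
  rintro rfl
  apply v.ne_bot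
  rw [hPv.over]
  exact Ideal.under_bot _ _

/-! ### The decomposition field -/

section Main

variable {p ℓ : ℕ} [hp : Fact p.Prime] [hℓ : Fact ℓ.Prime] {K L : Type} [Field K] [NumberField K]
  [Field L] [NumberField L] [Algebra K L] [IsGalois K L] {ζ : 𝓞 K} {ω : 𝓞 L}
  {κ : (L ≃ₐ[K] L) →* (ZMod ℓ)ˣ} {c : (ZMod ℓ)ˣ}

/-- the fixed field of `{s | κ(s) ∈ ⟨c⟩}` -/
abbrev DF (κ : (L ≃ₐ[K] L) →* (ZMod ℓ)ˣ) (c : (ZMod ℓ)ˣ) : IntermediateField K L :=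
  IntermediateField.fixedField ((Subgroup.zpowers c).comap κ)

theorem kap_eq (hω : IsPrimitiveRoot ω ℓ)
    (hspec : ∀ s : L ≃ₐ[K] L, s • ω = ω ^ ((κ s : (ZMod ℓ)ˣ) : ZMod ℓ).val) {s : L ≃ₐ[K] L}
    {N : ℕ} (hs : s • ω = ω ^ N) : ((κ s : (ZMod ℓ)ˣ) : ZMod ℓ) = (N : ZMod ℓ) := by
  have h1 : ω ^ ((κ s : (ZMod ℓ)ˣ) : ZMod ℓ).val = ω ^ (N % ℓ) := by
    rw [← hspec, hs]
    exact pow_congr hω (Nat.mod_modEq N ℓ).symm
  have h2 := hω.pow_inj (ZMod.val_lt _) (Nat.mod_lt _ hℓ.out.pos) h1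
  rw [← ZMod.natCast_zmod_val ((κ s : (ZMod ℓ)ˣ) : ZMod ℓ), h2, ZMod.natCast_mod]

theorem exists_tower_aux (hζ : IsPrimitiveRoot ζ p) (hω : IsPrimitiveRoot ω ℓ)
    (hspec : ∀ s : L ≃ₐ[K] L, s • ω = ω ^ ((κ s : (ZMod ℓ)ˣ) : ZMod ℓ).val)
    (hinj : Function.Injective κ) (hcp : orderOf c = p) {v : HeightOneSpectrum (𝓞 K)}
    (hvℓ : (ℓ : 𝓞 K) ∉ v.asIdeal) (hc : (c : ZMod ℓ) = (Ideal.absNorm v.asIdeal : ZMod ℓ)) :
    ∃ (b : 𝓞 (DF κ c)) (w : HeightOneSpectrum (𝓞 (DF κ c))), w.under (𝓞 K) = v ∧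
      Ideal.absNorm w.asIdeal = Ideal.absNorm v.asIdeal ∧ b ∉ w.asIdeal ∧
      ∀ w' : HeightOneSpectrum (𝓞 (DF κ c)), (ℓ : 𝓞 (DF κ c)) ∉ w'.asIdeal →
        ∃ j : ZMod p, ((c ^ j.val : (ZMod ℓ)ˣ) : ZMod ℓ) = (Ideal.absNorm w'.asIdeal : ZMod ℓ) ∧
          (b ∉ w'.asIdeal → ∀ e : ℕ, Ideal.absNorm w'.asIdeal = p * e + 1 →
            b ^ e - algebraMap (𝓞 K) (𝓞 (DF κ c)) ζ ^ j.val ∈ w'.asIdeal) := by
  classical
  have hone : ∀ s : L ≃ₐ[K] L, s • ω = ω → s = 1 := by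
    intro s hs
    have h1 := kap_eq hω hspec (N := 1) (by rw [hs, pow_one])
    apply hinj
    rw [map_one]
    apply Units.ext
    rw [h1, Nat.cast_one, Units.val_one]
  -- the prime of `L`
  obtain ⟨P, hPv⟩ := exists_above (L := L) v
  have hcast : ∀ (m : ℕ) (F : Type) [Field F] [NumberField F] [Algebra F L] (Q : Ideal (𝓞 L)),
      (m : 𝓞 L) ∈ Q ↔ (m : 𝓞 F) ∈ Q.under (𝓞 F) := by
    intro m F _ _ _ Q
    rw [Ideal.mem_comap, map_natCast]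
  have hPℓ : (ℓ : 𝓞 L) ∉ P.asIdeal := by
    rw [hcast ℓ K, hPv]
    exact hvℓ
  -- the sum
  obtain ⟨i, hi⟩ : ∃ i : ℕ, theta κ c ζ ω i ∉ P.asIdeal := by
    by_contra hcon
    push Not at hcon
    apply hPℓ
    rw [← sum_theta (κ := κ) (c := c) hζ hcp hω hone]
    exact Ideal.sum_mem _ fun j _ => Ideal.mul_mem_left _ _ (hcon j)
  set θ := theta κ c ζ ω i with hθ
  have hZp : ∀ s : L ≃ₐ[K] L, Z κ c ζ s ^ p = 1 := by
    intro s
    rw [Z, ← pow_mul, mul_comm, pow_mul, hζ.pow_eq_one, one_pow]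
  have hfix : ∀ s ∈ (Subgroup.zpowers c).comap κ, s • θ ^ p = θ ^ p := by
    intro s hs
    rw [smul_pow', hθ, smul_theta hζ hcp i hs, mul_pow, ← map_pow, hZp, map_one, one_mul]
  have hmem : ((θ ^ p : 𝓞 L) : L) ∈ DF κ c := by
    rw [IntermediateField.mem_fixedField_iff]
    intro s hs
    rw [← coe_smul, hfix s hs]
  let b : 𝓞 (DF κ c) := ⟨⟨((θ ^ p : 𝓞 L) : L), hmem⟩, by
    rw [mem_integralClosure_iff, ← isIntegral_algebraMap_iff (algebraMap (DF κ c) L).injective]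
    exact RingOfIntegers.isIntegral_coe _⟩
  have hb : algebraMap (𝓞 (DF κ c)) (𝓞 L) b = θ ^ p := RingOfIntegers.ext rfl
  have hHeq : ∀ s : L ≃ₐ[K] L, (∀ x : DF κ c, s (x : L) = x) → s ∈ (Subgroup.zpowers c).comap κ := by
    intro s hs
    rw [← IntermediateField.fixingSubgroup_fixedField ((Subgroup.zpowers c).comap κ)]
    intro x
    exact hs x
  refine ⟨b, P.under (𝓞 (DF κ c)), ?_, ?_, ?_, ?_⟩
  · apply HeightOneSpectrum.ext
    rw [HeightOneSpectrum.under_asIdeal, HeightOneSpectrum.under_asIdeal, Ideal.under_under, hPv]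
  · -- the degree
    have hunder : (P.under (𝓞 (DF κ c))).asIdeal.under (𝓞 K) = v.asIdeal := by
      rw [HeightOneSpectrum.under_asIdeal, Ideal.under_under, hPv]
    apply le_antisymm
    · obtain ⟨s, hs⟩ := exists_frob (F := K) P.asIdeal P.ne_bot
      have hN : Nat.card (𝓞 K ⧸ P.asIdeal.under (𝓞 K)) = Ideal.absNorm v.asIdeal := by
        rw [hPv]
        rfl
      have h2 : 2 ≤ Ideal.absNorm v.asIdeal := by
        have hfin : Finite (𝓞 K ⧸ v.asIdeal) := v.asIdeal.finiteQuotientOfFreeOfNeBot v.ne_bot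
        have hnt : Nontrivial (𝓞 K ⧸ v.asIdeal) := Ideal.Quotient.nontrivial_iff.2 v.isPrime.ne_top
        exact Finite.one_lt_card (α := 𝓞 K ⧸ v.asIdeal)
      have hsω := frob_root P.asIdeal hs hω.pow_eq_one hPℓ
      rw [hN] at hs hsω
      have hκs : κ s = c := Units.ext ((kap_eq hω hspec hsω).trans hc.symm)
      have hsH : s ∈ (Subgroup.zpowers c).comap κ := by
        rw [Subgroup.mem_comap, hκs]
        exact Subgroup.mem_zpowers c
      refine card_le _ h2 fun x => ?_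
      rw [HeightOneSpectrum.under_asIdeal, Ideal.mem_comap, map_sub, map_pow]
      have h3 : s • algebraMap (𝓞 (DF κ c)) (𝓞 L) x = algebraMap (𝓞 (DF κ c)) (𝓞 L) x := by
        apply RingOfIntegers.ext
        rw [coe_smul]
        exact (IntermediateField.mem_fixedField_iff _ _).1 (x : DF κ c).2 s hsH
      have h4 := hs (algebraMap (𝓞 (DF κ c)) (𝓞 L) x)
      rw [h3] at h4
      rw [← neg_mem_iff, neg_sub]
      exact h4
    · have hfin : Finite (𝓞 (DF κ c) ⧸ (P.under (𝓞 (DF κ c))).asIdeal) :=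
        (P.under (𝓞 (DF κ c))).asIdeal.finiteQuotientOfFreeOfNeBot (P.under (𝓞 (DF κ c))).ne_bot
      have h5 : Ideal.absNorm v.asIdeal =
          Nat.card (𝓞 K ⧸ (P.under (𝓞 (DF κ c))).asIdeal.under (𝓞 K)) := by
        rw [hunder]
        rfl
      have h6 : Ideal.absNorm (P.under (𝓞 (DF κ c))).asIdeal =
          Nat.card (𝓞 (DF κ c) ⧸ (P.under (𝓞 (DF κ c))).asIdeal) := rfl
      rw [h5, h6]
      exact Nat.card_le_card_of_injective _ (Ideal.algebraMap_quotient_injective (R := 𝓞 K)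
        (I := (P.under (𝓞 (DF κ c))).asIdeal))
  · rw [HeightOneSpectrum.under_asIdeal, Ideal.mem_comap, hb]
    exact fun h => hi (P.isPrime.mem_of_pow_mem p h)
  · intro w' hw'ℓ
    obtain ⟨P', hP'⟩ := exists_above (L := L) w'
    have hP'ℓ : (ℓ : 𝓞 L) ∉ P'.asIdeal := by
      rw [hcast ℓ (DF κ c), hP']
      exact hw'ℓ
    obtain ⟨s', hs'⟩ := exists_frob (F := DF κ c) P'.asIdeal P'.ne_bot
    have hN : Nat.card (𝓞 (DF κ c) ⧸ P'.asIdeal.under (𝓞 (DF κ c))) =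
        Ideal.absNorm w'.asIdeal := by
      rw [hP']
      rfl
    have hsω := frob_root P'.asIdeal hs' hω.pow_eq_one hP'ℓ
    rw [hN] at hs' hsω
    set s : L ≃ₐ[K] L := s'.restrictScalars K with hs
    have hss : ∀ x : 𝓞 L, s • x = s' • x := fun x => RingOfIntegers.ext rfl
    have hsH : s ∈ (Subgroup.zpowers c).comap κ := hHeq s fun x => s'.commutes x
    have hκs := kap_eq hω hspec (s := s) (by rw [hss]; exact hsω)
    refine ⟨(lam κ c s : ZMod p), ?_, fun hbw e he => ?_⟩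
    · rw [← hκs, lam_spec hsH, ZMod.val_natCast]
      congr 1
      have h1 := pow_mod_orderOf c (lam κ c s)
      rwa [hcp] at h1
    · have hθP : θ ∉ P'.asIdeal := by
        intro h
        apply hbw
        rw [← hP', Ideal.mem_comap, hb]
        exact Ideal.pow_mem_of_mem _ h p hp.out.pos
      have h1 := hs' θ
      rw [← hss, hθ, smul_theta hζ hcp i hsH, ← hθ, he, pow_succ, ← sub_mul] at h1
      have h2 := (P'.isPrime.mem_or_mem h1).resolve_right hθP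
      rw [← hP', Ideal.mem_comap, map_sub, map_pow, hb, ← pow_mul, ← neg_mem_iff, neg_sub]
      have h3 : algebraMap (𝓞 (DF κ c)) (𝓞 L)
          (algebraMap (𝓞 K) (𝓞 (DF κ c)) ζ ^ ((lam κ c s : ZMod p)).val) =
            algebraMap (𝓞 K) (𝓞 L) (Z κ c ζ s) := by
        rw [map_pow, ← IsScalarTower.algebraMap_apply, ← map_pow, Z, ZMod.val_natCast]
        congr 1
        exact pow_congr hζ (Nat.mod_modEq _ _)
      rw [h3]
      exact h2

end Main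

end Tower

open NumberField IsDedekindDomain in
/-- **The decomposition field and its Kummer generator.** -/
theorem exists_tower {p ℓ : ℕ} [hp : Fact p.Prime] [Fact ℓ.Prime] {K : Type} [Field K]
    [NumberField K] {ζ : 𝓞 K} (hζ : IsPrimitiveRoot ζ p) {v : HeightOneSpectrum (𝓞 K)}
    (_hv : (p : 𝓞 K) ∉ v.asIdeal) (hvℓ : (ℓ : 𝓞 K) ∉ v.asIdeal) (c : (ZMod ℓ)ˣ)
    (hc : (c : ZMod ℓ) = (Ideal.absNorm v.asIdeal : ZMod ℓ)) (hcp : orderOf c = p) :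
    ∃ (T : Type) (_ : Field T) (_ : NumberField T) (_ : Algebra K T) (_ : IsGalois K T)
      (b : 𝓞 T) (w : HeightOneSpectrum (𝓞 T)), w.under (𝓞 K) = v ∧
        Ideal.absNorm w.asIdeal = Ideal.absNorm v.asIdeal ∧ b ∉ w.asIdeal ∧
        ∀ w' : HeightOneSpectrum (𝓞 T), (p : 𝓞 T) ∉ w'.asIdeal → (ℓ : 𝓞 T) ∉ w'.asIdeal →
          ∃ j : ZMod p, ((c ^ j.val : (ZMod ℓ)ˣ) : ZMod ℓ) = (Ideal.absNorm w'.asIdeal : ZMod ℓ) ∧
            (b ∉ w'.asIdeal → ind p (algebraMap (𝓞 K) (𝓞 T) ζ) w' b = j) := by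
  have hg : IsGalois K (CyclotomicField ℓ K) :=
    IsCyclotomicExtension.isGalois {ℓ} K (CyclotomicField ℓ K)
  have hz := IsCyclotomicExtension.zeta_spec ℓ K (CyclotomicField ℓ K)
  have hω := hz.toInteger_isPrimitiveRoot
  have hspec : ∀ s : CyclotomicField ℓ K ≃ₐ[K] CyclotomicField ℓ K, s • hz.toInteger =
      hz.toInteger ^ ((hz.autToPow K s : (ZMod ℓ)ˣ) : ZMod ℓ).val := by
    intro s
    apply RingOfIntegers.ext
    rw [Tower.coe_smul]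
    exact (hz.autToPow_spec K s).symm
  have hn : ((Subgroup.zpowers c).comap (hz.autToPow K)).Normal := inferInstance
  obtain ⟨b, w, h1, h2, h3, h4⟩ := Tower.exists_tower_aux hζ hω hspec
    (IsPrimitiveRoot.autToPow_injective K hz) hcp hvℓ hc
  refine ⟨Tower.DF (hz.autToPow K) c, inferInstance, inferInstance, inferInstance,
    IsGalois.of_fixedField_normal_subgroup _, b, w, h1, h2, h3, fun w' hpw hℓw => ?_⟩
  obtain ⟨j, hj, hj'⟩ := h4 w' hℓw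
  refine ⟨j, hj, fun hb => ?_⟩
  have hζT : IsPrimitiveRoot (algebraMap (𝓞 K) (𝓞 (Tower.DF (hz.autToPow K) c)) ζ) p :=
    hζ.map_of_injective (FaithfulSMul.algebraMap_injective _ _)
  apply ind_eq hζT hpw hb
  obtain ⟨e, he⟩ := dvd_absNorm_sub_one hζT hpw
  have h0 : Ideal.absNorm w'.asIdeal ≠ 0 := by
    rw [Ne, Ideal.absNorm_eq_zero_iff]
    exact w'.ne_bot
  rw [he, Nat.mul_div_cancel_left e hp.out.pos]
  exact hj' hb e (by omega)

end Fermat.Agent.Cor.Recip
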