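import Fermat.Agent.Corollaries.Recip.Exact
import Fermat.Agent.Corollaries.Recip.Compare
import Fermat.Agent.Corollaries.Recip.Tower
import Fermat.Agent.Corollaries.Recip.CycPrime

/-!
# The reciprocity law over every number field containing `ζ_p`

`p` is a prime and `K` a totally complex number field (automatic for odd `p`) with a primitive
`p`-th root of unity `ζ ∈ 𝓞 K`. There is no other hypothesis on `K`.

* `exists_symbols_all`: the local symbols of class field theory, suitably normalised, are the power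
  residue symbols at all `v ∤ p`;
* `isRay_ind`: **Artin's reciprocity law for Kummer extensions of degree `p`**: `v ↦ ind_v a` is a
  ray class character (outside `p a`); `exists_pow_resSym_eq_one`: `(a / x) = 1` for `x` close to `1` at the
  places dividing `p a`; `frob_apply`: `ind_v a` is the Frobenius of `K(a ^ (1 / p))` at `v`;
* `reciprocity_general`: `(a / b)' = (b / a)' ∏_{v ∣ p} (b, a)_v` for all coprime `a`, `b` (the symbols
  `'` without the places above `p`);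
* `reciprocity_all`, `reciprocity_primary_all`, `unit_supplement_all`, `second_supplement`,
  `eisenstein_all`, `cubic_reciprocity_all`.
-/

set_option autoImplicit false
set_option linter.unusedSectionVars false

namespace Fermat.Agent.Cor.Recip

open Fermat.Agent.CFT.Global hiding Inputs p_dvd_index exists_notMem_locPow exists_place powE
  mem_powE index_powE index_zpowers_sup_powE second hasse_norm FirstInequality exists_eq_nsmul_add
  exists_ne_symVec exists_functional_aux exists_inj forall_ne_zero exists_functional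
open Fermat.Agent.CFT.Global2 Fermat.Agent.LT
open Fermat.Agent.CFT.SUnits (ord ord_one ord_mul ord_pow ord_div ord_inv ord_eq_zero_iff
  valuation_eq_exp_neg_ord)
open NumberField IsDedekindDomain WithZero

lemma eq_one_of_ne_zero_two : ∀ x : ZMod 2, x ≠ 0 → x = 1 := by decide

section Main

variable {p : ℕ} [hp : Fact p.Prime] {K : Type} [Field K] [NumberField K] {ζ : 𝓞 K}

/-- A prime number which lies in `v` divides `N v`. -/
lemma dvd_absNorm_of_mem {ℓ : ℕ} (hℓ : ℓ.Prime) {v : HeightOneSpectrum (𝓞 K)}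
    (h : (ℓ : 𝓞 K) ∈ v.asIdeal) : ℓ ∣ Ideal.absNorm v.asIdeal := by
  obtain ⟨q, n, hq, hqv, hn⟩ := exists_absNorm_eq v
  have hn0 : n ≠ 0 := by
    rintro rfl
    have := two_le_absNorm v
    rw [hn, pow_zero] at this
    omega
  by_cases hℓq : ℓ = q
  · rw [hn, hℓq]
    exact dvd_pow_self q hn0
  · exfalso
    have h1 : IsCoprime (q : ℤ) (ℓ : ℤ) :=
      Nat.isCoprime_iff_coprime.2 ((Nat.coprime_primes hq hℓ).2 (Ne.symm hℓq))
    obtain ⟨s, t, hst⟩ := h1
    apply v.isPrime.ne_top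
    rw [Ideal.eq_top_iff_one]
    have h2 : (s : 𝓞 K) * (q : 𝓞 K) + (t : 𝓞 K) * (ℓ : 𝓞 K) = 1 := by exact_mod_cast hst
    rw [← h2]
    exact Ideal.add_mem _ (Ideal.mul_mem_left _ _ hqv) (Ideal.mul_mem_left _ _ h)

/-- **The local symbols are the power residue symbols**, for every `K`. -/
theorem exists_symbols_all [IsTotallyComplex K] (hζ : IsPrimitiveRoot ζ p) :
    ∃ (LS : LocalSymbols p K) (c : HeightOneSpectrum (𝓞 K) → ZMod p), (∀ v, c v ≠ 0) ∧
      (∀ a x : Kˣ, (symVec LS hp.out.ne_zero a x).sum (fun v n => c v * n) = 0) ∧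
      ∀ v, (p : 𝓞 K) ∉ v.asIdeal → ∀ (a : 𝓞 K) (ha0 : a ≠ 0), a ∉ v.asIdeal → ∀ x : Kˣ,
        c v * (LS.sym v (unt ha0) x).toAdd = ord v x * ind p ζ v a := by
  have hζ' : IsPrimitiveRoot (algebraMap (𝓞 K) K ζ) p :=
    hζ.map_of_injective RingOfIntegers.coe_injective
  obtain ⟨LS, c, hc, hprod⟩ := exists_productFormula K hζ'
  obtain ⟨k, hk0, hk⟩ := exists_consts hζ LS hc
  have hconst : ∀ v w : HeightOneSpectrum (𝓞 K), (p : 𝓞 K) ∉ v.asIdeal →
      (p : 𝓞 K) ∉ w.asIdeal → k v = k w := by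
    intro v w hv hw
    by_cases hp2 : p = 2
    · subst hp2
      rw [eq_one_of_ne_zero_two _ (hk0 v hv), eq_one_of_ne_zero_two _ (hk0 w hw)]
    · have hprime : ∀ v : HeightOneSpectrum (𝓞 K), (p : 𝓞 K) ∉ v.asIdeal →
          ∃ v' : HeightOneSpectrum (𝓞 K), (p : 𝓞 K) ∉ v'.asIdeal ∧
            (Ideal.absNorm v'.asIdeal).Prime ∧ k v = k v' := by
        intro v hv
        obtain ⟨ℓ, hℓ, -, hℓN, c₀, hc₀, hord⟩ := exists_order_eq hp2
          (N := Ideal.absNorm v.asIdeal) (two_le_absNorm v) (dvd_absNorm_sub_one hζ hv)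
        have hvℓ : (ℓ : 𝓞 K) ∉ v.asIdeal := fun h => hℓN (dvd_absNorm_of_mem hℓ.out h)
        obtain ⟨T, _, _, _, _, b, w, hwv, hNw, hbw, hb⟩ := exists_tower hζ hv hvℓ c₀ hc₀ hord
        exact const_eq_of_tower hζ LS hc hprod hk hv hvℓ hc₀ hord T b w hwv hNw hbw hb
      obtain ⟨v', hv', hNv', hkv⟩ := hprime v hv
      obtain ⟨w', hw', hNw', hkw⟩ := hprime w hw
      have hne : ∀ {N : ℕ}, N.Prime → ∀ n : ℕ, N ≠ n ^ p := by
        rintro N hN n rfl
        exact (Nat.Prime.not_prime_pow hp.out.two_le) hN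
      rw [hkv, hkw]
      exact const_eq hp2 hζ LS hc hprod hk hv' hw' (hne hNv') (hne hNw')
  have hκ : ∃ κ : ZMod p, κ ≠ 0 ∧ ∀ v : HeightOneSpectrum (𝓞 K), (p : 𝓞 K) ∉ v.asIdeal →
      k v = κ := by
    by_cases h : ∃ w : HeightOneSpectrum (𝓞 K), (p : 𝓞 K) ∉ w.asIdeal
    · obtain ⟨w, hw⟩ := h
      exact ⟨k w, hk0 w hw, fun v hv => hconst v w hv hw⟩
    · exact ⟨1, one_ne_zero, fun v hv => absurd ⟨v, hv⟩ h⟩
  obtain ⟨κ, hκ0, hκ⟩ := hκ
  refine ⟨LS, fun v => κ⁻¹ * c v, fun v => mul_ne_zero (inv_ne_zero hκ0) (hc v), ?_, ?_⟩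
  · intro a x
    have h := hprod a x
    rw [Finsupp.sum] at h ⊢
    simp only [mul_assoc]
    rw [← Finset.mul_sum, h, mul_zero]
  · intro v hv a ha0 hav x
    rw [mul_assoc, hk v hv a ha0 hav x, hκ v hv, mul_assoc κ, ← mul_assoc κ⁻¹,
      inv_mul_cancel₀ hκ0, one_mul]

/-! ### Artin's reciprocity law -/

/-- **Artin's reciprocity law for Kummer extensions of degree `p`**: `v ↦ ind_v a` is a ray
character outside the places dividing `p a`. -/
theorem isRay_ind [IsTotallyComplex K] (hζ : IsPrimitiveRoot ζ p) {a : 𝓞 K} (ha0 : a ≠ 0)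
    {S : Finset (HeightOneSpectrum (𝓞 K))} (hS : AboveP p S)
    (haS : ∀ v, v ∉ S → a ∉ v.asIdeal) : ∃ n, IsRay S n (fun v => ind p ζ v a) := by
  obtain ⟨LS, c, -, hprod, hk⟩ := exists_symbols_all hζ
  obtain ⟨n, hn⟩ := exists_isRay_theta (k := fun _ => 1) LS hprod
    (fun v hv a ha0 ha x => by rw [one_mul]; exact hk v hv a ha0 ha x) hS ha0 haS
  refine ⟨n, ?_⟩
  simpa only [one_mul] using hn

/-- **Artin's reciprocity law**, in terms of the power residue symbol: `(a / x) = 1` for every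
`x ∈ 𝓞 K` which is sufficiently close to `1` at the places dividing `p a`. -/
theorem exists_pow_resSym_eq_one [IsTotallyComplex K] (hζ : IsPrimitiveRoot ζ p) {a : 𝓞 K}
    (ha0 : a ≠ 0) : ∃ n : ℕ, ∀ x : 𝓞 K, x ≠ 0 →
      (∀ v : HeightOneSpectrum (𝓞 K), (p : 𝓞 K) * a ∈ v.asIdeal → x - 1 ∈ v.asIdeal ^ (n + 1)) →
      resSym p ζ a (Ideal.span {x}) = 1 := by
  classical
  have hpK : (p : 𝓞 K) ≠ 0 := by exact_mod_cast hp.out.ne_zero
  obtain ⟨S, hS⟩ := exists_finset_mem (mul_ne_zero hpK ha0)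
  have hS' : ∀ u, u ∉ S ↔ (p : 𝓞 K) ∉ u.asIdeal ∧ a ∉ u.asIdeal := by
    intro u
    rw [hS, u.isPrime.mul_mem_iff_mem_or_mem, not_or]
  have hSp : AboveP p S := by
    intro u hu
    by_contra h
    exact ((hS' u).1 h).1 hu
  obtain ⟨n, hn⟩ := isRay_ind hζ ha0 hSp (fun u hu => ((hS' u).1 hu).2)
  refine ⟨n, fun x hx0 hx => ?_⟩
  have hxS : ∀ v ∈ S, x ∉ v.asIdeal := by
    intro v hv h
    apply v.isPrime.ne_top
    rw [Ideal.eq_top_iff_one]
    have h1 := Ideal.pow_le_self (Nat.succ_ne_zero n) (hx v ((hS v).1 hv))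
    have h2 := v.asIdeal.sub_mem h h1
    rwa [sub_sub_cancel] at h2
  have hcong : ∀ v ∈ S, (unt hx0 : Kˣ) ∈ cong v n := by
    intro v hv
    rw [mem_cong, unt_val]
    have h1 := (v.intValuation_le_pow_iff_mem (x - 1) (n + 1)).mpr (hx v ((hS v).1 hv))
    have h2 : v.valuation K (algebraMap (𝓞 K) K (x - 1)) = v.intValuation (x - 1) :=
      v.valuation_of_algebraMap _
    rw [map_sub, map_one] at h2
    rw [h2]
    exact_mod_cast h1
  have h0 := toAdd_eq_zero.mpr (hn _ hcong)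
  obtain ⟨U, hU⟩ := exists_finset_mem hx0
  have hexp : ∀ v, expo v (Ideal.span {x}) ≠ 0 → v ∈ U := by
    intro v hv
    rw [hU]
    by_contra h
    exact hv (expo_span_eq_zero hx0 h)
  rw [toAdd_rayVal_eq_sum S U _ _ (fun v hv _ => by
    rw [ord_unt_eq_zero hx0 (fun h => hv ((hU v).2 h)), zero_smul])] at h0
  rw [resSym_eq_zhom hζ (fun v hv h => ?_) U hexp]
  · have h1 : (∑ v ∈ U, (expo v (Ideal.span {x}) : ZMod p) * ind p ζ v a) = 0 := by
      rw [← h0]
      refine Finset.sum_congr rfl fun v hv => ?_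
      have hvS : v ∉ S := fun h => hxS v h ((hU v).1 hv)
      rw [if_neg hvS, zsmul_eq_mul, ← expo_span hx0, Int.cast_natCast]
    rw [h1, ofAdd_zero, map_one]
  · have hvS : v ∈ S := by
      by_contra h2
      exact ((hS' v).1 h2).2 h
    exact hxS v hvS ((hU v).1 (hexp v hv))

/-! ### The general reciprocity law -/

open Classical in
/-- The power residue symbol `(a / I)'` without the places above `p`. -/
noncomputable def resP (p : ℕ) (ζ a : 𝓞 K) (I : Ideal (𝓞 K)) : 𝓞 K :=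
  ∏ᶠ v : HeightOneSpectrum (𝓞 K),
    if (p : 𝓞 K) ∈ v.asIdeal then 1 else resAt p ζ a v ^ expo v I

lemma resP_eq_resSym (a : 𝓞 K) {b : 𝓞 K} (hb : b ≠ 0) (hbp : IsCoprime b (p : 𝓞 K)) :
    resP p ζ a (Ideal.span {b}) = resSym p ζ a (Ideal.span {b}) := by
  classical
  refine finprod_congr fun v => ?_
  split_ifs with hv
  · have h1 : b ∉ v.asIdeal := by
      intro h
      obtain ⟨s, t, hst⟩ := hbp
      apply v.isPrime.ne_top
      rw [Ideal.eq_top_iff_one, ← hst]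
      exact Ideal.add_mem _ (Ideal.mul_mem_left _ _ h) (Ideal.mul_mem_left _ _ hv)
    rw [expo_span_eq_zero hb h1, pow_zero]
  · rfl

/-- If `b` divides a power of `p` then `(a / b)' = 1`. -/
lemma resP_of_dvd (a : 𝓞 K) {b : 𝓞 K} {n : ℕ} (hb : b ≠ 0) (h : b ∣ (p : 𝓞 K) ^ n) :
    resP p ζ a (Ideal.span {b}) = 1 := by
  classical
  refine finprod_eq_one_of_forall_eq_one fun v => ?_
  split_ifs with hv
  · rfl
  · have h1 : b ∉ v.asIdeal := by
      intro h2
      apply hv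
      exact v.isPrime.mem_of_pow_mem n (Ideal.mem_of_dvd _ h h2)
    rw [expo_span_eq_zero hb h1, pow_zero]

open Classical in
lemma resP_eq_zhom (hζ : IsPrimitiveRoot ζ p) {a b : 𝓞 K} (hb : b ≠ 0) (hab : IsCoprime a b)
    (U : Finset (HeightOneSpectrum (𝓞 K))) (hU : ∀ v : HeightOneSpectrum (𝓞 K),
      b ∈ v.asIdeal → v ∈ U) :
    resP p ζ a (Ideal.span {b}) = zhom hζ (Multiplicative.ofAdd
      (∑ v ∈ U, if (p : 𝓞 K) ∈ v.asIdeal then 0 else
        (expo v (Ideal.span {b}) : ZMod p) * ind p ζ v a)) := by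
  rw [ofAdd_sum, map_prod, resP, finprod_eq_prod_of_mulSupport_subset (s := U)]
  · refine Finset.prod_congr rfl fun v _ => ?_
    split_ifs with hvp
    · rw [ofAdd_zero, map_one]
    · by_cases hv : b ∈ v.asIdeal
      · have hav : a ∉ v.asIdeal := by
          intro h
          obtain ⟨s, t, hst⟩ := hab
          apply v.isPrime.ne_top
          rw [Ideal.eq_top_iff_one, ← hst]
          exact Ideal.add_mem _ (Ideal.mul_mem_left _ _ h) (Ideal.mul_mem_left _ _ hv)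
        rw [resAt_of_notMem hav, ← zhom_ofAdd hζ, ← map_pow, ← ofAdd_nsmul, nsmul_eq_mul]
      · rw [expo_span_eq_zero hb hv, pow_zero, Nat.cast_zero, zero_mul, ofAdd_zero, map_one]
  · intro v hv
    apply hU
    by_contra h
    apply hv
    change (if (p : 𝓞 K) ∈ v.asIdeal then 1 else resAt p ζ a v ^ expo v (Ideal.span {b})) = 1
    rw [expo_span_eq_zero hb h, pow_zero, ite_self]

/-- **The reciprocity law over every number field `K ∋ ζ_p`**: there are local symbols at the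
places above `p` (non-degenerate on `K_vˣ / K_vˣᵖ`, skew-symmetric and trivial on norms) such that
`(a / b)' = (b / a)' ∏_{v ∣ p} (b, a)_v` for all coprime `a`, `b`. -/
theorem reciprocity_general [IsTotallyComplex K] (hζ : IsPrimitiveRoot ζ p) :
    ∃ (LS : LocalSymbols p K) (c : HeightOneSpectrum (𝓞 K) → ZMod p), (∀ v, c v ≠ 0) ∧
      ∀ (a b : 𝓞 K) (ha : a ≠ 0) (hb : b ≠ 0), IsCoprime a b →
        resP p ζ a (Ideal.span {b}) = resP p ζ b (Ideal.span {a}) *
          ∏ᶠ (v : HeightOneSpectrum (𝓞 K)) (_ : (p : 𝓞 K) ∈ v.asIdeal),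
            hilbP LS c hζ (unt hb) (unt ha) v := by
  classical
  obtain ⟨LS, c, hc, hprod, hk⟩ := exists_symbols_all hζ
  refine ⟨LS, c, hc, fun a b ha hb hab => ?_⟩
  have hpK : (p : 𝓞 K) ≠ 0 := by exact_mod_cast hp.out.ne_zero
  obtain ⟨U, hU⟩ := exists_finset_mem (mul_ne_zero (mul_ne_zero ha hb) hpK)
  have hU' : ∀ v : HeightOneSpectrum (𝓞 K),
      a ∈ v.asIdeal ∨ b ∈ v.asIdeal ∨ (p : 𝓞 K) ∈ v.asIdeal → v ∈ U := by
    intro v h
    rw [hU, v.isPrime.mul_mem_iff_mem_or_mem, v.isPrime.mul_mem_iff_mem_or_mem]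
    tauto
  have e1 := resP_eq_zhom hζ hb hab U (fun v h => hU' v (Or.inr (Or.inl h)))
  have e2 := resP_eq_zhom hζ ha hab.symm U (fun v h => hU' v (Or.inl h))
  have e3 : (∏ᶠ (v : HeightOneSpectrum (𝓞 K)) (_ : (p : 𝓞 K) ∈ v.asIdeal),
      hilbP LS c hζ (unt hb) (unt ha) v) = zhom hζ (Multiplicative.ofAdd
        (∑ v ∈ U, if (p : 𝓞 K) ∈ v.asIdeal then
          c v * (LS.sym v (unt hb) (unt ha)).toAdd else 0)) := by
    rw [ofAdd_sum, map_prod, finprod_eq_prod_of_mulSupport_subset (s := U)]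
    · refine Finset.prod_congr rfl fun v _ => ?_
      by_cases hvp : (p : 𝓞 K) ∈ v.asIdeal
      · rw [if_pos hvp, finprod_eq_if, if_pos hvp, hilbP]
      · rw [if_neg hvp, finprod_eq_if, if_neg hvp, ofAdd_zero, map_one]
    · intro v hv
      refine hU' v (Or.inr (Or.inr ?_))
      by_contra hvp
      apply hv
      change (∏ᶠ (_ : (p : 𝓞 K) ∈ v.asIdeal), hilbP LS c hζ (unt hb) (unt ha) v) = 1
      rw [finprod_eq_if, if_neg hvp]
  have h0 := sum_eq_zero_of_prod hprod (unt ha) (unt hb) U (fun v hv => by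
    have h1 : a ∉ v.asIdeal := fun h => hv (hU' v (Or.inl h))
    have h2 : b ∉ v.asIdeal := fun h => hv (hU' v (Or.inr (Or.inl h)))
    have h3 : (p : 𝓞 K) ∉ v.asIdeal := fun h => hv (hU' v (Or.inr (Or.inr h)))
    exact LS.unit_mem v h3 _ _ (ord_unt_eq_zero ha h1) (ord_unt_eq_zero hb h2))
  have hskew : ∀ v, (LS.sym v (unt ha) (unt hb)).toAdd =
      -(LS.sym v (unt hb) (unt ha)).toAdd := by
    intro v
    have h := LS.skew v (unt ha) (unt hb)
    rw [← eq_inv_iff_mul_eq_one] at h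
    rw [h, toAdd_inv]
  have hexp : ∀ {x : 𝓞 K} (hx : x ≠ 0) (v : HeightOneSpectrum (𝓞 K)),
      ((expo v (Ideal.span {x}) : ℕ) : ZMod p) = ((ord v (unt hx) : ℤ) : ZMod p) := by
    intro x hx v
    rw [← expo_span hx, Int.cast_natCast]
  rw [e1, e2, e3, ← map_mul, ← ofAdd_add]
  congr 2
  rw [← sub_eq_zero, ← Finset.sum_add_distrib, ← Finset.sum_sub_distrib]
  refine (Finset.sum_congr rfl fun v _ => ?_).trans h0
  split_ifs with hvp
  · rw [hskew]
    ring
  · by_cases hbv : b ∈ v.asIdeal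
    · have hav : a ∉ v.asIdeal := by
        intro h
        obtain ⟨s, t, hst⟩ := hab
        apply v.isPrime.ne_top
        rw [Ideal.eq_top_iff_one, ← hst]
        exact Ideal.add_mem _ (Ideal.mul_mem_left _ _ h) (Ideal.mul_mem_left _ _ hbv)
      rw [hk v hvp a ha hav, expo_span_eq_zero ha hav, hexp hb]
      ring
    · rw [hskew, mul_neg, hk v hvp b hb hbv, expo_span_eq_zero hb hbv, hexp ha]
      ring

/-- The reciprocity law if the local symbols above `p` are trivial. -/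
theorem reciprocity_of_sym_all [IsTotallyComplex K] (hζ : IsPrimitiveRoot ζ p)
    {a b : 𝓞 K} (ha : a ≠ 0) (hb : b ≠ 0) (hab : IsCoprime a b)
    (hloc : ∀ (LS : LocalSymbols p K) (v : HeightOneSpectrum (𝓞 K)), (p : 𝓞 K) ∈ v.asIdeal →
      LS.sym v (unt ha) (unt hb) = 1) :
    resP p ζ a (Ideal.span {b}) = resP p ζ b (Ideal.span {a}) := by
  classical
  obtain ⟨LS, c, -, h⟩ := reciprocity_general hζ
  rw [h a b ha hb hab]
  have h1 : (∏ᶠ (v : HeightOneSpectrum (𝓞 K)) (_ : (p : 𝓞 K) ∈ v.asIdeal),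
      hilbP LS c hζ (unt hb) (unt ha) v) = 1 := by
    rw [← finprod_one (α := HeightOneSpectrum (𝓞 K)) (M := 𝓞 K)]
    refine finprod_congr fun v => ?_
    rw [finprod_eq_if]
    split_ifs with hv
    · rw [hilbP, (sym_comm_eq_one_iff v LS _ _).1 (hloc LS v hv), toAdd_one, mul_zero, ofAdd_zero,
        map_one]
    · rfl
  rw [h1, mul_one]

/-- **The reciprocity law over every number field `K ∋ ζ_p`** for `a ≡ c ^ p mod (1 - ζ) ^ i`,
`b ≡ d ^ p mod (1 - ζ) ^ j` with `i, j > 0`, `i + j > p`, prime to `p`: `(a / b) = (b / a)`. -/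
theorem reciprocity_all [IsTotallyComplex K] (hζ : IsPrimitiveRoot ζ p)
    {a b : 𝓞 K} (ha : a ≠ 0) (hb : b ≠ 0) (hab : IsCoprime a b) (hap : IsCoprime a (p : 𝓞 K))
    (hbp : IsCoprime b (p : 𝓞 K)) {i j : ℕ} (hi : i ≠ 0) (hj : j ≠ 0) (hij : p < i + j)
    {c d : 𝓞 K} (hc : (1 - ζ) ^ i ∣ a - c ^ p) (hd : (1 - ζ) ^ j ∣ b - d ^ p) :
    resSym p ζ a (Ideal.span {b}) = resSym p ζ b (Ideal.span {a}) := by
  have hζ' : IsPrimitiveRoot (algebraMap (𝓞 K) K ζ) p :=
    hζ.map_of_injective RingOfIntegers.coe_injective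
  rw [← resP_eq_resSym a hb hbp, ← resP_eq_resSym b ha hap]
  refine reciprocity_of_sym_all hζ ha hb hab fun LS v hv => ?_
  obtain ⟨h1, h1'⟩ := valuation_sub_pow_le hv hζ hap hi hc
  obtain ⟨h2, h2'⟩ := valuation_sub_pow_le hv hζ hbp hj hd
  refine sym_eq_one_of_near v LS hp.out hζ' h1' h2' ?_
  rw [unt_val, unt_val]
  refine (mul_le_mul' h1 h2).trans_lt ?_
  rw [← pow_add]
  exact valuation_one_sub_zeta_pow_lt hp.out hv hζ' hij

/-- **The reciprocity law over every number field `K ∋ ζ_p`** for `a` congruent to a `p`-th power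
modulo `p (1 - ζ)` and arbitrary `b` prime to `p`. -/
theorem reciprocity_primary_all [IsTotallyComplex K] (hζ : IsPrimitiveRoot ζ p)
    {a b : 𝓞 K} (ha : a ≠ 0) (hb : b ≠ 0) (hab : IsCoprime a b) (hap : IsCoprime a (p : 𝓞 K))
    (hbp : IsCoprime b (p : 𝓞 K)) (hc : ∃ c : 𝓞 K, (p : 𝓞 K) * (1 - ζ) ∣ a - c ^ p) :
    resSym p ζ a (Ideal.span {b}) = resSym p ζ b (Ideal.span {a}) := by
  have hζ' : IsPrimitiveRoot (algebraMap (𝓞 K) K ζ) p :=
    hζ.map_of_injective RingOfIntegers.coe_injective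
  have hnot : ∀ {x y : 𝓞 K} {v : HeightOneSpectrum (𝓞 K)}, IsCoprime x y → y ∈ v.asIdeal →
      x ∉ v.asIdeal := by
    rintro x y v ⟨s, t, hst⟩ hy hx
    apply v.isPrime.ne_top
    rw [Ideal.eq_top_iff_one, ← hst]
    exact Ideal.add_mem _ (Ideal.mul_mem_left _ _ hx) (Ideal.mul_mem_left _ _ hy)
  rw [← resP_eq_resSym a hb hbp, ← resP_eq_resSym b ha hap]
  refine reciprocity_of_sym_all hζ ha hb hab fun LS v hv => ?_
  obtain ⟨c, w, hw⟩ := hc
  refine sym_eq_one_of_primary v LS hp.out hv hζ' (c := algebraMap (𝓞 K) K c)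
    (ord_unt_eq_zero ha (hnot hap hv)) (ord_unt_eq_zero hb (hnot hbp hv)) ?_
  have e : ((unt ha : Kˣ) : K) - algebraMap (𝓞 K) K c ^ p =
      (p * (1 - algebraMap (𝓞 K) K ζ)) * algebraMap (𝓞 K) K w := by
    have h1 := congrArg (algebraMap (𝓞 K) K) hw
    simp only [map_sub, map_mul, map_pow, map_natCast, map_one] at h1
    rw [unt_val, h1]
  rw [e, map_mul]
  exact mul_le_of_le_one_right' (v.valuation_le_one w)

/-- **The supplement for units**: `(u / a) = 1` if `a` is a `p`-th power modulo `p (1 - ζ)`. -/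
theorem unit_supplement_all [IsTotallyComplex K] (hζ : IsPrimitiveRoot ζ p)
    (u : (𝓞 K)ˣ) {a : 𝓞 K} (ha : a ≠ 0) (hap : IsCoprime a (p : 𝓞 K))
    (hc : ∃ c : 𝓞 K, (p : 𝓞 K) * (1 - ζ) ∣ a - c ^ p) :
    resSym p ζ (u : 𝓞 K) (Ideal.span {a}) = 1 := by
  have hcop : ∀ x : 𝓞 K, IsCoprime x (u : 𝓞 K) := fun x => ⟨0, (u⁻¹ : (𝓞 K)ˣ), by simp⟩
  rw [← reciprocity_primary_all hζ ha u.ne_zero (hcop a) hap (hcop _).symm hc,
    Ideal.span_singleton_eq_top.2 u.isUnit, resSym_top]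

/-- An integer which is a `p`-th power modulo `p (1 - ζ) ^ 2` is a local `p`-th power at the places
above `p`. -/
lemma mem_locPow_of_dvd (hζ : IsPrimitiveRoot ζ p) {v : HeightOneSpectrum (𝓞 K)}
    (hv : (p : 𝓞 K) ∈ v.asIdeal) {a c : 𝓞 K} (ha : a ≠ 0) (hap : IsCoprime a (p : 𝓞 K))
    (hc : (p : 𝓞 K) * (1 - ζ) ^ 2 ∣ a - c ^ p) : unt ha ∈ locPow p v := by
  have hζ' : IsPrimitiveRoot (algebraMap (𝓞 K) K ζ) p :=
    hζ.map_of_injective RingOfIntegers.coe_injective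
  have h1 : (1 - ζ) ^ 1 ∣ a - c ^ p :=
    (Dvd.intro_left ((p : 𝓞 K) * (1 - ζ)) (by ring)).trans hc
  obtain ⟨-, hc1⟩ := valuation_sub_pow_le hv hζ hap one_ne_zero h1
  have hc0 : algebraMap (𝓞 K) K c ≠ 0 :=
    (Valuation.ne_zero_iff _).1 (by rw [hc1]; exact one_ne_zero)
  have h2 : unt ha / Units.mk0 _ hc0 ^ p ∈ locPow p v := by
    apply mem_locPow_of_lt v hp.out hζ'
    obtain ⟨w, hw⟩ := hc
    have h3 := congrArg (algebraMap (𝓞 K) K) hw
    simp only [map_sub, map_mul, map_pow, map_natCast, map_one] at h3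
    have e : ((unt ha / Units.mk0 _ hc0 ^ p : Kˣ) : K) - 1 =
        (p * (1 - algebraMap (𝓞 K) K ζ)) * ((1 - algebraMap (𝓞 K) K ζ) *
          algebraMap (𝓞 K) K w) / algebraMap (𝓞 K) K c ^ p := by
      rw [Units.val_div_eq_div_val, Units.val_pow_eq_pow_val, Units.val_mk0, unt_val,
        div_sub_one (pow_ne_zero p hc0), h3]
      ring
    rw [e, map_div₀, map_pow, hc1, one_pow, div_one, map_mul, map_mul _ (1 - _)]
    have h4 := valuation_one_sub_zeta_lt_one hp.out hv hζ'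
    have h5 : v.valuation K (1 - algebraMap (𝓞 K) K ζ) * v.valuation K (algebraMap (𝓞 K) K w) < 1 :=
      mul_lt_one_of_lt_of_le h4 (v.valuation_le_one w)
    calc v.valuation K (p * (1 - algebraMap (𝓞 K) K ζ)) *
        (v.valuation K (1 - algebraMap (𝓞 K) K ζ) * v.valuation K (algebraMap (𝓞 K) K w))
        < v.valuation K (p * (1 - algebraMap (𝓞 K) K ζ)) * 1 :=
          mul_lt_mul_of_pos_left h5 (valuation_p_mul_pos hp.out hζ')
      _ = v.valuation K (p * (1 - algebraMap (𝓞 K) K ζ)) := mul_one _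
  have h3 : unt ha = (unt ha / Units.mk0 _ hc0 ^ p) * Units.mk0 _ hc0 ^ p := by
    rw [div_mul_cancel]
  rw [h3]
  exact mul_mem h2 (pow_mem_locPow p v _)

/-- **The second supplement**: `(x / a) = 1` for `x` dividing a power of `p` (for example
`x = 1 - ζ`), if `a` is a `p`-th power modulo `p (1 - ζ) ^ 2`. -/
theorem second_supplement [IsTotallyComplex K] (hζ : IsPrimitiveRoot ζ p)
    {a x : 𝓞 K} (ha : a ≠ 0) (hap : IsCoprime a (p : 𝓞 K))
    (hc : ∃ c : 𝓞 K, (p : 𝓞 K) * (1 - ζ) ^ 2 ∣ a - c ^ p) {n : ℕ} (hx : x ∣ (p : 𝓞 K) ^ n) :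
    resSym p ζ x (Ideal.span {a}) = 1 := by
  have hpK : (p : 𝓞 K) ≠ 0 := by exact_mod_cast hp.out.ne_zero
  have hx0 : x ≠ 0 := by
    rintro rfl
    exact pow_ne_zero n hpK (zero_dvd_iff.1 hx)
  have hxa : IsCoprime x a := (hap.symm.pow_left (m := n)).of_isCoprime_of_dvd_left hx
  obtain ⟨c, hc⟩ := hc
  rw [← resP_eq_resSym x ha hap, reciprocity_of_sym_all hζ hx0 ha hxa (fun LS v hv =>
    LS.sym_eq_one_of_right (mem_locPow_of_dvd hζ hv ha hap hc)), resP_of_dvd a hx0 hx]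

/-- **Eisenstein's reciprocity law over every number field `K ∋ ζ_p`**, `p` odd: `(a / n) = (n / a)`
for `a` prime to `p` and congruent to a rational integer modulo `(1 - ζ) ^ 2` and a rational
integer `n` prime to `p` and `a`. -/
theorem eisenstein_all (hp2 : p ≠ 2) (hζ : IsPrimitiveRoot ζ p)
    {a : 𝓞 K} (ha : a ≠ 0) (hap : IsCoprime a (p : 𝓞 K)) (hprim : ∃ m : ℤ, (1 - ζ) ^ 2 ∣ a - m)
    {n : ℤ} (hn : IsCoprime a (n : 𝓞 K)) (hnp : IsCoprime n (p : ℤ)) :
    resSym p ζ a (Ideal.span {(n : 𝓞 K)}) = resSym p ζ (n : 𝓞 K) (Ideal.span {a}) := by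
  have : IsTotallyComplex K := isTotallyComplex_of_odd hp.out hp2
    (hζ.map_of_injective (f := algebraMap (𝓞 K) K) RingOfIntegers.coe_injective)
  have hfermat : ∀ m : ℤ, (p : 𝓞 K) ∣ (m : 𝓞 K) - (m : 𝓞 K) ^ p := by
    intro m
    have h1 : (p : ℤ) ∣ m - m ^ p := by
      rw [← ZMod.intCast_zmod_eq_zero_iff_dvd]
      push_cast
      rw [ZMod.pow_card, sub_self]
    have h2 := map_dvd (Int.castRingHom (𝓞 K)) h1
    simpa using h2
  have hnp' : IsCoprime (n : 𝓞 K) (p : 𝓞 K) := by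
    have h := hnp.map (Int.castRingHom (𝓞 K))
    simpa using h
  have hn0 : (n : 𝓞 K) ≠ 0 := by
    intro h0
    have h1 : (n : ℤ) = 0 := by exact_mod_cast h0
    rw [h1, isCoprime_zero_left, Int.isUnit_iff] at hnp
    have := hp.out.two_le
    omega
  have h2 := hp.out.two_le
  obtain ⟨m, hm⟩ := hprim
  refine reciprocity_all hζ ha hn0 hn hap hnp' (i := 2) (j := p - 1) (by omega)
    (by omega) (by omega) (c := m) (d := n) ?_ ((one_sub_zeta_pow_dvd hζ).trans (hfermat n))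
  have e : a - (m : 𝓞 K) ^ p = (a - m) + ((m : 𝓞 K) - (m : 𝓞 K) ^ p) := by ring
  rw [e]
  exact dvd_add hm ((pow_dvd_pow _ (by omega)).trans
    ((one_sub_zeta_pow_dvd hζ).trans (hfermat m)))

/-! ### Frobenius elements -/

/-- **`ind_v a` is the Frobenius at `v` in `K(a ^ (1 / p))`**: if `α ^ p = a` in an extension `L` of
`K` and `σ` is an automorphism of `L / K` with `σ y ≡ y ^ (N v)` modulo a prime `P` above `v`,
`v ∤ p a`, then `σ α = ζ ^ (ind_v a) α`. -/
theorem frob_apply {L : Type} [Field L] [NumberField L] [Algebra K L]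
    (hζ : IsPrimitiveRoot ζ p) {v : HeightOneSpectrum (𝓞 K)} (hv : (p : 𝓞 K) ∉ v.asIdeal)
    {a : 𝓞 K} (ha : a ∉ v.asIdeal) {α : 𝓞 L} (hα : α ^ p = algebraMap (𝓞 K) (𝓞 L) a)
    (P : HeightOneSpectrum (𝓞 L)) (hP : P.under (𝓞 K) = v) (σ : 𝓞 L ≃ₐ[𝓞 K] 𝓞 L)
    (hσ : ∀ y : 𝓞 L, σ y - y ^ Ideal.absNorm v.asIdeal ∈ P.asIdeal) :
    σ α = algebraMap (𝓞 K) (𝓞 L) ζ ^ (ind p ζ v a).val * α := by
  have hinj : Function.Injective (algebraMap (𝓞 K) (𝓞 L)) := FaithfulSMul.algebraMap_injective _ _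
  set ζL : 𝓞 L := algebraMap (𝓞 K) (𝓞 L) ζ with hζLdef
  have hζL : IsPrimitiveRoot ζL p := hζ.map_of_injective hinj
  have hPp : (p : 𝓞 L) ∉ P.asIdeal := by
    intro h
    apply hv
    rw [← hP, ← map_mem_iff, map_natCast]
    exact h
  have hαP : α ∉ P.asIdeal := by
    intro h
    apply ha
    rw [← hP, ← map_mem_iff, ← hα]
    exact Ideal.pow_mem_of_mem _ h p hp.out.pos
  have hα0 : α ≠ 0 := fun h => hαP (by rw [h]; exact zero_mem _)
  -- `σ α = ζ ^ j α`
  obtain ⟨j, hj⟩ : ∃ j : ZMod p, σ α = ζL ^ j.val * α := by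
    have h1 : (algebraMap (𝓞 L) L (σ α) / algebraMap (𝓞 L) L α) ^ p = 1 := by
      rw [div_pow, ← map_pow, ← map_pow, ← map_pow, hα, AlgEquiv.commutes, div_self]
      rw [← hα, map_pow]
      exact pow_ne_zero p ((map_ne_zero_iff _ RingOfIntegers.coe_injective).2 hα0)
    obtain ⟨i, -, hi⟩ := (hζL.map_of_injective
      (f := algebraMap (𝓞 L) L) RingOfIntegers.coe_injective).eq_pow_of_pow_eq_one h1
    refine ⟨(i : ZMod p), ?_⟩
    rw [pow_val_natCast hζL]
    apply RingOfIntegers.coe_injective (K := L)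
    rw [map_mul, map_pow, hi, div_mul_cancel₀]
    exact (map_ne_zero_iff _ RingOfIntegers.coe_injective).2 hα0
  rw [hj]
  congr 2
  -- compare modulo `P`
  obtain ⟨e, he⟩ := dvd_absNorm_sub_one hζ hv
  have hN0 : 0 < Ideal.absNorm v.asIdeal := by
    have := two_le_absNorm v
    omega
  have hN : Ideal.absNorm v.asIdeal = p * e + 1 := by omega
  have h1 := hσ α
  rw [hj, hN, pow_succ, pow_mul, hα, ← sub_mul] at h1
  have h2 := (P.isPrime.mem_or_mem h1).resolve_right hαP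
  have h3 := ind_spec hζ hv ha
  rw [he, Nat.mul_div_cancel_left e hp.out.pos, ← hP, ← map_mem_iff, hP, map_sub, map_pow,
    map_pow, ← hζLdef] at h3
  have h4 := P.asIdeal.add_mem h2 h3
  rw [sub_add_sub_cancel] at h4
  rw [eq_of_pow_sub_mem hζL hPp h4]

end Main

section Cubic

variable {K : Type} [Field K] [NumberField K] {ω : 𝓞 K}

/-- **Cubic reciprocity over every number field `K ∋ ω`**: `(a / b)₃ = (b / a)₃` for coprime
`a`, `b` congruent to `± 1` modulo `3`. -/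
theorem cubic_reciprocity_all (hω : IsPrimitiveRoot ω 3) {a b : 𝓞 K}
    (hab : IsCoprime a b) (ha : 3 ∣ a - 1 ∨ 3 ∣ a + 1) (hb : 3 ∣ b - 1 ∨ 3 ∣ b + 1) :
    resSym 3 ω a (Ideal.span {b}) = resSym 3 ω b (Ideal.span {a}) := by
  have h3p := Fact.mk Nat.prime_three
  have : IsTotallyComplex K := isTotallyComplex_of_odd Nat.prime_three (by norm_num)
    (hω.map_of_injective (f := algebraMap (𝓞 K) K) RingOfIntegers.coe_injective)
  have key : ∀ {x : 𝓞 K}, (3 ∣ x - 1 ∨ 3 ∣ x + 1) → x ≠ 0 ∧ IsCoprime x ((3 : ℕ) : 𝓞 K) ∧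
      ∃ c : 𝓞 K, (1 - ω) ^ 2 ∣ x - c ^ 3 := by
    intro x h
    have e3 : ((3 : ℕ) : 𝓞 K) = 3 := by norm_num
    have hcop : IsCoprime x 3 := by
      rcases h with ⟨y, hy⟩ | ⟨y, hy⟩
      · exact ⟨1, -y, by linear_combination hy⟩
      · exact ⟨-1, y, by linear_combination -hy⟩
    have hdvd : (1 - ω) ^ 2 ∣ (3 : 𝓞 K) := by
      have h1 := one_sub_zeta_pow_dvd hω
      rw [e3] at h1
      exact h1
    refine ⟨?_, by rwa [e3], ?_⟩
    · rintro rfl
      rw [isCoprime_zero_left] at hcop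
      have h1 : IsUnit ((3 : ℕ) : 𝓞 K) := by rwa [e3]
      have h2 := h1.map (Algebra.norm ℤ)
      rw [show ((3 : ℕ) : 𝓞 K) = algebraMap ℤ (𝓞 K) 3 by simp, Algebra.norm_algebraMap,
        RingOfIntegers.rank, Int.isUnit_iff] at h2
      have h3 : 0 < Module.finrank ℚ K := Module.finrank_pos
      have h4 : (1 : ℤ) < 3 ^ Module.finrank ℚ K := one_lt_pow₀ (by norm_num) h3.ne'
      omega
    · rcases h with h | h
      · exact ⟨1, by rw [one_pow]; exact hdvd.trans h⟩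
      · refine ⟨-1, ?_⟩
        have e : x - (-1) ^ 3 = x + 1 := by ring
        rw [e]
        exact hdvd.trans h
  obtain ⟨ha0, hap, c, hc⟩ := key ha
  obtain ⟨hb0, hbp, d, hd⟩ := key hb
  exact reciprocity_all (p := 3) hω ha0 hb0 hab hap hbp (i := 2) (j := 2) two_ne_zero two_ne_zero
    (by norm_num) hc hd

end Cubic

end Fermat.Agent.Cor.Recip
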