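import Fermat.Agent.Corollaries.Recip.Kappa
import Fermat.Agent.Corollaries.Recip.Symbol

/-!
# The reciprocity law for `p`-th power residue symbols

`p` is an odd prime, `K` a number field with a primitive `p`-th root of unity `ζ ∈ 𝓞 K` such that
no norm `N v`, `v ∤ p`, is a `p`-th power; for example `K = ℚ(ζ_p)` (`absNorm_ne_pow`).
`resSym p ζ a I = (a / I)` is the `p`-th power residue symbol.

* `reciprocity_hilbert`: there are non-degenerate local symbols at `v ∣ p` with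
  `(a / b) = (b / a) ∏_{v ∣ p} (b, a)_v` for all coprime `a`, `b` prime to `p`;
* `reciprocity_of_lt`: `(a / b) = (b / a)` if `a ≡ c ^ p mod (1 - ζ) ^ i` and
  `b ≡ d ^ p mod (1 - ζ) ^ j` with `i, j > 0`, `i + j > p`;
* `reciprocity_mod_p`, `reciprocity_primary`, `cubic_reciprocity`, `eisenstein_reciprocity`,
  `unit_supplement`.
-/

set_option autoImplicit false
set_option linter.unusedSectionVars false

namespace Fermat.Agent.Cor.Recip

open Fermat.Agent.CFT.Global hiding Inputs p_dvd_index exists_notMem_locPow exists_place powE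
  mem_powE index_powE index_zpowers_sup_powE second hasse_norm FirstInequality exists_eq_nsmul_add
  exists_ne_symVec exists_functional_aux exists_inj forall_ne_zero exists_functional
open Fermat.Agent.CFT.Global2 Fermat.Agent.LT
open Fermat.Agent.CFT.SUnits (ord ord_one ord_mul ord_pow ord_div ord_inv ord_eq_zero_iff
  valuation_eq_exp_neg_ord)
open NumberField IsDedekindDomain WithZero

/-- The norms of the places of a number field of degree `< p` are not `p`-th powers. -/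
theorem absNorm_ne_pow {p : ℕ} {K : Type} [Field K] [NumberField K]
    (hK : Module.finrank ℚ K < p) (v : HeightOneSpectrum (𝓞 K)) (n : ℕ) :
    Ideal.absNorm v.asIdeal ≠ n ^ p := by
  intro h
  obtain ⟨q, f, hq, hqv, hf⟩ := exists_absNorm_eq v
  have hf0 : f ≠ 0 := by
    rintro rfl
    have h2 := two_le_absNorm v
    rw [hf, pow_zero] at h2
    omega
  -- `p ∣ f`
  have hpf : p ∣ f := by
    have h1 : (n ^ p).factorization q = f := by
      rw [← h, hf, hq.factorization_pow, Finsupp.single_eq_same]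
    rw [Nat.factorization_pow, Finsupp.smul_apply, smul_eq_mul] at h1
    exact ⟨_, h1.symm⟩
  -- `f ≤ [K : ℚ]`
  have h2 : Ideal.absNorm v.asIdeal ∣ q ^ Module.finrank ℚ K := by
    have h3 : Ideal.absNorm v.asIdeal ∣ Ideal.absNorm (Ideal.span {(q : 𝓞 K)}) :=
      Ideal.absNorm_dvd_absNorm_of_le ((Ideal.span_singleton_le_iff_mem _).2 hqv)
    rw [Ideal.absNorm_span_singleton, show (q : 𝓞 K) = algebraMap ℤ (𝓞 K) (q : ℤ) by simp,
      Algebra.norm_algebraMap, RingOfIntegers.rank] at h3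
    simpa using h3
  rw [hf, Nat.pow_dvd_pow_iff_le_right hq.one_lt] at h2
  exact absurd (Nat.le_of_dvd (by omega) hpf) (by omega)

section Main

variable {p : ℕ} [hp : Fact p.Prime] {K : Type} [Field K] [NumberField K] {ζ : 𝓞 K}

/-- A product over the places above `p` of local symbols. -/
noncomputable def hilbP (LS : LocalSymbols p K) (c : HeightOneSpectrum (𝓞 K) → ZMod p)
    (hζ : IsPrimitiveRoot ζ p) (a b : Kˣ) (v : HeightOneSpectrum (𝓞 K)) : 𝓞 K :=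
  zhom hζ (Multiplicative.ofAdd (c v * (LS.sym v a b).toAdd))

open Classical in
/-- The product formula, for `a`, `b` coprime. -/
lemma sum_above [IsTotallyComplex K] {LS : LocalSymbols p K}
    {c : HeightOneSpectrum (𝓞 K) → ZMod p}
    (hprod : ∀ a x : Kˣ, (symVec LS hp.out.ne_zero a x).sum (fun v n => c v * n) = 0)
    (hk : ∀ v, (p : 𝓞 K) ∉ v.asIdeal → ∀ (a : 𝓞 K) (ha0 : a ≠ 0), a ∉ v.asIdeal → ∀ x : Kˣ,
        c v * (LS.sym v (unt ha0) x).toAdd = ord v x * ind p ζ v a)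
    {a b : 𝓞 K} (ha : a ≠ 0) (hb : b ≠ 0) (hab : IsCoprime a b) (hap : IsCoprime a (p : 𝓞 K))
    (hbp : IsCoprime b (p : 𝓞 K)) (U : Finset (HeightOneSpectrum (𝓞 K)))
    (hU : ∀ v : HeightOneSpectrum (𝓞 K), a ∈ v.asIdeal ∨ b ∈ v.asIdeal ∨ (p : 𝓞 K) ∈ v.asIdeal →
      v ∈ U) :
    (∑ v ∈ U, (expo v (Ideal.span {b}) : ZMod p) * ind p ζ v a) -
      (∑ v ∈ U, (expo v (Ideal.span {a}) : ZMod p) * ind p ζ v b) =
      ∑ v ∈ U, if (p : 𝓞 K) ∈ v.asIdeal then c v * (LS.sym v (unt hb) (unt ha)).toAdd else 0 := by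
  classical
  have h0 := sum_eq_zero_of_prod hprod (unt ha) (unt hb) U (fun v hv => by
    have h1 : a ∉ v.asIdeal := fun h => hv (hU v (Or.inl h))
    have h2 : b ∉ v.asIdeal := fun h => hv (hU v (Or.inr (Or.inl h)))
    have h3 : (p : 𝓞 K) ∉ v.asIdeal := fun h => hv (hU v (Or.inr (Or.inr h)))
    exact LS.unit_mem v h3 _ _ (ord_unt_eq_zero ha h1) (ord_unt_eq_zero hb h2))
  have hskew : ∀ v, (LS.sym v (unt ha) (unt hb)).toAdd =
      -(LS.sym v (unt hb) (unt ha)).toAdd := by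
    intro v
    have h := LS.skew v (unt ha) (unt hb)
    rw [← eq_inv_iff_mul_eq_one] at h
    rw [h, toAdd_inv]
  have hnot : ∀ {x y : 𝓞 K} {v : HeightOneSpectrum (𝓞 K)}, IsCoprime x y → x ∈ v.asIdeal →
      y ∉ v.asIdeal := by
    rintro x y v ⟨s, t, hst⟩ hx hy
    apply v.isPrime.ne_top
    rw [Ideal.eq_top_iff_one, ← hst]
    exact Ideal.add_mem _ (Ideal.mul_mem_left _ _ hx) (Ideal.mul_mem_left _ _ hy)
  have hexp : ∀ {x : 𝓞 K} (hx : x ≠ 0) (v : HeightOneSpectrum (𝓞 K)),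
      ((expo v (Ideal.span {x}) : ℕ) : ZMod p) = ((ord v (unt hx) : ℤ) : ZMod p) := by
    intro x hx v
    rw [← expo_span hx, Int.cast_natCast]
  rw [← Finset.sum_sub_distrib, ← sub_eq_zero, ← Finset.sum_sub_distrib]
  refine (Finset.sum_congr rfl fun v _ => ?_).trans h0
  split_ifs with hvp
  · have h1 : a ∉ v.asIdeal := fun h => hnot hap h hvp
    have h2 : b ∉ v.asIdeal := fun h => hnot hbp h hvp
    rw [expo_span_eq_zero ha h1, expo_span_eq_zero hb h2, hskew]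
    ring
  · by_cases hbv : b ∈ v.asIdeal
    · have hav : a ∉ v.asIdeal := fun h => hnot hab h hbv
      rw [hk v hvp a ha hav, expo_span_eq_zero ha hav, hexp hb]
      ring
    · rw [hskew, mul_neg, hk v hvp b hb hbv, expo_span_eq_zero hb hbv, hexp ha]
      ring

/-- **The reciprocity law for `p`-th power residue symbols**: there are local symbols at the places
above `p` (non-degenerate on `K_vˣ / K_vˣᵖ`, skew-symmetric and trivial on norms) such that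
`(a / b) = (b / a) ∏_{v ∣ p} (b, a)_v` for all coprime `a`, `b` prime to `p`. -/
theorem reciprocity_hilbert (hp2 : p ≠ 2) (hζ : IsPrimitiveRoot ζ p)
    (hN : ∀ v : HeightOneSpectrum (𝓞 K), (p : 𝓞 K) ∉ v.asIdeal →
      ∀ n : ℕ, Ideal.absNorm v.asIdeal ≠ n ^ p) :
    ∃ (LS : LocalSymbols p K) (c : HeightOneSpectrum (𝓞 K) → ZMod p), (∀ v, c v ≠ 0) ∧
      ∀ (a b : 𝓞 K) (ha : a ≠ 0) (hb : b ≠ 0), IsCoprime a b → IsCoprime a (p : 𝓞 K) →
        IsCoprime b (p : 𝓞 K) →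
        resSym p ζ a (Ideal.span {b}) = resSym p ζ b (Ideal.span {a}) *
          ∏ᶠ (v : HeightOneSpectrum (𝓞 K)) (_ : (p : 𝓞 K) ∈ v.asIdeal),
            hilbP LS c hζ (unt hb) (unt ha) v := by
  classical
  have : IsTotallyComplex K := isTotallyComplex_of_odd hp.out hp2
    (hζ.map_of_injective (f := algebraMap (𝓞 K) K) RingOfIntegers.coe_injective)
  obtain ⟨LS, c, hc, hprod, hk⟩ := exists_symbols hp2 hζ hN
  refine ⟨LS, c, hc, fun a b ha hb hab hap hbp => ?_⟩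
  have hN0 : a * b * (p : 𝓞 K) ≠ 0 :=
    mul_ne_zero (mul_ne_zero ha hb) (by exact_mod_cast hp.out.ne_zero)
  have hfin : {v : HeightOneSpectrum (𝓞 K) | v.asIdeal ∣ Ideal.span {a * b * (p : 𝓞 K)}}.Finite :=
    Ideal.finite_factors (by rwa [Ne, Ideal.zero_eq_bot, Ideal.span_singleton_eq_bot])
  set U : Finset (HeightOneSpectrum (𝓞 K)) := hfin.toFinset with hUdef
  have hU : ∀ v, v ∈ U ↔ (a ∈ v.asIdeal ∨ b ∈ v.asIdeal) ∨ (p : 𝓞 K) ∈ v.asIdeal := by
    intro v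
    rw [hUdef, Set.Finite.mem_toFinset, Set.mem_ofPred_eq, Ideal.dvd_span_singleton,
      v.isPrime.mul_mem_iff_mem_or_mem, v.isPrime.mul_mem_iff_mem_or_mem]
  have hU' : ∀ v : HeightOneSpectrum (𝓞 K),
      a ∈ v.asIdeal ∨ b ∈ v.asIdeal ∨ (p : 𝓞 K) ∈ v.asIdeal → v ∈ U := by
    intro v h
    rw [hU]
    tauto
  have hsum := sum_above hprod hk ha hb hab hap hbp U hU'
  have hnot : ∀ {x y : 𝓞 K} {v : HeightOneSpectrum (𝓞 K)}, IsCoprime x y → x ∈ v.asIdeal →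
      y ∉ v.asIdeal := by
    rintro x y v ⟨s, t, hst⟩ hx hy
    apply v.isPrime.ne_top
    rw [Ideal.eq_top_iff_one, ← hst]
    exact Ideal.add_mem _ (Ideal.mul_mem_left _ _ hx) (Ideal.mul_mem_left _ _ hy)
  have hmem : ∀ {x : 𝓞 K} (hx : x ≠ 0) {v : HeightOneSpectrum (𝓞 K)},
      expo v (Ideal.span {x}) ≠ 0 → x ∈ v.asIdeal := by
    intro x hx v h
    by_contra h1
    exact h (expo_span_eq_zero hx h1)
  have e1 := resSym_eq_zhom hζ (a := a) (I := Ideal.span {b})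
    (fun v hv h => hnot hab h (hmem hb hv)) U (fun v hv => hU' v (Or.inr (Or.inl (hmem hb hv))))
  have e2 := resSym_eq_zhom hζ (a := b) (I := Ideal.span {a})
    (fun v hv h => hnot hab.symm h (hmem ha hv)) U (fun v hv => hU' v (Or.inl (hmem ha hv)))
  have e3 : (∏ᶠ (v : HeightOneSpectrum (𝓞 K)) (_ : (p : 𝓞 K) ∈ v.asIdeal),
      hilbP LS c hζ (unt hb) (unt ha) v) = zhom hζ (Multiplicative.ofAdd
        (∑ v ∈ U, if (p : 𝓞 K) ∈ v.asIdeal then
          c v * (LS.sym v (unt hb) (unt ha)).toAdd else 0)) := by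
    rw [ofAdd_sum, map_prod, finprod_eq_prod_of_mulSupport_subset (s := U)]
    · refine Finset.prod_congr rfl fun v _ => ?_
      by_cases hvp : (p : 𝓞 K) ∈ v.asIdeal
      · rw [if_pos hvp, finprod_eq_if, if_pos hvp, hilbP]
      · rw [if_neg hvp, finprod_eq_if, if_neg hvp, ofAdd_zero, map_one]
    · intro v hv
      refine hU' v (Or.inr (Or.inr ?_))
      by_contra hvp
      apply hv
      change (∏ᶠ (_ : (p : 𝓞 K) ∈ v.asIdeal), hilbP LS c hζ (unt hb) (unt ha) v) = 1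
      rw [finprod_eq_if, if_neg hvp]
  rw [e1, e2, e3, ← map_mul, ← ofAdd_add, ← hsum, add_sub_cancel]

/-- The reciprocity law if the local symbols above `p` are trivial. -/
theorem reciprocity_of_sym (hp2 : p ≠ 2) (hζ : IsPrimitiveRoot ζ p)
    (hN : ∀ v : HeightOneSpectrum (𝓞 K), (p : 𝓞 K) ∉ v.asIdeal →
      ∀ n : ℕ, Ideal.absNorm v.asIdeal ≠ n ^ p)
    {a b : 𝓞 K} (ha : a ≠ 0) (hb : b ≠ 0) (hab : IsCoprime a b) (hap : IsCoprime a (p : 𝓞 K))
    (hbp : IsCoprime b (p : 𝓞 K))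
    (hloc : ∀ (LS : LocalSymbols p K) (v : HeightOneSpectrum (𝓞 K)), (p : 𝓞 K) ∈ v.asIdeal →
      LS.sym v (unt ha) (unt hb) = 1) :
    resSym p ζ a (Ideal.span {b}) = resSym p ζ b (Ideal.span {a}) := by
  classical
  obtain ⟨LS, c, -, h⟩ := reciprocity_hilbert hp2 hζ hN
  rw [h a b ha hb hab hap hbp]
  have h1 : (∏ᶠ (v : HeightOneSpectrum (𝓞 K)) (_ : (p : 𝓞 K) ∈ v.asIdeal),
      hilbP LS c hζ (unt hb) (unt ha) v) = 1 := by
    rw [← finprod_one (α := HeightOneSpectrum (𝓞 K)) (M := 𝓞 K)]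
    refine finprod_congr fun v => ?_
    rw [finprod_eq_if]
    split_ifs with hv
    · rw [hilbP, (sym_comm_eq_one_iff v LS _ _).1 (hloc LS v hv), toAdd_one, mul_zero, ofAdd_zero,
        map_one]
    · rfl
  rw [h1, mul_one]

lemma valuation_sub_pow_le {v : HeightOneSpectrum (𝓞 K)} (hv : (p : 𝓞 K) ∈ v.asIdeal)
    (hζ : IsPrimitiveRoot ζ p) {x e : 𝓞 K} (hx : IsCoprime x (p : 𝓞 K)) {n : ℕ} (hn : n ≠ 0)
    (h : (1 - ζ) ^ n ∣ x - e ^ p) :
    v.valuation K (algebraMap (𝓞 K) K x - algebraMap (𝓞 K) K e ^ p) ≤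
        v.valuation K (1 - algebraMap (𝓞 K) K ζ) ^ n ∧
      v.valuation K (algebraMap (𝓞 K) K e) = 1 := by
  have hζ' : IsPrimitiveRoot (algebraMap (𝓞 K) K ζ) p :=
    hζ.map_of_injective RingOfIntegers.coe_injective
  have hlt := valuation_one_sub_zeta_lt_one hp.out hv hζ'
  obtain ⟨w, hw⟩ := h
  have h1 : v.valuation K (algebraMap (𝓞 K) K x - algebraMap (𝓞 K) K e ^ p) ≤
      v.valuation K (1 - algebraMap (𝓞 K) K ζ) ^ n := by
    have h2 := congrArg (algebraMap (𝓞 K) K) hw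
    simp only [map_sub, map_mul, map_pow, map_one] at h2
    rw [h2, map_mul, map_pow]
    exact mul_le_of_le_one_right' (v.valuation_le_one w)
  refine ⟨h1, ?_⟩
  have hx1 : v.valuation K (algebraMap (𝓞 K) K x) = 1 := by
    refine (v.valuation_eq_one_iff_notMem (K := K)).2 fun h => ?_
    obtain ⟨s, t, hst⟩ := hx
    apply v.isPrime.ne_top
    rw [Ideal.eq_top_iff_one, ← hst]
    exact Ideal.add_mem _ (Ideal.mul_mem_left _ _ h) (Ideal.mul_mem_left _ _ hv)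
  have h4 : v.valuation K (algebraMap (𝓞 K) K e ^ p) = 1 := by
    have e1 : algebraMap (𝓞 K) K e ^ p = algebraMap (𝓞 K) K x -
        (algebraMap (𝓞 K) K x - algebraMap (𝓞 K) K e ^ p) := by ring
    rw [e1, Valuation.map_sub_eq_of_lt_left _ (by
      rw [hx1]; exact h1.trans_lt (pow_lt_one' hlt hn)), hx1]
  rw [map_pow] at h4
  exact eq_one_of_pow_eq_one hp.out.ne_zero h4

/-- **The reciprocity law** for `a ≡ c ^ p mod (1 - ζ) ^ i`, `b ≡ d ^ p mod (1 - ζ) ^ j` with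
`i + j > p`: `(a / b) = (b / a)`. -/
theorem reciprocity_of_lt (hp2 : p ≠ 2) (hζ : IsPrimitiveRoot ζ p)
    (hN : ∀ v : HeightOneSpectrum (𝓞 K), (p : 𝓞 K) ∉ v.asIdeal →
      ∀ n : ℕ, Ideal.absNorm v.asIdeal ≠ n ^ p)
    {a b : 𝓞 K} (ha : a ≠ 0) (hb : b ≠ 0) (hab : IsCoprime a b) (hap : IsCoprime a (p : 𝓞 K))
    (hbp : IsCoprime b (p : 𝓞 K)) {i j : ℕ} (hi : i ≠ 0) (hj : j ≠ 0) (hij : p < i + j)
    {c d : 𝓞 K} (hc : (1 - ζ) ^ i ∣ a - c ^ p) (hd : (1 - ζ) ^ j ∣ b - d ^ p) :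
    resSym p ζ a (Ideal.span {b}) = resSym p ζ b (Ideal.span {a}) := by
  have hζ' : IsPrimitiveRoot (algebraMap (𝓞 K) K ζ) p :=
    hζ.map_of_injective RingOfIntegers.coe_injective
  refine reciprocity_of_sym hp2 hζ hN ha hb hab hap hbp fun LS v hv => ?_
  obtain ⟨h1, h1'⟩ := valuation_sub_pow_le hv hζ hap hi hc
  obtain ⟨h2, h2'⟩ := valuation_sub_pow_le hv hζ hbp hj hd
  refine sym_eq_one_of_near v LS hp.out hζ' h1' h2' ?_
  rw [unt_val, unt_val]
  refine (mul_le_mul' h1 h2).trans_lt ?_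
  rw [← pow_add]
  exact valuation_one_sub_zeta_pow_lt hp.out hv hζ' hij

/-- **The reciprocity law** for `a` and `b` congruent to `p`-th powers modulo `p`. -/
theorem reciprocity_mod_p (hp2 : p ≠ 2) (hζ : IsPrimitiveRoot ζ p)
    (hN : ∀ v : HeightOneSpectrum (𝓞 K), (p : 𝓞 K) ∉ v.asIdeal →
      ∀ n : ℕ, Ideal.absNorm v.asIdeal ≠ n ^ p)
    {a b : 𝓞 K} (ha : a ≠ 0) (hb : b ≠ 0) (hab : IsCoprime a b) (hap : IsCoprime a (p : 𝓞 K))
    (hbp : IsCoprime b (p : 𝓞 K)) (hc : ∃ c : 𝓞 K, (p : 𝓞 K) ∣ a - c ^ p)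
    (hd : ∃ d : 𝓞 K, (p : 𝓞 K) ∣ b - d ^ p) :
    resSym p ζ a (Ideal.span {b}) = resSym p ζ b (Ideal.span {a}) := by
  obtain ⟨c, hc⟩ := hc
  obtain ⟨d, hd⟩ := hd
  have h2 := hp.out.two_le
  exact reciprocity_of_lt hp2 hζ hN ha hb hab hap hbp (i := p - 1) (j := p - 1) (by omega)
    (by omega) (by omega) ((one_sub_zeta_pow_dvd hζ).trans hc) ((one_sub_zeta_pow_dvd hζ).trans hd)

/-- **The reciprocity law** for `a` congruent to a `p`-th power modulo `p (1 - ζ)` and arbitrary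
`b` prime to `p`. -/
theorem reciprocity_primary (hp2 : p ≠ 2) (hζ : IsPrimitiveRoot ζ p)
    (hN : ∀ v : HeightOneSpectrum (𝓞 K), (p : 𝓞 K) ∉ v.asIdeal →
      ∀ n : ℕ, Ideal.absNorm v.asIdeal ≠ n ^ p)
    {a b : 𝓞 K} (ha : a ≠ 0) (hb : b ≠ 0) (hab : IsCoprime a b) (hap : IsCoprime a (p : 𝓞 K))
    (hbp : IsCoprime b (p : 𝓞 K)) (hc : ∃ c : 𝓞 K, (p : 𝓞 K) * (1 - ζ) ∣ a - c ^ p) :
    resSym p ζ a (Ideal.span {b}) = resSym p ζ b (Ideal.span {a}) := by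
  have hζ' : IsPrimitiveRoot (algebraMap (𝓞 K) K ζ) p :=
    hζ.map_of_injective RingOfIntegers.coe_injective
  have hnot : ∀ {x y : 𝓞 K} {v : HeightOneSpectrum (𝓞 K)}, IsCoprime x y → y ∈ v.asIdeal →
      x ∉ v.asIdeal := by
    rintro x y v ⟨s, t, hst⟩ hy hx
    apply v.isPrime.ne_top
    rw [Ideal.eq_top_iff_one, ← hst]
    exact Ideal.add_mem _ (Ideal.mul_mem_left _ _ hx) (Ideal.mul_mem_left _ _ hy)
  refine reciprocity_of_sym hp2 hζ hN ha hb hab hap hbp fun LS v hv => ?_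
  obtain ⟨c, w, hw⟩ := hc
  refine sym_eq_one_of_primary v LS hp.out hv hζ' (c := algebraMap (𝓞 K) K c)
    (ord_unt_eq_zero ha (hnot hap hv)) (ord_unt_eq_zero hb (hnot hbp hv)) ?_
  have e : ((unt ha : Kˣ) : K) - algebraMap (𝓞 K) K c ^ p =
      (p * (1 - algebraMap (𝓞 K) K ζ)) * algebraMap (𝓞 K) K w := by
    have h1 := congrArg (algebraMap (𝓞 K) K) hw
    simp only [map_sub, map_mul, map_pow, map_natCast, map_one] at h1
    rw [unt_val, h1]
  rw [e, map_mul]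
  exact mul_le_of_le_one_right' (v.valuation_le_one w)

/-- **The supplement for units**: `(u / a) = 1` if `a` is a `p`-th power modulo `p (1 - ζ)`. -/
theorem unit_supplement (hp2 : p ≠ 2) (hζ : IsPrimitiveRoot ζ p)
    (hN : ∀ v : HeightOneSpectrum (𝓞 K), (p : 𝓞 K) ∉ v.asIdeal →
      ∀ n : ℕ, Ideal.absNorm v.asIdeal ≠ n ^ p)
    (u : (𝓞 K)ˣ) {a : 𝓞 K} (ha : a ≠ 0) (hap : IsCoprime a (p : 𝓞 K))
    (hc : ∃ c : 𝓞 K, (p : 𝓞 K) * (1 - ζ) ∣ a - c ^ p) :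
    resSym p ζ (u : 𝓞 K) (Ideal.span {a}) = 1 := by
  have hcop : ∀ x : 𝓞 K, IsCoprime x (u : 𝓞 K) := fun x => ⟨0, (u⁻¹ : (𝓞 K)ˣ), by simp⟩
  rw [← reciprocity_primary hp2 hζ hN ha u.ne_zero (hcop a) hap (hcop _).symm hc,
    Ideal.span_singleton_eq_top.2 u.isUnit, resSym_top]

/-- **Eisenstein's reciprocity law**: `a ∈ 𝓞 K` prime to `p` and congruent to a rational integer
modulo `(1 - ζ) ^ 2`, `n` a rational integer prime to `p` and `a`: `(a / n) = (n / a)`. -/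
theorem eisenstein_reciprocity (hp2 : p ≠ 2) (hζ : IsPrimitiveRoot ζ p)
    (hN : ∀ v : HeightOneSpectrum (𝓞 K), (p : 𝓞 K) ∉ v.asIdeal →
      ∀ n : ℕ, Ideal.absNorm v.asIdeal ≠ n ^ p)
    {a : 𝓞 K} (ha : a ≠ 0) (hap : IsCoprime a (p : 𝓞 K)) (hprim : ∃ m : ℤ, (1 - ζ) ^ 2 ∣ a - m)
    {n : ℤ} (hn : IsCoprime a (n : 𝓞 K)) (hnp : IsCoprime n (p : ℤ)) :
    resSym p ζ a (Ideal.span {(n : 𝓞 K)}) = resSym p ζ (n : 𝓞 K) (Ideal.span {a}) := by
  have hfermat : ∀ m : ℤ, (p : 𝓞 K) ∣ (m : 𝓞 K) - (m : 𝓞 K) ^ p := by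
    intro m
    have h1 : (p : ℤ) ∣ m - m ^ p := by
      rw [← ZMod.intCast_zmod_eq_zero_iff_dvd]
      push_cast
      rw [ZMod.pow_card, sub_self]
    have h2 := map_dvd (Int.castRingHom (𝓞 K)) h1
    simpa using h2
  have hnp' : IsCoprime (n : 𝓞 K) (p : 𝓞 K) := by
    have h := hnp.map (Int.castRingHom (𝓞 K))
    simpa using h
  have hn0 : (n : 𝓞 K) ≠ 0 := by
    intro h0
    have h1 : (n : ℤ) = 0 := by exact_mod_cast h0
    rw [h1, isCoprime_zero_left, Int.isUnit_iff] at hnp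
    have := hp.out.two_le
    omega
  have h2 := hp.out.two_le
  obtain ⟨m, hm⟩ := hprim
  refine reciprocity_of_lt hp2 hζ hN ha hn0 hn hap hnp' (i := 2) (j := p - 1) (by omega)
    (by omega) (by omega) (c := m) (d := n) ?_ ((one_sub_zeta_pow_dvd hζ).trans (hfermat n))
  have e : a - (m : 𝓞 K) ^ p = (a - m) + ((m : 𝓞 K) - (m : 𝓞 K) ^ p) := by ring
  rw [e]
  exact dvd_add hm ((pow_dvd_pow _ (by omega)).trans
    ((one_sub_zeta_pow_dvd hζ).trans (hfermat m)))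

end Main

/-! ### The cyclotomic field `ℚ(ζ_p)` -/

section Cyclotomic

variable {p : ℕ} [hp : Fact p.Prime] {K : Type} [Field K] [NumberField K]
  [IsCyclotomicExtension {p} ℚ K] {ζ : 𝓞 K}

/-- The norms of the places of `ℚ(ζ_p)` are not `p`-th powers. -/
theorem absNorm_ne_pow_cyclotomic (v : HeightOneSpectrum (𝓞 K)) (n : ℕ) :
    Ideal.absNorm v.asIdeal ≠ n ^ p := by
  refine absNorm_ne_pow ?_ v n
  rw [IsCyclotomicExtension.finrank (n := p) K
      (Polynomial.cyclotomic.irreducible_rat hp.out.pos), Nat.totient_prime hp.out]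
  have := hp.out.pos
  omega

/-- **The reciprocity law of `ℚ(ζ_p)`** (Kummer, Takagi), `p` odd: let `a`, `b` be coprime and prime
to `p`, `a ≡ c ^ p mod (1 - ζ) ^ i` and `b ≡ d ^ p mod (1 - ζ) ^ j` with `i, j > 0` and
`i + j > p`. Then `(a / b) = (b / a)`. -/
theorem reciprocity_cyclotomic (hp2 : p ≠ 2) (hζ : IsPrimitiveRoot ζ p)
    {a b : 𝓞 K} (ha : a ≠ 0) (hb : b ≠ 0) (hab : IsCoprime a b) (hap : IsCoprime a (p : 𝓞 K))
    (hbp : IsCoprime b (p : 𝓞 K)) {i j : ℕ} (hi : i ≠ 0) (hj : j ≠ 0) (hij : p < i + j)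
    {c d : 𝓞 K} (hc : (1 - ζ) ^ i ∣ a - c ^ p) (hd : (1 - ζ) ^ j ∣ b - d ^ p) :
    resSym p ζ a (Ideal.span {b}) = resSym p ζ b (Ideal.span {a}) :=
  reciprocity_of_lt hp2 hζ (fun v _ n => absNorm_ne_pow_cyclotomic v n) ha hb hab hap hbp hi hj
    hij hc hd

/-- **Eisenstein's reciprocity law in `ℚ(ζ_p)`** (1850): `(a / n) = (n / a)` for `a` primary
(prime to `p` and congruent to a rational integer modulo `(1 - ζ) ^ 2`) and `n` a rational integer
prime to `p` and `a`. -/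
theorem eisenstein_cyclotomic (hp2 : p ≠ 2) (hζ : IsPrimitiveRoot ζ p)
    {a : 𝓞 K} (ha : a ≠ 0) (hap : IsCoprime a (p : 𝓞 K)) (hprim : ∃ m : ℤ, (1 - ζ) ^ 2 ∣ a - m)
    {n : ℤ} (hn : IsCoprime a (n : 𝓞 K)) (hnp : IsCoprime n (p : ℤ)) :
    resSym p ζ a (Ideal.span {(n : 𝓞 K)}) = resSym p ζ (n : 𝓞 K) (Ideal.span {a}) :=
  eisenstein_reciprocity hp2 hζ (fun v _ n => absNorm_ne_pow_cyclotomic v n) ha hap hprim hn hnp

end Cyclotomic

section Cubic

variable {K : Type} [Field K] [NumberField K] {ω : 𝓞 K}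

/-- **Cubic reciprocity** in `ℚ(ω)`: `(a / b)₃ = (b / a)₃` for coprime `a`, `b` congruent to `± 1`
modulo `3`. -/
theorem cubic_reciprocity (hK : Module.finrank ℚ K = 2) (hω : IsPrimitiveRoot ω 3) {a b : 𝓞 K}
    (hab : IsCoprime a b) (ha : 3 ∣ a - 1 ∨ 3 ∣ a + 1) (hb : 3 ∣ b - 1 ∨ 3 ∣ b + 1) :
    resSym 3 ω a (Ideal.span {b}) = resSym 3 ω b (Ideal.span {a}) := by
  have h3p := Fact.mk Nat.prime_three
  have key : ∀ {x : 𝓞 K}, (3 ∣ x - 1 ∨ 3 ∣ x + 1) → x ≠ 0 ∧ IsCoprime x ((3 : ℕ) : 𝓞 K) ∧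
      ∃ c : 𝓞 K, ((3 : ℕ) : 𝓞 K) ∣ x - c ^ 3 := by
    intro x h
    have e3 : ((3 : ℕ) : 𝓞 K) = 3 := by norm_num
    have hcop : IsCoprime x 3 := by
      rcases h with ⟨y, hy⟩ | ⟨y, hy⟩
      · exact ⟨1, -y, by linear_combination hy⟩
      · exact ⟨-1, y, by linear_combination -hy⟩
    refine ⟨?_, by rwa [e3], ?_⟩
    · rintro rfl
      rw [isCoprime_zero_left] at hcop
      have h1 : IsUnit ((3 : ℕ) : 𝓞 K) := by rwa [e3]
      have h2 := h1.map (Algebra.norm ℤ)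
      rw [show ((3 : ℕ) : 𝓞 K) = algebraMap ℤ (𝓞 K) 3 by simp, Algebra.norm_algebraMap,
        RingOfIntegers.rank, hK, Int.isUnit_iff] at h2
      omega
    · rw [e3]
      rcases h with h | h
      · exact ⟨1, by rwa [one_pow]⟩
      · refine ⟨-1, ?_⟩
        have e : x - (-1) ^ 3 = x + 1 := by ring
        rwa [e]
  obtain ⟨ha0, hap, hac⟩ := key ha
  obtain ⟨hb0, hbp, hbc⟩ := key hb
  exact reciprocity_mod_p (p := 3) (by norm_num) hω
    (fun v _ n => absNorm_ne_pow (by omega) v n) ha0 hb0 hab hap hbp hac hbc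

end Cubic

end Fermat.Agent.Cor.Recip
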