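import Fermat.Agent.Corollaries.Recip.Supp

/-!
# Furtwängler's theorem and Wieferich's criterion for `(x ^ p + y ^ p) / (x + y) = z ^ p`

Let `p` be an odd prime number, `x`, `y` coprime integers, `p ∤ x + y`, such that the ideal
`(x + ζ y)` of `ℤ[ζ]` is a `p`-th power, e.g. `x ^ p + y ^ p = z ^ p (x + y)`.

* `furtwaengler` (Furtwängler 1912): `r ^ (p - 1) ≡ 1 mod p ^ 2` for every `r` prime to `p` which
  divides `x` (if `p ∤ x`), `y` (if `p ∤ y`) or `x - y` (if `p ∤ x - y`);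
* `wieferich_of_eq`: if `p ∤ x y (x ^ 2 - y ^ 2)`, then `2 ^ (p - 1) ≡ 1 mod p ^ 2`.

Proof: Eisenstein's reciprocity law.
-/

set_option autoImplicit false
set_option linter.unusedSectionVars false

namespace Fermat.Agent.Cor.Recip

open Fermat.Agent.CFT.Global Fermat.Agent.CFT.Global2
open NumberField IsDedekindDomain Polynomial

section Furtw

variable {p : ℕ} [hp : Fact p.Prime] {K : Type} [Field K] [NumberField K] {ζ : 𝓞 K}

lemma isCoprime_natCast_of (hζ : IsPrimitiveRoot ζ p) {a : 𝓞 K} (h : IsCoprime a (1 - ζ)) :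
    IsCoprime a (p : 𝓞 K) := by
  have h1 : ∏ k ∈ Finset.range (p - 1), (1 - ζ ^ (k + 1)) = (p : 𝓞 K) := by
    obtain ⟨q, hq⟩ : ∃ q, p = q + 1 := ⟨p - 1, by have := hp.out.pos; omega⟩
    subst hq
    rw [Nat.add_sub_cancel]
    exact_mod_cast hζ.prod_one_sub_pow_eq_order
  rw [← h1]
  refine IsCoprime.prod_right fun k hk => ?_
  have hk1 := Finset.mem_range.1 hk
  have hmem1 : (1 : 𝓞 K) ∈ nthRootsFinset p (1 : 𝓞 K) :=
    (mem_nthRootsFinset hp.out.pos 1).2 (one_pow p)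
  have hmem2 : ζ ^ (k + 1) ∈ nthRootsFinset p (1 : 𝓞 K) :=
    (mem_nthRootsFinset hp.out.pos 1).2 (by rw [← pow_mul, mul_comm, pow_mul, hζ.pow_eq_one, one_pow])
  have hne : (1 : 𝓞 K) ≠ ζ ^ (k + 1) := fun h2 => by
    have h3 := (hζ.pow_eq_one_iff_dvd (k + 1)).1 h2.symm
    have h4 := Nat.le_of_dvd (Nat.succ_pos k) h3
    omega
  have h2 := hζ.nthRootsFinset_pairwise_associated_sub_one_sub_of_prime hp.out
    (Finset.mem_coe.2 hmem1) (Finset.mem_coe.2 hmem2) hne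
  have h3 : IsCoprime a (ζ - 1) := by
    have := h.neg_right
    rwa [neg_sub] at this
  exact h3.of_isCoprime_of_dvd_right h2.symm.dvd

lemma one_sub_dvd_natCast (hζ : IsPrimitiveRoot ζ p) : (1 - ζ) ∣ (p : 𝓞 K) := by
  refine (dvd_pow_self _ ?_).trans (one_sub_zeta_pow_dvd hζ)
  have := hp.out.two_le
  omega

lemma isCoprime_add_lam (hζ : IsPrimitiveRoot ζ p) {x y : ℤ} (hs : IsCoprime (x + y) (p : ℤ))
    {η : 𝓞 K} (hη : η ^ p = 1) : IsCoprime ((x : 𝓞 K) + η * y) (1 - ζ) := by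
  have h1 : IsCoprime ((x + y : ℤ) : 𝓞 K) ((p : ℤ) : 𝓞 K) := hs.map (Int.castRingHom (𝓞 K))
  rw [Int.cast_natCast] at h1
  have h2 := h1.of_isCoprime_of_dvd_right (one_sub_dvd_natCast hζ)
  obtain ⟨c, hc⟩ : (ζ - 1) ∣ (1 : 𝓞 K) - η := hζ.sub_one_dvd_sub hp.out
    ((mem_nthRootsFinset hp.out.pos 1).2 (one_pow p)) ((mem_nthRootsFinset hp.out.pos 1).2 hη)
  have e : (x : 𝓞 K) + η * y = ((x + y : ℤ) : 𝓞 K) + (1 - ζ) * (c * y) := by
    push_cast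
    linear_combination (-(y : 𝓞 K)) * hc
  rw [e]
  exact h2.add_mul_left_left _

/-- The symbol of a `p`-th power of an ideal. -/
lemma resSym_pow_ideal (hζ : IsPrimitiveRoot ζ p) {a : 𝓞 K} {b : 𝓞 K} (hb : b ≠ 0)
    (hab : IsCoprime a b) {J : Ideal (𝓞 K)} (hJ : Ideal.span {b} = J ^ p) :
    resSym p ζ a (Ideal.span {b}) = 1 := by
  have hJ0 : J ≠ ⊥ := by
    rintro rfl
    rw [← Ideal.zero_eq_bot, zero_pow hp.out.ne_zero, Ideal.zero_eq_bot,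
      Ideal.span_singleton_eq_bot] at hJ
    exact hb hJ
  have h1 : ∀ n : ℕ, resSym p ζ a (J ^ n) = resSym p ζ a J ^ n := by
    intro n
    induction n with
    | zero => rw [pow_zero, pow_zero, Ideal.one_eq_top, resSym_top]
    | succ n ih => rw [pow_succ, pow_succ, resSym_mul a (pow_ne_zero n hJ0) hJ0, ih]
  have hv : ∀ v : HeightOneSpectrum (𝓞 K), expo v J ≠ 0 → a ∉ v.asIdeal := by
    intro v hv h
    have hJv : J ≤ v.asIdeal := by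
      by_contra hcon
      exact hv ((expo_eq_zero_iff hJ0).2 hcon)
    have hbv : b ∈ v.asIdeal := by
      have h2 : Ideal.span {b} ≤ v.asIdeal := by
        rw [hJ]
        exact (Ideal.pow_le_self hp.out.ne_zero).trans hJv
      exact h2 (Ideal.mem_span_singleton_self b)
    obtain ⟨s, t, hst⟩ := hab
    apply v.isPrime.ne_top
    rw [Ideal.eq_top_iff_one, ← hst]
    exact Ideal.add_mem _ (Ideal.mul_mem_left _ _ h) (Ideal.mul_mem_left _ _ hbv)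
  obtain ⟨U, hU⟩ : ∃ U : Finset (HeightOneSpectrum (𝓞 K)), ∀ v, expo v J ≠ 0 → v ∈ U :=
    ⟨(finite_expo_ne_zero _).toFinset, fun v hv => by
      rw [Set.Finite.mem_toFinset]
      exact hv⟩
  rw [hJ, h1, resSym_eq_zhom hζ hv U hU, ← map_pow, ← ofAdd_nsmul, nsmul_eq_mul,
    CharP.cast_eq_zero, zero_mul, ofAdd_zero, map_one]

omit hp in
lemma absNorm_int (r : ℤ) :
    Ideal.absNorm (Ideal.span {(r : 𝓞 K)}) = r.natAbs ^ Module.finrank ℚ K := by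
  have h1 : (r : 𝓞 K) = algebraMap ℤ (𝓞 K) r := by simp
  rw [h1, Ideal.absNorm_span_singleton, Algebra.norm_algebraMap, Int.natAbs_pow,
    RingOfIntegers.rank]

lemma exists_zeta_pow (u : ℕ) : ∃ c : 𝓞 K, ζ ^ u = 1 - u * (1 - ζ) + (1 - ζ) ^ 2 * c := by
  induction u with
  | zero => exact ⟨0, by simp⟩
  | succ u ih =>
    obtain ⟨c, hc⟩ := ih
    refine ⟨c + u - (1 - ζ) * c, ?_⟩
    rw [pow_succ, hc]
    push_cast
    ring

lemma resSym_zeta_pow (hζ : IsPrimitiveRoot ζ p) {I : Ideal (𝓞 K)} (hI : I ≠ ⊥)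
    (hIp : I ⊔ Ideal.span {(p : 𝓞 K)} = ⊤) (u : ℕ) :
    resSym p ζ (ζ ^ u) I = resSym p ζ ζ I ^ u := by
  induction u with
  | zero =>
    rw [pow_zero, pow_zero]
    refine finprod_eq_one_of_forall_eq_one fun v => ?_
    have h1 : (1 : 𝓞 K) ∉ v.asIdeal := fun h => v.isPrime.ne_top ((Ideal.eq_top_iff_one _).2 h)
    by_cases hv : (p : 𝓞 K) ∈ v.asIdeal
    · have h2 : expo v I = 0 := by
        rw [expo_eq_zero_iff hI]
        intro h3
        apply v.isPrime.ne_top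
        rw [← top_le_iff, ← hIp]
        exact sup_le h3 ((Ideal.span_singleton_le_iff_mem _).2 hv)
      rw [h2, pow_zero]
    · rw [(resAt_eq_one_iff hζ hv h1).2 ⟨1, by rw [one_pow, sub_self]; exact zero_mem _⟩, one_pow]
  | succ u ih => rw [pow_succ, resSym_mul_left hζ _ _ hI hIp, ih, pow_succ]

variable [IsCyclotomicExtension {p} ℚ K]

/-- Eisenstein's reciprocity law for `ζ ^ u (x + ζ y)`. -/
theorem furtw_key (hp2 : p ≠ 2) (hζ : IsPrimitiveRoot ζ p) {x y r : ℤ}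
    (hs : IsCoprime (x + y) (p : ℤ)) {J : Ideal (𝓞 K)}
    (hJ : Ideal.span {(x : 𝓞 K) + ζ * y} = J ^ p) (hr0 : r ≠ 0) (hrp : IsCoprime r (p : ℤ))
    (hr : IsCoprime ((x : 𝓞 K) + ζ * y) (r : 𝓞 K)) {u : ℕ} (hu : (p : ℤ) ∣ u * (x + y) + y) :
    resSym p ζ ζ (Ideal.span {(r : 𝓞 K)}) ^ u *
      resSym p ζ ((x : 𝓞 K) + ζ * y) (Ideal.span {(r : 𝓞 K)}) = 1 := by
  set β : 𝓞 K := (x : 𝓞 K) + ζ * y with hβ
  have hζu : IsUnit (ζ ^ u) := (hζ.isUnit hp.out.ne_zero).pow u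
  set α : 𝓞 K := ζ ^ u * β with hα
  have hβl := isCoprime_add_lam hζ hs (η := ζ) hζ.pow_eq_one
  have hβp : IsCoprime β (p : 𝓞 K) := isCoprime_natCast_of hζ hβl
  have hβ0 : β ≠ 0 := by
    intro h
    rw [h, isCoprime_zero_left] at hβp
    have h1 := absNorm_int (K := K) (p : ℤ)
    rw [Int.cast_natCast, Ideal.span_singleton_eq_top.2 hβp, Ideal.absNorm_top,
      Int.natAbs_natCast] at h1
    exact (Nat.one_lt_pow Module.finrank_pos.ne' hp.out.one_lt).ne h1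
  have hα0 : α ≠ 0 := mul_ne_zero hζu.ne_zero hβ0
  have hspan : Ideal.span {α} = Ideal.span {β} := by
    rw [hα]
    exact Ideal.span_singleton_mul_left_unit hζu β
  have hαp : IsCoprime α (p : 𝓞 K) := (isCoprime_mul_unit_left_left hζu _ _).2 hβp
  have hαr : IsCoprime α (r : 𝓞 K) := (isCoprime_mul_unit_left_left hζu _ _).2 hr
  have hprim : ∃ m : ℤ, (1 - ζ) ^ 2 ∣ α - m := by
    obtain ⟨c, hc⟩ := exists_zeta_pow (ζ := ζ) u
    obtain ⟨t, ht⟩ := hu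
    obtain ⟨e, he⟩ := one_sub_dvd_natCast hζ
    have ht' := congrArg (Int.cast : ℤ → 𝓞 K) ht
    push_cast at ht'
    refine ⟨x + y, -e * t + u * y + c * ((x : 𝓞 K) + ζ * y), ?_⟩
    rw [hα, hc, hβ]
    push_cast
    linear_combination (-(1 - ζ)) * ht' - (1 - ζ) * t * he
  have hI : Ideal.span {(r : 𝓞 K)} ≠ ⊥ := by
    rw [Ne, Ideal.span_singleton_eq_bot]
    exact_mod_cast hr0
  have hrpK : IsCoprime (r : 𝓞 K) (p : 𝓞 K) := by
    have h := hrp.map (Int.castRingHom (𝓞 K))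
    simpa using h
  have hIp : Ideal.span {(r : 𝓞 K)} ⊔ Ideal.span {(p : 𝓞 K)} = ⊤ := by
    rw [← Ideal.isCoprime_iff_sup_eq, Ideal.isCoprime_span_singleton_iff]
    exact hrpK
  have h1 := eisenstein_cyclotomic hp2 hζ hα0 hαp hprim hαr hrp
  have h2 : resSym p ζ (r : 𝓞 K) (Ideal.span {α}) = 1 :=
    resSym_pow_ideal hζ hα0 hαr.symm (hspan.trans hJ)
  rw [h2, hα, resSym_mul_left hζ _ _ hI hIp, resSym_zeta_pow hζ hI hIp] at h1
  exact h1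

/-- `(ζ / r) = 1` if and only if `r ^ (p - 1) ≡ 1 mod p ^ 2`. -/
theorem resSym_zeta_int_iff (hp2 : p ≠ 2) (hζ : IsPrimitiveRoot ζ p) {r : ℤ} (hr0 : r ≠ 0)
    (hrp : IsCoprime r (p : ℤ)) :
    resSym p ζ ζ (Ideal.span {(r : 𝓞 K)}) = 1 ↔ (p : ℤ) ^ 2 ∣ r ^ (p - 1) - 1 := by
  have hI : Ideal.span {(r : 𝓞 K)} ≠ ⊥ := by
    rw [Ne, Ideal.span_singleton_eq_bot]
    exact_mod_cast hr0
  have hrpK : IsCoprime (r : 𝓞 K) (p : 𝓞 K) := by
    have h := hrp.map (Int.castRingHom (𝓞 K))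
    simpa using h
  have hIp : Ideal.span {(r : 𝓞 K)} ⊔ Ideal.span {(p : 𝓞 K)} = ⊤ := by
    rw [← Ideal.isCoprime_iff_sup_eq, Ideal.isCoprime_span_singleton_iff]
    exact hrpK
  obtain ⟨⟨m, hm⟩, h2⟩ := resSym_zeta hζ hI hIp
  have hN := absNorm_int (K := K) r
  rw [IsCyclotomicExtension.finrank (n := p) K (cyclotomic.irreducible_rat hp.out.pos),
    Nat.totient_prime hp.out] at hN
  have hNpos : 1 ≤ Ideal.absNorm (Ideal.span {(r : 𝓞 K)}) := by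
    rw [hN]
    exact Nat.one_le_iff_ne_zero.2 (pow_ne_zero _ (Int.natAbs_ne_zero.2 hr0))
  have heven : Even (p - 1) := hp.out.even_sub_one hp2
  have hNZ : (Ideal.absNorm (Ideal.span {(r : 𝓞 K)}) : ℤ) = r ^ (p - 1) := by
    rw [hN, Nat.cast_pow, Int.natCast_natAbs, heven.pow_abs]
  rw [h2, hζ.pow_eq_one_iff_dvd, hm, Nat.mul_div_cancel_left _ hp.out.pos]
  have h3 : r ^ (p - 1) - 1 = (p : ℤ) * m := by
    rw [← hNZ]
    have h4 : (Ideal.absNorm (Ideal.span {(r : 𝓞 K)}) : ℤ) - 1 =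
        ((Ideal.absNorm (Ideal.span {(r : 𝓞 K)}) - 1 : ℕ) : ℤ) := by
      rw [Nat.cast_sub hNpos, Nat.cast_one]
    rw [h4, hm, Nat.cast_mul]
  rw [h3, pow_two]
  have hp0 : (p : ℤ) ≠ 0 := by exact_mod_cast hp.out.ne_zero
  rw [mul_dvd_mul_iff_left hp0, Int.natCast_dvd_natCast]

/-- the complex conjugation -/
lemma exists_conj (hζ : IsPrimitiveRoot ζ p) : ∃ σ : K ≃ₐ[ℚ] K, so σ ζ * ζ = 1 := by
  have h := IsCyclotomicExtension.zeta_spec p ℚ K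
  let σ := IsCyclotomicExtension.fromZetaAut (K := ℚ) h.inv
    (cyclotomic.irreducible_rat hp.out.pos)
  have hσ : σ (IsCyclotomicExtension.zeta p ℚ K) = (IsCyclotomicExtension.zeta p ℚ K)⁻¹ :=
    IsCyclotomicExtension.fromZetaAut_spec _ _
  have hζK : ((ζ : 𝓞 K) : K) ^ p = 1 := by
    have h1 := congrArg (algebraMap (𝓞 K) K) hζ.pow_eq_one
    simpa using h1
  obtain ⟨i, -, hi⟩ := h.eq_pow_of_pow_eq_one hζK
  have h0 : IsCyclotomicExtension.zeta p ℚ K ≠ 0 := h.ne_zero hp.out.ne_zero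
  have h2 : ((so σ ζ : 𝓞 K) : K) * (ζ : K) = 1 := by
    rw [so_coe, ← hi, map_pow, hσ, ← mul_pow, inv_mul_cancel₀ h0, one_pow]
  refine ⟨σ, RingOfIntegers.coe_injective ?_⟩
  rw [map_mul, map_one]
  exact h2

/-- `((1 + ζ) / r)² = (ζ / r)`. -/
theorem resSym_one_add_sq (hp2 : p ≠ 2) (hζ : IsPrimitiveRoot ζ p) {r : ℤ} (hr0 : r ≠ 0)
    (hrp : IsCoprime r (p : ℤ)) :
    resSym p ζ (1 + ζ) (Ideal.span {(r : 𝓞 K)}) ^ 2 =
      resSym p ζ ζ (Ideal.span {(r : 𝓞 K)}) := by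
  have hI : Ideal.span {(r : 𝓞 K)} ≠ ⊥ := by
    rw [Ne, Ideal.span_singleton_eq_bot]
    exact_mod_cast hr0
  have hr0K : (r : 𝓞 K) ≠ 0 := by exact_mod_cast hr0
  have hrpK : IsCoprime (r : 𝓞 K) (p : 𝓞 K) := by
    have h := hrp.map (Int.castRingHom (𝓞 K))
    simpa using h
  have hIp : Ideal.span {(r : 𝓞 K)} ⊔ Ideal.span {(p : 𝓞 K)} = ⊤ := by
    rw [← Ideal.isCoprime_iff_sup_eq, Ideal.isCoprime_span_singleton_iff]
    exact hrpK
  obtain ⟨ξ, hξ⟩ : ∃ ξ : 𝓞 K, ξ * ζ = 1 := ⟨ζ ^ (p - 1), by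
    rw [← pow_succ, Nat.sub_add_cancel hp.out.one_le, hζ.pow_eq_one]⟩
  obtain ⟨σ, hσ⟩ := exists_conj hζ
  have hζ0 : ζ ≠ 0 := hζ.ne_zero hp.out.ne_zero
  have hσζ : so σ ζ = ξ := mul_right_cancel₀ hζ0 (hσ.trans hξ.symm)
  have hσξ : so σ ξ = ζ := by
    have h1 := congrArg (so σ) hξ
    rw [map_mul, map_one, hσζ, mul_comm] at h1
    have hξ0 : ξ ≠ 0 := left_ne_zero_of_mul (hξ.trans_ne one_ne_zero)
    refine mul_left_cancel₀ hξ0 ?_
    rw [h1, hξ]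
  set ε : 𝓞 K := ζ + 2 + ξ with hε
  have hσε : so σ ε = ε := by
    rw [hε, map_add, map_add, hσζ, hσξ, map_ofNat]
    ring
  have hunit : IsUnit (1 + ζ) := by
    have h1 := hζ.geom_sum_isUnit (j := 2) hp.out.two_le
      ((Nat.coprime_primes Nat.prime_two hp.out).2 hp2.symm)
    simpa [Finset.sum_range_succ] using h1
  have hsq : (1 + ζ) * (1 + ζ) = ζ * ε := by
    rw [hε]
    linear_combination (-1 : 𝓞 K) * hξ
  have hεu : IsUnit ε := by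
    have h1 : IsUnit (ζ * ε) := by
      rw [← hsq]
      exact hunit.mul hunit
    exact isUnit_of_mul_isUnit_right h1
  have hεr : IsCoprime ε (r : 𝓞 K) := by
    obtain ⟨e, he⟩ := hεu.exists_left_inv
    exact ⟨e, 0, by rw [he]; ring⟩
  obtain ⟨j, hj⟩ := exists_resSym_eq hζ (a := ε) hr0K hεr
  have h1 := resSym_conj hζ σ ε hr0K hrpK
  rw [hσε, map_intCast, hj, zhom_ofAdd, map_pow, hσζ] at h1
  have h2 : ζ ^ (2 * j.val) = 1 := by
    have h3 : ζ ^ j.val * ζ ^ j.val = 1 := by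
      nth_rewrite 1 [h1]
      rw [← mul_pow, hξ, one_pow]
    rw [two_mul, pow_add, h3]
  have h3 : p ∣ j.val := by
    have h4 := (hζ.pow_eq_one_iff_dvd _).1 h2
    exact ((Nat.coprime_primes hp.out Nat.prime_two).2 hp2).dvd_of_dvd_mul_left h4
  have h4 : resSym p ζ ε (Ideal.span {(r : 𝓞 K)}) = 1 := by
    rw [hj, zhom_ofAdd, (hζ.pow_eq_one_iff_dvd _).2 h3]
  rw [pow_two, ← resSym_mul_left hζ _ _ hI hIp, hsq, resSym_mul_left hζ _ _ hI hIp, h4, mul_one]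

/-- **Furtwängler's theorem** (1912). Let `x`, `y` be coprime integers, `p ∤ x + y`, such that the
ideal `(x + ζ y)` is a `p`-th power. Then `r ^ (p - 1) ≡ 1 mod p ^ 2` for all integers `r ≠ 0` prime
to `p` with `r ∣ x`, `p ∤ x` or `r ∣ y`, `p ∤ y` or `r ∣ x - y`, `p ∤ x - y`. -/
theorem furtwaengler (hp2 : p ≠ 2) (hζ : IsPrimitiveRoot ζ p) {x y r : ℤ} (hxy : IsCoprime x y)
    (hs : IsCoprime (x + y) (p : ℤ)) {J : Ideal (𝓞 K)}
    (hJ : Ideal.span {(x : 𝓞 K) + ζ * y} = J ^ p) (hr0 : r ≠ 0) (hrp : IsCoprime r (p : ℤ))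
    (h : r ∣ x ∧ ¬ (p : ℤ) ∣ x ∨ r ∣ y ∧ ¬ (p : ℤ) ∣ y ∨ r ∣ x - y ∧ ¬ (p : ℤ) ∣ x - y) :
    (p : ℤ) ^ 2 ∣ r ^ (p - 1) - 1 := by
  have hgal : IsGalois ℚ K := IsCyclotomicExtension.isGalois {p} ℚ K
  have hI : Ideal.span {(r : 𝓞 K)} ≠ ⊥ := by
    rw [Ne, Ideal.span_singleton_eq_bot]
    exact_mod_cast hr0
  have hrpK : IsCoprime (r : 𝓞 K) (p : 𝓞 K) := by
    have h := hrp.map (Int.castRingHom (𝓞 K))
    simpa using h
  have hIp : Ideal.span {(r : 𝓞 K)} ⊔ Ideal.span {(p : 𝓞 K)} = ⊤ := by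
    rw [← Ideal.isCoprime_iff_sup_eq, Ideal.isCoprime_span_singleton_iff]
    exact hrpK
  rw [← resSym_zeta_int_iff hp2 hζ hr0 hrp]
  set s := resSym p ζ ζ (Ideal.span {(r : 𝓞 K)}) with hsdef
  have hsp : s ^ p = 1 := by
    rw [hsdef, (resSym_zeta hζ hI hIp).2, ← pow_mul, mul_comm, pow_mul, hζ.pow_eq_one, one_pow]
  have hfin : ∀ m : ℕ, s ^ m = 1 → ¬ p ∣ m → s = 1 := by
    intro m hm hpm
    have h1 := pow_gcd_eq_one.2 ⟨hm, hsp⟩
    rwa [((Nat.Prime.coprime_iff_not_dvd hp.out).2 hpm).symm.gcd_eq_one, pow_one] at h1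
  -- the exponent
  obtain ⟨u, hu⟩ : ∃ u : ℕ, (p : ℤ) ∣ u * (x + y) + y := by
    obtain ⟨a, b, hab⟩ := hs
    have hp0 : (p : ℤ) ≠ 0 := by exact_mod_cast hp.out.ne_zero
    refine ⟨((-a * y) % p).toNat, ?_⟩
    rw [Int.toNat_of_nonneg (Int.emod_nonneg _ hp0)]
    refine ⟨b * y - (-a * y) / p * (x + y), ?_⟩
    have h1 := Int.emod_add_mul_ediv (-a * y) p
    linear_combination (x + y) * h1 - y * hab
  have hint : ∀ c : ℤ, IsCoprime c r → resSym p ζ (c : 𝓞 K) (Ideal.span {(r : 𝓞 K)}) = 1 :=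
    fun c hc => resSym_int hp2 hζ hr0 hc hrp
  rcases h with ⟨⟨k, hk⟩, hpx⟩ | ⟨⟨k, hk⟩, hpy⟩ | ⟨⟨k, hk⟩, hpxy⟩
  · -- `r ∣ x`
    have hyr : IsCoprime y r := by
      obtain ⟨a, b, hab⟩ := hxy
      exact ⟨b, a * k, by rw [← hab, hk]; ring⟩
    have hyr' : IsCoprime (y : 𝓞 K) (r : 𝓞 K) := hyr.map (Int.castRingHom (𝓞 K))
    have hkK := congrArg (Int.cast : ℤ → 𝓞 K) hk
    push_cast at hkK
    have e : (x : 𝓞 K) + ζ * y = ζ * y + r * k := by rw [hkK]; ring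
    have hβr : IsCoprime ((x : 𝓞 K) + ζ * y) (r : 𝓞 K) := by
      rw [e]
      exact ((isCoprime_mul_unit_left_left (hζ.isUnit hp.out.ne_zero) _ _).2 hyr').add_mul_left_left _
    have h1 := furtw_key hp2 hζ hs hJ hr0 hrp hβr hu
    rw [resSym_congr hζ hI hIp (a := (x : 𝓞 K) + ζ * y) (b := ζ * y) (Ideal.mem_span_singleton.2 ⟨k, by rw [e]; ring⟩),
      resSym_mul_left hζ _ _ hI hIp, hint y hyr, mul_one, ← pow_succ] at h1
    refine hfin _ h1 fun h2 => hpx ?_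
    have h3 : (p : ℤ) ∣ ((u + 1 : ℕ) : ℤ) := by exact_mod_cast h2
    have h4 : x = ((u + 1 : ℕ) : ℤ) * (x + y) - (u * (x + y) + y) := by push_cast; ring
    rw [h4]
    exact dvd_sub (h3.mul_right _) hu
  · -- `r ∣ y`
    have hxr : IsCoprime x r := by
      obtain ⟨a, b, hab⟩ := hxy
      exact ⟨a, b * k, by rw [← hab, hk]; ring⟩
    have hxr' : IsCoprime (x : 𝓞 K) (r : 𝓞 K) := hxr.map (Int.castRingHom (𝓞 K))
    have hkK := congrArg (Int.cast : ℤ → 𝓞 K) hk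
    push_cast at hkK
    have e : (x : 𝓞 K) + ζ * y = x + r * (ζ * k) := by rw [hkK]; ring
    have hβr : IsCoprime ((x : 𝓞 K) + ζ * y) (r : 𝓞 K) := by
      rw [e]
      exact hxr'.add_mul_left_left _
    have h1 := furtw_key hp2 hζ hs hJ hr0 hrp hβr hu
    rw [resSym_congr hζ hI hIp (a := (x : 𝓞 K) + ζ * y) (b := x) (Ideal.mem_span_singleton.2 ⟨ζ * k, by rw [e]; ring⟩),
      hint x hxr, mul_one] at h1
    refine hfin _ h1 fun h2 => hpy ?_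
    have h3 : (p : ℤ) ∣ (u : ℤ) := by exact_mod_cast h2
    exact (dvd_add_right (h3.mul_right _)).1 hu
  · -- `r ∣ x - y`
    have hyr : IsCoprime y r := by
      obtain ⟨a, b, hab⟩ := hxy
      exact ⟨a + b, a * k, by linear_combination hab - a * hk⟩
    have hyr' : IsCoprime (y : 𝓞 K) (r : 𝓞 K) := hyr.map (Int.castRingHom (𝓞 K))
    have hkK := congrArg (Int.cast : ℤ → 𝓞 K) hk
    push_cast at hkK
    have hunit : IsUnit (1 + ζ) := by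
      have h1 := hζ.geom_sum_isUnit (j := 2) hp.out.two_le
        ((Nat.coprime_primes Nat.prime_two hp.out).2 hp2.symm)
      simpa [Finset.sum_range_succ] using h1
    have e : (x : 𝓞 K) + ζ * y = (1 + ζ) * y + r * k := by linear_combination hkK
    have hβr : IsCoprime ((x : 𝓞 K) + ζ * y) (r : 𝓞 K) := by
      rw [e]
      exact ((isCoprime_mul_unit_left_left hunit _ _).2 hyr').add_mul_left_left _
    have h1 := furtw_key hp2 hζ hs hJ hr0 hrp hβr hu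
    rw [resSym_congr hζ hI hIp (a := (x : 𝓞 K) + ζ * y) (b := (1 + ζ) * y) (Ideal.mem_span_singleton.2 ⟨k, by rw [e]; ring⟩),
      resSym_mul_left hζ _ _ hI hIp, hint y hyr, mul_one] at h1
    have h5 := resSym_one_add_sq hp2 hζ hr0 hrp
    have h6 : s ^ (2 * u + 1) = 1 := by
      have h7 : (s ^ u * resSym p ζ (1 + ζ) (Ideal.span {(r : 𝓞 K)})) ^ 2 = 1 := by
        rw [h1, one_pow]
      rw [mul_pow, h5, ← pow_mul, ← hsdef, ← pow_succ] at h7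
      rw [← h7]
      ring
    refine hfin _ h6 fun h2 => hpxy ?_
    have h3 : (p : ℤ) ∣ ((2 * u + 1 : ℕ) : ℤ) := by exact_mod_cast h2
    have h4 : x - y = ((2 * u + 1 : ℕ) : ℤ) * (x + y) - 2 * (u * (x + y) + y) := by
      push_cast
      ring
    rw [h4]
    exact dvd_sub (h3.mul_right _) (hu.mul_left _)

/-- If `x ^ p + y ^ p = z ^ p (x + y)`, `x`, `y` coprime and `p ∤ x + y`, then the ideal `(x + ζ y)`
is a `p`-th power. -/
theorem exists_ideal_pow (hp2 : p ≠ 2) (hζ : IsPrimitiveRoot ζ p) {x y z : ℤ}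
    (hxy : IsCoprime x y) (hs : IsCoprime (x + y) (p : ℤ))
    (h : x ^ p + y ^ p = z ^ p * (x + y)) :
    ∃ J : Ideal (𝓞 K), Ideal.span {(x : 𝓞 K) + ζ * y} = J ^ p := by
  classical
  have hodd : Odd p := hp.out.odd_of_ne_two hp2
  have hprod : ∏ η ∈ nthRootsFinset p (1 : 𝓞 K), ((x : 𝓞 K) + η * y) =
      (z : 𝓞 K) ^ p * ((x : 𝓞 K) + y) := by
    rw [← hζ.pow_add_pow_eq_prod_add_mul _ _ hodd]
    have h1 := congrArg (Int.cast : ℤ → 𝓞 K) h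
    push_cast at h1
    exact h1
  have h1mem : (1 : 𝓞 K) ∈ nthRootsFinset p (1 : 𝓞 K) :=
    (mem_nthRootsFinset hp.out.pos 1).2 (one_pow p)
  have hne : ((x : 𝓞 K) + y) ≠ 0 := by
    have h2 : x + y ≠ 0 := by
      intro h2
      rw [h2, isCoprime_zero_left, Int.isUnit_iff] at hs
      have := hp.out.two_le
      omega
    exact_mod_cast h2
  rw [← Finset.mul_prod_erase _ _ h1mem, one_mul, mul_comm ((z : 𝓞 K) ^ p)] at hprod
  have hprod' := mul_left_cancel₀ hne hprod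
  have hI : ∏ η ∈ (nthRootsFinset p (1 : 𝓞 K)).erase 1, Ideal.span {(x : 𝓞 K) + η * y} =
      (Ideal.span {(z : 𝓞 K)}) ^ p := by
    rw [Ideal.prod_span_singleton, hprod', Ideal.span_singleton_pow]
  have hζmem : ζ ∈ (nthRootsFinset p (1 : 𝓞 K)).erase 1 :=
    Finset.mem_erase.2 ⟨hζ.ne_one hp.out.one_lt, (mem_nthRootsFinset hp.out.pos 1).2 hζ.pow_eq_one⟩
  refine Finset.exists_eq_pow_of_mul_eq_pow_of_coprime (fun η₁ h₁ η₂ h₂ hne => ?_) hI ζ hζmem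
  have h₁' := Finset.mem_of_mem_erase h₁
  have h₂' := Finset.mem_of_mem_erase h₂
  rw [Ideal.isCoprime_span_singleton_iff]
  have c1 : IsCoprime ((x : 𝓞 K) + η₁ * y) (η₂ - η₁) := by
    have h3 := isCoprime_add_lam hζ hs ((mem_nthRootsFinset hp.out.pos 1).1 h₁')
    have h4 := hζ.nthRootsFinset_pairwise_associated_sub_one_sub_of_prime hp.out
      (Finset.mem_coe.2 h₂') (Finset.mem_coe.2 h₁') hne.symm
    have h5 : IsCoprime ((x : 𝓞 K) + η₁ * y) (ζ - 1) := by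
      have := h3.neg_right
      rwa [neg_sub] at this
    exact h5.of_isCoprime_of_dvd_right h4.symm.dvd
  have c2 : IsCoprime ((x : 𝓞 K) + η₁ * y) (y : 𝓞 K) := by
    have h3 : IsCoprime (x : 𝓞 K) (y : 𝓞 K) := hxy.map (Int.castRingHom (𝓞 K))
    exact h3.add_mul_right_left _
  have e : (x : 𝓞 K) + η₂ * y = (η₂ - η₁) * y + ((x : 𝓞 K) + η₁ * y) * 1 := by ring
  rw [e]
  exact (c1.mul_right c2).add_mul_left_right 1

end Furtw

section Main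

variable {p : ℕ} {x y z : ℤ}

/-- **Furtwängler's theorem** (1912) for the equation `(x ^ p + y ^ p) / (x + y) = z ^ p`: `x`, `y`
coprime, `p` odd, `p ∤ x + y`. Then `r ^ (p - 1) ≡ 1 mod p ^ 2` for every divisor `r` of `x` if
`p ∤ x`, of `y` if `p ∤ y`, of `x - y` if `p ∤ x - y`. -/
theorem furtwaengler_of_eq (hp : p.Prime) (hp2 : p ≠ 2) (hxy : IsCoprime x y)
    (hs : ¬ (p : ℤ) ∣ x + y) (h : x ^ p + y ^ p = z ^ p * (x + y)) {r : ℤ}
    (hr : r ∣ x ∧ ¬ (p : ℤ) ∣ x ∨ r ∣ y ∧ ¬ (p : ℤ) ∣ y ∨ r ∣ x - y ∧ ¬ (p : ℤ) ∣ x - y) :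
    (p : ℤ) ^ 2 ∣ r ^ (p - 1) - 1 := by
  have : Fact p.Prime := ⟨hp⟩
  have : NeZero ((p : ℕ) : ℚ) := ⟨by exact_mod_cast hp.ne_zero⟩
  have hcyc : IsCyclotomicExtension {p} ℚ (CyclotomicField p ℚ) :=
    CyclotomicField.isCyclotomicExtension p ℚ
  have hζ := (IsCyclotomicExtension.zeta_spec p ℚ (CyclotomicField p ℚ)).toInteger_isPrimitiveRoot
  have hpZ := Nat.prime_iff_prime_int.1 hp
  have hs' : IsCoprime (x + y) (p : ℤ) := (hpZ.coprime_iff_not_dvd.2 hs).symm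
  obtain ⟨J, hJ⟩ := exists_ideal_pow hp2 hζ hxy hs' h
  have hpr : ¬ (p : ℤ) ∣ r := fun h1 => by
    rcases hr with ⟨h2, h3⟩ | ⟨h2, h3⟩ | ⟨h2, h3⟩ <;> exact h3 (h1.trans h2)
  have hr0 : r ≠ 0 := by
    rintro rfl
    exact hpr (dvd_zero _)
  exact furtwaengler hp2 hζ hxy hs' hJ hr0 (hpZ.coprime_iff_not_dvd.2 hpr).symm hr

/-- **Wieferich's criterion** for the equation `(x ^ p + y ^ p) / (x + y) = z ^ p`: if `x`, `y` are
coprime and `p ∤ x y (x ^ 2 - y ^ 2)`, then `2 ^ (p - 1) ≡ 1 mod p ^ 2`. -/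
theorem wieferich_of_eq (hp : p.Prime) (hp2 : p ≠ 2) (hxy : IsCoprime x y)
    (hpxy : ¬ (p : ℤ) ∣ x * y * (x ^ 2 - y ^ 2)) (h : x ^ p + y ^ p = z ^ p * (x + y)) :
    (p : ℤ) ^ 2 ∣ 2 ^ (p - 1) - 1 := by
  have h1 : ¬ (p : ℤ) ∣ x := fun h1 => hpxy (by
    rw [mul_assoc]; exact h1.mul_right _)
  have h2 : ¬ (p : ℤ) ∣ y := fun h1 => hpxy ((h1.mul_left x).mul_right _)
  have h3 : ¬ (p : ℤ) ∣ x - y := fun h1 => hpxy (by
    rw [sq_sub_sq]; exact (h1.mul_left _).mul_left _)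
  have h4 : ¬ (p : ℤ) ∣ x + y := fun h1 => hpxy (by
    rw [sq_sub_sq]; exact (h1.mul_right _).mul_left _)
  refine furtwaengler_of_eq hp hp2 hxy h4 h (r := 2) ?_
  rcases (by omega : (2 : ℤ) ∣ x ∨ (2 : ℤ) ∣ y ∨ (2 : ℤ) ∣ x - y) with h5 | h5 | h5
  · exact Or.inl ⟨h5, h1⟩
  · exact Or.inr (Or.inl ⟨h5, h2⟩)
  · exact Or.inr (Or.inr ⟨h5, h3⟩)

/-- **Mirimanoff's criterion** for the same equation: `3 ^ (p - 1) ≡ 1 mod p ^ 2` or `3 ∣ x + y`. -/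
theorem mirimanoff_of_eq (hp : p.Prime) (hp2 : p ≠ 2) (hxy : IsCoprime x y)
    (hpxy : ¬ (p : ℤ) ∣ x * y * (x ^ 2 - y ^ 2)) (h : x ^ p + y ^ p = z ^ p * (x + y)) :
    (p : ℤ) ^ 2 ∣ 3 ^ (p - 1) - 1 ∨ 3 ∣ x + y := by
  have h1 : ¬ (p : ℤ) ∣ x := fun h1 => hpxy (by
    rw [mul_assoc]; exact h1.mul_right _)
  have h2 : ¬ (p : ℤ) ∣ y := fun h1 => hpxy ((h1.mul_left x).mul_right _)
  have h3 : ¬ (p : ℤ) ∣ x - y := fun h1 => hpxy (by
    rw [sq_sub_sq]; exact (h1.mul_left _).mul_left _)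
  have h4 : ¬ (p : ℤ) ∣ x + y := fun h1 => hpxy (by
    rw [sq_sub_sq]; exact (h1.mul_right _).mul_left _)
  have h3d : (3 : ℤ) ∣ x ∨ (3 : ℤ) ∣ y ∨ (3 : ℤ) ∣ x - y ∨ (3 : ℤ) ∣ x + y := by
    rcases (by omega : x % 3 = 0 ∨ x % 3 = 1 ∨ x % 3 = 2) with hx | hx | hx <;>
      rcases (by omega : y % 3 = 0 ∨ y % 3 = 1 ∨ y % 3 = 2) with hy | hy | hy <;> omega
  rcases h3d with h5 | h5 | h5 | h5
  · exact Or.inl (furtwaengler_of_eq hp hp2 hxy h4 h (Or.inl ⟨h5, h1⟩))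
  · exact Or.inl (furtwaengler_of_eq hp hp2 hxy h4 h (Or.inr (Or.inl ⟨h5, h2⟩)))
  · exact Or.inl (furtwaengler_of_eq hp hp2 hxy h4 h (Or.inr (Or.inr ⟨h5, h3⟩)))
  · exact Or.inr h5

end Main

end Fermat.Agent.Cor.Recip
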