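import Mathlib

/-!
# The p-th power of a Gauss sum as a reciprocity element

`p`, `ℓ` primes, `K` a number field, `χ` a character of order `p` of `(ℤ/ℓ)ˣ` with values in `𝓞 K`.

* `gaussPow χ p = χ(-1) ℓ ∏_{0 < j < p - 1} J(χ, χʲ)`: the `p`-th power of the Gauss sum of `χ`, an
  element of `𝓞 K`;
* `exists_gauss`: it is a unit outside `ℓ`, and `gaussPow ^ e · χ(N v) ≡ 1` modulo `v` for every
  prime `v` of `K` not above `ℓ` with `N v = p e + 1` (the `N v`-th power of the Gauss sum is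
  `χ(N v)⁻¹` times the Gauss sum, modulo `v`).
-/

set_option autoImplicit false

namespace Fermat.Agent.Cor.Recip

open NumberField IsDedekindDomain Finset

section Finite

variable {ℓ : ℕ} [Fact ℓ.Prime]

/-- `χ(-1) ℓ ∏_{0 < j < p - 1} J(χ, χʲ)`. -/
noncomputable def gaussPow {R : Type*} [CommRing R] (χ : MulChar (ZMod ℓ) R) (p : ℕ) : R :=
  χ (-1) * (ℓ : R) * ∏ j ∈ Ico 1 (p - 1), jacobiSum χ (χ ^ j)

lemma map_gaussPow {R R' : Type*} [CommRing R] [CommRing R'] (f : R →+* R')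
    (χ : MulChar (ZMod ℓ) R) (p : ℕ) : f (gaussPow χ p) = gaussPow (χ.ringHomComp f) p := by
  rw [gaussPow, gaussPow, map_mul, map_mul, map_prod, map_natCast, MulChar.ringHomComp_apply]
  congr 1
  refine Finset.prod_congr rfl fun j _ => ?_
  rw [MulChar.ringHomComp_pow, jacobiSum_ringHomComp]

/-- The Gauss sum to the power of a power of the characteristic. -/
lemma gaussSum_frob_iterate {R : Type*} [CommRing R] (r : ℕ) [Fact r.Prime] [CharP R r]
    (χ : MulChar (ZMod ℓ) R) (ψ : AddChar (ZMod ℓ) R) (n : ℕ) :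
    gaussSum χ ψ ^ r ^ n = gaussSum (χ ^ r ^ n) (ψ ^ r ^ n) := by
  induction n with
  | zero => simp
  | succ n ih => rw [pow_succ, pow_mul, ih, gaussSum_frob r, ← pow_mul, ← pow_mul]

variable {k : Type*} [Field k] [Finite k]

/-- The reciprocity property of `gaussPow` in a finite field. -/
theorem gaussPow_pow_mul {p : ℕ} (hp : p.Prime) {χ : MulChar (ZMod ℓ) k} (hχ : orderOf χ = p)
    (hℓ : (ℓ : k) ≠ 0) {e : ℕ} (hq : Nat.card k = p * e + 1) :
    gaussPow χ p ^ e * χ ((Nat.card k : ℕ) : ZMod ℓ) = 1 := by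
  classical
  have := Fintype.ofFinite k
  obtain ⟨n, hr, hn⟩ := FiniteField.card k (ringChar k)
  set r := ringChar k with hrdef
  have : Fact r.Prime := ⟨hr⟩
  have hrℓ : r ≠ ℓ := by
    intro h
    apply hℓ
    rw [← h, hrdef]
    exact CharP.cast_eq_zero k (ringChar k)
  have hring : ringChar k ≠ ringChar (ZMod ℓ) := by
    rw [ZMod.ringChar_zmod_n]
    exact hrℓ
  -- the Gauss sum in a cyclotomic extension of `k`
  let ψ := AddChar.FiniteField.primitiveChar (ZMod ℓ) k hring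
  let k' := CyclotomicField ψ.n k
  let i : k →+* k' := algebraMap k k'
  have hi : Function.Injective i := i.injective
  have hchar : CharP k' r := charP_of_injective_algebraMap hi r
  set χ' := χ.ringHomComp i with hχ'
  have hord : orderOf χ' = p := by
    rw [← hχ]
    exact orderOf_injective (MulChar.ringHomCompHom i) (MulChar.injective_ringHomComp hi) χ
  have hne : χ' ≠ 1 := by
    intro h
    rw [h, orderOf_one] at hord
    exact hp.one_lt.ne hord
  have hcardℓ : (Fintype.card (ZMod ℓ) : k') ≠ 0 := by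
    rw [ZMod.card, ← map_natCast i]
    exact (map_ne_zero i).mpr hℓ
  have hg0 : gaussSum χ' ψ.char ≠ 0 := gaussSum_ne_zero_of_nontrivial hcardℓ hne ψ.prim
  have hgp : gaussSum χ' ψ.char ^ p = gaussPow χ' p := by
    have h := gaussSum_pow_eq_prod_jacobiSum (by rw [hord]; exact hp.two_le) ψ.prim (χ := χ')
    rw [hord, ZMod.card] at h
    exact h
  -- the Frobenius
  have hcard : Nat.card k = r ^ (n : ℕ) := by rw [Nat.card_eq_fintype_card, hn]
  have hχq : χ' ^ r ^ (n : ℕ) = χ' := by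
    rw [← hcard, hq, pow_succ, pow_mul, ← hord, pow_orderOf_eq_one, one_pow, one_mul]
  have hunit : IsUnit ((r ^ (n : ℕ) : ℕ) : ZMod ℓ) := by
    rw [ZMod.isUnit_iff_coprime]
    exact Nat.Coprime.pow_left _ ((Nat.coprime_primes hr Fact.out).mpr hrℓ)
  have hfrob := gaussSum_frob_iterate r χ' ψ.char (n : ℕ)
  rw [hχq, AddChar.pow_mulShift] at hfrob
  have hshift := gaussSum_mulShift χ' ψ.char hunit.unit
  rw [hunit.unit_spec, ← hfrob, ← hcard, hq, pow_succ, pow_mul, hgp] at hshift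
  have h1 : χ' ((p * e + 1 : ℕ) : ZMod ℓ) * gaussPow χ' p ^ e = 1 := by
    refine mul_right_cancel₀ hg0 ?_
    rw [one_mul, mul_assoc]
    exact hshift
  apply hi
  rw [map_mul, map_pow, map_gaussPow, map_one, hq, mul_comm]
  exact h1

end Finite

section Number

variable {p ℓ : ℕ} [Fact p.Prime] [Fact ℓ.Prime] {K : Type*} [Field K] [NumberField K]

/-- A Jacobi sum divides `ℓ`. -/
lemma jacobiSum_dvd (χ : MulChar (ZMod ℓ) (𝓞 K)) (hχ : orderOf χ = p) {j : ℕ}
    (hj : j ∈ Ico 1 (p - 1)) : jacobiSum χ (χ ^ j) ∣ (ℓ : 𝓞 K) := by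
  have hinj : Function.Injective (algebraMap (𝓞 K) K) := RingOfIntegers.coe_injective
  rw [Finset.mem_Ico] at hj
  have hone : χ ≠ 1 := by
    intro h
    rw [h, orderOf_one] at hχ
    exact (Fact.out : p.Prime).one_lt.ne hχ
  have hjne : χ ^ j ≠ 1 := pow_ne_one_of_lt_orderOf (by omega) (by omega)
  have hj1 : χ * χ ^ j ≠ 1 := by
    rw [← pow_succ']
    exact pow_ne_one_of_lt_orderOf (by omega) (by omega)
  have hring : ringChar K ≠ ringChar (ZMod ℓ) := by
    rw [ZMod.ringChar_zmod_n, ringChar.eq_zero]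
    exact (Fact.out : ℓ.Prime).ne_zero.symm
  have h := jacobiSum_mul_jacobiSum_inv hring
    ((MulChar.ringHomComp_ne_one_iff hinj).mpr hone)
    ((MulChar.ringHomComp_ne_one_iff hinj).mpr hjne)
    (by rw [← MulChar.ringHomComp_mul]; exact (MulChar.ringHomComp_ne_one_iff hinj).mpr hj1)
  rw [MulChar.ringHomComp_inv, MulChar.ringHomComp_inv, jacobiSum_ringHomComp,
    jacobiSum_ringHomComp, ← map_mul, ZMod.card] at h
  refine ⟨jacobiSum χ⁻¹ (χ ^ j)⁻¹, hinj ?_⟩
  rw [h, map_natCast]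

/-- `gaussPow χ p` divides a power of `ℓ`. -/
lemma gaussPow_dvd (χ : MulChar (ZMod ℓ) (𝓞 K)) (hχ : orderOf χ = p) :
    ∃ n : ℕ, gaussPow χ p ∣ (ℓ : 𝓞 K) ^ n := by
  refine ⟨1 + (Ico 1 (p - 1)).card, ?_⟩
  rw [gaussPow, pow_add, pow_one, ← Finset.prod_const]
  refine mul_dvd_mul ?_ (Finset.prod_dvd_prod_of_dvd _ _ fun j hj => jacobiSum_dvd χ hχ hj)
  have hu : IsUnit (χ (-1)) := (isUnit_neg_one).map χ
  obtain ⟨u, hu⟩ := hu
  refine ⟨(↑u⁻¹ : 𝓞 K), ?_⟩
  rw [← hu, mul_comm (u : 𝓞 K), mul_assoc, Units.mul_inv, mul_one]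

omit [Fact ℓ.Prime] [NumberField K] in
/-- The reduction of a character of order `p` modulo a prime which does not divide `p` has order
`p`. -/
lemma orderOf_reduction {k : Type*} [Field k] (f : 𝓞 K →+* k) (hpk : (p : k) ≠ 0)
    (χ : MulChar (ZMod ℓ) (𝓞 K)) (hχ : orderOf χ = p) : orderOf (χ.ringHomComp f) = p := by
  have hp : p.Prime := Fact.out
  refine orderOf_eq_prime ?_ ?_
  · rw [MulChar.ringHomComp_pow, ← hχ, pow_orderOf_eq_one, MulChar.ringHomComp_one]
  · intro h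
    -- a value of `χ` which is a primitive `p`-th root of unity
    have hone : χ ≠ 1 := by
      intro h'
      rw [h', orderOf_one] at hχ
      exact hp.one_lt.ne hχ
    obtain ⟨x, hx⟩ := MulChar.ne_one_iff.mp hone
    have h1 : f (χ x) = 1 := by
      have := DFunLike.congr_fun h (x : ZMod ℓ)
      rwa [MulChar.ringHomComp_apply, MulChar.one_apply_coe] at this
    have h2 : χ x ^ p = 1 := by
      have := DFunLike.congr_fun (pow_orderOf_eq_one χ) (x : ZMod ℓ)
      rw [hχ, MulChar.pow_apply_coe, MulChar.one_apply_coe] at this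
      exact this
    -- `0 = 1 + χ(x) + ⋯ + χ(x) ^ (p - 1)` and the right side is mapped to `p`
    have h3 : ∑ i ∈ range p, χ x ^ i = 0 := by
      have h4 := mul_geom_sum (χ x) p
      rw [h2, sub_self] at h4
      exact (mul_eq_zero.mp h4).resolve_left (sub_ne_zero.mpr hx)
    have h5 := congrArg f h3
    rw [map_sum, map_zero] at h5
    simp only [map_pow, h1, one_pow, Finset.sum_const, Finset.card_range, nsmul_eq_mul,
      mul_one] at h5
    exact hpk h5

/-- **The `p`-th power of the Gauss sum as a reciprocity element.** -/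
theorem exists_gauss (χ : MulChar (ZMod ℓ) (𝓞 K)) (hχ : orderOf χ = p) :
    ∃ a : 𝓞 K, a ≠ 0 ∧ ∀ v : HeightOneSpectrum (𝓞 K), (ℓ : 𝓞 K) ∉ v.asIdeal → a ∉ v.asIdeal ∧
      ∀ e : ℕ, Ideal.absNorm v.asIdeal = p * e + 1 →
        a ^ e * χ (Ideal.absNorm v.asIdeal : ZMod ℓ) - 1 ∈ v.asIdeal := by
  obtain ⟨n, hn⟩ := gaussPow_dvd χ hχ
  refine ⟨gaussPow χ p, ?_, fun v hv => ⟨fun h => ?_, fun e he => ?_⟩⟩
  · rintro h
    rw [h, zero_dvd_iff] at hn
    have hℓ0 : (ℓ : 𝓞 K) ≠ 0 := Nat.cast_ne_zero.mpr (Fact.out : ℓ.Prime).ne_zero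
    exact pow_ne_zero n hℓ0 hn
  · exact hv (v.isPrime.mem_of_pow_mem n (v.asIdeal.mem_of_dvd hn h))
  · have hfin : Finite (𝓞 K ⧸ v.asIdeal) := v.asIdeal.finiteQuotientOfFreeOfNeBot v.ne_bot
    have hmax : v.asIdeal.IsMaximal := v.isMaximal
    let : Field (𝓞 K ⧸ v.asIdeal) := Ideal.Quotient.field v.asIdeal
    set f : 𝓞 K →+* 𝓞 K ⧸ v.asIdeal := Ideal.Quotient.mk v.asIdeal with hf
    have hcard : Nat.card (𝓞 K ⧸ v.asIdeal) = Ideal.absNorm v.asIdeal := by
      rw [Ideal.absNorm_apply]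
      rfl
    have hℓk : (ℓ : 𝓞 K ⧸ v.asIdeal) ≠ 0 := by
      rw [← map_natCast f, Ne, Ideal.Quotient.eq_zero_iff_mem]
      exact hv
    have hpk : (p : 𝓞 K ⧸ v.asIdeal) ≠ 0 := by
      intro h0
      have h1 : ((Nat.card (𝓞 K ⧸ v.asIdeal) : ℕ) : 𝓞 K ⧸ v.asIdeal) = 0 := by
        have := Fintype.ofFinite (𝓞 K ⧸ v.asIdeal)
        rw [Nat.card_eq_fintype_card]
        exact FiniteField.cast_card_eq_zero _
      rw [hcard, he] at h1
      push_cast at h1
      rw [h0, zero_mul, zero_add] at h1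
      exact one_ne_zero h1
    have key := gaussPow_pow_mul (Fact.out : p.Prime) (orderOf_reduction f hpk χ hχ) hℓk
      (e := e) (by rw [hcard, he])
    rw [← map_gaussPow, MulChar.ringHomComp_apply, hcard, ← map_pow, ← map_mul] at key
    rw [← Ideal.Quotient.eq_zero_iff_mem, map_sub, map_one, sub_eq_zero]
    exact key

end Number

end Fermat.Agent.Cor.Recip
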