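import Fermat.Agent.Corollaries.Recip.Hecke
import Fermat.Agent.Corollaries.HM.RealFinal

/-!
# Hecke's quadratic reciprocity law over every number field

`K` is an arbitrary number field, real places are allowed.  With the notation of
`Recip.Hecke` (`leg a v`, `jac a I`, `hilb v a b`) and

* `hilbReal σ a b`: the Hilbert symbol at the real embedding `σ : K →+* ℝ`, equal to `-1` if
  `σ a < 0` and `σ b < 0`, to `1` otherwise;
* `archProd a b = ∏_σ (a, b)_σ`,

we show

* `finprod_hilb_all`: `∏_v (a, b)_v = ∏_σ (a, b)_σ` (`v` the finite places);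
* `hecke_all`: for `a, b ∈ 𝓞 K` odd and coprime
  `(a / b) (b / a) = (∏_{v ∣ 2} (a, b)_v) (∏_σ (a, b)_σ)`;
* `hecke_unit_all`, `hecke_two_all`: the two supplements;
* `hecke_primary_all`: if `a` is congruent to a square modulo `4` then
  `(a / b) (b / a) = ∏_σ (a, b)_σ` (Hecke 1923, Theorem 165);
* `hecke_primary_pos`: if `a` is moreover totally positive then `(a / b) = (b / a)`.
-/

set_option autoImplicit false

namespace Fermat.Agent.Cor.Recip

open Fermat.Agent.CFT.Global Fermat.Agent.CFT.Global2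
open Fermat.Agent.CFT.SUnits (ord ord_one ord_mul ord_pow ord_div ord_inv ord_eq_zero_iff
  valuation_eq_exp_neg_ord)
open NumberField IsDedekindDomain WithZero UniqueFactorizationMonoid

variable {K : Type} [Field K] [NumberField K]

open Classical in
/-- The Hilbert symbol `(a, b)_σ` at the real embedding `σ`. -/
noncomputable def hilbReal (σ : K →+* ℝ) (a b : K) : ℤ := if σ a < 0 ∧ σ b < 0 then -1 else 1

/-- The product of the Hilbert symbols at the real places. -/
noncomputable def archProd (a b : K) : ℤ := ∏ σ : K →+* ℝ, hilbReal σ a b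

lemma nonempty_localSymbols_two (K : Type) [Field K] [NumberField K] :
    Nonempty (LocalSymbols 2 K) :=
  Fermat.Agent.CFT.Bridge.nonempty_localSymbols_all K
    (Fermat.Agent.CFT.Global2.Unr.isPrimitiveRoot_neg_one' K)

omit [NumberField K] in
lemma hilbReal_comm (σ : K →+* ℝ) (a b : K) : hilbReal σ a b = hilbReal σ b a := by
  rw [hilbReal, hilbReal]
  simp only [and_comm]

lemma archProd_comm (a b : K) : archProd a b = archProd b a :=
  Finset.prod_congr rfl fun σ _ => hilbReal_comm σ a b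

omit [NumberField K] in
lemma hilbReal_eq_sg (σ : K →+* ℝ) (a b : Kˣ) :
    hilbReal σ (a : K) (b : K) = sg (Multiplicative.ofAdd (HM.sg σ a * HM.sg σ b)) := by
  rw [hilbReal]
  split_ifs with h
  · rw [HM.sg_eq_one_iff.mpr h.1, HM.sg_eq_one_iff.mpr h.2]
    decide
  · rcases not_and_or.mp h with h' | h'
    · rw [HM.zmod_two_eq_zero (t := HM.sg σ a) fun h1 => h' (HM.sg_eq_one_iff.mp h1), zero_mul]
      decide
    · rw [HM.zmod_two_eq_zero (t := HM.sg σ b) fun h1 => h' (HM.sg_eq_one_iff.mp h1), mul_zero]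
      decide

/-- The symbols at the real places are trivial if `a` is totally positive. -/
lemma archProd_eq_one_of_pos {a : K} (ha : ∀ σ : K →+* ℝ, 0 < σ a) (b : K) :
    archProd a b = 1 :=
  Finset.prod_eq_one fun σ _ => by
    rw [hilbReal, if_neg fun h => absurd h.1 (not_lt.mpr (ha σ).le)]

lemma archProd_eq_one_of_isTotallyComplex [IsTotallyComplex K] (a b : K) : archProd a b = 1 := by
  have : IsEmpty (K →+* ℝ) := by
    refine ⟨fun σ => ?_⟩
    have h1 : ComplexEmbedding.IsReal (Complex.ofRealHom.comp σ) := by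
      rw [ComplexEmbedding.isReal_iff]
      ext x
      simp
    exact absurd (InfinitePlace.isReal_mk_iff.mpr h1)
      (InfinitePlace.not_isReal_iff_isComplex.mpr (IsTotallyComplex.isComplex _))
  rw [archProd, Finset.univ_eq_empty, Finset.prod_empty]

/-- The Hilbert symbol at an odd place. -/
lemma hilb_odd_all {v : HeightOneSpectrum (𝓞 K)} (hv : (2 : 𝓞 K) ∉ v.asIdeal)
    {a b : 𝓞 K} (ha : a ≠ 0) (hb : b ≠ 0) (hab : IsCoprime a b) :
    hilb v (unt ha : Kˣ) (unt hb : Kˣ) =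
      leg a v ^ expo v (Ideal.span {b}) * leg b v ^ expo v (Ideal.span {a}) := by
  obtain ⟨LS⟩ := nonempty_localSymbols_two K
  rw [hilb_eq_sg LS]
  by_cases hav : a ∈ v.asIdeal
  · have hbv : b ∉ v.asIdeal := by
      intro hbv
      obtain ⟨s, t, hst⟩ := hab
      apply v.isPrime.ne_top
      rw [Ideal.eq_top_iff_one, ← hst]
      exact Ideal.add_mem _ (Ideal.mul_mem_left _ _ hav) (Ideal.mul_mem_left _ _ hbv)
    rw [expo_span_eq_zero hb hbv, pow_zero, one_mul, sg_sym_comm, sg_sym_eq_leg LS hv hb ha hbv]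
  · rw [expo_span_eq_zero ha hav, pow_zero, mul_one, sg_sym_eq_leg LS hv ha hb hav]

lemma finite_mulSupport_hilb_all (a b : Kˣ) :
    (Function.mulSupport fun v : HeightOneSpectrum (𝓞 K) => hilb v (a : K) (b : K)).Finite := by
  classical
  refine (HM.hilbert_reciprocity_all a.ne_zero b.ne_zero).1.subset fun v hv h => hv ?_
  change hilb v (a : K) (b : K) = 1
  rw [hilb, if_pos h]

/-- **The product formula** `∏_v (a, b)_v = ∏_σ (a, b)_σ` over an arbitrary number field, `v` the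
finite places, `σ` the real embeddings. -/
theorem finprod_hilb_all (a b : Kˣ) :
    ∏ᶠ v : HeightOneSpectrum (𝓞 K), hilb v (a : K) (b : K) = archProd (a : K) b := by
  classical
  obtain ⟨LS⟩ := nonempty_localSymbols_two K
  have h1 : ∏ᶠ v : HeightOneSpectrum (𝓞 K), hilb v (a : K) (b : K) =
      ∏ v ∈ (symVec LS two_ne_zero a b).support, sg (LS.sym v a b) := by
    rw [finprod_congr fun v => hilb_eq_sg LS v a b]
    refine finprod_eq_prod_of_mulSupport_subset _ fun v hv => ?_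
    rw [Finset.mem_coe, Finsupp.mem_support_iff, symVec_apply]
    intro h
    apply hv
    have h2 : LS.sym v a b = 1 := toAdd_eq_zero.1 h
    change sg (LS.sym v a b) = 1
    rw [h2, map_one]
  have h2 : ∏ v ∈ (symVec LS two_ne_zero a b).support, LS.sym v a b =
      ∏ σ : K →+* ℝ, Multiplicative.ofAdd (HM.sg σ a * HM.sg σ b) := by
    apply Multiplicative.toAdd.injective
    have h3 := HM.sum_sym LS a b
    rw [Finsupp.sum] at h3
    rw [toAdd_prod, toAdd_prod]
    exact h3
  rw [h1, ← map_prod, h2, map_prod, archProd]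
  exact Finset.prod_congr rfl fun σ _ => (hilbReal_eq_sg σ a b).symm

/-- **The quadratic reciprocity law of Hecke, with its supplements**, over an arbitrary number field:
`a, b ∈ 𝓞 K` non-zero and coprime; `jacOdd` only sees the places `v ∤ 2`. -/
theorem hecke_general_all {a b : 𝓞 K} (ha : a ≠ 0) (hb : b ≠ 0) (hab : IsCoprime a b) :
    jacOdd a (Ideal.span {b}) * jacOdd b (Ideal.span {a}) =
      (∏ᶠ (v : HeightOneSpectrum (𝓞 K)) (_ : (2 : 𝓞 K) ∈ v.asIdeal), hilb v (a : K) (b : K)) *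
        archProd (a : K) (b : K) := by
  classical
  have hfa : ((unt ha : Kˣ) : K) = (a : K) := rfl
  have hfb : ((unt hb : Kˣ) : K) = (b : K) := rfl
  have hsup := finite_mulSupport_hilb_all (unt ha : Kˣ) (unt hb : Kˣ)
  have h1 := finprod_hilb_all (unt ha : Kˣ) (unt hb : Kˣ)
  rw [hfa, hfb] at h1
  rw [hfa, hfb] at hsup
  have hsubJ : ∀ (c : 𝓞 K) (I : Ideal (𝓞 K)), (Function.mulSupport
      fun v : HeightOneSpectrum (𝓞 K) => if (2 : 𝓞 K) ∈ v.asIdeal then (1 : ℤ)
        else leg c v ^ expo v I).Finite := by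
    intro c I
    refine (finite_mulSupport_jac c I).subset fun v hv h => hv ?_
    change (if (2 : 𝓞 K) ∈ v.asIdeal then (1 : ℤ) else leg c v ^ expo v I) = 1
    split_ifs
    · rfl
    · exact h
  have h2 : jacOdd a (Ideal.span {b}) * jacOdd b (Ideal.span {a}) =
      ∏ᶠ v : HeightOneSpectrum (𝓞 K), if (2 : 𝓞 K) ∈ v.asIdeal then (1 : ℤ)
        else hilb v (a : K) (b : K) := by
    rw [jacOdd, jacOdd, ← finprod_mul_distrib (hsubJ _ _) (hsubJ _ _)]
    refine finprod_congr fun v => ?_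
    split_ifs with hv
    · rw [one_mul]
    · exact (hilb_odd_all hv ha hb hab).symm
  have h3 : (∏ᶠ (v : HeightOneSpectrum (𝓞 K)) (_ : (2 : 𝓞 K) ∈ v.asIdeal),
      hilb v (a : K) (b : K)) = ∏ᶠ v : HeightOneSpectrum (𝓞 K),
      if (2 : 𝓞 K) ∈ v.asIdeal then hilb v (a : K) (b : K) else 1 := by
    exact finprod_congr fun v => finprod_eq_if
  have hfin : ∀ (P : HeightOneSpectrum (𝓞 K) → Prop), (Function.mulSupport
      fun v : HeightOneSpectrum (𝓞 K) => if P v then hilb v (a : K) (b : K) else 1).Finite := by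
    intro P
    refine hsup.subset fun v hv h => hv ?_
    change (if P v then hilb v (a : K) (b : K) else 1) = 1
    split_ifs
    · exact h
    · rfl
  have hfin' : (Function.mulSupport fun v : HeightOneSpectrum (𝓞 K) =>
      if (2 : 𝓞 K) ∈ v.asIdeal then (1 : ℤ) else hilb v (a : K) (b : K)).Finite := by
    refine hsup.subset fun v hv h => hv ?_
    change (if (2 : 𝓞 K) ∈ v.asIdeal then (1 : ℤ) else hilb v (a : K) (b : K)) = 1
    split_ifs
    · rfl
    · exact h
  have h4 : (∏ᶠ v : HeightOneSpectrum (𝓞 K),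
      if (2 : 𝓞 K) ∈ v.asIdeal then (1 : ℤ) else hilb v (a : K) (b : K)) *
      (∏ᶠ v : HeightOneSpectrum (𝓞 K),
        if (2 : 𝓞 K) ∈ v.asIdeal then hilb v (a : K) (b : K) else 1) =
          archProd (a : K) (b : K) := by
    refine (finprod_mul_distrib hfin' (hfin _)).symm.trans ((finprod_congr fun v => ?_).trans h1)
    split_ifs
    · rw [one_mul]
    · rw [mul_one]
  have h5 : (∏ᶠ v : HeightOneSpectrum (𝓞 K),
      if (2 : 𝓞 K) ∈ v.asIdeal then hilb v (a : K) (b : K) else 1) *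
      (∏ᶠ v : HeightOneSpectrum (𝓞 K),
        if (2 : 𝓞 K) ∈ v.asIdeal then hilb v (a : K) (b : K) else 1) = 1 := by
    rw [← finprod_mul_distrib (hfin _) (hfin _)]
    refine finprod_eq_one_of_forall_eq_one fun v => ?_
    split_ifs
    · exact hilb_sq v _ _
    · rw [one_mul]
  rw [h2, h3, ← h4, mul_left_comm, h5, mul_one]

/-- **Hecke's quadratic reciprocity law** over an arbitrary number field: `a, b ∈ 𝓞 K` odd, non-zero
and coprime: `(a / b) (b / a) = (∏_{v ∣ 2} (a, b)_v) (∏_σ (a, b)_σ)`. -/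
theorem hecke_all {a b : 𝓞 K} (ha : a ≠ 0) (hb : b ≠ 0) (hab : IsCoprime a b)
    (ha2 : IsCoprime a 2) (hb2 : IsCoprime b 2) :
    jac a (Ideal.span {b}) * jac b (Ideal.span {a}) =
      (∏ᶠ (v : HeightOneSpectrum (𝓞 K)) (_ : (2 : 𝓞 K) ∈ v.asIdeal), hilb v (a : K) (b : K)) *
        archProd (a : K) (b : K) := by
  rw [← hecke_general_all ha hb hab, jacOdd_eq_jac a hb hb2, jacOdd_eq_jac b ha ha2]

/-- The first supplement: the symbol of a unit. -/
theorem hecke_unit_all (u : (𝓞 K)ˣ) {b : 𝓞 K} (hb : b ≠ 0) (hb2 : IsCoprime b 2) :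
    jac (u : 𝓞 K) (Ideal.span {b}) =
      (∏ᶠ (v : HeightOneSpectrum (𝓞 K)) (_ : (2 : 𝓞 K) ∈ v.asIdeal),
        hilb v ((u : 𝓞 K) : K) (b : K)) * archProd ((u : 𝓞 K) : K) (b : K) := by
  have hu2 : IsCoprime (u : 𝓞 K) 2 := ⟨(u⁻¹ : (𝓞 K)ˣ), 0, by simp⟩
  have hub : IsCoprime (u : 𝓞 K) b := ⟨(u⁻¹ : (𝓞 K)ˣ), 0, by simp⟩
  rw [← hecke_all u.ne_zero hb hub hu2 hb2, Ideal.span_singleton_eq_top.2 u.isUnit, jac_top,
    mul_one]

/-- The second supplement: the symbol of an element dividing a power of `2`. -/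
theorem hecke_two_all {a b : 𝓞 K} {n : ℕ} (ha2 : a ∣ 2 ^ n) (hb : b ≠ 0) (hb2 : IsCoprime b 2) :
    jac a (Ideal.span {b}) =
      (∏ᶠ (v : HeightOneSpectrum (𝓞 K)) (_ : (2 : 𝓞 K) ∈ v.asIdeal), hilb v (a : K) (b : K)) *
        archProd (a : K) (b : K) := by
  classical
  have ha : a ≠ 0 := by
    rintro rfl
    rw [zero_dvd_iff] at ha2
    exact pow_ne_zero n two_ne_zero ha2
  have hab : IsCoprime a b := (IsCoprime.of_isCoprime_of_dvd_right hb2.pow_right ha2).symm
  have h1 : jacOdd b (Ideal.span {a}) = 1 := by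
    refine finprod_eq_one_of_forall_eq_one fun v => ?_
    split_ifs with hv
    · rfl
    · rw [expo_span_eq_zero ha, pow_zero]
      intro hav
      apply hv
      obtain ⟨c, hc⟩ := ha2
      exact v.isPrime.mem_of_pow_mem n (hc ▸ Ideal.mul_mem_right _ _ hav)
  rw [← hecke_general_all ha hb hab, h1, mul_one, jacOdd_eq_jac a hb hb2]

/-- The dyadic symbols are trivial if `a` is primary (congruent to a square modulo `4`). -/
lemma finprod_two_eq_one {a b : 𝓞 K} (ha : a ≠ 0) (hb : b ≠ 0)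
    (ha2 : IsCoprime a 2) (hb2 : IsCoprime b 2) (hprim : ∃ c : 𝓞 K, 4 ∣ a - c ^ 2) :
    (∏ᶠ (v : HeightOneSpectrum (𝓞 K)) (_ : (2 : 𝓞 K) ∈ v.asIdeal),
      hilb v (a : K) (b : K)) = 1 := by
  classical
  refine finprod_eq_one_of_forall_eq_one fun v => ?_
  rw [finprod_eq_if]
  split_ifs with hv
  · obtain ⟨LS⟩ := nonempty_localSymbols_two K
    have h3 : hilb v (a : K) (b : K) = sg (LS.sym v (unt ha) (unt hb)) :=
      hilb_eq_sg LS v (unt ha) (unt hb)
    rw [h3]
    obtain ⟨c, w, hw⟩ := hprim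
    have hζ : IsPrimitiveRoot (-1 : K) 2 := IsPrimitiveRoot.neg_one 0 (by norm_num)
    rw [sym_eq_one_of_primary v LS Nat.prime_two (by exact_mod_cast hv) hζ
      (c := algebraMap (𝓞 K) K c) (ord_unt_eq_zero ha (notMem_of_isCoprime_two ha2 hv))
      (ord_unt_eq_zero hb (notMem_of_isCoprime_two hb2 hv)) ?_, map_one]
    have e : ((unt ha : Kˣ) : K) - algebraMap (𝓞 K) K c ^ 2 =
        (((2 : ℕ) : K) * (1 - -1)) * algebraMap (𝓞 K) K w := by
      have h4 := congrArg (algebraMap (𝓞 K) K) hw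
      simp only [map_sub, map_mul, map_pow, map_ofNat] at h4
      rw [unt_val, h4]
      norm_num
    rw [e, map_mul]
    exact mul_le_of_le_one_right' (v.valuation_le_one w)
  · rfl

/-- **Hecke's quadratic reciprocity law for primary elements** over an arbitrary number field:
`a, b ∈ 𝓞 K` odd, non-zero and coprime, `a` congruent to a square modulo `4`:
`(a / b) (b / a) = ∏_σ (a, b)_σ`. -/
theorem hecke_primary_all {a b : 𝓞 K} (ha : a ≠ 0) (hb : b ≠ 0) (hab : IsCoprime a b)
    (ha2 : IsCoprime a 2) (hb2 : IsCoprime b 2) (hprim : ∃ c : 𝓞 K, 4 ∣ a - c ^ 2) :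
    jac a (Ideal.span {b}) * jac b (Ideal.span {a}) = archProd (a : K) (b : K) := by
  rw [hecke_all ha hb hab ha2 hb2, finprod_two_eq_one ha hb ha2 hb2 hprim, one_mul]

/-- `(a / b) = (b / a)` for `a` totally positive and primary. -/
theorem hecke_primary_pos {a b : 𝓞 K} (ha : a ≠ 0) (hb : b ≠ 0) (hab : IsCoprime a b)
    (ha2 : IsCoprime a 2) (hb2 : IsCoprime b 2) (hprim : ∃ c : 𝓞 K, 4 ∣ a - c ^ 2)
    (hpos : ∀ σ : K →+* ℝ, 0 < σ (a : K)) :
    jac a (Ideal.span {b}) = jac b (Ideal.span {a}) := by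
  have h1 := hecke_primary_all ha hb hab ha2 hb2 hprim
  rw [archProd_eq_one_of_pos hpos] at h1
  exact Int.eq_of_mul_eq_one h1

/-- The symbol of a totally positive unit which is congruent to a square modulo `4` is trivial. -/
theorem jac_unit_eq_one (u : (𝓞 K)ˣ) (hprim : ∃ c : 𝓞 K, 4 ∣ (u : 𝓞 K) - c ^ 2)
    (hpos : ∀ σ : K →+* ℝ, 0 < σ ((u : 𝓞 K) : K)) {b : 𝓞 K} (hb : b ≠ 0)
    (hb2 : IsCoprime b 2) : jac (u : 𝓞 K) (Ideal.span {b}) = 1 := by
  have hu2 : IsCoprime (u : 𝓞 K) 2 := ⟨(u⁻¹ : (𝓞 K)ˣ), 0, by simp⟩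
  rw [hecke_unit_all u hb hb2, finprod_two_eq_one u.ne_zero hb hu2 hb2 hprim,
    archProd_eq_one_of_pos hpos, one_mul]

end Fermat.Agent.Cor.Recip
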