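import Fermat.Agent.Corollaries.Recip.Cubic

/-!
# The `p`-th power residue symbol

`K` is a number field, `ζ ∈ 𝓞 K` a primitive `p`-th root of unity, `v` a place prime to `p`. For
`a ∉ v`, `ind p ζ v a : ZMod p` is defined by `a ^ ((N v - 1) / p) ≡ ζ ^ (ind p ζ v a) mod v`.

`exists_const`: for every system of local symbols, `(a, x)_v = k_v · ord_v x · ind_v a`.
-/

set_option autoImplicit false

namespace Fermat.Agent.Cor.Recip

open Fermat.Agent.CFT.Global Fermat.Agent.CFT.Global2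
open Fermat.Agent.CFT.SUnits (ord ord_one ord_mul ord_pow ord_div ord_inv ord_eq_zero_iff
  valuation_eq_exp_neg_ord)
open NumberField IsDedekindDomain WithZero

section Residue

variable {p : ℕ} [hp : Fact p.Prime] {K : Type} [Field K] [NumberField K] {ζ : 𝓞 K}
  {v : HeightOneSpectrum (𝓞 K)}

omit [NumberField K] in
/-- `ζ` stays a primitive root modulo `v ∤ p`. -/
lemma one_sub_pow_notMem (hζ : IsPrimitiveRoot ζ p) (hv : (p : 𝓞 K) ∉ v.asIdeal) {m : ℕ}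
    (hm : ¬ p ∣ m) : 1 - ζ ^ m ∉ v.asIdeal := by
  intro h
  have hζm : IsPrimitiveRoot (ζ ^ m) p :=
    hζ.pow_of_coprime m ((Nat.Prime.coprime_iff_not_dvd hp.out).2 hm).symm
  have h1 := one_sub_zeta_pow_dvd hζm
  apply hv
  obtain ⟨c, hc⟩ := h1
  rw [hc]
  refine Ideal.mul_mem_right _ _ ?_
  have h2 := hp.out.two_le
  exact Ideal.pow_mem_of_mem _ h _ (by omega)

omit [NumberField K] hp in
lemma pow_mod_eq (hζ : IsPrimitiveRoot ζ p) (k : ℕ) : ζ ^ (k % p) = ζ ^ k := by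
  have h := pow_mod_orderOf ζ k
  rwa [← hζ.eq_orderOf] at h

omit [NumberField K] in
/-- The powers `ζ ^ m`, `m : ZMod p`. -/
lemma pow_val_add (hζ : IsPrimitiveRoot ζ p) (m n : ZMod p) :
    ζ ^ (m + n).val = ζ ^ m.val * ζ ^ n.val := by
  rw [← pow_add, ZMod.val_add, pow_mod_eq hζ]

omit [NumberField K] in
lemma pow_val_natCast (hζ : IsPrimitiveRoot ζ p) (m : ℕ) : ζ ^ ((m : ZMod p)).val = ζ ^ m := by
  rw [ZMod.val_natCast, pow_mod_eq hζ]

omit [NumberField K] in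
/-- Powers of `ζ` are distinct modulo `v ∤ p`. -/
lemma eq_of_pow_sub_mem (hζ : IsPrimitiveRoot ζ p) (hv : (p : 𝓞 K) ∉ v.asIdeal) {m n : ZMod p}
    (h : ζ ^ m.val - ζ ^ n.val ∈ v.asIdeal) : m = n := by
  by_contra hne
  have h1 : ζ ^ m.val * (1 - ζ ^ (n - m).val) ∈ v.asIdeal := by
    rw [mul_sub, mul_one, ← pow_val_add hζ, add_sub_cancel]
    exact h
  rcases v.isPrime.mem_or_mem h1 with h2 | h2
  · have h3 : IsUnit (ζ ^ m.val) := (hζ.isUnit hp.out.ne_zero).pow _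
    exact v.isPrime.ne_top (Ideal.eq_top_of_isUnit_mem _ h2 h3)
  · refine one_sub_pow_notMem hζ hv (m := (n - m).val) (fun hd => ?_) h2
    have h3 : (n - m).val = 0 := Nat.eq_zero_of_dvd_of_lt hd (ZMod.val_lt _)
    rw [ZMod.val_eq_zero, sub_eq_zero] at h3
    exact hne h3.symm

lemma absNorm_eq_card : Ideal.absNorm v.asIdeal = Nat.card (𝓞 K ⧸ v.asIdeal) := rfl

/-- Fermat's little theorem modulo `v`. -/
lemma pow_absNorm_sub_one {a : 𝓞 K} (ha : a ∉ v.asIdeal) :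
    a ^ (Ideal.absNorm v.asIdeal - 1) - 1 ∈ v.asIdeal := by
  have hmax := v.isMaximal
  let _ := Ideal.Quotient.field v.asIdeal
  have hfin : Finite (𝓞 K ⧸ v.asIdeal) := Ring.HasFiniteQuotients.finiteQuotient v.ne_bot
  let _ := Fintype.ofFinite (𝓞 K ⧸ v.asIdeal)
  rw [← Ideal.Quotient.eq, map_pow, map_one, absNorm_eq_card, Nat.card_eq_fintype_card]
  exact FiniteField.pow_card_sub_one_eq_one _ fun h => ha (Ideal.Quotient.eq_zero_iff_mem.1 h)

/-- `p ∣ N v - 1` for `v ∤ p`. -/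
lemma dvd_absNorm_sub_one (hζ : IsPrimitiveRoot ζ p) (hv : (p : 𝓞 K) ∉ v.asIdeal) :
    p ∣ Ideal.absNorm v.asIdeal - 1 := by
  by_contra h
  apply one_sub_pow_notMem hζ hv h
  have h1 : ζ ∉ v.asIdeal := fun h2 =>
    v.isPrime.ne_top (Ideal.eq_top_of_isUnit_mem _ h2 (hζ.isUnit hp.out.ne_zero))
  have h3 := pow_absNorm_sub_one h1
  rw [← neg_mem_iff, neg_sub] at h3
  exact h3

/-- Existence of the index. -/
lemma exists_ind (hζ : IsPrimitiveRoot ζ p) (hv : (p : 𝓞 K) ∉ v.asIdeal) {a : 𝓞 K}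
    (ha : a ∉ v.asIdeal) :
    ∃ m : ZMod p, a ^ ((Ideal.absNorm v.asIdeal - 1) / p) - ζ ^ m.val ∈ v.asIdeal := by
  have hmax := v.isMaximal
  let _ := Ideal.Quotient.field v.asIdeal
  set f := Ideal.Quotient.mk v.asIdeal with hf
  have hfmem : ∀ x y : 𝓞 K, f x = f y ↔ x - y ∈ v.asIdeal := fun x y => Ideal.Quotient.eq
  have hζ' : IsPrimitiveRoot (f ζ) p := by
    rw [IsPrimitiveRoot.iff_def]
    refine ⟨by rw [← map_pow, hζ.pow_eq_one, map_one], fun m hm => ?_⟩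
    by_contra hd
    apply one_sub_pow_notMem hζ hv hd
    rw [← hfmem, map_one, map_pow, hm]
  obtain ⟨e, he⟩ := dvd_absNorm_sub_one hζ hv
  have h1 : (f a ^ ((Ideal.absNorm v.asIdeal - 1) / p)) ^ p = 1 := by
    rw [he, Nat.mul_div_cancel_left e hp.out.pos, ← pow_mul, mul_comm e p, ← he, ← map_pow,
      ← map_one f, hfmem]
    exact pow_absNorm_sub_one ha
  obtain ⟨i, hi, hi'⟩ := hζ'.eq_pow_of_pow_eq_one h1
  refine ⟨(i : ZMod p), ?_⟩
  rw [pow_val_natCast hζ, ← hfmem, map_pow, map_pow, hi']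

open Classical in
/-- The index: `a ^ ((N v - 1) / p) ≡ ζ ^ (ind p ζ v a) mod v`. -/
noncomputable def ind (p : ℕ) (ζ : 𝓞 K) (v : HeightOneSpectrum (𝓞 K)) (a : 𝓞 K) : ZMod p :=
  if h : ∃ m : ZMod p, a ^ ((Ideal.absNorm v.asIdeal - 1) / p) - ζ ^ m.val ∈ v.asIdeal then
    h.choose else 0

lemma ind_spec (hζ : IsPrimitiveRoot ζ p) (hv : (p : 𝓞 K) ∉ v.asIdeal) {a : 𝓞 K}
    (ha : a ∉ v.asIdeal) :
    a ^ ((Ideal.absNorm v.asIdeal - 1) / p) - ζ ^ (ind p ζ v a).val ∈ v.asIdeal := by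
  have h := exists_ind hζ hv ha
  rw [ind, dif_pos h]
  exact h.choose_spec

lemma ind_eq (hζ : IsPrimitiveRoot ζ p) (hv : (p : 𝓞 K) ∉ v.asIdeal) {a : 𝓞 K}
    (ha : a ∉ v.asIdeal) {m : ZMod p}
    (h : a ^ ((Ideal.absNorm v.asIdeal - 1) / p) - ζ ^ m.val ∈ v.asIdeal) :
    ind p ζ v a = m := by
  apply eq_of_pow_sub_mem hζ hv
  have h1 := v.asIdeal.sub_mem h (ind_spec hζ hv ha)
  rwa [sub_sub_sub_cancel_left] at h1

lemma ind_mul (hζ : IsPrimitiveRoot ζ p) (hv : (p : 𝓞 K) ∉ v.asIdeal) {a b : 𝓞 K}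
    (ha : a ∉ v.asIdeal) (hb : b ∉ v.asIdeal) :
    ind p ζ v (a * b) = ind p ζ v a + ind p ζ v b := by
  have hab : a * b ∉ v.asIdeal := fun h => (v.isPrime.mem_or_mem h).elim ha hb
  apply ind_eq hζ hv hab
  rw [pow_val_add hζ, mul_pow]
  have h1 := ind_spec hζ hv ha
  have h2 := ind_spec hζ hv hb
  rw [← Ideal.Quotient.eq] at h1 h2 ⊢
  rw [map_mul, map_mul, h1, h2]

lemma ind_pow (hζ : IsPrimitiveRoot ζ p) (hv : (p : 𝓞 K) ∉ v.asIdeal) {a : 𝓞 K}
    (ha : a ∉ v.asIdeal) (n : ℕ) : ind p ζ v (a ^ n) = n * ind p ζ v a := by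
  have hone : (1 : 𝓞 K) ∉ v.asIdeal := fun h => v.isPrime.ne_top ((Ideal.eq_top_iff_one _).2 h)
  induction n with
  | zero =>
    rw [pow_zero, Nat.cast_zero, zero_mul]
    apply ind_eq hζ hv hone
    rw [one_pow, ZMod.val_zero, pow_zero, sub_self]
    exact zero_mem _
  | succ n ih =>
    have han : a ^ n ∉ v.asIdeal := fun h => ha (v.isPrime.mem_of_pow_mem n h)
    rw [pow_succ, ind_mul hζ hv han ha, ih]
    push_cast
    ring

/-- `ind` only depends on the residue class. -/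
lemma ind_congr (hζ : IsPrimitiveRoot ζ p) (hv : (p : 𝓞 K) ∉ v.asIdeal) {a b : 𝓞 K}
    (ha : a ∉ v.asIdeal) (h : a - b ∈ v.asIdeal) : ind p ζ v a = ind p ζ v b := by
  have hb : b ∉ v.asIdeal := fun hb => ha (by
    have h2 := v.asIdeal.add_mem h hb
    rwa [sub_add_cancel] at h2)
  refine (ind_eq hζ hv hb ?_).symm
  have h1 := ind_spec hζ hv ha
  rw [← Ideal.Quotient.eq] at h h1 ⊢
  rw [← h1, map_pow, map_pow, h]

/-- `ind p ζ v a = 0` iff `a` is a `p`-th power modulo `v`. -/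
lemma ind_eq_zero_iff (hζ : IsPrimitiveRoot ζ p) (hv : (p : 𝓞 K) ∉ v.asIdeal) {a : 𝓞 K}
    (ha : a ∉ v.asIdeal) : ind p ζ v a = 0 ↔ ∃ x : 𝓞 K, x ^ p - a ∈ v.asIdeal := by
  have hmax := v.isMaximal
  let _ := Ideal.Quotient.field v.asIdeal
  have hfin : Finite (𝓞 K ⧸ v.asIdeal) := Ring.HasFiniteQuotients.finiteQuotient v.ne_bot
  obtain ⟨e, he⟩ := dvd_absNorm_sub_one hζ hv
  constructor
  · intro h
    have h1 := ind_spec hζ hv ha
    rw [h, ZMod.val_zero, pow_zero, he, Nat.mul_div_cancel_left e hp.out.pos] at h1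
    obtain ⟨g, hg⟩ := IsCyclic.exists_generator (α := (𝓞 K ⧸ v.asIdeal)ˣ)
    have ha0 : Ideal.Quotient.mk v.asIdeal a ≠ 0 := fun h => ha (Ideal.Quotient.eq_zero_iff_mem.1 h)
    obtain ⟨n, hn⟩ := mem_powers_iff_mem_zpowers.2 (hg (Units.mk0 _ ha0))
    have hn' : g ^ n = Units.mk0 (Ideal.Quotient.mk v.asIdeal a) ha0 := hn
    have hord : orderOf g = p * e := by
      rw [orderOf_eq_card_of_forall_mem_zpowers hg, ← he, absNorm_eq_card, Nat.card_units]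
    have h2 : g ^ (n * e) = 1 := by
      rw [pow_mul, hn']
      ext
      rw [Units.val_pow_eq_pow_val, Units.val_mk0, Units.val_one, ← map_pow,
        ← map_one (Ideal.Quotient.mk v.asIdeal), Ideal.Quotient.eq]
      exact h1
    have he0 : 0 < e := by
      have h3 : 0 < orderOf g := orderOf_pos g
      rw [hord] at h3
      exact Nat.pos_of_mul_pos_left h3
    have h3 : p ∣ n := by
      have h4 := orderOf_dvd_of_pow_eq_one h2
      rw [hord] at h4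
      exact Nat.dvd_of_mul_dvd_mul_right he0 h4
    obtain ⟨m, rfl⟩ := h3
    obtain ⟨x, hx⟩ := Ideal.Quotient.mk_surjective (I := v.asIdeal) ((g ^ m : (𝓞 K ⧸ v.asIdeal)ˣ))
    refine ⟨x, ?_⟩
    rw [← Ideal.Quotient.eq, map_pow, hx, ← Units.val_pow_eq_pow_val, ← pow_mul, mul_comm m p, hn',
      Units.val_mk0]
  · rintro ⟨x, hx⟩
    have hx0 : x ∉ v.asIdeal := by
      intro h
      apply ha
      have h1 := v.asIdeal.sub_mem (Ideal.pow_mem_of_mem _ h p hp.out.pos) hx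
      rwa [sub_sub_cancel] at h1
    have hxp : x ^ p ∉ v.asIdeal := fun h => hx0 (v.isPrime.mem_of_pow_mem p h)
    rw [← ind_congr hζ hv hxp hx, ind_pow hζ hv hx0, CharP.cast_eq_zero, zero_mul]

/-- There are elements of index `1`. -/
lemma exists_ind_eq_one (hζ : IsPrimitiveRoot ζ p) (hv : (p : 𝓞 K) ∉ v.asIdeal) :
    ∃ g : 𝓞 K, g ∉ v.asIdeal ∧ ind p ζ v g = 1 := by
  have hmax := v.isMaximal
  let _ := Ideal.Quotient.field v.asIdeal
  have hfin : Finite (𝓞 K ⧸ v.asIdeal) := Ring.HasFiniteQuotients.finiteQuotient v.ne_bot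
  obtain ⟨g, hg⟩ := IsCyclic.exists_generator (α := (𝓞 K ⧸ v.asIdeal)ˣ)
  obtain ⟨x, hx⟩ := Ideal.Quotient.mk_surjective (I := v.asIdeal) (g : 𝓞 K ⧸ v.asIdeal)
  have hx0 : x ∉ v.asIdeal := by
    intro h
    rw [← Ideal.Quotient.eq_zero_iff_mem, hx] at h
    exact g.ne_zero h
  have hne : ind p ζ v x ≠ 0 := by
    intro h
    obtain ⟨y, hy⟩ := (ind_eq_zero_iff hζ hv hx0).1 h
    rw [← Ideal.Quotient.eq, map_pow, hx] at hy
    have hy0 : Ideal.Quotient.mk v.asIdeal y ≠ 0 := by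
      intro h0
      rw [h0, zero_pow hp.out.ne_zero] at hy
      exact g.ne_zero hy.symm
    obtain ⟨n, hn⟩ := mem_powers_iff_mem_zpowers.2 (hg (Units.mk0 _ hy0))
    have hn' : g ^ n = Units.mk0 (Ideal.Quotient.mk v.asIdeal y) hy0 := hn
    have h1 : g ^ (n * p) = g ^ 1 := by
      rw [pow_mul, hn', pow_one]
      ext
      rw [Units.val_pow_eq_pow_val, Units.val_mk0, hy]
    rw [pow_inj_mod, orderOf_eq_card_of_forall_mem_zpowers hg, Nat.card_units,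
      ← absNorm_eq_card] at h1
    have h2 := dvd_absNorm_sub_one hζ hv
    have h3 : n * p ≡ 1 [MOD p] := Nat.ModEq.of_dvd h2 h1
    have h4 : p ∣ 1 := by
      have h5 : 0 ≡ n * p [MOD p] := (Nat.modEq_zero_iff_dvd.2 (dvd_mul_left p n)).symm
      exact (Nat.modEq_zero_iff_dvd.1 (h5.trans h3).symm)
    exact hp.out.one_lt.ne' (Nat.dvd_one.1 h4)
  refine ⟨x ^ ((ind p ζ v x)⁻¹).val, fun h => hx0 (v.isPrime.mem_of_pow_mem _ h), ?_⟩
  rw [ind_pow hζ hv hx0, ZMod.natCast_val, ZMod.cast_id', id_eq, inv_mul_cancel₀ hne]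

end Residue

end Fermat.Agent.Cor.Recip
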