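import Fermat.Agent.Corollaries.Recip.AuxPrime
import Fermat.Agent.Corollaries.Recip.GaussSum
import Fermat.Agent.Corollaries.Recip.NormRay
import Mathlib.NumberTheory.MulChar.Lemmas

/-!
# The local symbols are the power residue symbols

`K` is a number field containing `ζ_p`, `p` odd, such that no `N v`, `v ∤ p`, is a `p`-th power
(for example `K = ℚ(ζ_p)`). With the auxiliary primes `ℓ` of `exists_aux_prime` and the Gauss sums
of conductor `ℓ` we show that the constants `k_v` of `exists_consts` do not depend on `v`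
(`exists_symbols`): the local symbols of class field theory can be normalised such that
`c_v (a, x)_v = ord_v x · ind_v a` for all `v ∤ p` and all units `a` at `v`, and
`∑ c_v (a, x)_v = 0`.
-/

set_option autoImplicit false

namespace Fermat.Agent.Cor.Recip

open Fermat.Agent.CFT.Global hiding Inputs p_dvd_index exists_notMem_locPow exists_place powE
  mem_powE index_powE index_zpowers_sup_powE second hasse_norm FirstInequality exists_eq_nsmul_add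
  exists_ne_symVec exists_functional_aux exists_inj forall_ne_zero exists_functional
open Fermat.Agent.CFT.Global2 Fermat.Agent.LT
open Fermat.Agent.CFT.SUnits (ord ord_one ord_mul ord_pow ord_div ord_inv ord_eq_zero_iff
  valuation_eq_exp_neg_ord)
open NumberField IsDedekindDomain WithZero

section Log

variable {p : ℕ} [hp : Fact p.Prime] {K : Type} [Field K] [NumberField K] {ζ : 𝓞 K}
  {ℓ : ℕ} [Fact ℓ.Prime]

/-- The logarithm of a character of order `p`. -/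
lemma exists_log (hζ : IsPrimitiveRoot ζ p) {χ : MulChar (ZMod ℓ) (𝓞 K)} (hχ : orderOf χ = p) :
    ∃ f : (ZMod ℓ)ˣ →* Multiplicative (ZMod p),
      ∀ u : (ZMod ℓ)ˣ, χ (u : ZMod ℓ) = ζ ^ ((f u).toAdd).val := by
  have h : ∀ u : (ZMod ℓ)ˣ, ∃ m : ZMod p, χ (u : ZMod ℓ) = ζ ^ m.val := by
    intro u
    have h1 : (χ (u : ZMod ℓ)) ^ p = 1 := by
      rw [← MulChar.pow_apply_coe, ← hχ, pow_orderOf_eq_one, MulChar.one_apply_coe]
    obtain ⟨i, -, hi⟩ := hζ.eq_pow_of_pow_eq_one h1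
    exact ⟨(i : ZMod p), by rw [pow_val_natCast hζ, hi]⟩
  choose g hg using h
  have hinj : ∀ m n : ZMod p, ζ ^ m.val = ζ ^ n.val → m = n := fun m n hmn =>
    ZMod.val_injective p (hζ.pow_inj (ZMod.val_lt _) (ZMod.val_lt _) hmn)
  refine ⟨MonoidHom.mk' (fun u => Multiplicative.ofAdd (g u)) fun u v => ?_, fun u => hg u⟩
  rw [← ofAdd_add]
  congr 1
  apply hinj
  rw [pow_val_add hζ, ← hg, ← hg, ← hg, Units.val_mul, map_mul]

/-- The kernel of a character of order `p` consists of `p`-th powers. -/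
lemma log_ne_one (hζ : IsPrimitiveRoot ζ p) {χ : MulChar (ZMod ℓ) (𝓞 K)} (hχ : orderOf χ = p)
    {f : (ZMod ℓ)ˣ →* Multiplicative (ZMod p)}
    (hf : ∀ u : (ZMod ℓ)ˣ, χ (u : ZMod ℓ) = ζ ^ ((f u).toAdd).val) {u : (ZMod ℓ)ˣ}
    (hu : ∀ x : ZMod ℓ, x ^ p ≠ u) : f u ≠ 1 := by
  obtain ⟨g, hg⟩ := IsCyclic.exists_generator (α := (ZMod ℓ)ˣ)
  have hfg : (f g).toAdd ≠ 0 := by
    intro h
    have h1 : χ = 1 := by
      ext w
      obtain ⟨n, hn⟩ := mem_powers_iff_mem_zpowers.2 (hg w)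
      have hn' : g ^ n = w := hn
      rw [MulChar.one_apply_coe, hf, ← hn', map_pow, toAdd_pow, h, nsmul_zero, ZMod.val_zero,
        pow_zero]
    rw [h1, orderOf_one] at hχ
    exact hp.out.one_lt.ne hχ
  obtain ⟨n, hn⟩ := mem_powers_iff_mem_zpowers.2 (hg u)
  have hn' : g ^ n = u := hn
  intro h
  have h1 : (n : ZMod p) * (f g).toAdd = 0 := by
    rw [← nsmul_eq_mul, ← toAdd_pow, ← map_pow, hn', h, toAdd_one]
  have h2 : (n : ZMod p) = 0 := (mul_eq_zero.1 h1).resolve_right hfg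
  rw [ZMod.natCast_eq_zero_iff] at h2
  obtain ⟨m, rfl⟩ := h2
  apply hu ((g ^ m : (ZMod ℓ)ˣ) : ZMod ℓ)
  rw [← Units.val_pow_eq_pow_val, ← pow_mul, mul_comm m p, hn']

end Log

section Const

variable {p : ℕ} [hp : Fact p.Prime] {K : Type} [Field K] [NumberField K] {ζ : 𝓞 K}

/-- The norm of a place is a prime power. -/
lemma exists_absNorm_eq (v : HeightOneSpectrum (𝓞 K)) :
    ∃ q n : ℕ, q.Prime ∧ (q : 𝓞 K) ∈ v.asIdeal ∧ Ideal.absNorm v.asIdeal = q ^ n := by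
  have hmax := v.isMaximal
  let _ := Ideal.Quotient.field v.asIdeal
  have hfin : Finite (𝓞 K ⧸ v.asIdeal) := Ring.HasFiniteQuotients.finiteQuotient v.ne_bot
  let _ := Fintype.ofFinite (𝓞 K ⧸ v.asIdeal)
  obtain ⟨n, hq, hn⟩ := FiniteField.card (𝓞 K ⧸ v.asIdeal) (ringChar (𝓞 K ⧸ v.asIdeal))
  refine ⟨ringChar (𝓞 K ⧸ v.asIdeal), n, hq, ?_, ?_⟩
  · rw [← Ideal.Quotient.eq_zero_iff_mem, map_natCast]
    exact ringChar.Nat.cast_ringChar
  · rw [absNorm_eq_card, Nat.card_eq_fintype_card, hn]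

/-- **The constants agree** at any two places whose norms are not `p`-th powers. -/
theorem const_eq [IsTotallyComplex K] (hp2 : p ≠ 2) (hζ : IsPrimitiveRoot ζ p)
    (LS : LocalSymbols p K) {c : HeightOneSpectrum (𝓞 K) → ZMod p} (hc : ∀ v, c v ≠ 0)
    (hprod : ∀ a x : Kˣ, (symVec LS hp.out.ne_zero a x).sum (fun v n => c v * n) = 0)
    {k : HeightOneSpectrum (𝓞 K) → ZMod p}
    (hk : ∀ v, (p : 𝓞 K) ∉ v.asIdeal → ∀ (a : 𝓞 K) (ha0 : a ≠ 0), a ∉ v.asIdeal → ∀ x : Kˣ,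
        c v * (LS.sym v (unt ha0) x).toAdd = k v * ord v x * ind p ζ v a)
    {v w : HeightOneSpectrum (𝓞 K)} (hv : (p : 𝓞 K) ∉ v.asIdeal) (hw : (p : 𝓞 K) ∉ w.asIdeal)
    (hvN : ∀ n : ℕ, Ideal.absNorm v.asIdeal ≠ n ^ p)
    (hwN : ∀ n : ℕ, Ideal.absNorm w.asIdeal ≠ n ^ p) : k v = k w := by
  classical
  obtain ⟨q₁, n₁, hq₁, hqv, hn₁⟩ := exists_absNorm_eq v
  obtain ⟨q₂, n₂, hq₂, hqw, hn₂⟩ := exists_absNorm_eq w
  obtain ⟨ℓ, hℓ, hB, hpℓ, hr₁, hr₂⟩ := exists_aux_prime (p := p) hp2 hq₁ hq₂ (q₁ + q₂)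
  have : Fact ℓ.Prime := ⟨hℓ⟩
  obtain ⟨χ, hχ⟩ := MulChar.exists_mulChar_orderOf (ZMod ℓ) (n := p)
    (by rw [ZMod.card]; exact hpℓ) hζ
  obtain ⟨a, ha0, ha⟩ := exists_gauss χ hχ
  obtain ⟨f, hf⟩ := exists_log hζ hχ
  -- the places above `p ℓ`
  have hfin : {v : HeightOneSpectrum (𝓞 K) | v.asIdeal ∣ Ideal.span {((p * ℓ : ℕ) : 𝓞 K)}}.Finite :=
    Ideal.finite_factors (by
      rw [Ne, Ideal.zero_eq_bot, Ideal.span_singleton_eq_bot]
      exact_mod_cast mul_ne_zero hp.out.ne_zero hℓ.ne_zero)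
  set S : Finset (HeightOneSpectrum (𝓞 K)) := hfin.toFinset with hSdef
  have hS : ∀ v, v ∉ S ↔ (p : 𝓞 K) ∉ v.asIdeal ∧ (ℓ : 𝓞 K) ∉ v.asIdeal := by
    intro v
    rw [hSdef, Set.Finite.mem_toFinset, Set.mem_ofPred_eq, Ideal.dvd_span_singleton, Nat.cast_mul,
      v.isPrime.mul_mem_iff_mem_or_mem, not_or]
  have hSp : AboveP p S := by
    intro v hv
    by_contra h
    exact ((hS v).1 h).1 hv
  have hSℓ : ∀ v : HeightOneSpectrum (𝓞 K), (ℓ : 𝓞 K) ∈ v.asIdeal → v ∈ S := by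
    intro v hv
    by_contra h
    exact ((hS v).1 h).2 hv
  have haS : ∀ v, v ∉ S → a ∉ v.asIdeal := fun v hv => (ha v ((hS v).1 hv).2).1
  -- the index of `a`
  have hη : ∀ v, v ∉ S → ∀ u : (ZMod ℓ)ˣ, (u : ZMod ℓ) = (Ideal.absNorm v.asIdeal : ZMod ℓ) →
      ind p ζ v a = -(f u).toAdd := by
    intro v hv u hu
    have hvp := ((hS v).1 hv).1
    obtain ⟨e, he⟩ := dvd_absNorm_sub_one hζ hvp
    have hN1 : 1 ≤ Ideal.absNorm v.asIdeal := by
      rw [Nat.one_le_iff_ne_zero, Ne, Ideal.absNorm_eq_zero_iff]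
      exact v.ne_bot
    have hN : Ideal.absNorm v.asIdeal = p * e + 1 := by omega
    apply ind_eq hζ hvp (haS v hv)
    rw [he, Nat.mul_div_cancel_left e hp.out.pos]
    have h1 := (ha v ((hS v).1 hv).2).2 e hN
    rw [← hu, hf u] at h1
    have h2 := Ideal.mul_mem_left v.asIdeal (ζ ^ (-(f u).toAdd).val) h1
    have e1 : ζ ^ (-(f u).toAdd).val * ζ ^ ((f u).toAdd).val = 1 := by
      rw [← pow_val_add hζ, neg_add_cancel, ZMod.val_zero, pow_zero]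
    have e2 : ζ ^ (-(f u).toAdd).val * (a ^ e * ζ ^ ((f u).toAdd).val - 1) =
        a ^ e - ζ ^ (-(f u).toAdd).val := by
      linear_combination a ^ e * e1
    rwa [e2] at h2
  obtain ⟨n, hn⟩ := exists_isRay_norm (f⁻¹) S hSℓ (fun v => ind p ζ v a) (by
    intro v hv u hu
    rw [hη v hv u hu]
    rfl)
  obtain ⟨κ, hκ⟩ := const_of_isRay hζ LS hc hprod hk hSp ha0 haS hn
  -- the index does not vanish at `v`, `w`
  have key : ∀ (v : HeightOneSpectrum (𝓞 K)) (q m : ℕ), (p : 𝓞 K) ∉ v.asIdeal → q.Prime →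
      (q : 𝓞 K) ∈ v.asIdeal → Ideal.absNorm v.asIdeal = q ^ m → q < ℓ →
      (∀ x : ZMod ℓ, x ^ p ≠ q) → (∀ n : ℕ, Ideal.absNorm v.asIdeal ≠ n ^ p) → k v = κ := by
    intro v q m hvp hq hqv hm hqℓ hr hN
    have hvS : v ∉ S := by
      rw [hS]
      refine ⟨hvp, fun h => ?_⟩
      have hcop : Nat.Coprime q ℓ := (Nat.coprime_primes hq hℓ).2 hqℓ.ne
      have h1 : IsCoprime (q : ℤ) (ℓ : ℤ) := Nat.isCoprime_iff_coprime.2 hcop
      obtain ⟨s, t, hst⟩ := h1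
      apply v.isPrime.ne_top
      rw [Ideal.eq_top_iff_one]
      have h2 : (s : 𝓞 K) * (q : 𝓞 K) + (t : 𝓞 K) * (ℓ : 𝓞 K) = 1 := by exact_mod_cast hst
      rw [← h2]
      exact Ideal.add_mem _ (Ideal.mul_mem_left _ _ hqv) (Ideal.mul_mem_left _ _ h)
    apply hκ v hvS
    have hq0 : (q : ZMod ℓ) ≠ 0 := by
      rw [Ne, ZMod.natCast_eq_zero_iff]
      exact fun h => absurd (Nat.le_of_dvd hq.pos h) (by omega)
    set u : (ZMod ℓ)ˣ := Units.mk0 (q : ZMod ℓ) hq0 with hu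
    have hu1 : ((u ^ m : (ZMod ℓ)ˣ) : ZMod ℓ) = (Ideal.absNorm v.asIdeal : ZMod ℓ) := by
      rw [Units.val_pow_eq_pow_val, hu, Units.val_mk0, hm, Nat.cast_pow]
    rw [hη v hvS (u ^ m) hu1, map_pow, toAdd_pow, nsmul_eq_mul]
    refine neg_ne_zero.2 (mul_ne_zero ?_ ?_)
    · rw [Ne, ZMod.natCast_eq_zero_iff]
      rintro ⟨j, rfl⟩
      apply hN (q ^ j)
      rw [hm, ← pow_mul, mul_comm j p]
    · intro h
      exact log_ne_one hζ hχ hf (u := u) hr (toAdd_eq_zero.1 h)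
  rw [key v q₁ n₁ hv hq₁ hqv hn₁ (by omega) hr₁ hvN,
    key w q₂ n₂ hw hq₂ hqw hn₂ (by omega) hr₂ hwN]

/-- **The local symbols are the power residue symbols.** -/
theorem exists_symbols [IsTotallyComplex K] (hp2 : p ≠ 2) (hζ : IsPrimitiveRoot ζ p)
    (hN : ∀ v : HeightOneSpectrum (𝓞 K), (p : 𝓞 K) ∉ v.asIdeal →
      ∀ n : ℕ, Ideal.absNorm v.asIdeal ≠ n ^ p) :
    ∃ (LS : LocalSymbols p K) (c : HeightOneSpectrum (𝓞 K) → ZMod p), (∀ v, c v ≠ 0) ∧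
      (∀ a x : Kˣ, (symVec LS hp.out.ne_zero a x).sum (fun v n => c v * n) = 0) ∧
      ∀ v, (p : 𝓞 K) ∉ v.asIdeal → ∀ (a : 𝓞 K) (ha0 : a ≠ 0), a ∉ v.asIdeal → ∀ x : Kˣ,
        c v * (LS.sym v (unt ha0) x).toAdd = ord v x * ind p ζ v a := by
  have hζ' : IsPrimitiveRoot (algebraMap (𝓞 K) K ζ) p :=
    hζ.map_of_injective RingOfIntegers.coe_injective
  obtain ⟨LS, c, hc, hprod⟩ := exists_productFormula K hζ'
  obtain ⟨k, hk0, hk⟩ := exists_consts hζ LS hc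
  have hκ : ∃ κ : ZMod p, κ ≠ 0 ∧ ∀ v : HeightOneSpectrum (𝓞 K), (p : 𝓞 K) ∉ v.asIdeal →
      k v = κ := by
    by_cases h : ∃ w : HeightOneSpectrum (𝓞 K), (p : 𝓞 K) ∉ w.asIdeal
    · obtain ⟨w, hw⟩ := h
      exact ⟨k w, hk0 w hw, fun v hv => const_eq hp2 hζ LS hc hprod hk hv hw (hN v hv) (hN w hw)⟩
    · exact ⟨1, one_ne_zero, fun v hv => absurd ⟨v, hv⟩ h⟩
  obtain ⟨κ, hκ0, hκ⟩ := hκ
  refine ⟨LS, fun v => κ⁻¹ * c v, fun v => mul_ne_zero (inv_ne_zero hκ0) (hc v), ?_, ?_⟩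
  · intro a x
    have h := hprod a x
    rw [Finsupp.sum] at h ⊢
    simp only [mul_assoc]
    rw [← Finset.mul_sum, h, mul_zero]
  · intro v hv a ha0 hav x
    rw [mul_assoc, hk v hv a ha0 hav x, hκ v hv, mul_assoc κ, ← mul_assoc κ⁻¹,
      inv_mul_cancel₀ hκ0, one_mul]

end Const

end Fermat.Agent.Cor.Recip
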