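import Fermat.Agent.Corollaries.Recip.Furtw

/-!
# Kummer's theorem for the equation `(x ^ p + y ^ p) / (x + y) = z ^ p`

Let `p ≥ 5` be a regular prime number, i.e. `p` does not divide the class number of `ℚ(ζ_p)`, and
`x`, `y` coprime integers with `p ∤ x + y` and `x ^ p + y ^ p = z ^ p (x + y)`. Then `p` divides
`x y (x - y)` (`kummer_of_eq`). This is Kummer's argument for the first case of Fermat's last
theorem; here `x + y` need not be a `p`-th power.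
-/

set_option autoImplicit false
set_option linter.unusedSectionVars false

namespace Fermat.Agent.Cor.Recip

open NumberField IsDedekindDomain Polynomial

section KumEq

variable {p : ℕ} [hp : Fact p.Prime] {K : Type} [Field K] [NumberField K] {ζ : 𝓞 K}

lemma not_isUnit_natCast : ¬ IsUnit (p : 𝓞 K) := by
  intro h
  have h1 := absNorm_int (K := K) (p : ℤ)
  rw [Int.cast_natCast, Ideal.span_singleton_eq_top.2 h, Ideal.absNorm_top,
    Int.natAbs_natCast] at h1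
  exact (Nat.one_lt_pow Module.finrank_pos.ne' hp.out.one_lt).ne h1

lemma not_isUnit_lam (hζ : IsPrimitiveRoot ζ p) : ¬ IsUnit (1 - ζ) := by
  intro h
  obtain ⟨e, he⟩ := h.exists_left_inv
  have h1 : IsCoprime (0 : 𝓞 K) (1 - ζ) := ⟨0, e, by rw [he]; ring⟩
  have h2 := isCoprime_natCast_of hζ h1
  rw [isCoprime_zero_left] at h2
  exact not_isUnit_natCast h2

/-- An integer divisible by `1 - ζ` is divisible by `p`. -/
lemma dvd_of_lam_dvd (hζ : IsPrimitiveRoot ζ p) {c : ℤ} (h : (1 - ζ) ∣ (c : 𝓞 K)) :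
    (p : ℤ) ∣ c := by
  by_contra hcon
  have h1 : IsCoprime (p : ℤ) c := (Nat.prime_iff_prime_int.1 hp.out).coprime_iff_not_dvd.2 hcon
  have h2 : IsCoprime ((p : ℤ) : 𝓞 K) (c : 𝓞 K) := h1.map (Int.castRingHom (𝓞 K))
  rw [Int.cast_natCast] at h2
  exact not_isUnit_lam hζ (h2.isUnit_of_dvd' (one_sub_dvd_natCast hζ) h)

lemma exists_zeta_pow_four (j : ℕ) : ∃ (a b : ℤ) (c : 𝓞 K),
    ζ ^ j = 1 - j * (1 - ζ) + a * (1 - ζ) ^ 2 - b * (1 - ζ) ^ 3 + (1 - ζ) ^ 4 * c ∧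
      2 * a = j * (j - 1) ∧ 6 * b = j * (j - 1) * (j - 2) := by
  induction j with
  | zero => exact ⟨0, 0, 0, by simp, by simp, by simp⟩
  | succ j ih =>
    obtain ⟨a, b, c, h, ha, hb⟩ := ih
    refine ⟨a + j, b + a, c + b - (1 - ζ) * c, ?_, ?_, ?_⟩
    · rw [pow_succ, h]
      push_cast
      ring
    · push_cast
      linear_combination ha
    · push_cast
      linear_combination hb + 3 * ha

/-- The congruence `x + ζ y ≡ ζ ^ (k + 1) x + ζ ^ k y mod p`. -/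
theorem dvd_of_congr (hp5 : 5 ≤ p) (hζ : IsPrimitiveRoot ζ p) {x y : ℤ} {k : ℕ}
    (h : (p : 𝓞 K) ∣ (x : 𝓞 K) + ζ * y - (ζ ^ (k + 1) * x + ζ ^ k * y)) :
    (p : ℤ) ∣ x ∨ (p : ℤ) ∣ y ∨ (p : ℤ) ∣ x - y := by
  have hpZ := Nat.prime_iff_prime_int.1 hp.out
  obtain ⟨e, he⟩ : (1 - ζ) ^ 4 ∣ (p : 𝓞 K) :=
    (pow_dvd_pow _ (by omega)).trans (one_sub_zeta_pow_dvd hζ)
  have hl0 : (1 - ζ) ≠ 0 := sub_ne_zero.2 (hζ.ne_one hp.out.one_lt).symm
  obtain ⟨a, b, c, hk, ha, hb⟩ := exists_zeta_pow_four (ζ := ζ) k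
  obtain ⟨d, hd⟩ := h
  set l : 𝓞 K := 1 - ζ with hl
  have hζl : ζ = 1 - l := by rw [hl]; ring
  set A₁ : ℤ := (k + 1) * x + (k - 1) * y with hA₁
  set A₂ : ℤ := -(a + k) * x - a * y with hA₂
  set A₃ : ℤ := (a + b) * x + b * y with hA₃
  -- the expansion
  have e1 : ∃ D : 𝓞 K, (A₁ : 𝓞 K) + l * A₂ + l ^ 2 * A₃ = l ^ 3 * D := by
    refine ⟨e * d + (c + b - l * c) * x + c * y, ?_⟩
    apply mul_left_cancel₀ hl0
    rw [he, pow_succ, hk] at hd
    rw [hA₁, hA₂, hA₃]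
    push_cast
    rw [hζl] at hd
    linear_combination hd
  obtain ⟨D, hD⟩ := e1
  have hp1 : (p : ℤ) ∣ A₁ := dvd_of_lam_dvd hζ ⟨l ^ 2 * D - A₂ - l * A₃, by
    linear_combination hD⟩
  obtain ⟨t₁, ht₁⟩ := hp1
  have ht₁' : (A₁ : 𝓞 K) = l ^ 4 * e * t₁ := by
    rw [ht₁]
    push_cast
    rw [he]
  have e2 : (A₂ : 𝓞 K) + l * A₃ = l ^ 2 * D - l ^ 3 * e * t₁ := by
    apply mul_left_cancel₀ hl0
    linear_combination hD - ht₁'
  have hp2 : (p : ℤ) ∣ A₂ := dvd_of_lam_dvd hζ ⟨l * D - l ^ 2 * e * t₁ - A₃, by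
    linear_combination e2⟩
  obtain ⟨t₂, ht₂⟩ := hp2
  have ht₂' : (A₂ : 𝓞 K) = l ^ 4 * e * t₂ := by
    rw [ht₂]
    push_cast
    rw [he]
  have hp3 : (p : ℤ) ∣ A₃ := by
    refine dvd_of_lam_dvd hζ ⟨D - l * e * t₁ - l ^ 2 * e * t₂, ?_⟩
    apply mul_left_cancel₀ hl0
    linear_combination e2 - ht₂'
  -- elimination
  have h6 : (p : ℤ) ∣ k * (k - 1) * y := by
    have h7 : (k : ℤ) * (k - 1) * y = k * (k - 1) * A₁ - 6 * A₃ := by
      rw [hA₁, hA₃]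
      linear_combination (3 * x) * ha + (x + y) * hb
    rw [h7]
    exact dvd_sub (Dvd.dvd.mul_left ⟨t₁, ht₁⟩ _) (hp3.mul_left _)
  rcases hpZ.dvd_or_dvd h6 with h7 | h7
  · rcases hpZ.dvd_or_dvd h7 with h8 | h8
    · right; right
      have h9 : x - y = A₁ - k * (x + y) := by rw [hA₁]; ring
      rw [h9]
      exact dvd_sub ⟨t₁, ht₁⟩ (h8.mul_right _)
    · left
      have h9 : 2 * x = A₁ - (k - 1) * (x + y) := by rw [hA₁]; ring
      have h10 : (p : ℤ) ∣ 2 * x := by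
        rw [h9]
        exact dvd_sub ⟨t₁, ht₁⟩ (h8.mul_right _)
      refine (hpZ.dvd_or_dvd h10).resolve_left fun h11 => ?_
      have h12 : p ∣ 2 := by exact_mod_cast h11
      have := Nat.le_of_dvd (by norm_num) h12
      omega
  · exact Or.inr (Or.inl h7)

variable [IsCyclotomicExtension {p} ℚ K]

/-- `σ` with `σ ζ = ζ⁻¹` is the complex conjugation in every embedding. -/
lemma embedding_conj (hζ : IsPrimitiveRoot ζ p) {σ : K ≃ₐ[ℚ] K} (hσ : so σ ζ * ζ = 1)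
    (φ : K →+* ℂ) (x : K) : φ (σ x) = (starRingEnd ℂ) (φ x) := by
  have hζK : IsPrimitiveRoot (ζ : K) p := hζ.map_of_injective RingOfIntegers.coe_injective
  have hadj := IsCyclotomicExtension.adjoin_primitive_root_eq_top (A := ℚ) (B := K) hζK
  have h1 : φ (σ (ζ : K)) = (starRingEnd ℂ) (φ (ζ : K)) := by
    have h2 : φ (σ (ζ : K)) * φ (ζ : K) = 1 := by
      rw [← map_mul]
      have h3 : σ (ζ : K) * (ζ : K) = 1 := congrArg (algebraMap (𝓞 K) K) hσ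
      rw [h3, map_one]
    have h4 : (starRingEnd ℂ) (φ (ζ : K)) * φ (ζ : K) = 1 := by
      have h5 : ‖φ (ζ : K)‖ = 1 := Complex.norm_eq_one_of_pow_eq_one
        (by rw [← map_pow, hζK.pow_eq_one, map_one]) hp.out.ne_zero
      rw [mul_comm, Complex.mul_conj, Complex.normSq_eq_norm_sq, h5]
      simp
    have h6 : φ (ζ : K) ≠ 0 := right_ne_zero_of_mul (h2.trans_ne one_ne_zero)
    exact mul_right_cancel₀ h6 (h2.trans h4.symm)
  have h7 : ((φ.comp (σ : K →+* K)).toRatAlgHom : K →ₐ[ℚ] ℂ) =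
      (((starRingEnd ℂ).comp φ).toRatAlgHom : K →ₐ[ℚ] ℂ) := by
    refine AlgHom.ext_of_adjoin_eq_top hadj ?_
    rintro _ rfl
    exact h1
  exact DFunLike.congr_fun h7 x

/-- A unit of `ℤ[ζ]` is `± ζ ^ r` times its complex conjugate. -/
theorem exists_unit_conj (hp2 : p ≠ 2) (hζ : IsPrimitiveRoot ζ p) {σ : K ≃ₐ[ℚ] K}
    (hσ : so σ ζ * ζ = 1) {u : 𝓞 K} (hu : IsUnit u) :
    ∃ r : ℕ, u = ζ ^ r * so σ u ∨ u = -(ζ ^ r * so σ u) := by
  have hζK : IsPrimitiveRoot (ζ : K) p := hζ.map_of_injective RingOfIntegers.coe_injective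
  obtain ⟨v, hv⟩ := (hu.map (so σ)).exists_right_inv
  set w : 𝓞 K := u * v with hw
  have hwu : w * so σ u = u := by
    rw [hw]
    linear_combination u * hv
  have hnorm : ∀ φ : K →+* ℂ, ‖φ (w : K)‖ = 1 := by
    intro φ
    have h1 : φ (w : K) * φ (σ (u : K)) = φ (u : K) := by
      rw [← map_mul]
      exact congrArg φ (congrArg (algebraMap (𝓞 K) K) hwu)
    have h2 := congrArg norm h1
    rw [embedding_conj hζ hσ, norm_mul, RCLike.norm_conj] at h2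
    have h3 : ‖φ (u : K)‖ ≠ 0 := by
      rw [norm_ne_zero_iff, map_ne_zero_iff _ φ.injective]
      exact RingOfIntegers.coe_ne_zero_iff.2 hu.ne_zero
    exact mul_right_cancel₀ h3 (h2.trans (one_mul _).symm)
  obtain ⟨n, hn, hwn⟩ := Embeddings.pow_eq_one_of_norm_eq_one K ℂ w.2 hnorm
  have hfin : IsOfFinOrder (w : K) := isOfFinOrder_iff_pow_eq_one.2 ⟨n, hn, hwn⟩
  obtain ⟨r, -, hr⟩ := hζK.exists_pow_or_neg_mul_pow_of_isOfFinOrder
    (hp.out.odd_of_ne_two hp2) hfin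
  refine ⟨r, ?_⟩
  rcases hr with hr | hr
  · left
    have h1 : w = ζ ^ r := RingOfIntegers.coe_injective (by rw [map_pow]; exact hr)
    rw [← h1, hwu]
  · right
    have h1 : w = -ζ ^ r := RingOfIntegers.coe_injective (by rw [map_neg, map_pow]; exact hr)
    rw [← neg_mul, ← h1, hwu]

/-- `p`-th powers are congruent to rational integers modulo `p`. -/
theorem exists_int_dvd_pow_sub (hζ : IsPrimitiveRoot ζ p) (a : 𝓞 K) :
    ∃ n : ℤ, (p : 𝓞 K) ∣ a ^ p - n := by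
  have ha : a ∈ Algebra.adjoin ℤ ({ζ} : Set (𝓞 K)) := by
    rw [IsCyclotomicExtension.adjoin_primitive_root_eq_top (A := ℤ) (B := 𝓞 K) hζ]
    exact Algebra.mem_top
  induction ha using Algebra.adjoin_induction with
  | mem x hx =>
    rw [Set.mem_singleton_iff] at hx
    exact ⟨1, by rw [hx, hζ.pow_eq_one]; simp⟩
  | algebraMap r => exact ⟨r ^ p, by simp⟩
  | add x y _ _ ihx ihy =>
    obtain ⟨n, s, hs⟩ := ihx
    obtain ⟨m, t, ht⟩ := ihy
    obtain ⟨r, hr⟩ := exists_add_pow_prime_eq hp.out x y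
    refine ⟨n + m, s + t + x * y * r, ?_⟩
    rw [hr]
    push_cast
    linear_combination hs + ht
  | mul x y _ _ ihx ihy =>
    obtain ⟨n, s, hs⟩ := ihx
    obtain ⟨m, t, ht⟩ := ihy
    refine ⟨n * m, s * y ^ p + n * t, ?_⟩
    rw [mul_pow]
    push_cast
    linear_combination y ^ p * hs + (n : 𝓞 K) * ht

/-- **Kummer's theorem**, ideal form. -/
theorem kummer_ideal (hp5 : 5 ≤ p) (hreg : ¬ p ∣ classNumber K) (hζ : IsPrimitiveRoot ζ p)
    {x y : ℤ} (hs : ¬ (p : ℤ) ∣ x + y) {J : Ideal (𝓞 K)}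
    (hJ : Ideal.span {(x : 𝓞 K) + ζ * y} = J ^ p) :
    (p : ℤ) ∣ x ∨ (p : ℤ) ∣ y ∨ (p : ℤ) ∣ x - y := by
  have hp2 : p ≠ 2 := by omega
  have hpZ := Nat.prime_iff_prime_int.1 hp.out
  -- `J` is principal
  have hcop : p.Coprime (Fintype.card (ClassGroup (𝓞 K))) := by
    rw [Nat.Prime.coprime_iff_not_dvd hp.out]
    exact hreg
  obtain ⟨α, hα⟩ : ∃ α : 𝓞 K, J = Ideal.span {α} := by
    have h1 : J.IsPrincipal := Ideal.IsPrincipal.of_isPrincipal_pow_of_coprime hcop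
      ⟨_, hJ.symm⟩
    exact h1.principal
  rw [hα, Ideal.span_singleton_pow, Ideal.span_singleton_eq_span_singleton] at hJ
  obtain ⟨u, hu⟩ := hJ.symm
  obtain ⟨σ, hσ⟩ := exists_conj hζ
  have hξ : ζ ^ (p - 1) * ζ = 1 := by
    rw [← pow_succ, Nat.sub_add_cancel hp.out.one_le, hζ.pow_eq_one]
  have hζ0 : ζ ≠ 0 := hζ.ne_zero hp.out.ne_zero
  have hσζ : so σ ζ = ζ ^ (p - 1) := mul_right_cancel₀ hζ0 (hσ.trans hξ.symm)
  have hconj : so σ α ^ p * so σ (u : 𝓞 K) = (x : 𝓞 K) + ζ ^ (p - 1) * y := by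
    have h1 := congrArg (so σ) hu
    rw [map_mul, map_pow, map_add, map_mul, hσζ, map_intCast, map_intCast] at h1
    exact h1
  obtain ⟨n, t, ht⟩ := exists_int_dvd_pow_sub hζ α
  have ht' : so σ α ^ p - n = (p : 𝓞 K) * so σ t := by
    have h1 := congrArg (so σ) ht
    rwa [map_sub, map_pow, map_intCast, map_mul, map_natCast] at h1
  obtain ⟨r, hr | hr⟩ := exists_unit_conj hp2 hζ hσ u.isUnit
  · -- the sign `+`
    refine dvd_of_congr hp5 hζ (k := r + (p - 1)) ⟨(u : 𝓞 K) * (t - so σ t), ?_⟩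
    have h1 : ζ ^ (r + (p - 1) + 1) = ζ ^ r := by
      rw [add_assoc, Nat.sub_add_cancel hp.out.one_le, pow_add, hζ.pow_eq_one, mul_one]
    rw [h1, pow_add]
    linear_combination -hu + ζ ^ r * hconj + so σ α ^ p * hr + (u : 𝓞 K) * ht - (u : 𝓞 K) * ht'
  · -- the sign `-` is impossible
    exfalso
    obtain ⟨e, he⟩ := one_sub_dvd_natCast hζ
    obtain ⟨c₁, hc₁⟩ := exists_zeta_pow (ζ := ζ) r
    obtain ⟨c₂, hc₂⟩ := exists_zeta_pow (ζ := ζ) (r + (p - 1))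
    have h1 : (1 - ζ) ∣ ((2 * (x + y) : ℤ) : 𝓞 K) := by
      refine ⟨e * ((u : 𝓞 K) * (t - so σ t)) + y + r * x - (1 - ζ) * c₁ * x +
        ((r + (p - 1) : ℕ) : 𝓞 K) * y - (1 - ζ) * c₂ * y, ?_⟩
      have h2 : (x : 𝓞 K) + ζ * y + (ζ ^ r * x + ζ ^ (r + (p - 1)) * y) =
          (p : 𝓞 K) * ((u : 𝓞 K) * (t - so σ t)) := by
        rw [pow_add]
        linear_combination -hu - ζ ^ r * hconj + so σ α ^ p * hr + (u : 𝓞 K) * ht -
          (u : 𝓞 K) * ht'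
      rw [hc₁, hc₂] at h2
      push_cast at h2 ⊢
      linear_combination h2 + ((u : 𝓞 K) * (t - so σ t)) * he
    rcases hpZ.dvd_or_dvd (dvd_of_lam_dvd hζ h1) with h3 | h3
    · have h4 : p ∣ 2 := by exact_mod_cast h3
      have := Nat.le_of_dvd (by norm_num) h4
      omega
    · exact hs h3

end KumEq

/-- **Kummer's theorem** for the equation `(x ^ p + y ^ p) / (x + y) = z ^ p`: `p ≥ 5` a regular
prime, `x`, `y` coprime, `p ∤ x + y`. Then `p` divides `x`, `y` or `x - y`. -/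
theorem kummer_of_eq {p : ℕ} [Fact p.Prime] (hp5 : 5 ≤ p)
    (hreg : ¬ p ∣ classNumber (CyclotomicField p ℚ)) {x y z : ℤ} (hxy : IsCoprime x y)
    (hs : ¬ (p : ℤ) ∣ x + y) (h : x ^ p + y ^ p = z ^ p * (x + y)) :
    (p : ℤ) ∣ x ∨ (p : ℤ) ∣ y ∨ (p : ℤ) ∣ x - y := by
  have hp : p.Prime := Fact.out
  have : NeZero ((p : ℕ) : ℚ) := ⟨by exact_mod_cast hp.ne_zero⟩
  have hcyc : IsCyclotomicExtension {p} ℚ (CyclotomicField p ℚ) :=
    CyclotomicField.isCyclotomicExtension p ℚ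
  have hζ := (IsCyclotomicExtension.zeta_spec p ℚ (CyclotomicField p ℚ)).toInteger_isPrimitiveRoot
  have hpZ := Nat.prime_iff_prime_int.1 hp
  obtain ⟨J, hJ⟩ := exists_ideal_pow (by omega) hζ hxy (hpZ.coprime_iff_not_dvd.2 hs).symm h
  exact kummer_ideal hp5 hreg hζ hs hJ

end Fermat.Agent.Cor.Recip
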