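import Fermat.Agent.Corollaries.Recip.Local

/-!
# The `p`-th power reciprocity law

`K` is a number field containing a primitive `p`-th root of unity `ζ`, `p` a prime.

* `locPow_iff_locPow`: `a, b ∈ Kˣ` whose divisors outside `p` are, up to `p`-th powers, supported
  at the single places `P ≠ Q`; if `(a, b)_v = 1` for all `v ∣ p` then `a` is a `p`-th power in
  `K_Q` iff `b` is a `p`-th power in `K_P`;
* `residuacity`: `π, l` non-associated prime elements of `𝓞 K` prime to `p`, `π` congruent to a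
  `p`-th power modulo `p (1 - ζ)`: `π` is a `p`-th power modulo `l` iff `l` is a `p`-th power
  modulo `π`.
-/

set_option autoImplicit false

namespace Fermat.Agent.Cor.Recip

open Fermat.Agent.CFT.Global Fermat.Agent.CFT.Global2
open Fermat.Agent.CFT.SUnits (ord ord_one ord_mul ord_pow ord_div ord_inv ord_eq_zero_iff
  valuation_eq_exp_neg_ord)
open NumberField IsDedekindDomain WithZero

/-! ### More on the tame symbol -/

section Tame

universe u

variable {K : Type u} [Field K] [NumberField K] {p : ℕ} (v : HeightOneSpectrum (𝓞 K))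

lemma ord_zpow (x : Kˣ) (k : ℤ) : ord v (x ^ k) = k * ord v x := by
  obtain ⟨n, hn | hn⟩ := Int.eq_nat_or_neg k
  · rw [hn, zpow_natCast, ord_pow]
  · rw [hn, zpow_neg, zpow_natCast, ord_inv, ord_pow]
    ring

lemma exists_ord_eq (k : ℤ) : ∃ x : Kˣ, ord v x = k := by
  obtain ⟨ϖ, hϖ⟩ := v.valuation_exists_uniformizer K
  have h0 : ϖ ≠ 0 := (Valuation.ne_zero_iff _).1 (by rw [hϖ]; exact exp_ne_zero)
  refine ⟨Units.mk0 ϖ h0 ^ k, ?_⟩
  have h1 := valuation_eq_exp_neg_ord (K := K) v (Units.mk0 ϖ h0)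
  rw [Units.val_mk0, hϖ, exp_inj] at h1
  rw [ord_zpow, show ord v (Units.mk0 ϖ h0) = 1 by omega, mul_one]

variable (LS : LocalSymbols p K)

lemma sym_div_pow_left (a s x : Kˣ) : LS.sym v (a / s ^ p) x = LS.sym v a x := by
  rw [map_div (LS.sym v), MonoidHom.div_apply, LS.sym_eq_one_of_left (pow_mem_locPow p v s), div_one]

lemma sym_div_pow_right (a s x : Kˣ) : LS.sym v a (x / s ^ p) = LS.sym v a x := by
  rw [map_div, LS.sym_eq_one_of_right (pow_mem_locPow p v s), div_one]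

include LS in
lemma div_pow_mem_locPow_iff (a s : Kˣ) : a / s ^ p ∈ locPow p v ↔ a ∈ locPow p v := by
  rw [LS.mem_locPow_iff, LS.mem_locPow_iff]
  exact forall_congr' fun x => by rw [sym_div_pow_left]

/-- At `v ∤ p`, the symbol is trivial if both valuations are divisible by `p`. -/
theorem sym_eq_one_of_dvd (hv : (p : 𝓞 K) ∉ v.asIdeal) {a x : Kˣ} (ha : (p : ℤ) ∣ ord v a)
    (hx : (p : ℤ) ∣ ord v x) : LS.sym v a x = 1 := by
  obtain ⟨k, hk⟩ := ha
  obtain ⟨m, hm⟩ := hx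
  obtain ⟨s, hs⟩ := exists_ord_eq (K := K) v k
  obtain ⟨t, ht⟩ := exists_ord_eq (K := K) v m
  rw [← sym_div_pow_left v LS a s, ← sym_div_pow_right v LS _ t]
  refine LS.unit_mem v hv _ _ ?_ ?_
  · rw [ord_div, ord_pow, hs, hk, sub_self]
  · rw [ord_div, ord_pow, ht, hm, sub_self]

/-- At `v ∤ p`: if `p ∣ ord_v a` and `p ∤ ord_v x` then `(a, x)_v = 1` iff `a` is a `p`-th power
in `K_v`. -/
theorem sym_eq_one_iff_of_dvd (hp : p.Prime) (hv : (p : 𝓞 K) ∉ v.asIdeal) {a x : Kˣ}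
    (ha : (p : ℤ) ∣ ord v a) (hx : ¬ (p : ℤ) ∣ ord v x) :
    LS.sym v a x = 1 ↔ a ∈ locPow p v := by
  refine ⟨fun h => ?_, fun h => LS.sym_eq_one_of_left h⟩
  rw [LS.mem_locPow_iff]
  intro y
  have hcop : IsCoprime (p : ℤ) (ord v x) :=
    (Int.prime_iff_natAbs_prime.2 (by simpa using hp)).coprime_iff_not_dvd.2 hx
  obtain ⟨c, d, hcd⟩ := hcop
  obtain ⟨s, hs⟩ := exists_ord_eq (K := K) v (c * ord v y)
  have h1 : LS.sym v a (y / (x ^ (d * ord v y) * s ^ p)) = 1 := by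
    refine sym_eq_one_of_dvd v LS hv ha ?_
    rw [ord_div, ord_mul, ord_zpow, ord_pow, hs]
    refine ⟨0, ?_⟩
    linear_combination (-(ord v y)) * hcd
  rw [map_div, map_mul, map_zpow, h, one_zpow, one_mul,
    LS.sym_eq_one_of_right (pow_mem_locPow p v s), div_one] at h1
  exact h1

lemma sym_comm_eq_one_iff (a x : Kˣ) : LS.sym v a x = 1 ↔ LS.sym v x a = 1 := by
  have h := LS.skew v a x
  constructor
  · intro h1
    rwa [h1, one_mul] at h
  · intro h1
    rwa [h1, mul_one] at h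

end Tame

/-! ### The reciprocity law -/

section Main

variable {p : ℕ} [hp : Fact p.Prime] {K : Type} [Field K] [NumberField K]

/-- **The reciprocity law for `p`-th powers.** -/
theorem locPow_iff_locPow [IsTotallyComplex K] {ζ : K} (hζ : IsPrimitiveRoot ζ p)
    {P Q : HeightOneSpectrum (𝓞 K)} (hPQ : P ≠ Q) (hP : (p : 𝓞 K) ∉ P.asIdeal)
    (hQ : (p : 𝓞 K) ∉ Q.asIdeal) {a b : Kˣ}
    (ha : ∀ v : HeightOneSpectrum (𝓞 K), (p : 𝓞 K) ∉ v.asIdeal → v ≠ P → (p : ℤ) ∣ ord v a)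
    (haP : ¬ (p : ℤ) ∣ ord P a)
    (hb : ∀ v : HeightOneSpectrum (𝓞 K), (p : 𝓞 K) ∉ v.asIdeal → v ≠ Q → (p : ℤ) ∣ ord v b)
    (hbQ : ¬ (p : ℤ) ∣ ord Q b)
    (hloc : ∀ (LS : LocalSymbols p K) (v : HeightOneSpectrum (𝓞 K)), (p : 𝓞 K) ∈ v.asIdeal →
      LS.sym v a b = 1) :
    a ∈ locPow p Q ↔ b ∈ locPow p P := by
  classical
  obtain ⟨LS, c, hc, hprod⟩ := exists_productFormula K hζ
  have h0 : ∀ v, v ≠ P → v ≠ Q → symVec LS hp.out.ne_zero a b v = 0 := by
    intro v hvP hvQ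
    rw [symVec_apply]
    have h1 : LS.sym v a b = 1 := by
      by_cases hv : (p : 𝓞 K) ∈ v.asIdeal
      · exact hloc LS v hv
      · exact sym_eq_one_of_dvd v LS hv (ha v hv hvP) (hb v hv hvQ)
    rw [h1]
    rfl
  have hsum : c P * (LS.sym P a b).toAdd + c Q * (LS.sym Q a b).toAdd = 0 := by
    have h1 := hprod a b
    rw [Finsupp.sum_of_support_subset (s := {P, Q}) _ ?_ _ (fun v _ => mul_zero _),
      Finset.sum_pair hPQ, symVec_apply, symVec_apply] at h1
    · exact h1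
    · intro v hv
      rw [Finset.mem_insert, Finset.mem_singleton]
      by_contra h
      push Not at h
      exact (Finsupp.mem_support_iff.1 hv) (h0 v h.1 h.2)
  rw [← sym_eq_one_iff_of_dvd Q LS hp.out hQ (ha Q hQ hPQ.symm) hbQ,
    ← sym_eq_one_iff_of_dvd P LS hp.out hP (hb P hP hPQ) haP, sym_comm_eq_one_iff P LS b a]
  have e : ∀ v, LS.sym v a b = 1 ↔ (LS.sym v a b).toAdd = 0 := fun v => toAdd_eq_zero.symm
  rw [e, e]
  constructor
  · intro h
    rw [h, mul_zero, add_zero] at hsum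
    exact (mul_eq_zero.1 hsum).resolve_left (hc P)
  · intro h
    rw [h, mul_zero, zero_add] at hsum
    exact (mul_eq_zero.1 hsum).resolve_left (hc Q)

omit hp in
/-- The place defined by a prime element. -/
noncomputable def plc {K : Type*} [Field K] [NumberField K] {π : 𝓞 K} (hπ : Prime π) :
    HeightOneSpectrum (𝓞 K) where
  asIdeal := Ideal.span {π}
  isPrime := (Ideal.span_singleton_prime hπ.ne_zero).2 hπ
  ne_bot := by
    rw [Ne, Ideal.span_singleton_eq_bot]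
    exact hπ.ne_zero

omit hp in
lemma mem_plc {K : Type*} [Field K] [NumberField K] {π : 𝓞 K} (hπ : Prime π) (x : 𝓞 K) :
    x ∈ (plc hπ).asIdeal ↔ π ∣ x := Ideal.mem_span_singleton

/-- A non-zero integer as a unit of `K`. -/
noncomputable def unt {K : Type*} [Field K] [NumberField K] {x : 𝓞 K} (hx : x ≠ 0) : Kˣ :=
  Units.mk0 (algebraMap (𝓞 K) K x) ((map_ne_zero_iff _ RingOfIntegers.coe_injective).2 hx)

lemma unt_val {K : Type*} [Field K] [NumberField K] {x : 𝓞 K} (hx : x ≠ 0) :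
    ((unt hx : Kˣ) : K) = algebraMap (𝓞 K) K x := rfl

lemma ord_unt_eq_zero {K : Type*} [Field K] [NumberField K] {x : 𝓞 K} (hx : x ≠ 0)
    {v : HeightOneSpectrum (𝓞 K)} (hv : x ∉ v.asIdeal) : ord v (unt hx) = 0 := by
  rw [ord_eq_zero_iff (K := K), unt_val]
  exact (v.valuation_eq_one_iff_notMem (K := K)).2 hv

lemma ord_plc_self {K : Type*} [Field K] [NumberField K] {π : 𝓞 K} (hπ : Prime π) :
    ord (plc hπ) (unt hπ.ne_zero) = 1 := by
  have h1 := valuation_eq_exp_neg_ord (K := K) (plc hπ) (unt hπ.ne_zero)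
  rw [unt_val, (plc hπ).valuation_of_algebraMap, (plc hπ).intValuation_singleton hπ.ne_zero rfl,
    exp_inj] at h1
  omega

lemma ord_plc_of_ne {K : Type*} [Field K] [NumberField K] {π : 𝓞 K} (hπ : Prime π)
    {v : HeightOneSpectrum (𝓞 K)} (hv : v ≠ plc hπ) : ord v (unt hπ.ne_zero) = 0 := by
  apply ord_unt_eq_zero
  intro h
  apply hv
  ext1
  have h1 : (plc hπ).asIdeal ≤ v.asIdeal := by
    intro x hx
    obtain ⟨y, rfl⟩ := (mem_plc hπ x).1 hx
    exact Ideal.mul_mem_right _ _ h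
  exact ((plc hπ).isMaximal.eq_of_le v.isPrime.ne_top h1).symm

/-- A number field containing a primitive `p`-th root of unity with `p` odd is totally complex. -/
theorem isTotallyComplex_of_odd {p : ℕ} (hp : p.Prime) (hp2 : p ≠ 2) {K : Type*} [Field K]
    [NumberField K] {ζ : K} (hζ : IsPrimitiveRoot ζ p) : IsTotallyComplex K :=
  nrRealPlaces_eq_zero_iff.1
    (InfinitePlace.IsPrimitiveRoot.nrRealPlaces_eq_zero_of_two_lt
      (lt_of_le_of_ne hp.two_le hp2.symm) hζ)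

/-- **The `p`-th power reciprocity law** for prime elements with trivial symbols above `p`. -/
theorem residue_iff_residue [IsTotallyComplex K] {ζ : K} (hζ : IsPrimitiveRoot ζ p) {π l : 𝓞 K}
    (hπ : Prime π) (hl : Prime l) (hne : ¬ Associated π l) (hpπ : ¬ π ∣ (p : 𝓞 K))
    (hpl : ¬ l ∣ (p : 𝓞 K))
    (hloc : ∀ (LS : LocalSymbols p K) (v : HeightOneSpectrum (𝓞 K)), (p : 𝓞 K) ∈ v.asIdeal →
      LS.sym v (unt hπ.ne_zero) (unt hl.ne_zero) = 1) :
    (∃ x : 𝓞 K, l ∣ x ^ p - π) ↔ ∃ x : 𝓞 K, π ∣ x ^ p - l := by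
  have hPQ : plc hπ ≠ plc hl := by
    intro h
    apply hne
    rw [← Ideal.span_singleton_eq_span_singleton]
    exact congrArg HeightOneSpectrum.asIdeal h
  have hP : (p : 𝓞 K) ∉ (plc hπ).asIdeal := fun h => hpπ ((mem_plc hπ _).1 h)
  have hQ : (p : 𝓞 K) ∉ (plc hl).asIdeal := fun h => hpl ((mem_plc hl _).1 h)
  have hndvd : ¬ (p : ℤ) ∣ 1 := by
    intro h
    have := Int.eq_one_of_dvd_one (by positivity) h
    have := hp.out.one_lt
    omega
  have hπl : π ∉ (plc hl).asIdeal := by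
    intro h
    exact hne ((hl.associated_of_dvd hπ ((mem_plc hl π).1 h)).symm)
  have hlπ : l ∉ (plc hπ).asIdeal := by
    intro h
    exact hne (hπ.associated_of_dvd hl ((mem_plc hπ l).1 h))
  have key := locPow_iff_locPow hζ hPQ hP hQ (a := unt hπ.ne_zero) (b := unt hl.ne_zero)
    (fun v _ hv => by rw [ord_plc_of_ne hπ hv]; exact dvd_zero _)
    (by rw [ord_plc_self]; exact hndvd)
    (fun v _ hv => by rw [ord_plc_of_ne hl hv]; exact dvd_zero _)
    (by rw [ord_plc_self]; exact hndvd) hloc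
  rw [mem_locPow_iff_residue (plc hl) hp.out hQ (unt_val hπ.ne_zero) hπl,
    mem_locPow_iff_residue (plc hπ) hp.out hP (unt_val hl.ne_zero) hlπ] at key
  simpa only [mem_plc] using key

/-- **The `p`-th power reciprocity law.** Let `K` be a totally complex number field containing a
primitive `p`-th root of unity `ζ`, let `π`, `l` be non-associated prime elements of `𝓞 K` not
dividing `p`, and suppose that `π` is congruent to a `p`-th power modulo `p (1 - ζ)`. Then `π` is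
a `p`-th power modulo `l` if and only if `l` is a `p`-th power modulo `π`. -/
theorem residuacity [IsTotallyComplex K] {ζ : 𝓞 K} (hζ : IsPrimitiveRoot ζ p) {π l : 𝓞 K}
    (hπ : Prime π) (hl : Prime l) (hne : ¬ Associated π l) (hpπ : ¬ π ∣ (p : 𝓞 K))
    (hpl : ¬ l ∣ (p : 𝓞 K)) (hprim : ∃ c : 𝓞 K, (p : 𝓞 K) * (1 - ζ) ∣ π - c ^ p) :
    (∃ x : 𝓞 K, l ∣ x ^ p - π) ↔ ∃ x : 𝓞 K, π ∣ x ^ p - l := by
  have hζ' : IsPrimitiveRoot (algebraMap (𝓞 K) K ζ) p :=
    hζ.map_of_injective RingOfIntegers.coe_injective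
  refine residue_iff_residue hζ' hπ hl hne hpπ hpl fun LS v hv => ?_
  obtain ⟨c, w, hw⟩ := hprim
  have hnotMem : ∀ {x : 𝓞 K} (hx : Prime x), ¬ x ∣ (p : 𝓞 K) → v ≠ plc hx := by
    rintro x hx hxp rfl
    exact hxp ((mem_plc hx _).1 hv)
  refine sym_eq_one_of_primary v LS hp.out hv hζ' (c := algebraMap (𝓞 K) K c)
    (ord_plc_of_ne hπ (hnotMem hπ hpπ)) (ord_plc_of_ne hl (hnotMem hl hpl)) ?_
  have e : ((unt hπ.ne_zero : Kˣ) : K) - algebraMap (𝓞 K) K c ^ p =
      (p * (1 - algebraMap (𝓞 K) K ζ)) * algebraMap (𝓞 K) K w := by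
    have h1 := congrArg (algebraMap (𝓞 K) K) hw
    simp only [map_sub, map_mul, map_pow, map_natCast, map_one] at h1
    rw [unt_val, h1]
  rw [e, map_mul]
  exact mul_le_of_le_one_right' (v.valuation_le_one w)

/-- **The `p`-th power reciprocity law for odd `p`**; `K` is then automatically totally complex. -/
theorem residuacity_odd (hp2 : p ≠ 2) {ζ : 𝓞 K} (hζ : IsPrimitiveRoot ζ p) {π l : 𝓞 K}
    (hπ : Prime π) (hl : Prime l) (hne : ¬ Associated π l) (hpπ : ¬ π ∣ (p : 𝓞 K))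
    (hpl : ¬ l ∣ (p : 𝓞 K)) (hprim : ∃ c : 𝓞 K, (p : 𝓞 K) * (1 - ζ) ∣ π - c ^ p) :
    (∃ x : 𝓞 K, l ∣ x ^ p - π) ↔ ∃ x : 𝓞 K, π ∣ x ^ p - l := by
  have : IsTotallyComplex K := isTotallyComplex_of_odd hp.out hp2
    (hζ.map_of_injective (f := algebraMap (𝓞 K) K) RingOfIntegers.coe_injective)
  exact residuacity hζ hπ hl hne hpπ hpl hprim

/-- **Quadratic reciprocity in totally complex number fields** (residuacity form, Hecke): let
`π`, `l` be non-associated odd prime elements, `π` congruent to a square modulo `4`. Then `π` is a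
square modulo `l` if and only if `l` is a square modulo `π`. -/
theorem quadratic_residuacity [IsTotallyComplex K] {π l : 𝓞 K} (hπ : Prime π) (hl : Prime l)
    (hne : ¬ Associated π l) (h2π : ¬ π ∣ 2) (h2l : ¬ l ∣ 2) (hprim : ∃ c : 𝓞 K, 4 ∣ π - c ^ 2) :
    (∃ x : 𝓞 K, l ∣ x ^ 2 - π) ↔ ∃ x : 𝓞 K, π ∣ x ^ 2 - l := by
  have hζ : IsPrimitiveRoot (-1 : 𝓞 K) 2 := IsPrimitiveRoot.neg_one 0 (by norm_num)
  obtain ⟨c, hc⟩ := hprim
  have := Fact.mk Nat.prime_two
  refine residuacity (p := 2) hζ hπ hl hne (by exact_mod_cast h2π) (by exact_mod_cast h2l)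
    ⟨c, ?_⟩
  have e : ((2 : ℕ) : 𝓞 K) * (1 - -1) = 4 := by norm_num
  rw [e]
  exact hc

end Main

end Fermat.Agent.Cor.Recip
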