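import Fermat.Agent.Corollaries.Recip.Exact
import Fermat.Agent.CFT.Global.Places

/-!
# Galois equivariance, rational integers and the supplements of cubic reciprocity

* `resSym_conj`: `(σ a / σ b) = σ (a / b)` for an automorphism `σ` of `K`;
* `resSym_int`: `(m / n) = 1` for coprime rational integers `m`, `n`, `n` prime to `p`, `K / ℚ` Galois,
  `p` odd;
* `cubic_omega`, `cubic_lambda`: **the supplements of cubic reciprocity** (Eisenstein 1844): for
  `π = 3 m - 1 + 3 n ω` in `ℤ[ω]`: `(ω / π)₃ = ω ^ (m + n)` and `((1 - ω) / π)₃ = ω ^ (2 m)`.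
-/

set_option autoImplicit false
set_option linter.unusedSectionVars false

namespace Fermat.Agent.Cor.Recip

open Fermat.Agent.CFT.Global Fermat.Agent.CFT.Global2
open Fermat.Agent.CFT.SUnits (ord ord_one ord_mul ord_pow ord_div ord_inv ord_eq_zero_iff
  valuation_eq_exp_neg_ord)
open Fermat.Agent.CFT.Places (conj mem_conj valuation_conj conj_one)
open NumberField IsDedekindDomain WithZero

section Equiv

variable {p : ℕ} [hp : Fact p.Prime] {K : Type} [Field K] [NumberField K] {ζ : 𝓞 K}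

/-- The action of an automorphism on the ring of integers. -/
noncomputable def so (σ : K ≃ₐ[ℚ] K) : 𝓞 K ≃+* 𝓞 K := RingOfIntegers.mapRingEquiv (σ : K ≃+* K)

lemma so_coe (σ : K ≃ₐ[ℚ] K) (x : 𝓞 K) : ((so σ x : 𝓞 K) : K) = σ (x : K) := rfl

lemma so_mem_conj (σ : K ≃ₐ[ℚ] K) (v : HeightOneSpectrum (𝓞 K)) (x : 𝓞 K) :
    so σ x ∈ (conj σ v).asIdeal ↔ x ∈ v.asIdeal := by
  rw [mem_conj]
  exact iff_of_eq (congrArg (· ∈ v.asIdeal) ((so σ).symm_apply_apply x))

lemma absNorm_conj (σ : K ≃ₐ[ℚ] K) (v : HeightOneSpectrum (𝓞 K)) :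
    Ideal.absNorm (conj σ v).asIdeal = Ideal.absNorm v.asIdeal := by
  rw [absNorm_eq_card, absNorm_eq_card]
  have h : (conj σ v).asIdeal = Ideal.map (so σ : 𝓞 K →+* 𝓞 K) v.asIdeal := by
    ext x
    rw [Ideal.mem_map_iff_of_surjective (so σ : 𝓞 K →+* 𝓞 K) (so σ).surjective]
    constructor
    · intro hx
      refine ⟨(so σ).symm x, ?_, (so σ).apply_symm_apply x⟩
      rwa [← so_mem_conj σ, RingEquiv.apply_symm_apply]
    · rintro ⟨y, hy, rfl⟩
      exact (so_mem_conj σ v y).2 hy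
  exact (Nat.card_congr (Ideal.quotientEquiv v.asIdeal (conj σ v).asIdeal (so σ) h).toEquiv).symm

/-- `(σ a / σ v) = σ (a / v)`. -/
theorem resAt_conj (hζ : IsPrimitiveRoot ζ p) (σ : K ≃ₐ[ℚ] K) {v : HeightOneSpectrum (𝓞 K)}
    (hv : (p : 𝓞 K) ∉ v.asIdeal) (a : 𝓞 K) :
    resAt p ζ (so σ a) (conj σ v) = so σ (resAt p ζ a v) := by
  by_cases ha : a ∈ v.asIdeal
  · rw [resAt_of_mem ha, resAt_of_mem ((so_mem_conj σ v a).2 ha), map_zero]
  · have hv' : (p : 𝓞 K) ∉ (conj σ v).asIdeal := by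
      intro h
      apply hv
      rw [← so_mem_conj σ, map_natCast]
      exact h
    apply resAt_eq hζ hv' (fun h => ha ((so_mem_conj σ v a).1 h))
    · rw [← map_pow, resAt_pow hζ ha, map_one]
    · rw [absNorm_conj, ← map_pow, ← map_sub, so_mem_conj]
      exact resAt_spec hζ hv a

lemma expo_conj (σ : K ≃ₐ[ℚ] K) {x : 𝓞 K} (hx : x ≠ 0) (v : HeightOneSpectrum (𝓞 K)) :
    expo (conj σ v) (Ideal.span {so σ x}) = expo v (Ideal.span {x}) := by
  have hx' : so σ x ≠ 0 := by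
    rw [Ne, map_eq_zero_iff _ (so σ).injective]
    exact hx
  have h1 := valuation_conj σ v ((unt hx : Kˣ) : K)
  have h2 : σ ((unt hx : Kˣ) : K) = ((unt hx' : Kˣ) : K) := rfl
  rw [h2, valuation_eq_exp_neg_ord, valuation_eq_exp_neg_ord, exp_inj] at h1
  have h3 := expo_span (v := conj σ v) hx'
  have h4 := expo_span (v := v) hx
  omega

/-- The action on the places as a permutation. -/
noncomputable def conjEquiv (σ : K ≃ₐ[ℚ] K) :
    HeightOneSpectrum (𝓞 K) ≃ HeightOneSpectrum (𝓞 K) where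
  toFun := conj σ
  invFun := conj σ⁻¹
  left_inv v := by rw [← Fermat.Agent.CFT.Places.conj_mul, inv_mul_cancel, conj_one]
  right_inv v := by rw [← Fermat.Agent.CFT.Places.conj_mul, mul_inv_cancel, conj_one]

/-- **Galois equivariance**: `(σ a / σ b) = σ (a / b)`. -/
theorem resSym_conj (hζ : IsPrimitiveRoot ζ p) (σ : K ≃ₐ[ℚ] K) (a : 𝓞 K) {b : 𝓞 K} (hb : b ≠ 0)
    (hbp : IsCoprime b (p : 𝓞 K)) :
    resSym p ζ (so σ a) (Ideal.span {so σ b}) = so σ (resSym p ζ a (Ideal.span {b})) := by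
  rw [resSym, resSym, ← finprod_comp_equiv (conjEquiv σ)]
  have h1 : so σ (∏ᶠ v : HeightOneSpectrum (𝓞 K), resAt p ζ a v ^ expo v (Ideal.span {b})) =
      ∏ᶠ v : HeightOneSpectrum (𝓞 K), so σ (resAt p ζ a v ^ expo v (Ideal.span {b})) :=
    MonoidHom.map_finprod (so σ : 𝓞 K →* 𝓞 K) (finite_mulSupport_resSym a (Ideal.span {b}))
  rw [h1]
  refine finprod_congr fun v => ?_
  change resAt p ζ (so σ a) (conj σ v) ^ expo (conj σ v) (Ideal.span {so σ b}) = _
  rw [expo_conj σ hb v, map_pow]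
  by_cases hv : (p : 𝓞 K) ∈ v.asIdeal
  · have h2 : b ∉ v.asIdeal := by
      intro h
      obtain ⟨s, t, hst⟩ := hbp
      apply v.isPrime.ne_top
      rw [Ideal.eq_top_iff_one, ← hst]
      exact Ideal.add_mem _ (Ideal.mul_mem_left _ _ h) (Ideal.mul_mem_left _ _ hv)
    rw [expo_span_eq_zero hb h2, pow_zero, pow_zero]
  · rw [resAt_conj hζ σ hv a]

/-- The symbol of coprime elements is a power of `ζ`. -/
lemma exists_resSym_eq (hζ : IsPrimitiveRoot ζ p) {a b : 𝓞 K} (hb : b ≠ 0) (hab : IsCoprime a b) :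
    ∃ j : ZMod p, resSym p ζ a (Ideal.span {b}) = zhom hζ (Multiplicative.ofAdd j) := by
  obtain ⟨U, hU⟩ : ∃ U : Finset (HeightOneSpectrum (𝓞 K)), ∀ v, expo v (Ideal.span {b}) ≠ 0 → v ∈ U :=
    ⟨(finite_expo_ne_zero _).toFinset, fun v hv => by
      rw [Set.Finite.mem_toFinset]
      exact hv⟩
  refine ⟨_, resSym_eq_zhom hζ (fun v hv h => ?_) U hU⟩
  have hbv : b ∈ v.asIdeal := by
    by_contra h1
    exact hv (expo_span_eq_zero hb h1)
  obtain ⟨s, t, hst⟩ := hab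
  apply v.isPrime.ne_top
  rw [Ideal.eq_top_iff_one, ← hst]
  exact Ideal.add_mem _ (Ideal.mul_mem_left _ _ h) (Ideal.mul_mem_left _ _ hbv)

/-- **Rational integers**: `(m / n) = 1` for coprime rational integers `m`, `n`, `n` prime to the
odd prime `p`, if `K / ℚ` is Galois. -/
theorem resSym_int [IsGalois ℚ K] (hp2 : p ≠ 2) (hζ : IsPrimitiveRoot ζ p) {m n : ℤ}
    (hn0 : n ≠ 0) (hmn : IsCoprime m n) (hnp : IsCoprime n (p : ℤ)) :
    resSym p ζ (m : 𝓞 K) (Ideal.span {(n : 𝓞 K)}) = 1 := by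
  have hn : (n : 𝓞 K) ≠ 0 := by exact_mod_cast hn0
  have hnp' : IsCoprime (n : 𝓞 K) (p : 𝓞 K) := by
    have h := hnp.map (Int.castRingHom (𝓞 K))
    simpa using h
  have hmn' : IsCoprime (m : 𝓞 K) (n : 𝓞 K) := by
    have h := hmn.map (Int.castRingHom (𝓞 K))
    simpa using h
  set z := resSym p ζ (m : 𝓞 K) (Ideal.span {(n : 𝓞 K)}) with hz
  have hfix : ∀ σ : K ≃ₐ[ℚ] K, σ (z : K) = z := by
    intro σ
    have h := resSym_conj hζ σ (m : 𝓞 K) hn hnp'
    rw [map_intCast, map_intCast, ← hz] at h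
    rw [← so_coe, ← h]
  obtain ⟨q, hq⟩ := (IsGalois.mem_range_algebraMap_iff_fixed (z : K)).2 hfix
  obtain ⟨j, hj⟩ := exists_resSym_eq hζ hn hmn'
  have hzp : z ^ p = 1 := by
    rw [hz, hj, ← map_pow]
    have h1 : (Multiplicative.ofAdd j : Multiplicative (ZMod p)) ^ p = 1 := by
      rw [← ofAdd_nsmul, nsmul_eq_mul, CharP.cast_eq_zero, zero_mul, ofAdd_zero]
    rw [h1, map_one]
  have hqp : q ^ p = 1 := by
    apply (algebraMap ℚ K).injective
    rw [map_pow, hq, map_one, ← map_pow, hzp, map_one]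
  have hodd : Odd p := hp.out.odd_of_ne_two hp2
  have hq1 : q = 1 := by
    have h1 := hodd.strictMono_pow (R := ℚ)
    apply h1.injective
    change q ^ p = 1 ^ p
    rw [hqp, one_pow]
  have h2 : (z : K) = 1 := by rw [← hq, hq1, map_one]
  exact RingOfIntegers.coe_injective (h2.trans (map_one (algebraMap (𝓞 K) K)).symm)

/-- `(-1 / I) = 1` for odd `p`. -/
lemma resSym_neg_one (hp2 : p ≠ 2) (hζ : IsPrimitiveRoot ζ p) {b : 𝓞 K} (hb : b ≠ 0)
    (hbp : IsCoprime b (p : 𝓞 K)) : resSym p ζ (-1) (Ideal.span {b}) = 1 := by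
  have hodd : Odd p := hp.out.odd_of_ne_two hp2
  refine finprod_eq_one_of_forall_eq_one fun v => ?_
  by_cases hv : (p : 𝓞 K) ∈ v.asIdeal
  · have h2 : b ∉ v.asIdeal := by
      intro h
      obtain ⟨s, t, hst⟩ := hbp
      apply v.isPrime.ne_top
      rw [Ideal.eq_top_iff_one, ← hst]
      exact Ideal.add_mem _ (Ideal.mul_mem_left _ _ h) (Ideal.mul_mem_left _ _ hv)
    rw [expo_span_eq_zero hb h2, pow_zero]
  · have h1 : (-1 : 𝓞 K) ∉ v.asIdeal := by
      rw [neg_mem_iff]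
      exact fun h => v.isPrime.ne_top ((Ideal.eq_top_iff_one _).2 h)
    rw [(resAt_eq_one_iff hζ hv h1).2 ⟨-1, by rw [hodd.neg_one_pow, sub_self]; exact zero_mem _⟩,
      one_pow]

end Equiv

/-! ### The supplements of cubic reciprocity -/

section Cubic

local instance fact_three : Fact (Nat.Prime 3) := ⟨Nat.prime_three⟩

variable {K : Type} [Field K] [NumberField K] [IsCyclotomicExtension {3} ℚ K] {ω : 𝓞 K}

omit [IsCyclotomicExtension {3} ℚ K] in
lemma omega_sq (hω : IsPrimitiveRoot ω 3) : ω ^ 2 + ω + 1 = 0 := by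
  have h1 : (ω - 1) * (ω ^ 2 + ω + 1) = 0 := by
    have h3 := hω.pow_eq_one
    linear_combination h3
  refine (mul_eq_zero.1 h1).resolve_left fun h => ?_
  exact hω.ne_one (by norm_num) (sub_eq_zero.1 h)

/-- The norm of `a + b ω`. -/
theorem absNorm_cubic (hω : IsPrimitiveRoot ω 3) (a b : ℤ) :
    (Ideal.absNorm (Ideal.span {(a : 𝓞 K) + b * ω}) : ℤ) = a ^ 2 - a * b + b ^ 2 := by
  classical
  have : IsGalois ℚ K := IsCyclotomicExtension.isGalois {3} ℚ K
  have hω2 := omega_sq hω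
  have hωK : ((ω : K)) ^ 2 + (ω : K) + 1 = 0 := by
    have h := congrArg (algebraMap (𝓞 K) K) hω2
    simpa using h
  -- the non-trivial automorphism
  obtain ⟨σ, hσ⟩ : ∃ σ : K ≃ₐ[ℚ] K, σ (ω : K) ≠ ω := by
    by_contra hcon
    push Not at hcon
    obtain ⟨q, hq⟩ := (IsGalois.mem_range_algebraMap_iff_fixed (ω : K)).2 hcon
    have h1 : q ^ 2 + q + 1 = 0 := by
      apply (algebraMap ℚ K).injective
      rw [map_add, map_add, map_pow, hq, map_one, map_zero]
      exact hωK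
    nlinarith [sq_nonneg (2 * q + 1)]
  have hσω : σ (ω : K) = (ω : K) ^ 2 := by
    have h1 : (σ (ω : K)) ^ 2 + σ (ω : K) + 1 = 0 := by
      have h := congrArg σ hωK
      simpa using h
    have h2 : (σ (ω : K) - ω) * (σ (ω : K) - (ω : K) ^ 2) = 0 := by
      linear_combination h1 - σ (ω : K) * hωK + (ω : K) * hωK - hωK
    exact sub_eq_zero.1 ((mul_eq_zero.1 h2).resolve_left (sub_ne_zero.2 hσ))
  have hσ1 : σ ≠ 1 := by
    rintro rfl
    exact hσ rfl
  have hcard : Fintype.card (K ≃ₐ[ℚ] K) = 2 := by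
    rw [← Nat.card_eq_fintype_card, IsGalois.card_aut_eq_finrank,
      IsCyclotomicExtension.finrank (n := 3) K
      (Polynomial.cyclotomic.irreducible_rat (by norm_num)), Nat.totient_prime Nat.prime_three]
  have huniv : (Finset.univ : Finset (K ≃ₐ[ℚ] K)) = {1, σ} := by
    symm
    apply Finset.eq_univ_of_card
    rw [Finset.card_pair hσ1.symm, hcard]
  have hnorm : Algebra.norm ℤ ((a : 𝓞 K) + b * ω) = a ^ 2 - a * b + b ^ 2 := by
    have h1 : ((Algebra.norm ℤ ((a : 𝓞 K) + b * ω) : ℤ) : ℚ) =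
        ((a ^ 2 - a * b + b ^ 2 : ℤ) : ℚ) := by
      rw [Algebra.coe_norm_int]
      apply (algebraMap ℚ K).injective
      rw [Algebra.norm_eq_prod_automorphisms, huniv, Finset.prod_pair hσ1.symm]
      simp only [AlgEquiv.one_apply, map_add, map_mul, map_intCast, hσω, map_sub, map_pow,
        Int.cast_sub, Int.cast_add, Int.cast_mul, Int.cast_pow]
      linear_combination ((a : K) * b + (b : K) ^ 2 * ((ω : K) - 1)) * hωK
    exact_mod_cast h1
  rw [Ideal.absNorm_span_singleton, hnorm]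
  apply Int.natAbs_of_nonneg
  nlinarith [sq_nonneg (2 * a - b), sq_nonneg b]

omit [IsCyclotomicExtension {3} ℚ K] in
lemma sup_eq_top {x : 𝓞 K} (hx : IsCoprime x ((3 : ℕ) : 𝓞 K)) :
    Ideal.span {x} ⊔ Ideal.span {((3 : ℕ) : 𝓞 K)} = ⊤ := by
  rw [← Ideal.isCoprime_iff_sup_eq, Ideal.isCoprime_span_singleton_iff]
  exact hx

omit [IsCyclotomicExtension {3} ℚ K] in
lemma span_ne_bot {x : 𝓞 K} (hx : x ≠ 0) : Ideal.span {x} ≠ ⊥ := by
  rwa [Ne, Ideal.span_singleton_eq_bot]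

omit [IsCyclotomicExtension {3} ℚ K] in
lemma zhom_mul (hω : IsPrimitiveRoot ω 3) (x y : ZMod 3) :
    zhom hω (Multiplicative.ofAdd x) * zhom hω (Multiplicative.ofAdd y) =
      zhom hω (Multiplicative.ofAdd (x + y)) := by
  rw [← map_mul, ← ofAdd_add]

omit [IsCyclotomicExtension {3} ℚ K] in
lemma zhom_inj (hω : IsPrimitiveRoot ω 3) {x y : ZMod 3}
    (h : zhom hω (Multiplicative.ofAdd x) = zhom hω (Multiplicative.ofAdd y)) : x = y := by
  rw [zhom_ofAdd, zhom_ofAdd] at h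
  exact ZMod.val_injective 3 (hω.pow_inj (ZMod.val_lt _) (ZMod.val_lt _) h)

/-- `3 m - 1 + 3 n ω`. -/
noncomputable def prim (ω : 𝓞 K) (m n : ℤ) : 𝓞 K := ((3 * m - 1 : ℤ) : 𝓞 K) + ((3 * n : ℤ) : 𝓞 K) * ω

omit [IsCyclotomicExtension {3} ℚ K] in
lemma prim_coprime (ω : 𝓞 K) (m n : ℤ) : IsCoprime (prim ω m n) ((3 : ℕ) : 𝓞 K) := by
  refine ⟨-1, m + n * ω, ?_⟩
  rw [prim]
  push_cast
  ring

omit [IsCyclotomicExtension {3} ℚ K] in
lemma prim_dvd (ω : 𝓞 K) (m n : ℤ) : 3 ∣ prim ω m n - 1 ∨ 3 ∣ prim ω m n + 1 := by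
  right
  refine ⟨m + n * ω, ?_⟩
  rw [prim]
  push_cast
  ring

lemma absNorm_prim (hω : IsPrimitiveRoot ω 3) (m n : ℤ) :
    (Ideal.absNorm (Ideal.span {prim ω m n}) : ℤ) =
      3 * (3 * m ^ 2 - 2 * m - 3 * m * n + n + 3 * n ^ 2) + 1 := by
  rw [prim, absNorm_cubic hω]
  ring

lemma prim_ne_zero (hω : IsPrimitiveRoot ω 3) (m n : ℤ) : prim ω m n ≠ 0 := by
  intro h
  have h1 := absNorm_prim hω m n
  rw [h, Ideal.span_singleton_zero, Ideal.absNorm_bot] at h1
  omega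

lemma prim_rat (ω : 𝓞 K) (m : ℤ) : prim ω m 0 = ((3 * m - 1 : ℤ) : 𝓞 K) := by
  rw [prim]
  simp

lemma finrank_three : Module.finrank ℚ K = 2 := by
  rw [IsCyclotomicExtension.finrank (n := 3) K
      (Polynomial.cyclotomic.irreducible_rat (by norm_num)), Nat.totient_prime Nat.prime_three]

/-- **The first supplement of cubic reciprocity** (Eisenstein 1844): `(ω / π)₃ = ω ^ (m + n)` for
`π = 3 m - 1 + 3 n ω`. -/
theorem cubic_omega (hω : IsPrimitiveRoot ω 3) (m n : ℤ) :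
    resSym 3 ω ω (Ideal.span {prim ω m n}) = ω ^ ((m + n : ℤ) : ZMod 3).val := by
  obtain ⟨-, h2⟩ := resSym_zeta hω (span_ne_bot (prim_ne_zero hω m n))
    (sup_eq_top (prim_coprime ω m n))
  rw [h2, ← pow_val_natCast hω]
  congr 2
  have h3 := absNorm_prim hω m n
  set N := Ideal.absNorm (Ideal.span {prim ω m n}) with hN
  have h4 : (((N - 1) / 3 : ℕ) : ℤ) = 3 * m ^ 2 - 2 * m - 3 * m * n + n + 3 * n ^ 2 := by
    set t := 3 * m ^ 2 - 2 * m - 3 * m * n + n + 3 * n ^ 2 with ht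
    omega
  have h5 : (((N - 1) / 3 : ℕ) : ZMod 3) =
      ((3 * m ^ 2 - 2 * m - 3 * m * n + n + 3 * n ^ 2 : ℤ) : ZMod 3) := by
    rw [← h4, Int.cast_natCast]
  rw [h5, ← sub_eq_zero, ← Int.cast_sub, ZMod.intCast_zmod_eq_zero_iff_dvd]
  exact ⟨m ^ 2 - m - m * n + n ^ 2, by push_cast; ring⟩

lemma cubic_lambda_rat (hω : IsPrimitiveRoot ω 3) (m : ℤ) :
    resSym 3 ω (1 - ω) (Ideal.span {prim ω m 0}) =
      zhom hω (Multiplicative.ofAdd ((2 * m : ℤ) : ZMod 3)) := by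
  have : IsGalois ℚ K := IsCyclotomicExtension.isGalois {3} ℚ K
  have hω2 := omega_sq hω
  have h0 := prim_ne_zero hω m 0
  have hc := prim_coprime ω m 0
  have hI := span_ne_bot h0
  have hIp := sup_eq_top hc
  have hcop : IsCoprime (1 - ω) (prim ω m 0) := by
    have h1 : (1 - ω) ∣ ((3 : ℕ) : 𝓞 K) := ⟨1 - ω ^ 2, by
      push_cast
      linear_combination (-(1 : 𝓞 K)) * hω.pow_eq_one + hω2⟩
    exact hc.symm.of_isCoprime_of_dvd_left h1
  obtain ⟨j, hj⟩ := exists_resSym_eq hω h0 hcop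
  have h1 : resSym 3 ω ((1 - ω) * (1 - ω)) (Ideal.span {prim ω m 0}) =
      zhom hω (Multiplicative.ofAdd ((m : ℤ) : ZMod 3)) := by
    have e : (1 - ω) * (1 - ω) = ((-3 : ℤ) : 𝓞 K) * ω := by
      push_cast
      linear_combination hω2
    rw [e, resSym_mul_left hω _ _ hI hIp, cubic_omega hω m 0, add_zero]
    have h2 : resSym 3 ω ((-3 : ℤ) : 𝓞 K) (Ideal.span {prim ω m 0}) = 1 := by
      rw [prim_rat]
      exact resSym_int (by norm_num) hω (by omega) ⟨-m, -1, by ring⟩ ⟨-1, m, by push_cast; ring⟩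
    rw [h2, one_mul, zhom_ofAdd]
  rw [resSym_mul_left hω _ _ hI hIp, hj, zhom_mul] at h1
  have h2 := zhom_inj hω h1
  rw [hj]
  congr 2
  have h3 : (3 : ZMod 3) = 0 := by decide
  push_cast
  linear_combination 2 * h2 - j * h3

lemma cubic_lambda_coprime (hω : IsPrimitiveRoot ω 3) {m n : ℤ}
    (hmn : IsCoprime (3 * m - 1) (3 * n)) :
    resSym 3 ω (1 - ω) (Ideal.span {prim ω m n}) =
      zhom hω (Multiplicative.ofAdd ((2 * m : ℤ) : ZMod 3)) := by
  have : IsGalois ℚ K := IsCyclotomicExtension.isGalois {3} ℚ K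
  have hω2 := omega_sq hω
  set A : 𝓞 K := prim ω m 0 with hA
  set B : 𝓞 K := ((3 * n : ℤ) : 𝓞 K) with hB
  set S : 𝓞 K := prim ω (m + n) 0 with hS
  set π : 𝓞 K := prim ω m n with hπ
  have eA : A = ((3 * m - 1 : ℤ) : 𝓞 K) := by rw [hA, prim_rat]
  have eS : S = ((3 * (m + n) - 1 : ℤ) : 𝓞 K) := by rw [hS, prim_rat]
  have eπ : π = A + B * ω := by rw [hπ, prim, eA]
  have eSAB : S = A + B := by
    rw [eS, eA, hB]
    push_cast
    ring
  have hπ0 : π ≠ 0 := prim_ne_zero hω m n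
  have hA0 : A ≠ 0 := prim_ne_zero hω m 0
  have hS0 : S ≠ 0 := prim_ne_zero hω (m + n) 0
  have hπc := prim_coprime ω m n
  have hAc := prim_coprime ω m 0
  have hSc := prim_coprime ω (m + n) 0
  rw [← hπ] at hπc
  rw [← hA] at hAc
  rw [← hS] at hSc
  have hAB : IsCoprime A B := by
    rw [eA, hB]
    exact hmn.map (Int.castRingHom (𝓞 K))
  have hωu : ω * ω ^ 2 = 1 := by rw [← pow_succ']; exact hω.pow_eq_one
  obtain ⟨s, t, hst⟩ := hAB
  have hAπ : IsCoprime A π := ⟨s - t * ω ^ 2, t * ω ^ 2, by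
    rw [eπ]
    linear_combination hst + t * B * hωu⟩
  have hBπ : IsCoprime B π := ⟨t - s * ω, s, by
    rw [eπ]
    linear_combination hst⟩
  have hlam : (1 - ω) ∣ ((3 : ℕ) : 𝓞 K) := ⟨1 - ω ^ 2, by
    push_cast
    linear_combination (-(1 : 𝓞 K)) * hω.pow_eq_one + hω2⟩
  have hlπ : IsCoprime (1 - ω) π := hπc.symm.of_isCoprime_of_dvd_left hlam
  have hSπ : IsCoprime S π := by
    have h1 : IsCoprime (B * (1 - ω)) π := hBπ.mul_left hlπ
    have h2 : S = B * (1 - ω) + π * 1 := by rw [eSAB, eπ]; ring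
    rw [h2]
    exact h1.add_mul_left_left 1
  have hIπ := span_ne_bot hπ0
  have hIA := span_ne_bot hA0
  have hIS := span_ne_bot hS0
  have hπt := sup_eq_top hπc
  have hAt := sup_eq_top hAc
  have hSt := sup_eq_top hSc
  obtain ⟨j, hj⟩ := exists_resSym_eq hω hπ0 hBπ
  obtain ⟨k, hk⟩ := exists_resSym_eq hω hπ0 hlπ
  have n1π : resSym 3 ω (-1) (Ideal.span {π}) = 1 := resSym_neg_one (by norm_num) hω hπ0 hπc
  have n1S : resSym 3 ω (-1) (Ideal.span {S}) = 1 := resSym_neg_one (by norm_num) hω hS0 hSc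
  have oπ : resSym 3 ω ω (Ideal.span {π}) =
      zhom hω (Multiplicative.ofAdd ((m + n : ℤ) : ZMod 3)) := cubic_omega hω m n
  have oA : resSym 3 ω ω (Ideal.span {A}) =
      zhom hω (Multiplicative.ofAdd ((m + 0 : ℤ) : ZMod 3)) := cubic_omega hω m 0
  have bA : resSym 3 ω B (Ideal.span {A}) = 1 := by
    rw [eA, hB]
    exact resSym_int (by norm_num) hω (by omega) hmn.symm ⟨-1, m, by push_cast; ring⟩
  have bS : resSym 3 ω B (Ideal.span {S}) = 1 := by
    rw [eS, hB]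
    refine resSym_int (by norm_num) hω (by omega) ?_ ⟨-1, m + n, by push_cast; ring⟩
    have h1 : IsCoprime (3 * n) (3 * m - 1 + 3 * n * 1) := hmn.symm.add_mul_left_right 1
    have h2 : 3 * (m + n) - 1 = 3 * m - 1 + 3 * n * 1 := by ring
    rw [h2]
    exact h1
  -- `(A / π) = (π / A)`
  have r1 : resSym 3 ω A (Ideal.span {π}) = resSym 3 ω π (Ideal.span {A}) :=
    cubic_reciprocity finrank_three hω hAπ (prim_dvd ω m 0) (prim_dvd ω m n)
  have r2 : resSym 3 ω π (Ideal.span {A}) =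
      zhom hω (Multiplicative.ofAdd ((m + 0 : ℤ) : ZMod 3)) := by
    rw [resSym_congr hω hIA hAt (b := B * ω) (by
      rw [eπ, add_sub_cancel_right]
      exact Ideal.mem_span_singleton_self A), resSym_mul_left hω _ _ hIA hAt, bA, oA, one_mul]
  have r3 : resSym 3 ω A (Ideal.span {π}) =
      zhom hω (Multiplicative.ofAdd (j + ((m + n : ℤ) : ZMod 3))) := by
    rw [resSym_congr hω hIπ hπt (b := -1 * (B * ω)) (by
      have e : A - -1 * (B * ω) = π := by rw [eπ]; ring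
      rw [e]
      exact Ideal.mem_span_singleton_self π), resSym_mul_left hω _ _ hIπ hπt,
      resSym_mul_left hω _ _ hIπ hπt, n1π, hj, oπ, one_mul, zhom_mul]
  have h1 := zhom_inj hω (r3.symm.trans (r1.trans r2))
  -- `(S / π) = (π / S)`
  have r4 : resSym 3 ω S (Ideal.span {π}) = zhom hω (Multiplicative.ofAdd (j + k)) := by
    rw [resSym_congr hω hIπ hπt (b := B * (1 - ω)) (by
      have e : S - B * (1 - ω) = π := by rw [eπ, eSAB]; ring
      rw [e]
      exact Ideal.mem_span_singleton_self π), resSym_mul_left hω _ _ hIπ hπt, hj, hk, zhom_mul]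
  have r5 : resSym 3 ω S (Ideal.span {π}) = resSym 3 ω π (Ideal.span {S}) :=
    cubic_reciprocity finrank_three hω hSπ (prim_dvd ω (m + n) 0) (prim_dvd ω m n)
  have r6 : resSym 3 ω π (Ideal.span {S}) =
      zhom hω (Multiplicative.ofAdd ((2 * (m + n) : ℤ) : ZMod 3)) := by
    rw [resSym_congr hω hIS hSt (b := -1 * (B * (1 - ω))) (by
      have e : π - -1 * (B * (1 - ω)) = S := by rw [eπ, eSAB]; ring
      rw [e]
      exact Ideal.mem_span_singleton_self S), resSym_mul_left hω _ _ hIS hSt,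
      resSym_mul_left hω _ _ hIS hSt, n1S, bS, one_mul, one_mul]
    exact cubic_lambda_rat hω (m + n)
  have h2 := zhom_inj hω (r4.symm.trans (r5.trans r6))
  rw [hk]
  congr 2
  have h3 : (3 : ZMod 3) = 0 := by decide
  push_cast at h1 h2 ⊢
  linear_combination h2 - h1 + (n : ZMod 3) * h3

/-- **The second supplement of cubic reciprocity** (Eisenstein 1844): `((1 - ω) / π)₃ = ω ^ (2 m)`
for `π = 3 m - 1 + 3 n ω`. -/
theorem cubic_lambda (hω : IsPrimitiveRoot ω 3) (m n : ℤ) :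
    resSym 3 ω (1 - ω) (Ideal.span {prim ω m n}) = ω ^ ((2 * m : ℤ) : ZMod 3).val := by
  rw [← zhom_ofAdd hω]
  have hg : 0 < Int.gcd (3 * m - 1) (3 * n) := by
    rw [Nat.pos_iff_ne_zero, Ne, Int.gcd_eq_zero_iff]
    omega
  obtain ⟨a', b', hab, ha, hb⟩ := Int.exists_gcd_one hg
  set g : ℤ := (Int.gcd (3 * m - 1) (3 * n) : ℤ) with hgdef
  -- choose signs
  obtain ⟨d, a, b, hd, had, hbd, hcop⟩ : ∃ d a b : ℤ, (∃ m₁, d = 3 * m₁ - 1) ∧
      3 * m - 1 = -d * a ∧ 3 * n = -d * b ∧ IsCoprime a b := by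
    have hcop : IsCoprime a' b' := Int.isCoprime_iff_gcd_eq_one.2 hab
    have h3 : ¬ (3 : ℤ) ∣ g := by
      rintro ⟨c, hc⟩
      rw [hc] at ha
      have : (3 : ℤ) ∣ 3 * m - 1 := ⟨a' * c, by rw [ha]; ring⟩
      omega
    rcases (by omega : g % 3 = 1 ∨ g % 3 = 2) with h | h
    · exact ⟨-g, a', b', ⟨(1 - g) / 3, by omega⟩, by rw [ha]; ring, by rw [hb]; ring, hcop⟩
    · exact ⟨g, -a', -b', ⟨(g + 1) / 3, by omega⟩, by rw [ha]; ring, by rw [hb]; ring,
        hcop.neg_neg⟩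
  obtain ⟨m₁, rfl⟩ := hd
  obtain ⟨m₂, rfl⟩ : ∃ m₂, a = 3 * m₂ - 1 := by
    refine ⟨m + m₁ * a, ?_⟩
    linear_combination -had
  obtain ⟨n₂, rfl⟩ : ∃ n₂, b = 3 * n₂ := by
    refine ⟨n + m₁ * b, ?_⟩
    linear_combination -hbd
  have hm : m = m₁ + m₂ - 3 * (m₁ * m₂) := by linarith
  have hspan : Ideal.span {prim ω m n} =
      Ideal.span {prim ω m₁ 0} * Ideal.span {prim ω m₂ n₂} := by
    rw [Ideal.span_singleton_mul_span_singleton, ← Ideal.span_singleton_neg]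
    congr 2
    have h1 := congrArg (Int.cast : ℤ → 𝓞 K) had
    have h2 := congrArg (Int.cast : ℤ → 𝓞 K) hbd
    rw [prim_rat, prim, prim, h1, h2]
    push_cast
    ring
  rw [hspan, resSym_mul _ (span_ne_bot (prim_ne_zero hω m₁ 0))
    (span_ne_bot (prim_ne_zero hω m₂ n₂)), cubic_lambda_rat hω m₁, cubic_lambda_coprime hω hcop,
    zhom_mul]
  congr 2
  have h3 : (3 : ZMod 3) = 0 := by decide
  rw [hm]
  push_cast
  linear_combination (2 * (m₁ : ZMod 3) * m₂) * h3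

end Cubic

end Fermat.Agent.Cor.Recip
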